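import Mathlib

set_option autoImplicit false

/-!
# CFT stream [B] Local : interface (definitions and contract statements only, no proofs needed)

Setting (`AKLB` style, the same as `Local/CompleteDVRExt.lean`):
`A` a complete discrete valuation ring with finite residue field, `K = Frac A`,
`L / K` a finite Galois extension, `B` the integral closure of `A` in `L`
(`B` is again a complete DVR: `intClosure_isDiscreteValuationRing` etc. in `CompleteDVRExt.lean`;
here it is an instance hypothesis so that consumers who already have it pay nothing).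

Every contract below is a `Prop`-valued `def` over this data.  The provider ([B]) proves
`theorem <name>_holds ... : <name> A K L B`; consumers may assume `(h : <name> A K L B)`.
-/

namespace Fermat.Agent.CFT

open IsLocalRing

section Defs

variable (A K L B : Type*) [CommRing A] [IsDomain A] [IsDiscreteValuationRing A]
  [Field K] [Algebra A K] [IsFractionRing A K] [Field L] [Algebra K L]
  [CommRing B] [IsLocalRing B] [Algebra A B]

/-- The norm `N_{L/K} : Lˣ →* Kˣ`. -/
noncomputable def unitsNorm : Lˣ →* Kˣ := Units.map (Algebra.norm K : L →* K)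

/-- The norm subgroup `N_{L/K} Lˣ ≤ Kˣ`. -/
noncomputable def normSubgroup : Subgroup Kˣ := (unitsNorm K L).range

/-- The integral norm `Bˣ →* Aˣ` (`B` finite free over `A`). -/
noncomputable def intUnitsNorm : Bˣ →* Aˣ := Units.map (Algebra.norm A : B →* A)

/-- The valuation of the DVR `A` on `Kˣ`, with values in `Multiplicative ℤ`
(Mathlib normalisation: a uniformiser goes to `ofAdd (-1)`). -/
noncomputable def ordHom : Kˣ →* Multiplicative ℤ :=
  WithZero.unitsWithZeroEquiv.toMonoidHom.comp
    (Units.map ((IsDiscreteValuationRing.maximalIdeal A).valuation K).toMonoidHom)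

/-- The normalised additive valuation `ord : Kˣ → ℤ`, `ord π = 1`. -/
noncomputable def ord (x : Kˣ) : ℤ := - Multiplicative.toAdd (ordHom A K x)

/-- The higher unit groups `U^{(i)} = 1 + 𝔪^i` (`U^{(0)} = Aˣ`). -/
def unitsFiltration (i : ℕ) : Subgroup Aˣ where
  carrier := {u | (u : A) - 1 ∈ maximalIdeal A ^ i}
  one_mem' := by simp
  mul_mem' := by
    intro a b ha hb
    have : ((a * b : Aˣ) : A) - 1 = (a : A) * ((b : A) - 1) + ((a : A) - 1) := by
      push_cast; ring
    simp only [Set.mem_ofPred_eq] at ha hb ⊢
    rw [this]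
    exact Ideal.add_mem _ (Ideal.mul_mem_left _ _ hb) ha
  inv_mem' := by
    intro a ha
    have : ((a⁻¹ : Aˣ) : A) - 1 = -((a⁻¹ : Aˣ) : A) * ((a : A) - 1) := by
      have h1 : ((a⁻¹ : Aˣ) : A) * (a : A) = 1 := by simp
      linear_combination h1
    simp only [Set.mem_ofPred_eq] at ha ⊢
    rw [this]
    exact Ideal.mul_mem_left _ _ ha

/-- `B / A` is unramified: `𝔪_A B = 𝔪_B` (residue fields are finite, hence separable). -/
def IsUnramifiedExt : Prop := Ideal.map (algebraMap A B) (maximalIdeal A) = maximalIdeal B

end Defs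

section Contracts

variable (A K L B : Type*) [CommRing A] [IsDomain A] [IsDiscreteValuationRing A]
  [IsAdicComplete (maximalIdeal A) A] [Finite (ResidueField A)]
  [Field K] [Algebra A K] [IsFractionRing A K]
  [Field L] [Algebra K L] [Algebra A L] [IsScalarTower A K L] [FiniteDimensional K L] [IsGalois K L]
  [CommRing B] [IsDomain B] [IsDiscreteValuationRing B] [Algebra A B] [Algebra B L]
  [IsScalarTower A B L] [IsIntegralClosure B A L]

/-- **[B-C1]** In an unramified extension every unit is the norm of a unit. -/
def UnramifiedUnitsAreNorms : Prop :=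
  IsUnramifiedExt A B → Function.Surjective (intUnitsNorm A B)

/-- **[B-C2]** In an unramified extension of degree `n`, `x ∈ Kˣ` is a norm iff `n ∣ ord x`
(so `Kˣ / N Lˣ ≃ ℤ / n` through the valuation: the unramified invariant map). -/
def UnramifiedNormIffDvd : Prop :=
  IsUnramifiedExt A B →
    ∀ x : Kˣ, x ∈ normSubgroup K L ↔ (Module.finrank K L : ℤ) ∣ ord A K x

/-- **[B-C3]** An unramified extension is cyclic, generated by the Frobenius `σ`,
`σ b ≡ b ^ q (mod 𝔪_B)` for `b ∈ B`, `q = |A / 𝔪_A|`. -/
def UnramifiedFrobenius : Prop :=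
  IsUnramifiedExt A B →
    ∃ σ : L ≃ₐ[K] L, (∀ τ : L ≃ₐ[K] L, τ ∈ Subgroup.zpowers σ) ∧
      ∀ b : B, ∃ c ∈ maximalIdeal B,
        σ (algebraMap B L b) = algebraMap B L (b ^ Nat.card (ResidueField A) + c)

/-- **[B-C4]** Local norm index for a cyclic extension (any ramification):
`[Kˣ : N Lˣ] = [L : K]` (equivalently `h(Lˣ) = [L : K]`, given Hilbert 90;
equivalently `h(U_L) = 1`). -/
def CyclicNormIndex : Prop :=
  IsCyclic (L ≃ₐ[K] L) → (normSubgroup K L).index = Module.finrank K L

/-- **[B-C4']** Local norm index inequality for an abelian extension: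
`[Kˣ : N Lˣ] ∣ [L : K]`, and in particular it is finite. -/
def NormIndexDvd : Prop :=
  (normSubgroup K L).index ≠ 0 ∧ (normSubgroup K L).index ∣ Module.finrank K L

/-- **[B-C5]** Units of a cyclic extension have trivial Herbrand quotient, explicit form:
`[Aˣ : N Bˣ] = |ker N / (σ - 1) Bˣ| ≠ 0` for a generator `σ` (acting on `B` through
`galRestrict A K L B`). -/
def UnitsHerbrandOne : Prop :=
  ∀ σ : L ≃ₐ[K] L, (∀ τ : L ≃ₐ[K] L, τ ∈ Subgroup.zpowers σ) →
    (intUnitsNorm A B).range.index ≠ 0 ∧
    (intUnitsNorm A B).range.index =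
      Nat.card ((intUnitsNorm A B).ker ⧸
        ((MonoidHom.range
          ({ toFun := fun u => Units.map (galRestrict A K L B σ : B →* B) u / u
             map_one' := by simp
             map_mul' := by intro a b; simp [mul_div_mul_comm] } : Bˣ →* Bˣ)).subgroupOf
          (intUnitsNorm A B).ker))

/-- **[B-C6]** Index of `p`-th powers in characteristic zero:
`[Kˣ : Kˣᵖ] = p · |μ_p(K)| · |A / pA|`. -/
def PowIndex (p : ℕ) : Prop :=
  p.Prime → CharZero K →
    (powMonoidHom p : Kˣ →* Kˣ).range.index =
      p * Nat.card (rootsOfUnity p K) * Nat.card (A ⧸ Ideal.span {(p : A)})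

end Contracts

end Fermat.Agent.CFT
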