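import Fermat.Agent.CFT.Local.Interface

set_option autoImplicit false

/-!
# CFT stream [B] Local : basic properties of `ordHom` / `ord`
-/

namespace Fermat.Agent.CFT

open IsLocalRing IsDedekindDomain IsDedekindDomain.HeightOneSpectrum

section Basic

variable (A K : Type*) [CommRing A] [IsDomain A] [IsDiscreteValuationRing A]
  [Field K] [Algebra A K] [IsFractionRing A K]

theorem coe_ordHom (x : Kˣ) :
    ((ordHom A K x : Multiplicative ℤ) : WithZero (Multiplicative ℤ)) =
      (IsDiscreteValuationRing.maximalIdeal A).valuation K (x : K) := by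
  unfold ordHom
  simp

theorem coe_ordHom_eq_exp (x : Kˣ) :
    (IsDiscreteValuationRing.maximalIdeal A).valuation K (x : K) = WithZero.exp (- ord A K x) := by
  rw [← coe_ordHom]
  unfold ord
  rw [neg_neg]
  rfl

@[simp] theorem ord_one : ord A K 1 = 0 := by simp [ord]

theorem ord_mul (x y : Kˣ) : ord A K (x * y) = ord A K x + ord A K y := by
  simp [ord, add_comm]

theorem ord_inv (x : Kˣ) : ord A K x⁻¹ = - ord A K x := by
  simp [ord]

theorem ord_div (x y : Kˣ) : ord A K (x / y) = ord A K x - ord A K y := by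
  rw [div_eq_mul_inv, ord_mul, ord_inv, sub_eq_add_neg]

theorem ord_pow (x : Kˣ) (n : ℕ) : ord A K (x ^ n) = n * ord A K x := by
  simp [ord]

theorem ord_zpow (x : Kˣ) (n : ℤ) : ord A K (x ^ n) = n * ord A K x := by
  simp [ord]

theorem ord_prod {ι : Type*} (s : Finset ι) (f : ι → Kˣ) :
    ord A K (∏ i ∈ s, f i) = ∑ i ∈ s, ord A K (f i) := by
  classical
  induction s using Finset.induction_on with
  | empty => simp
  | insert a s ha ih => rw [Finset.prod_insert ha, Finset.sum_insert ha, ord_mul, ih]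

/-- `ord x = 0` iff `x` comes from a unit of `A`. -/
theorem ord_eq_zero_iff (x : Kˣ) :
    ord A K x = 0 ↔ ∃ u : Aˣ, Units.map (algebraMap A K : A →* K) u = x := by
  have key : ord A K x = 0 ↔ (IsDiscreteValuationRing.maximalIdeal A).valuation K (x : K) = 1 := by
    rw [coe_ordHom_eq_exp]
    constructor
    · intro h; rw [h]; simp
    · intro h
      have : WithZero.exp (- ord A K x) = WithZero.exp 0 := by rw [h]; simp
      have := WithZero.exp_injective this
      omega
  rw [key]
  have := IsDiscreteValuationRing.mker_valuation_eq_isUnitSubmonoid (A := A) (K := K)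
  constructor
  · intro h
    have hx : (x : K) ∈ MonoidHom.mker ((IsDiscreteValuationRing.maximalIdeal A).valuation K) := h
    rw [this] at hx
    obtain ⟨a, ha, hax⟩ := hx
    have ha' : IsUnit a := ha
    refine ⟨ha'.unit, Units.ext ?_⟩
    rw [Units.coe_map, MonoidHom.coe_coe, IsUnit.unit_spec]
    exact hax
  · rintro ⟨u, rfl⟩
    have hx : ((Units.map (algebraMap A K : A →* K) u : Kˣ) : K) ∈
        MonoidHom.mker ((IsDiscreteValuationRing.maximalIdeal A).valuation K) := by
      rw [this]
      exact ⟨u, u.isUnit, rfl⟩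
    exact hx

theorem ord_unit (u : Aˣ) : ord A K (Units.map (algebraMap A K : A →* K) u) = 0 :=
  (ord_eq_zero_iff A K _).2 ⟨u, rfl⟩

/-- There is an element of order `1`. -/
theorem exists_ord_eq_one : ∃ x : Kˣ, ord A K x = 1 := by
  obtain ⟨π, hπ⟩ := valuation_exists_uniformizer K (IsDiscreteValuationRing.maximalIdeal A)
  have hπ0 : π ≠ 0 := by
    rintro rfl
    rw [map_zero] at hπ
    exact WithZero.exp_ne_zero hπ.symm
  refine ⟨Units.mk0 π hπ0, ?_⟩
  have h := coe_ordHom_eq_exp A K (Units.mk0 π hπ0)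
  rw [Units.val_mk0, hπ] at h
  have := WithZero.exp_injective h
  omega

theorem ord_surjective : Function.Surjective (ord A K) := by
  obtain ⟨x, hx⟩ := exists_ord_eq_one A K
  intro n
  exact ⟨x ^ n, by rw [ord_zpow, hx, mul_one]⟩

/-- Every `x : Kˣ` is `ϖ ^ ord x` times a unit of `A`, for any `ϖ` of order one. -/
theorem exists_eq_zpow_mul_unit {ϖ : Kˣ} (hϖ : ord A K ϖ = 1) (x : Kˣ) :
    ∃ u : Aˣ, x = ϖ ^ (ord A K x) * Units.map (algebraMap A K : A →* K) u := by
  have h0 : ord A K (x / ϖ ^ (ord A K x)) = 0 := by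
    rw [ord_div, ord_zpow, hϖ, mul_one, sub_self]
  obtain ⟨u, hu⟩ := (ord_eq_zero_iff A K _).1 h0
  exact ⟨u, by rw [hu]; simp⟩

/-- An irreducible element of `A` has order one. -/
theorem ord_irreducible {ϖ : A} (hϖ : Irreducible ϖ) (h0 : algebraMap A K ϖ ≠ 0) :
    ord A K (Units.mk0 (algebraMap A K ϖ) h0) = 1 := by
  have h := coe_ordHom_eq_exp A K (Units.mk0 (algebraMap A K ϖ) h0)
  rw [Units.val_mk0, valuation_of_algebraMap] at h
  have h2 : (IsDiscreteValuationRing.maximalIdeal A).intValuation ϖ = WithZero.exp (-1 : ℤ) := by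
    have hgen : (IsDiscreteValuationRing.maximalIdeal A).asIdeal = Ideal.span {ϖ} :=
      (IsDiscreteValuationRing.irreducible_iff_uniformizer ϖ).1 hϖ
    rw [intValuation_if_neg _ hϖ.ne_zero]
    congr 2
    rw [← hgen]
    have := (IsDiscreteValuationRing.maximalIdeal A).associates_irreducible
    rw [Associates.count_self this]
    rfl
  rw [h2] at h
  have := WithZero.exp_injective h
  omega

end Basic

end Fermat.Agent.CFT

namespace Fermat.Agent.CFT

open IsLocalRing IsDedekindDomain IsDedekindDomain.HeightOneSpectrum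

section Basic2

variable (A K : Type*) [CommRing A] [IsDomain A] [IsDiscreteValuationRing A]
  [Field K] [Algebra A K] [IsFractionRing A K]

omit [IsDomain A] [IsDiscreteValuationRing A] in
theorem algebraMap_ne_zero_of_ne_zero {a : A} (ha : a ≠ 0) : algebraMap A K a ≠ 0 :=
  fun h => ha ((IsFractionRing.injective A K) (by rw [h, map_zero]))

/-- `ord (u ϖ^n) = n`. -/
theorem ord_unit_mul_pow {ϖ : A} (hϖ : Irreducible ϖ) (u : Aˣ) (n : ℕ)
    (h0 : algebraMap A K ((u : A) * ϖ ^ n) ≠ 0) :
    ord A K (Units.mk0 (algebraMap A K ((u : A) * ϖ ^ n)) h0) = n := by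
  have hϖ0 : algebraMap A K ϖ ≠ 0 := algebraMap_ne_zero_of_ne_zero A K hϖ.ne_zero
  have : Units.mk0 (algebraMap A K ((u : A) * ϖ ^ n)) h0 =
      Units.map (algebraMap A K : A →* K) u * (Units.mk0 (algebraMap A K ϖ) hϖ0) ^ n := by
    ext; simp
  rw [this, ord_mul, ord_unit, ord_pow, ord_irreducible A K hϖ hϖ0]
  simp

/-- `ord` of a nonzero element of `A` is a natural number. -/
theorem ord_algebraMap_nonneg {a : A} (ha : a ≠ 0) :
    0 ≤ ord A K (Units.mk0 (algebraMap A K a) (algebraMap_ne_zero_of_ne_zero A K ha)) := by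
  obtain ⟨ϖ, hϖ⟩ := IsDiscreteValuationRing.exists_irreducible A
  obtain ⟨n, u, rfl⟩ := IsDiscreteValuationRing.eq_unit_mul_pow_irreducible ha hϖ
  rw [ord_unit_mul_pow A K hϖ u n]
  exact Int.natCast_nonneg n

end Basic2

section Tower

variable (A K L B : Type*) [CommRing A] [IsDomain A] [IsDiscreteValuationRing A]
  [Field K] [Algebra A K] [IsFractionRing A K]
  [Field L] [Algebra K L] [Algebra A L] [IsScalarTower A K L] [FiniteDimensional K L]
  [CommRing B] [IsDomain B] [IsDiscreteValuationRing B] [Algebra A B] [Algebra B L]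
  [IsScalarTower A B L] [IsIntegralClosure B A L] [IsFractionRing B L]

omit [IsDomain A] [IsDiscreteValuationRing A] in
/-- Galois invariance of the valuation on `B`. -/
theorem ord_galRestrict (σ : L ≃ₐ[K] L) {b : B} (hb : b ≠ 0) :
    ord B L (Units.mk0 (algebraMap B L (galRestrict A K L B σ b))
      (algebraMap_ne_zero_of_ne_zero B L (by simpa using hb))) =
    ord B L (Units.mk0 (algebraMap B L b) (algebraMap_ne_zero_of_ne_zero B L hb)) := by
  obtain ⟨ϖ, hϖ⟩ := IsDiscreteValuationRing.exists_irreducible B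
  obtain ⟨n, u, rfl⟩ := IsDiscreteValuationRing.eq_unit_mul_pow_irreducible hb hϖ
  rw [ord_unit_mul_pow B L hϖ u n]
  have hσϖ : Irreducible (galRestrict A K L B σ ϖ) :=
    (MulEquiv.irreducible_iff (galRestrict A K L B σ : B ≃* B)).2 hϖ
  have h2 : galRestrict A K L B σ ((u : B) * ϖ ^ n) =
      ((Units.map (galRestrict A K L B σ : B →* B) u : Bˣ) : B) *
        (galRestrict A K L B σ ϖ) ^ n := by
    simp
  have h3 := ord_unit_mul_pow B L hσϖ (Units.map (galRestrict A K L B σ : B →* B) u) n
    (by rw [← h2]; exact algebraMap_ne_zero_of_ne_zero B L (by simpa using hb))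
  rw [← h3]
  congr 2
  rw [h2]

include A in
omit [IsDomain A] [IsDiscreteValuationRing A] in
/-- Galois invariance of `ord_L`. -/
theorem ord_galois (σ : L ≃ₐ[K] L) (y : Lˣ) :
    ord B L (Units.map (σ : L →* L) y) = ord B L y := by
  obtain ⟨b, s, hs, hy⟩ := IsFractionRing.div_surjective (A := B) (y : L)
  have hs0 : s ≠ 0 := nonZeroDivisors.ne_zero hs
  have hb0 : b ≠ 0 := by
    rintro rfl
    rw [map_zero, zero_div] at hy
    exact y.ne_zero hy.symm
  have e1 : y = Units.mk0 (algebraMap B L b) (algebraMap_ne_zero_of_ne_zero B L hb0) /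
      Units.mk0 (algebraMap B L s) (algebraMap_ne_zero_of_ne_zero B L hs0) := by
    ext; simp [hy]
  have e2 : Units.map (σ : L →* L) y =
      Units.mk0 (algebraMap B L (galRestrict A K L B σ b))
        (algebraMap_ne_zero_of_ne_zero B L (by simpa using hb0)) /
      Units.mk0 (algebraMap B L (galRestrict A K L B σ s))
        (algebraMap_ne_zero_of_ne_zero B L (by simpa using hs0)) := by
    ext
    simp [algebraMap_galRestrict_apply, ← hy]
  rw [e2, ord_div, ord_galRestrict A K L B σ hb0, ord_galRestrict A K L B σ hs0, ← ord_div, ← e1]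

end Tower

end Fermat.Agent.CFT
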