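import Mathlib

set_option autoImplicit false

/-!
# CFT, local stream: successive approximation in complete filtered abelian groups

`exists_preimage_of_filtration`: let `f : U →* U'` be a homomorphism of commutative groups
with decreasing filtrations `FU i`, `FU' i` (no monotonicity is needed), `f (FU i) ⊆ FU' i`,
`U` complete (Cauchy sequences converge) and `U'` separated.  Let `S ≤ U'` be a subgroup containing
the range of `f` such that, on the graded pieces, every element of `S ∩ FU' i` is hit modulo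
`FU' (i + 1)`.  Then every element of `S ∩ FU' 0` is hit by `f`.

* `S = ⊤`: surjectivity from graded surjectivity (norm of units in unramified extensions);
* `S = ker g`: exactness in the middle from graded exactness.
-/

namespace Fermat.Agent.CFT

variable {U U' : Type*} [CommGroup U] [CommGroup U']

/-- **Successive approximation.** -/
theorem exists_preimage_of_filtration (f : U →* U') (FU : ℕ → Subgroup U) (FU' : ℕ → Subgroup U')
    (S : Subgroup U') (hS : ∀ x, f x ∈ S)
    (hmap : ∀ i, ∀ x ∈ FU i, f x ∈ FU' i)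
    (hgr : ∀ i, ∀ y ∈ FU' i, y ∈ S → ∃ x ∈ FU i, y / f x ∈ FU' (i + 1))
    (hcomplete : ∀ P : ℕ → U, (∀ i, P (i + 1) / P i ∈ FU i) → ∃ z : U, ∀ i, z / P i ∈ FU i)
    (hsep : ∀ y : U', (∀ i, y ∈ FU' i) → y = 1)
    {y : U'} (hy0 : y ∈ FU' 0) (hyS : y ∈ S) : ∃ z : U, f z = y := by
  classical
  -- the approximating sequence, with its invariant
  have step : ∀ i, ∀ p : {p : U // y / f p ∈ FU' i},
      ∃ q : {q : U // y / f q ∈ FU' (i + 1)}, (q : U) / (p : U) ∈ FU i := by
    rintro i ⟨p, hp⟩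
    have hpS : y / f p ∈ S := S.div_mem hyS (hS p)
    obtain ⟨x, hx, hxy⟩ := hgr i _ hp hpS
    refine ⟨⟨p * x, ?_⟩, ?_⟩
    · have : y / f (p * x) = y / f p / f x := by
        rw [map_mul, div_div]
      rw [this]
      exact hxy
    · simpa using hx
  choose next hnext using step
  let g : ℕ → U := fun i => Nat.rec (motive := fun _ => U) 1
    (fun i p => if h : y / f p ∈ FU' i then ((next i ⟨p, h⟩ : {q : U // y / f q ∈ FU' (i + 1)}) : U)
      else p) i
  have hg0 : g 0 = 1 := rfl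
  have hgs : ∀ i, g (i + 1) = if h : y / f (g i) ∈ FU' i then
      ((next i ⟨g i, h⟩ : {q : U // y / f q ∈ FU' (i + 1)}) : U) else g i := fun i => rfl
  have hinv : ∀ i, y / f (g i) ∈ FU' i := by
    intro i
    induction i with
    | zero => rw [hg0]; simpa using hy0
    | succ i ih =>
      rw [hgs i, dif_pos ih]
      exact (next i ⟨g i, ih⟩).2
  have hseq : ∀ i, g (i + 1) / g i ∈ FU i := by
    intro i
    rw [hgs i, dif_pos (hinv i)]
    exact hnext i ⟨g i, hinv i⟩
  obtain ⟨z, hz⟩ := hcomplete g hseq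
  refine ⟨z, ?_⟩
  have h1 : y / f z = 1 := by
    apply hsep
    intro i
    have h2 : y / f z = (y / f (g i)) / f (z / g i) := by
      rw [map_div, div_div, mul_div_cancel]
    rw [h2]
    exact (FU' i).div_mem (hinv i) (hmap i _ (hz i))
  exact (div_eq_one.mp h1).symm

/-- Surjectivity from graded surjectivity. -/
theorem surjective_of_filtration (f : U →* U') (FU : ℕ → Subgroup U) (FU' : ℕ → Subgroup U')
    (h0 : FU' 0 = ⊤)
    (hmap : ∀ i, ∀ x ∈ FU i, f x ∈ FU' i)
    (hgr : ∀ i, ∀ y ∈ FU' i, ∃ x ∈ FU i, y / f x ∈ FU' (i + 1))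
    (hcomplete : ∀ P : ℕ → U, (∀ i, P (i + 1) / P i ∈ FU i) → ∃ z : U, ∀ i, z / P i ∈ FU i)
    (hsep : ∀ y : U', (∀ i, y ∈ FU' i) → y = 1) : Function.Surjective f := fun y =>
  exists_preimage_of_filtration f FU FU' ⊤ (fun _ => Subgroup.mem_top _) hmap
    (fun i y hy _ => hgr i y hy) hcomplete hsep (h0 ▸ Subgroup.mem_top y) (Subgroup.mem_top y)

/-- Exactness in the middle from graded exactness. -/
theorem exact_of_filtration {U'' : Type*} [CommGroup U''] (f : U →* U') (g : U' →* U'')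
    (hgf : ∀ x, g (f x) = 1)
    (FU : ℕ → Subgroup U) (FU' : ℕ → Subgroup U')
    (h0 : FU' 0 = ⊤)
    (hmap : ∀ i, ∀ x ∈ FU i, f x ∈ FU' i)
    (hgr : ∀ i, ∀ y ∈ FU' i, g y = 1 → ∃ x ∈ FU i, y / f x ∈ FU' (i + 1))
    (hcomplete : ∀ P : ℕ → U, (∀ i, P (i + 1) / P i ∈ FU i) → ∃ z : U, ∀ i, z / P i ∈ FU i)
    (hsep : ∀ y : U', (∀ i, y ∈ FU' i) → y = 1) {y : U'} (hy : g y = 1) : ∃ z, f z = y :=
  exists_preimage_of_filtration f FU FU' g.ker (fun x => MonoidHom.mem_ker.mpr (hgf x)) hmap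
    (fun i y hy hk => hgr i y hy (MonoidHom.mem_ker.mp hk)) hcomplete hsep
    (h0 ▸ Subgroup.mem_top y) (MonoidHom.mem_ker.mpr hy)

end Fermat.Agent.CFT
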