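import Mathlib
import Fermat.Agent.CFT.Local.FiltrationNorm

set_option autoImplicit false

/-!
# CFT, local stream: unramified extensions of complete discrete valuation rings

Setup (ring level, no fields): `A ⊆ B` discrete valuation rings, `B` finite over `A`, a finite group
`G` acting on `B` with `IsGaloisGroup G A B` (so `A = B^G`), finite residue field.
`B / A` is *unramified* if `𝔪_A B = 𝔪_B`.

* `residueHom G A B : G →* Gal(l / k)` (reduction), always surjective;
* unramified ⇒ `residueHom` bijective;
* unramified + `B` complete ⇒ the norm `u ↦ ∏ g, g • u` maps `Bˣ` ONTO the `G`-invariant units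
  (= `Aˣ`): "units are norms".
-/

namespace Fermat.Agent.CFT

open IsLocalRing
open scoped Pointwise

attribute [local instance] Ideal.Quotient.field

section Residue

variable (G : Type*) [Group G] [Finite G] (A B : Type*) [CommRing A] [CommRing B] [Algebra A B]
  [IsDomain A] [IsDiscreteValuationRing A] [IsDomain B] [IsDiscreteValuationRing B]
  [Module.Finite A B] [FaithfulSMul A B]
  [MulSemiringAction G B] [IsGaloisGroup G A B]

omit [Finite G] [IsDomain A] [IsDiscreteValuationRing A] [Module.Finite A B] [FaithfulSMul A B]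
  [IsGaloisGroup G A B] [Algebra A B] in
theorem smul_mem_maximalIdeal_iff (g : G) (b : B) :
    g • b ∈ maximalIdeal B ↔ b ∈ maximalIdeal B := by
  rw [mem_maximalIdeal, mem_maximalIdeal, mem_nonunits_iff, mem_nonunits_iff, not_iff_not]
  constructor
  · intro h
    have := h.map (MulSemiringAction.toRingHom G B g⁻¹)
    simpa using this
  · intro h
    exact h.map (MulSemiringAction.toRingHom G B g)

omit [Finite G] [IsDomain A] [IsDiscreteValuationRing A] [Module.Finite A B] [FaithfulSMul A B]
  [IsGaloisGroup G A B] [Algebra A B] in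
theorem smul_maximalIdeal (g : G) : g • maximalIdeal B = maximalIdeal B := by
  ext b
  rw [Ideal.mem_pointwise_smul_iff_inv_smul_mem, smul_mem_maximalIdeal_iff]

/-- the reduction map `G → Gal(l / k)` -/
noncomputable def residueHom :
    G →* ((B ⧸ maximalIdeal B) ≃ₐ[A ⧸ maximalIdeal A] (B ⧸ maximalIdeal B)) :=
  haveI : SMulCommClass G A B := IsGaloisGroup.commutes
  (Ideal.Quotient.stabilizerHom (maximalIdeal B) (maximalIdeal A) G).comp
    { toFun := fun g => ⟨g, smul_maximalIdeal G B g⟩
      map_one' := rfl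
      map_mul' := fun _ _ => rfl }

@[simp]
theorem residueHom_mk (g : G) (b : B) :
    residueHom G A B g (Ideal.Quotient.mk _ b) = Ideal.Quotient.mk _ (g • b) := rfl

theorem residueHom_surjective : Function.Surjective (residueHom G A B) := by
  haveI : SMulCommClass G A B := IsGaloisGroup.commutes
  haveI : Algebra.IsInvariant A B G := IsGaloisGroup.isInvariant
  intro τ
  obtain ⟨g, hg⟩ := Ideal.Quotient.stabilizerHom_surjective G (maximalIdeal A) (maximalIdeal B) τ
  exact ⟨g.1, hg⟩

/-- unramified: the reduction map is bijective -/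
theorem residueHom_bijective [Finite (A ⧸ maximalIdeal A)]
    (hunr : (maximalIdeal A).map (algebraMap A B) = maximalIdeal B) :
    Function.Bijective (residueHom G A B) := by
  haveI : Finite (B ⧸ maximalIdeal B) :=
    Module.finite_of_finite (A ⧸ maximalIdeal A)
  have hcard : Nat.card G =
      Nat.card ((B ⧸ maximalIdeal B) ≃ₐ[A ⧸ maximalIdeal A] (B ⧸ maximalIdeal B)) := by
    have e : (B ⧸ (maximalIdeal A).map (algebraMap A B)) ≃ₗ[A ⧸ maximalIdeal A]
        (B ⧸ maximalIdeal B) :=
      { (Ideal.quotEquivOfEq hunr).toAddEquiv with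
        map_smul' := by
          intro c x
          obtain ⟨a, rfl⟩ := Ideal.Quotient.mk_surjective c
          obtain ⟨b, rfl⟩ := Ideal.Quotient.mk_surjective x
          rfl }
    rw [IsGalois.card_aut_eq_finrank, IsGaloisGroup.card_eq_finrank' G A B,
      ← IsLocalRing.finrank_quotient_map (R := A) (S := B), e.finrank_eq]
  exact (Nat.bijective_iff_surjective_and_card _).mpr ⟨residueHom_surjective G A B, hcard⟩

end Residue

section UnitsFiltration

variable {B : Type*} [CommRing B]

/-- the congruence subgroup `{u | u ≡ 1 mod I}` of the unit group -/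
def unitsCongr (I : Ideal B) : Subgroup Bˣ where
  carrier := {u | (u : B) - 1 ∈ I}
  one_mem' := by simp
  mul_mem' := by
    intro u v hu hv
    have : ((u * v : Bˣ) : B) - 1 = (u : B) * ((v : B) - 1) + ((u : B) - 1) := by
      push_cast; ring
    rw [Set.mem_ofPred_eq, this]
    exact I.add_mem (I.mul_mem_left _ hv) hu
  inv_mem' := by
    intro u hu
    have : ((u⁻¹ : Bˣ) : B) - 1 = -((u⁻¹ : Bˣ) : B) * ((u : B) - 1) := by
      have h1 : ((u⁻¹ : Bˣ) : B) * (u : B) = 1 := by rw [← Units.val_mul]; simp
      linear_combination h1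
    rw [Set.mem_ofPred_eq, this]
    exact I.mul_mem_left _ hu

theorem mem_unitsCongr {I : Ideal B} {u : Bˣ} : u ∈ unitsCongr I ↔ (u : B) - 1 ∈ I := Iff.rfl

theorem unitsCongr_top : unitsCongr (⊤ : Ideal B) = ⊤ := by
  ext u; simp [mem_unitsCongr]

theorem div_mem_unitsCongr {I : Ideal B} {u v : Bˣ} :
    u / v ∈ unitsCongr I ↔ (u : B) - v ∈ I := by
  rw [mem_unitsCongr]
  have h1 : ((u / v : Bˣ) : B) - 1 = ((v⁻¹ : Bˣ) : B) * ((u : B) - v) := by
    have h2 : ((v⁻¹ : Bˣ) : B) * (v : B) = 1 := by rw [← Units.val_mul]; simp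
    rw [div_eq_mul_inv, Units.val_mul]
    linear_combination h2
  have h3 : (u : B) - v = (v : B) * (((u / v : Bˣ) : B) - 1) := by
    rw [h1, ← mul_assoc]
    have h2 : (v : B) * ((v⁻¹ : Bˣ) : B) = 1 := by rw [← Units.val_mul]; simp
    rw [h2, one_mul]
  constructor
  · intro h; rw [h3]; exact I.mul_mem_left _ h
  · intro h; rw [h1]; exact I.mul_mem_left _ h

/-- completeness of the unit group of a complete local ring for the congruence filtration -/
theorem exists_unit_limit [IsLocalRing B] [IsAdicComplete (maximalIdeal B) B] (P : ℕ → Bˣ)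
    (hP : ∀ i, P (i + 1) / P i ∈ unitsCongr (maximalIdeal B ^ i)) :
    ∃ z : Bˣ, ∀ i, z / P i ∈ unitsCongr (maximalIdeal B ^ i) := by
  have hstep : ∀ i, ((P (i + 1) : Bˣ) : B) - P i ∈ maximalIdeal B ^ i := fun i =>
    div_mem_unitsCongr.mp (hP i)
  have hcauchy : ∀ {m n : ℕ}, m ≤ n →
      ((P m : Bˣ) : B) ≡ P n [SMOD (maximalIdeal B ^ m • ⊤ : Submodule B B)] := by
    intro m n hmn
    induction n, hmn using Nat.le_induction with
    | base => exact SModEq.refl _
    | succ n hmn ih =>
      refine ih.trans ?_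
      rw [SModEq.sub_mem, smul_eq_mul, Ideal.mul_top]
      have := Ideal.pow_le_pow_right hmn (hstep n)
      rw [← neg_sub]
      exact (maximalIdeal B ^ m).neg_mem this
  obtain ⟨L, hL⟩ := IsPrecomplete.prec (IsAdicComplete.toIsPrecomplete) hcauchy
  have hL' : ∀ n, L - (P n : B) ∈ maximalIdeal B ^ n := by
    intro n
    have := (hL n).symm
    rwa [SModEq.sub_mem, smul_eq_mul, Ideal.mul_top] at this
  have hLunit : IsUnit L := by
    by_contra hnu
    have h1 : L ∈ maximalIdeal B := hnu
    have h2 : ((P 1 : Bˣ) : B) ∈ maximalIdeal B := by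
      have := hL' 1
      rw [pow_one] at this
      have h3 : ((P 1 : Bˣ) : B) = L - (L - (P 1 : B)) := by ring
      rw [h3]
      exact (maximalIdeal B).sub_mem h1 this
    exact h2 (P 1).isUnit
  refine ⟨hLunit.unit, fun i => ?_⟩
  rw [div_mem_unitsCongr]
  exact hL' i

theorem eq_one_of_forall_mem_unitsCongr [IsLocalRing B] [IsAdicComplete (maximalIdeal B) B]
    (y : Bˣ) (hy : ∀ i, y ∈ unitsCongr (maximalIdeal B ^ i)) : y = 1 := by
  have h : ((y : B) - 1) = 0 := by
    apply IsHausdorff.haus (IsAdicComplete.toIsHausdorff (I := maximalIdeal B) (M := B))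
    intro n
    rw [SModEq.sub_mem, smul_eq_mul, Ideal.mul_top, sub_zero]
    exact hy n
  exact Units.ext (by simpa using sub_eq_zero.mp h)

end UnitsFiltration

section Norm

variable (G : Type*) [Group G] [Fintype G] (A B : Type*) [CommRing A] [CommRing B] [Algebra A B]
  [IsDomain A] [IsDiscreteValuationRing A] [IsDomain B] [IsDiscreteValuationRing B]
  [Module.Finite A B] [FaithfulSMul A B]
  [MulSemiringAction G B] [IsGaloisGroup G A B]
  [Finite (A ⧸ maximalIdeal A)]

/-- the norm `b ↦ ∏ g, g • b` as a monoid homomorphism -/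
def normMonoidHom : B →* B where
  toFun b := ∏ g : G, g • b
  map_one' := by simp
  map_mul' := by intro a b; simp [smul_mul', Finset.prod_mul_distrib]

omit [Finite (A ⧸ maximalIdeal A)] [IsGaloisGroup G A B] [FaithfulSMul A B] [Module.Finite A B]
  [IsDomain A] [IsDiscreteValuationRing A] [IsDomain B] [IsDiscreteValuationRing B]
  [Algebra A B] in
@[simp] theorem normMonoidHom_apply (b : B) : normMonoidHom G B b = ∏ g : G, g • b := rfl

/-- unramified: the residue class of the norm is the norm of the residue class -/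
theorem mk_prod_smul (hunr : (maximalIdeal A).map (algebraMap A B) = maximalIdeal B) (b : B) :
    Ideal.Quotient.mk (maximalIdeal B) (∏ g : G, g • b) =
      algebraMap (A ⧸ maximalIdeal A) (B ⧸ maximalIdeal B)
        (Algebra.norm (A ⧸ maximalIdeal A) (Ideal.Quotient.mk (maximalIdeal B) b)) := by
  haveI : Finite (B ⧸ maximalIdeal B) := Module.finite_of_finite (A ⧸ maximalIdeal A)
  rw [Algebra.norm_eq_prod_automorphisms, map_prod]
  rw [← (residueHom_bijective G A B hunr).prod_comp
    (fun σ => σ (Ideal.Quotient.mk (maximalIdeal B) b))]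
  rfl

/-- unramified: the residue class of the trace is the trace of the residue class -/
theorem mk_sum_smul (hunr : (maximalIdeal A).map (algebraMap A B) = maximalIdeal B) (b : B) :
    Ideal.Quotient.mk (maximalIdeal B) (∑ g : G, g • b) =
      algebraMap (A ⧸ maximalIdeal A) (B ⧸ maximalIdeal B)
        (Algebra.trace (A ⧸ maximalIdeal A) (B ⧸ maximalIdeal B)
          (Ideal.Quotient.mk (maximalIdeal B) b)) := by
  haveI : Finite (B ⧸ maximalIdeal B) := Module.finite_of_finite (A ⧸ maximalIdeal A)
  rw [trace_eq_sum_automorphisms, map_sum]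
  rw [← (residueHom_bijective G A B hunr).sum_comp
    (fun σ => σ (Ideal.Quotient.mk (maximalIdeal B) b))]
  rfl

end Norm

/-- `∏ (1 + t β_i) = 1 + t ∑ β_i + t² r` -/
theorem exists_prod_one_add_mul {R ι : Type*} [CommRing R] (s : Finset ι) (t : R) (β : ι → R) :
    ∃ r : R, ∏ i ∈ s, (1 + t * β i) = 1 + t * ∑ i ∈ s, β i + t ^ 2 * r := by
  classical
  induction s using Finset.induction_on with
  | empty => exact ⟨0, by simp⟩
  | insert a s ha ih =>
    obtain ⟨r, hr⟩ := ih
    refine ⟨r + β a * ∑ i ∈ s, β i + t * β a * r, ?_⟩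
    rw [Finset.prod_insert ha, Finset.sum_insert ha, hr]
    ring

section NormSurj

variable (G : Type*) [Group G] [Fintype G] (A B : Type*) [CommRing A] [CommRing B] [Algebra A B]
  [IsDomain A] [IsDiscreteValuationRing A] [IsDomain B] [IsDiscreteValuationRing B]
  [Module.Finite A B] [FaithfulSMul A B]
  [MulSemiringAction G B] [IsGaloisGroup G A B]
  [Finite (A ⧸ maximalIdeal A)] [IsAdicComplete (maximalIdeal B) B]

/-- **Units are norms in unramified extensions**: every `G`-invariant unit of `B` is the norm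
`∏ g, g • v` of a unit `v` of `B`. -/
theorem exists_unit_prod_smul_eq
    (hunr : (maximalIdeal A).map (algebraMap A B) = maximalIdeal B)
    (u : Bˣ) (hu : ∀ g : G, g • (u : B) = u) : ∃ v : Bˣ, ∏ g : G, g • (v : B) = u := by
  classical
  haveI : SMulCommClass G A B := IsGaloisGroup.commutes
  haveI : Algebra.IsInvariant A B G := IsGaloisGroup.isInvariant
  haveI : Finite (B ⧸ maximalIdeal B) := Module.finite_of_finite (A ⧸ maximalIdeal A)
  -- uniformizer
  obtain ⟨ϖ, hϖ⟩ := IsDiscreteValuationRing.exists_irreducible A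
  set π : B := algebraMap A B ϖ with hπ
  have hm : maximalIdeal B = Ideal.span {π} := by
    rw [← hunr, hϖ.maximalIdeal_eq, Ideal.map_span, Set.image_singleton]
  have hπ0 : π ≠ 0 := by
    rw [hπ, Ne, FaithfulSMul.algebraMap_eq_zero_iff]
    exact hϖ.ne_zero
  have hπg : ∀ g : G, g • π = π := fun g => smul_algebraMap g ϖ
  have hmpow : ∀ i : ℕ, maximalIdeal B ^ i = Ideal.span {π ^ i} := fun i => by
    rw [hm, Ideal.span_singleton_pow]
  -- the norm on units and the subgroup of invariant units
  let f : Bˣ →* Bˣ := Units.map (normMonoidHom G B)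
  have hf : ∀ x : Bˣ, ((f x : Bˣ) : B) = ∏ g : G, g • (x : B) := fun x => rfl
  let S : Subgroup Bˣ :=
    { carrier := {y | ∀ g : G, g • (y : B) = y}
      one_mem' := by intro g; simp
      mul_mem' := by
        intro a b ha hb g
        rw [Units.val_mul, smul_mul', ha g, hb g]
      inv_mem' := by
        intro a ha g
        have h1 : (g • ((a⁻¹ : Bˣ) : B)) * (a : B) = 1 := by
          conv_lhs => rw [← ha g, ← smul_mul']
          rw [← Units.val_mul]; simp
        have h2 : ((a⁻¹ : Bˣ) : B) * (a : B) = 1 := by rw [← Units.val_mul]; simp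
        exact mul_right_cancel₀ a.ne_zero (h1.trans h2.symm) }
  have hS : ∀ x, f x ∈ S := by
    intro x g
    rw [hf, Finset.smul_prod']
    exact Fintype.prod_equiv (Equiv.mulLeft g) (fun h : G => g • h • (x : B))
      (fun h : G => h • (x : B)) (fun h => (mul_smul g h (x : B)).symm)
  have hsmulpow : ∀ (g : G) (i : ℕ) (b : B), b ∈ maximalIdeal B ^ i → g • b ∈ maximalIdeal B ^ i := by
    intro g i b hb
    rw [hmpow, Ideal.mem_span_singleton'] at hb ⊢
    obtain ⟨c, rfl⟩ := hb
    exact ⟨g • c, by rw [smul_mul', smul_pow', hπg]⟩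
  have hmap : ∀ i, ∀ x ∈ unitsCongr (maximalIdeal B ^ i), f x ∈ unitsCongr (maximalIdeal B ^ i) := by
    intro i x hx
    have hx' : ∀ g : G, (Units.map (MulSemiringAction.toRingHom G B g).toMonoidHom x) ∈
        unitsCongr (maximalIdeal B ^ i) := by
      intro g
      rw [mem_unitsCongr]
      have : ((Units.map (MulSemiringAction.toRingHom G B g).toMonoidHom x : Bˣ) : B) - 1 =
          g • ((x : B) - 1) := by
        simp [smul_sub]
      rw [this]
      exact hsmulpow g i _ hx
    have : f x = ∏ g : G, Units.map (MulSemiringAction.toRingHom G B g).toMonoidHom x := by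
      apply Units.ext
      rw [hf, Units.coe_prod]
      rfl
    rw [this]
    exact Subgroup.prod_mem _ fun g _ => hx' g
  -- invariants come from `A`
  have hinv : ∀ c : B, (∀ g : G, g • c = c) → ∃ a : A, algebraMap A B a = c :=
    fun c hc => Algebra.IsInvariant.isInvariant (A := A) (G := G) c hc
  have hmk : ∀ a : A, Ideal.Quotient.mk (maximalIdeal B) (algebraMap A B a) =
      algebraMap (A ⧸ maximalIdeal A) (B ⧸ maximalIdeal B) (Ideal.Quotient.mk _ a) := fun a => rfl
  -- graded surjectivity
  have hgr : ∀ i, ∀ y ∈ unitsCongr (maximalIdeal B ^ i), y ∈ S →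
      ∃ x ∈ unitsCongr (maximalIdeal B ^ i), y / f x ∈ unitsCongr (maximalIdeal B ^ (i + 1)) := by
    intro i y hy hyS
    rcases Nat.eq_zero_or_pos i with rfl | hi
    · -- residue field: norm is surjective
      obtain ⟨a, ha⟩ := hinv (y : B) hyS
      obtain ⟨xbar, hxbar⟩ := FiniteField.norm_surjective (A ⧸ maximalIdeal A)
        (B ⧸ maximalIdeal B) (Ideal.Quotient.mk _ a)
      obtain ⟨x, rfl⟩ := Ideal.Quotient.mk_surjective xbar
      have hres : Ideal.Quotient.mk (maximalIdeal B) (∏ g : G, g • x) =
          Ideal.Quotient.mk (maximalIdeal B) (y : B) := by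
        rw [mk_prod_smul G A B hunr, hxbar, ← hmk, ha]
      have hxu : IsUnit x := by
        by_contra hnu
        have hx0 : Ideal.Quotient.mk (maximalIdeal B) x = 0 :=
          Ideal.Quotient.eq_zero_iff_mem.mpr hnu
        have h0 : Ideal.Quotient.mk (maximalIdeal B) (∏ g : G, g • x) = 0 := by
          rw [mk_prod_smul G A B hunr, hx0]
          have : Algebra.norm (A ⧸ maximalIdeal A) (0 : B ⧸ maximalIdeal B) = 0 :=
            Algebra.norm_zero
          rw [this, map_zero]
        rw [hres, Ideal.Quotient.eq_zero_iff_mem] at h0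
        exact h0 y.isUnit
      refine ⟨hxu.unit, by rw [pow_zero, Ideal.one_eq_top, unitsCongr_top]; trivial, ?_⟩
      rw [div_mem_unitsCongr, zero_add, pow_one, hf, IsUnit.unit_spec,
        ← Ideal.Quotient.eq, hres]
    · -- higher pieces: trace is surjective
      have hy' := hy
      rw [mem_unitsCongr, hmpow, Ideal.mem_span_singleton'] at hy'
      obtain ⟨c, hc⟩ := hy'
      have hcg : ∀ g : G, g • c = c := by
        intro g
        have h1 : g • ((y : B) - 1) = (y : B) - 1 := by rw [smul_sub, hyS g, smul_one]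
        rw [← hc, smul_mul', smul_pow', hπg] at h1
        exact mul_right_cancel₀ (pow_ne_zero i hπ0) h1
      obtain ⟨a, ha⟩ := hinv c hcg
      obtain ⟨bbar, hbbar⟩ := Algebra.trace_surjective (A ⧸ maximalIdeal A)
        (B ⧸ maximalIdeal B) (Ideal.Quotient.mk _ a)
      obtain ⟨b, rfl⟩ := Ideal.Quotient.mk_surjective bbar
      have hxmem : (1 + π ^ i * b) - 1 ∈ maximalIdeal B ^ i := by
        rw [hmpow, add_sub_cancel_left]
        exact Ideal.mul_mem_right _ _ (Ideal.mem_span_singleton_self _)
      have hxu : IsUnit (1 + π ^ i * b) := by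
        by_contra hnu
        have h1 : (1 + π ^ i * b) ∈ maximalIdeal B := hnu
        have h2 : (1 + π ^ i * b) - 1 ∈ maximalIdeal B :=
          Ideal.pow_le_self hi.ne' hxmem
        have := (maximalIdeal B).sub_mem h1 h2
        rw [sub_sub_cancel] at this
        exact (maximalIdeal B).ne_top_iff_one.mp (IsLocalRing.maximalIdeal.isMaximal B).ne_top this
      refine ⟨hxu.unit, by rw [mem_unitsCongr, IsUnit.unit_spec]; exact hxmem, ?_⟩
      rw [div_mem_unitsCongr, hf, IsUnit.unit_spec]
      have hprod : ∏ g : G, g • (1 + π ^ i * b) = ∏ g : G, (1 + π ^ i * (g • b)) := by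
        refine Finset.prod_congr rfl fun g _ => ?_
        rw [smul_add, smul_one, smul_mul', smul_pow', hπg]
      obtain ⟨r, hr⟩ := exists_prod_one_add_mul (Finset.univ : Finset G) (π ^ i) (fun g => g • b)
      rw [hprod, hr]
      -- `c - ∑ g • b ∈ 𝔪`
      have hd : c - ∑ g : G, g • b ∈ maximalIdeal B := by
        rw [← Ideal.Quotient.eq, mk_sum_smul G A B hunr, hbbar, ← hmk, ha]
      rw [hm, Ideal.mem_span_singleton'] at hd
      obtain ⟨d, hd⟩ := hd
      rw [hmpow, Ideal.mem_span_singleton']
      refine ⟨d - π ^ (i - 1) * r, ?_⟩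
      have hyc : (y : B) = 1 + c * π ^ i := by rw [hc]; ring
      have hpow : π ^ (i + 1) * π ^ (i - 1) = (π ^ i) ^ 2 := by
        rw [← pow_add, ← pow_mul]
        congr 1
        omega
      rw [hyc]
      linear_combination (π ^ i) * hd - r * hpow
  -- conclude by successive approximation
  obtain ⟨z, hz⟩ := exists_preimage_of_filtration f
    (fun i => unitsCongr (maximalIdeal B ^ i)) (fun i => unitsCongr (maximalIdeal B ^ i))
    S hS hmap hgr (exists_unit_limit) (eq_one_of_forall_mem_unitsCongr)
    (y := u) (by rw [pow_zero, Ideal.one_eq_top, unitsCongr_top]; trivial) hu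
  exact ⟨z, by rw [← hf, hz]⟩

/-- every unit of `A` is a norm from `Bˣ` in an unramified extension -/
theorem exists_unit_prod_smul_eq_algebraMap
    (hunr : (maximalIdeal A).map (algebraMap A B) = maximalIdeal B) (a : Aˣ) :
    ∃ v : Bˣ, ∏ g : G, g • (v : B) = algebraMap A B a := by
  haveI : SMulCommClass G A B := IsGaloisGroup.commutes
  obtain ⟨v, hv⟩ := exists_unit_prod_smul_eq G A B hunr (Units.map (algebraMap A B).toMonoidHom a)
    (fun g => smul_algebraMap g (a : A))
  exact ⟨v, hv⟩

end NormSurj

end Fermat.Agent.CFT
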