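import Mathlib
import Fermat.Agent.CFT.Local.Interface
import Fermat.Agent.CFT.Local.OrdBasic
import Fermat.Agent.CFT.Local.Unramified

set_option autoImplicit false

/-!
# CFT stream [B] Local, layer (B7): the index of `p`-th powers in a local field

`powIndex_holds : PowIndex A K p`, i.e. `[Kˣ : Kˣᵖ] = p * |μ_p(K)| * |A / pA|` for the fraction
field `K` (of characteristic zero) of a complete discrete valuation ring `A` with finite residue
field.

Route (no `exp` / `log`): for `m > e = v(p)` the `p`-th power map sends `1 + 𝔪^m` bijectively onto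
`1 + p 𝔪^m` (successive approximation), `[1 + 𝔪^m : 1 + p 𝔪^m] = |A / pA|`, `1 + 𝔪^m` has finite
index in `Aˣ` (index calculus), and `Kˣ / Aˣ ≃ ℤ`.
-/

namespace Fermat.Agent.CFT

open IsLocalRing

section Generic

variable {U U' : Type*} [CommGroup U] [CommGroup U']

/-- **Successive approximation**, with control of the preimage: `z ∈ FU 0`. -/
theorem exists_mem_preimage_of_filtration (f : U →* U') (FU : ℕ → Subgroup U)
    (FU' : ℕ → Subgroup U')
    (hmap : ∀ i, ∀ x ∈ FU i, f x ∈ FU' i)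
    (hgr : ∀ i, ∀ y ∈ FU' i, ∃ x ∈ FU i, y / f x ∈ FU' (i + 1))
    (hcomplete : ∀ P : ℕ → U, (∀ i, P (i + 1) / P i ∈ FU i) → ∃ z : U, ∀ i, z / P i ∈ FU i)
    (hsep : ∀ y : U', (∀ i, y ∈ FU' i) → y = 1)
    {y : U'} (hy0 : y ∈ FU' 0) : ∃ z ∈ FU 0, f z = y := by
  classical
  have step : ∀ i, ∀ p : {p : U // y / f p ∈ FU' i},
      ∃ q : {q : U // y / f q ∈ FU' (i + 1)}, (q : U) / (p : U) ∈ FU i := by
    rintro i ⟨p, hp⟩
    obtain ⟨x, hx, hxy⟩ := hgr i _ hp
    refine ⟨⟨p * x, ?_⟩, ?_⟩
    · have : y / f (p * x) = y / f p / f x := by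
        rw [map_mul, div_div]
      rw [this]
      exact hxy
    · simpa using hx
  choose next hnext using step
  let g : ℕ → U := fun i => Nat.rec (motive := fun _ => U) 1
    (fun i p => if h : y / f p ∈ FU' i then ((next i ⟨p, h⟩ : {q : U // y / f q ∈ FU' (i + 1)}) : U)
      else p) i
  have hg0 : g 0 = 1 := rfl
  have hgs : ∀ i, g (i + 1) = if h : y / f (g i) ∈ FU' i then
      ((next i ⟨g i, h⟩ : {q : U // y / f q ∈ FU' (i + 1)}) : U) else g i := fun i => rfl
  have hinv : ∀ i, y / f (g i) ∈ FU' i := by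
    intro i
    induction i with
    | zero => rw [hg0]; simpa using hy0
    | succ i ih =>
      rw [hgs i, dif_pos ih]
      exact (next i ⟨g i, ih⟩).2
  have hseq : ∀ i, g (i + 1) / g i ∈ FU i := by
    intro i
    rw [hgs i, dif_pos (hinv i)]
    exact hnext i ⟨g i, hinv i⟩
  obtain ⟨z, hz⟩ := hcomplete g hseq
  refine ⟨z, ?_, ?_⟩
  · have := hz 0
    rwa [hg0, div_one] at this
  have h1 : y / f z = 1 := by
    apply hsep
    intro i
    have h2 : y / f z = (y / f (g i)) / f (z / g i) := by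
      rw [map_div, div_div, mul_div_cancel]
    rw [h2]
    exact (FU' i).div_mem (hinv i) (hmap i _ (hz i))
  exact (div_eq_one.mp h1).symm

/-- Index calculus: if `V ≤ U` has finite index, is stable under the endomorphism `ψ` and meets
`ker ψ` trivially, then `[U : ψ U] = |ker ψ| * [V : ψ V]`. -/
theorem index_range_eq_card_ker_mul_relIndex (ψ : U →* U) (V : Subgroup U) [V.FiniteIndex]
    (hker : ψ.ker ⊓ V = ⊥) (hV : V.map ψ ≤ V) :
    ψ.range.index = Nat.card ψ.ker * (V.map ψ).relIndex V := by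
  have h1 : (V.map ψ).index = (V ⊔ ψ.ker).index * ψ.range.index := Subgroup.index_map V ψ
  have h2 : (V.map ψ).relIndex V * V.index = (V.map ψ).index := Subgroup.relIndex_mul_index hV
  have h3 : V.relIndex (V ⊔ ψ.ker) * (V ⊔ ψ.ker).index = V.index :=
    Subgroup.relIndex_mul_index le_sup_left
  have h4 : V.relIndex (V ⊔ ψ.ker) = Nat.card ψ.ker := by
    rw [Subgroup.relIndex_sup_left, ← Subgroup.inf_relIndex_right, inf_comm, hker,
      Subgroup.relIndex_bot_left]
  have h5 : (V ⊔ ψ.ker).index ≠ 0 := by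
    intro h0
    rw [h0, mul_zero] at h3
    exact Subgroup.FiniteIndex.index_ne_zero h3.symm
  rw [h4] at h3
  rw [← h3, h1] at h2
  have h6 : (V ⊔ ψ.ker).index * ((V.map ψ).relIndex V * Nat.card ψ.ker) =
      (V ⊔ ψ.ker).index * ψ.range.index := by
    rw [← h2]; ring
  have := Nat.eq_of_mul_eq_mul_left (Nat.pos_of_ne_zero h5) h6
  rw [← this, mul_comm]

end Generic

/-- `(1 + y) ^ p = 1 + p y + p y² r + y ^ p` for a prime `p`. -/
theorem exists_one_add_pow_prime_eq {R : Type*} [CommRing R] {p : ℕ} (hp : p.Prime) (y : R) :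
    ∃ r : R, (1 + y) ^ p = 1 + p * y + p * y ^ 2 * r + y ^ p := by
  classical
  have h := add_pow_prime_eq' hp y (1 : R)
  have h1 : (1 : ℕ) ∈ Finset.Ioo 0 p := Finset.mem_Ioo.mpr ⟨Nat.one_pos, hp.one_lt⟩
  rw [← Finset.add_sum_erase _ _ h1] at h
  refine ⟨∑ k ∈ (Finset.Ioo 0 p).erase 1, y ^ (k - 2) * ((p.choose k / p : ℕ) : R), ?_⟩
  have h2 : ∑ k ∈ (Finset.Ioo 0 p).erase 1, y ^ k * 1 ^ (p - k) * ((p.choose k / p : ℕ) : R) =
      y ^ 2 * ∑ k ∈ (Finset.Ioo 0 p).erase 1, y ^ (k - 2) * ((p.choose k / p : ℕ) : R) := by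
    rw [Finset.mul_sum]
    refine Finset.sum_congr rfl fun k hk => ?_
    have hk2 : 2 ≤ k := by
      have := Finset.mem_erase.mp hk
      have h3 := Finset.mem_Ioo.mp this.2
      have h4 := this.1
      omega
    rw [one_pow, mul_one, ← mul_assoc, ← pow_add]
    congr 2
    omega
  rw [add_comm 1 y, h, h2, Nat.choose_one_right, Nat.div_self hp.pos]
  simp only [pow_one, one_pow, mul_one, Nat.cast_one]
  ring

/-- The key congruence for `p`-th powers of principal units: if `π ^ e = w * p` and `e < n` then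
`(1 + a π ^ n) ^ p = 1 + p π ^ n a (1 + π b)`. -/
theorem exists_one_add_mul_pow_prime_eq {R : Type*} [CommRing R] {p : ℕ} (hp : p.Prime)
    {π w : R} {e n : ℕ} (hπ : π ^ e = w * (p : R)) (hn : e + 1 ≤ n) (a : R) :
    ∃ b : R, (1 + a * π ^ n) ^ p = 1 + ((p : R) * π ^ n) * a * (1 + π * b) := by
  obtain ⟨r, hbin⟩ := exists_one_add_pow_prime_eq hp (a * π ^ n)
  have h2n : 2 * n ≤ n * p := by
    rw [mul_comm]; exact Nat.mul_le_mul_left n hp.two_le
  obtain ⟨k, hk⟩ : ∃ k, n * p = e + n + 1 + k := ⟨n * p - (e + n + 1), by omega⟩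
  have hX : π ^ n = π ^ (n - 1) * π := by
    rw [← pow_succ, Nat.sub_add_cancel (by omega)]
  have hB : (a * π ^ n) ^ p = a * a ^ (p - 1) * (w * (p : R)) * π ^ n * π * π ^ k := by
    rw [mul_pow, ← pow_mul, hk, ← hπ, ← pow_succ', Nat.sub_add_cancel hp.one_le]
    ring
  refine ⟨a * π ^ (n - 1) * r + a ^ (p - 1) * w * π ^ k, ?_⟩
  linear_combination hbin + hB + ((p : R) * a ^ 2 * r * π ^ n) * hX

section Units

variable {B : Type*} [CommRing B]

/-- `1 + I` has finite index in `Bˣ` when `B / I` is finite. -/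
theorem finiteIndex_unitsCongr (I : Ideal B) [Finite (B ⧸ I)] : (unitsCongr I).FiniteIndex := by
  have h : unitsCongr I = (Units.map (Ideal.Quotient.mk I).toMonoidHom).ker := by
    ext u
    rw [mem_unitsCongr, MonoidHom.mem_ker, Units.ext_iff]
    simp only [Units.coe_map, RingHom.toMonoidHom_eq_coe, MonoidHom.coe_coe, Units.val_one]
    rw [← Ideal.Quotient.eq, map_one]
  rw [h]
  infer_instance

theorem unitsCongr_mono {I J : Ideal B} (h : I ≤ J) : unitsCongr I ≤ unitsCongr J :=
  fun _ hu => h hu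

/-- shifted completeness of the unit group -/
theorem exists_unit_limit_shift [IsLocalRing B] [IsAdicComplete (maximalIdeal B) B] (m : ℕ)
    (P : ℕ → Bˣ) (hP : ∀ i, P (i + 1) / P i ∈ unitsCongr (maximalIdeal B ^ (m + i))) :
    ∃ z : Bˣ, ∀ i, z / P i ∈ unitsCongr (maximalIdeal B ^ (m + i)) := by
  obtain ⟨z, hz⟩ := exists_unit_limit (fun j => P (j - m)) (by
    intro j
    by_cases hj : m ≤ j
    · have h1 : j + 1 - m = (j - m) + 1 := by omega
      have h2 := hP (j - m)
      rw [show m + (j - m) = j by omega] at h2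
      simpa only [h1] using h2
    · have h1 : j + 1 - m = 0 := by omega
      have h2 : j - m = 0 := by omega
      simp only [h1, h2, div_self']
      exact Subgroup.one_mem _)
  refine ⟨z, fun i => ?_⟩
  have := hz (m + i)
  simpa only [Nat.add_sub_cancel_left] using this

end Units

section DVR

variable {A : Type*} [CommRing A] [IsDomain A] [IsDiscreteValuationRing A]

omit [IsDomain A] [IsDiscreteValuationRing A] in
theorem isUnit_one_add_mul_of_mem [IsLocalRing A] {t : A} (ht : t ∈ maximalIdeal A) (a : A) :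
    IsUnit (1 + t * a) := by
  by_contra hnu
  have h1 : 1 + t * a ∈ maximalIdeal A := hnu
  have h2 : t * a ∈ maximalIdeal A := Ideal.mul_mem_right _ _ ht
  have := (maximalIdeal A).sub_mem h1 h2
  rw [add_sub_cancel_right] at this
  exact (maximalIdeal A).ne_top_iff_one.mp (IsLocalRing.maximalIdeal.isMaximal A).ne_top this

/-- `[1 + tA : 1 + ctA] = |A / cA|` for `t ∈ 𝔪`, `t ≠ 0`. -/
theorem relIndex_unitsCongr_span_mul {t : A} (ht : t ∈ maximalIdeal A) (ht0 : t ≠ 0) (c : A) :
    (unitsCongr (Ideal.span {c * t})).relIndex (unitsCongr (Ideal.span {t})) =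
      Nat.card (A ⧸ Ideal.span {c}) := by
  set V := unitsCongr (Ideal.span {t}) with hV
  set H := unitsCongr (Ideal.span {c * t}) with hH
  let F : A → V := fun a => ⟨(isUnit_one_add_mul_of_mem ht a).unit, by
    rw [hV, mem_unitsCongr, IsUnit.unit_spec, add_sub_cancel_left]
    exact Ideal.mem_span_singleton'.mpr ⟨a, mul_comm a t⟩⟩
  have hF : ∀ a, (((F a : V) : Aˣ) : A) = 1 + t * a := fun a => rfl
  have hinj : Function.Injective F := by
    intro a a' h
    have := congrArg (fun v : V => ((v : Aˣ) : A)) h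
    simp only [hF] at this
    exact mul_left_cancel₀ ht0 (add_left_cancel this)
  have hsurj : Function.Surjective F := by
    rintro ⟨v, hv⟩
    obtain ⟨a, ha⟩ := Ideal.mem_span_singleton'.mp (mem_unitsCongr.mp hv)
    refine ⟨a, Subtype.ext (Units.ext ?_)⟩
    rw [hF, mul_comm, ha]
    ring
  let e : A ≃ V := Equiv.ofBijective F ⟨hinj, hsurj⟩
  have he : ∀ a, (((e a : V) : Aˣ) : A) = 1 + t * a := fun a => rfl
  have hrel : ∀ a a' : A, (Submodule.quotientRel (Ideal.span {c})) a a' ↔
      (QuotientGroup.leftRel (H.subgroupOf V)) (e a) (e a') := by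
    intro a a'
    rw [Submodule.quotientRel_def, QuotientGroup.leftRel_apply, Subgroup.mem_subgroupOf,
      inv_mul_eq_div, Subgroup.coe_div, hH, div_mem_unitsCongr, he, he,
      Ideal.mem_span_singleton', Ideal.mem_span_singleton']
    constructor
    · rintro ⟨b, hb⟩
      exact ⟨-b, by linear_combination (-t) * hb⟩
    · rintro ⟨b, hb⟩
      refine ⟨-b, ?_⟩
      apply mul_left_cancel₀ ht0
      linear_combination (-1 : A) * hb
  exact (Nat.card_congr (Quotient.congr e hrel)).symm

variable [IsAdicComplete (maximalIdeal A) A] [Finite (ResidueField A)]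

/-- `[Aˣ : Aˣᵖ] = |μ_p(A)| * |A / pA|` for a complete DVR with finite residue field in which
`p ≠ 0`. -/
theorem index_range_powMonoidHom_units {p : ℕ} (hp : p.Prime) (hpA : (p : A) ≠ 0) :
    (powMonoidHom p : Aˣ →* Aˣ).range.index =
      Nat.card (powMonoidHom p : Aˣ →* Aˣ).ker * Nat.card (A ⧸ Ideal.span {(p : A)}) := by
  classical
  obtain ⟨π, hπ⟩ := IsDiscreteValuationRing.exists_irreducible A
  obtain ⟨e, u, hu⟩ := IsDiscreteValuationRing.eq_unit_mul_pow_irreducible hpA hπ
  have hπe : π ^ e = ((u⁻¹ : Aˣ) : A) * (p : A) := by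
    rw [hu, ← mul_assoc, ← Units.val_mul]; simp
  have hπ0 : π ≠ 0 := hπ.ne_zero
  have hm : maximalIdeal A = Ideal.span {π} := hπ.maximalIdeal_eq
  have hπmem : π ∈ maximalIdeal A := hm ▸ Ideal.mem_span_singleton_self π
  have hmpow : ∀ i, maximalIdeal A ^ i = Ideal.span {π ^ i} := fun i => by
    rw [hm, Ideal.span_singleton_pow]
  set m := e + 1 with hm_def
  set ψ : Aˣ →* Aˣ := powMonoidHom p with hψ
  set V := unitsCongr (Ideal.span {π ^ m}) with hVdef
  haveI : Finite (A ⧸ maximalIdeal A) := inferInstanceAs (Finite (ResidueField A))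
  haveI : Finite (A ⧸ Ideal.span {π ^ m}) := by
    rw [← hmpow]; exact Ideal.finite_quotient_pow (IsNoetherian.noetherian _) m
  haveI : V.FiniteIndex := finiteIndex_unitsCongr _
  have hψval : ∀ x : Aˣ, ((ψ x : Aˣ) : A) = (x : A) ^ p := fun x => by
    rw [hψ, powMonoidHom_apply, Units.val_pow_eq_pow_val]
  have key : ∀ n, m ≤ n → ∀ a : A, ∃ b : A,
      (1 + a * π ^ n) ^ p = 1 + ((p : A) * π ^ n) * a * (1 + π * b) :=
    fun n hn a => exists_one_add_mul_pow_prime_eq hp hπe hn a
  have hmemV : ∀ n (x : Aˣ), x ∈ unitsCongr (Ideal.span {π ^ n}) →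
      ∃ a, (x : A) = 1 + a * π ^ n := by
    intro n x hx
    obtain ⟨a, ha⟩ := Ideal.mem_span_singleton'.mp (mem_unitsCongr.mp hx)
    exact ⟨a, by rw [ha]; ring⟩
  have hmapn : ∀ n, m ≤ n → ∀ x ∈ unitsCongr (Ideal.span {π ^ n}),
      ψ x ∈ unitsCongr (Ideal.span {(p : A) * π ^ n}) := by
    intro n hn x hx
    obtain ⟨a, ha⟩ := hmemV n x hx
    obtain ⟨b, hb⟩ := key n hn a
    rw [mem_unitsCongr, hψval, ha, hb, add_sub_cancel_left]
    exact Ideal.mem_span_singleton'.mpr ⟨a * (1 + π * b), by ring⟩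
  -- kernel
  have hker : ψ.ker ⊓ V = ⊥ := by
    rw [eq_bot_iff]
    rintro x ⟨hx1, hx2⟩
    rw [Subgroup.mem_bot]
    obtain ⟨a, ha⟩ := hmemV m x hx2
    obtain ⟨b, hb⟩ := key m le_rfl a
    have hxp : (x : A) ^ p = 1 := by
      have h1 : ψ x = 1 := MonoidHom.mem_ker.mp hx1
      rw [← hψval, h1, Units.val_one]
    rw [ha, hb] at hxp
    have h0 : ((p : A) * π ^ m) * a * (1 + π * b) = 0 := by linear_combination hxp
    have hunit : IsUnit (1 + π * b) := isUnit_one_add_mul_of_mem hπmem b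
    have ha0 : a = 0 := by
      rcases mul_eq_zero.mp h0 with h | h
      · rcases mul_eq_zero.mp h with h | h
        · rcases mul_eq_zero.mp h with h | h
          · exact absurd h hpA
          · exact absurd h (pow_ne_zero m hπ0)
        · exact h
      · exact absurd h hunit.ne_zero
    apply Units.ext
    rw [ha, ha0]; simp
  -- image
  have himage : V.map ψ = unitsCongr (Ideal.span {(p : A) * π ^ m}) := by
    apply le_antisymm
    · rintro _ ⟨x, hx, rfl⟩
      exact hmapn m le_rfl x hx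
    · intro y hy
      have hmap : ∀ i, ∀ x ∈ (fun i => unitsCongr (Ideal.span {π ^ (m + i)})) i,
          ψ x ∈ (fun i => unitsCongr (Ideal.span {(p : A) * π ^ (m + i)})) i :=
        fun i x hx => hmapn (m + i) (Nat.le_add_right m i) x hx
      have hgr : ∀ i, ∀ y ∈ (fun i => unitsCongr (Ideal.span {(p : A) * π ^ (m + i)})) i,
          ∃ x ∈ (fun i => unitsCongr (Ideal.span {π ^ (m + i)})) i,
            y / ψ x ∈ (fun i => unitsCongr (Ideal.span {(p : A) * π ^ (m + i)})) (i + 1) := by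
        intro i y hy
        obtain ⟨c, hc⟩ := Ideal.mem_span_singleton'.mp (mem_unitsCongr.mp hy)
        have hpow_mem : π ^ (m + i) ∈ maximalIdeal A :=
          Ideal.pow_le_self (by omega) (hmpow (m + i) ▸ Ideal.mem_span_singleton_self _)
        have hxu : IsUnit (1 + π ^ (m + i) * c) := isUnit_one_add_mul_of_mem hpow_mem c
        obtain ⟨b, hb⟩ := key (m + i) (Nat.le_add_right m i) c
        refine ⟨hxu.unit, ?_, ?_⟩
        · change hxu.unit ∈ unitsCongr (Ideal.span {π ^ (m + i)})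
          rw [mem_unitsCongr, IsUnit.unit_spec, add_sub_cancel_left]
          exact Ideal.mem_span_singleton'.mpr ⟨c, mul_comm _ _⟩
        · change y / ψ hxu.unit ∈ unitsCongr (Ideal.span {(p : A) * π ^ (m + (i + 1))})
          rw [div_mem_unitsCongr, hψval, IsUnit.unit_spec, mul_comm (π ^ (m + i)) c, hb,
            Ideal.mem_span_singleton']
          refine ⟨-(c * b), ?_⟩
          have hpow : π ^ (m + (i + 1)) = π ^ (m + i) * π := by
            rw [← Nat.add_assoc, pow_succ]
          rw [hpow]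
          linear_combination hc
      have hcomplete : ∀ P : ℕ → Aˣ,
          (∀ i, P (i + 1) / P i ∈ (fun i => unitsCongr (Ideal.span {π ^ (m + i)})) i) →
          ∃ z : Aˣ, ∀ i, z / P i ∈ (fun i => unitsCongr (Ideal.span {π ^ (m + i)})) i := by
        intro P hP
        simp only [← hmpow] at hP ⊢
        exact exists_unit_limit_shift m P hP
      have hsep : ∀ y : Aˣ,
          (∀ i, y ∈ (fun i => unitsCongr (Ideal.span {(p : A) * π ^ (m + i)})) i) → y = 1 := by
        intro y hy
        apply eq_one_of_forall_mem_unitsCongr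
        intro i
        refine unitsCongr_mono ?_ (hy i)
        rw [hmpow, Ideal.span_singleton_le_span_singleton]
        exact ⟨(p : A) * π ^ m, by ring⟩
      obtain ⟨z, hz, hzy⟩ := exists_mem_preimage_of_filtration ψ
        (fun i => unitsCongr (Ideal.span {π ^ (m + i)}))
        (fun i => unitsCongr (Ideal.span {(p : A) * π ^ (m + i)})) hmap hgr hcomplete hsep
        (y := y) hy
      exact ⟨z, hz, hzy⟩
  have hV : V.map ψ ≤ V := by
    rw [himage]
    refine unitsCongr_mono ?_
    rw [Ideal.span_singleton_le_span_singleton]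
    exact ⟨(p : A), by ring⟩
  have hπm_mem : π ^ m ∈ maximalIdeal A :=
    Ideal.pow_le_self (by omega) (hmpow m ▸ Ideal.mem_span_singleton_self _)
  rw [index_range_eq_card_ker_mul_relIndex ψ V hker hV, himage,
    relIndex_unitsCongr_span_mul hπm_mem (pow_ne_zero m hπ0) (p : A)]

end DVR

section Field

variable (A K : Type*) [CommRing A] [IsDomain A] [IsDiscreteValuationRing A]
  [Field K] [Algebra A K] [IsFractionRing A K]

/-- the embedding `Aˣ → Kˣ` -/
noncomputable def unitsInclK : Aˣ →* Kˣ := Units.map (algebraMap A K : A →* K)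

omit [IsDiscreteValuationRing A] in
theorem unitsInclK_injective : Function.Injective (unitsInclK A K) :=
  Units.map_injective (IsFractionRing.injective A K)

theorem mem_range_unitsInclK_iff (x : Kˣ) : x ∈ (unitsInclK A K).range ↔ ord A K x = 0 := by
  rw [ord_eq_zero_iff]; rfl

/-- `ord` modulo `p`, as a homomorphism -/
noncomputable def ordModHom (p : ℕ) : Kˣ →* Multiplicative (ZMod p) where
  toFun x := Multiplicative.ofAdd ((ord A K x : ℤ) : ZMod p)
  map_one' := by simp
  map_mul' x y := by rw [ord_mul, Int.cast_add, ofAdd_add]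

theorem mem_ker_ordModHom_iff (p : ℕ) (x : Kˣ) :
    x ∈ (ordModHom A K p).ker ↔ (p : ℤ) ∣ ord A K x := by
  rw [MonoidHom.mem_ker, ← ZMod.intCast_zmod_eq_zero_iff_dvd]
  change Multiplicative.ofAdd ((ord A K x : ℤ) : ZMod p) = 1 ↔ _
  rw [ofAdd_eq_one]

theorem ordModHom_surjective (p : ℕ) : Function.Surjective (ordModHom A K p) := by
  intro y
  obtain ⟨n, hn⟩ := ZMod.intCast_surjective (Multiplicative.toAdd y)
  obtain ⟨x, hx⟩ := ord_surjective A K n
  refine ⟨x, ?_⟩
  change Multiplicative.ofAdd ((ord A K x : ℤ) : ZMod p) = y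
  rw [hx, hn, ofAdd_toAdd]

/-- `Kˣᵖ ∩ Aˣ = Aˣᵖ`. -/
theorem comap_range_powMonoidHom {p : ℕ} (hp : p ≠ 0) :
    (powMonoidHom p : Kˣ →* Kˣ).range.comap (unitsInclK A K) = (powMonoidHom p : Aˣ →* Aˣ).range := by
  ext u
  rw [Subgroup.mem_comap, MonoidHom.mem_range, MonoidHom.mem_range]
  constructor
  · rintro ⟨x, hx⟩
    rw [powMonoidHom_apply] at hx
    have h0 : ord A K x = 0 := by
      have h1 : ord A K (x ^ p) = 0 := by
        rw [hx]; exact (mem_range_unitsInclK_iff A K _).mp ⟨u, rfl⟩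
      rw [ord_pow] at h1
      rcases mul_eq_zero.mp h1 with h | h
      · exact absurd (by exact_mod_cast h) hp
      · exact h
    obtain ⟨w, rfl⟩ := (mem_range_unitsInclK_iff A K x).mpr h0
    refine ⟨w, ?_⟩
    rw [powMonoidHom_apply]
    apply unitsInclK_injective A K
    rw [map_pow, hx]
  · rintro ⟨w, rfl⟩
    exact ⟨unitsInclK A K w, by rw [powMonoidHom_apply, powMonoidHom_apply, map_pow]⟩

/-- `Kˣᵖ Aˣ = {x | p ∣ ord x}`. -/
theorem range_powMonoidHom_sup_range_unitsInclK (p : ℕ) :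
    (powMonoidHom p : Kˣ →* Kˣ).range ⊔ (unitsInclK A K).range = (ordModHom A K p).ker := by
  apply le_antisymm
  · rw [sup_le_iff]
    constructor
    · rintro _ ⟨x, rfl⟩
      rw [mem_ker_ordModHom_iff, powMonoidHom_apply, ord_pow]
      exact dvd_mul_right _ _
    · rintro x hx
      rw [mem_ker_ordModHom_iff, (mem_range_unitsInclK_iff A K x).mp hx]
      exact dvd_zero _
  · intro x hx
    rw [mem_ker_ordModHom_iff] at hx
    obtain ⟨k, hk⟩ := hx
    obtain ⟨ϖ, hϖ⟩ := exists_ord_eq_one A K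
    have h0 : ord A K (x / (ϖ ^ k) ^ p) = 0 := by
      rw [ord_div, ord_pow, ord_zpow, hϖ, hk]; ring
    have hx' : x = (ϖ ^ k) ^ p * (x / (ϖ ^ k) ^ p) := by
      rw [mul_div_cancel]
    rw [hx']
    exact Subgroup.mul_mem_sup ⟨ϖ ^ k, rfl⟩ ((mem_range_unitsInclK_iff A K _).mpr h0)

/-- `[Kˣ : Kˣᵖ] = p [Aˣ : Aˣᵖ]`. -/
theorem index_range_powMonoidHom_field {p : ℕ} (hp : p ≠ 0) :
    (powMonoidHom p : Kˣ →* Kˣ).range.index = p * (powMonoidHom p : Aˣ →* Aˣ).range.index := by
  set H := (powMonoidHom p : Kˣ →* Kˣ).range with hH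
  set N := (unitsInclK A K).range with hN
  have h1 : H.relIndex (H ⊔ N) * (H ⊔ N).index = H.index := Subgroup.relIndex_mul_index le_sup_left
  have h2 : H.relIndex (H ⊔ N) = (powMonoidHom p : Aˣ →* Aˣ).range.index := by
    rw [Subgroup.relIndex_sup_left, hN, ← Subgroup.index_comap, hH, comap_range_powMonoidHom A K hp]
  have h3 : (H ⊔ N).index = p := by
    rw [hH, hN, range_powMonoidHom_sup_range_unitsInclK, Subgroup.index_ker,
      MonoidHom.range_eq_top.mpr (ordModHom_surjective A K p), Subgroup.card_top,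
      Nat.card_congr Multiplicative.toAdd, Nat.card_zmod]
  rw [← h1, h2, h3, mul_comm]

/-- `|μ_p(K)| = |μ_p(A)|`. -/
theorem card_rootsOfUnity_eq_card_ker {p : ℕ} (hp : p ≠ 0) :
    Nat.card (rootsOfUnity p K) = Nat.card (powMonoidHom p : Aˣ →* Aˣ).ker := by
  symm
  let f : (powMonoidHom p : Aˣ →* Aˣ).ker → rootsOfUnity p K := fun u =>
    ⟨unitsInclK A K u, by
      rw [mem_rootsOfUnity, ← map_pow]
      have := MonoidHom.mem_ker.mp u.2
      rw [powMonoidHom_apply] at this
      rw [this, map_one]⟩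
  refine Nat.card_congr (Equiv.ofBijective f ⟨?_, ?_⟩)
  · intro u v h
    have := congrArg (fun z : rootsOfUnity p K => (z : Kˣ)) h
    exact Subtype.ext (unitsInclK_injective A K this)
  · rintro ⟨z, hz⟩
    rw [mem_rootsOfUnity] at hz
    have h0 : ord A K z = 0 := by
      have h1 : ord A K (z ^ p) = 0 := by rw [hz, ord_one]
      rw [ord_pow] at h1
      rcases mul_eq_zero.mp h1 with h | h
      · exact absurd (by exact_mod_cast h) hp
      · exact h
    obtain ⟨w, rfl⟩ := (mem_range_unitsInclK_iff A K z).mpr h0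
    refine ⟨⟨w, ?_⟩, rfl⟩
    rw [MonoidHom.mem_ker, powMonoidHom_apply]
    apply unitsInclK_injective A K
    rw [map_pow, hz, map_one]

end Field

section Main

variable (A K : Type*) [CommRing A] [IsDomain A] [IsDiscreteValuationRing A]
  [IsAdicComplete (maximalIdeal A) A] [Finite (ResidueField A)]
  [Field K] [Algebra A K] [IsFractionRing A K]

/-- **[B-C6]** `[Kˣ : Kˣᵖ] = p * |μ_p(K)| * |A / pA|` in characteristic zero. -/
theorem powIndex_holds (p : ℕ) : PowIndex A K p := by
  intro hp hchar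
  have hpA : (p : A) ≠ 0 := by
    intro h
    have : (algebraMap A K) (p : A) = 0 := by rw [h, map_zero]
    rw [map_natCast] at this
    exact hp.ne_zero (by exact_mod_cast this)
  rw [index_range_powMonoidHom_field A K hp.ne_zero, index_range_powMonoidHom_units hp hpA,
    card_rootsOfUnity_eq_card_ker A K hp.ne_zero]
  ring

end Main

end Fermat.Agent.CFT
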