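import Fermat.Agent.CFT.Local.PadicLocalField
import Fermat.Agent.CFT.Local.PowIndex

set_option autoImplicit false

/-!
# CFT stream [B] Local: the index of `p`-th powers in a finite extension of `ℚ_q`

For `K / ℚ_q` finite with ring of integers `A` (the integral closure of `ℤ_q`):
`|A / pA| = p ^ [K : ℚ_q]` if `q = p` and `1` otherwise (`powCard_natCard_quot`); hence, if `K`
contains a primitive `p`-th root of unity, `[Kˣ : Kˣᵖ] = p ^ (2 + [q = p]·[K : ℚ_q])`
(`powCard_index`, from `powIndex_holds`).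
-/

namespace Fermat.Agent.CFT

open IsLocalRing

section General

variable (q : ℕ) [Fact q.Prime] (B : Type*) [CommRing B] [Algebra ℤ_[q] B]

/-- `|B / qB| = q ^ rank` for a finite free `ℤ_q`-algebra `B`. -/
theorem powCard_natCard_quot_free [Module.Finite ℤ_[q] B] [Module.Free ℤ_[q] B] :
    Nat.card (B ⧸ Ideal.span {((q : ℕ) : B)}) = q ^ Module.finrank ℤ_[q] B := by
  have hspan : Ideal.span {((q : ℕ) : B)} =
      Ideal.map (algebraMap ℤ_[q] B) (maximalIdeal ℤ_[q]) := by
    rw [PadicInt.maximalIdeal_eq_span_p, Ideal.map_span, Set.image_singleton, map_natCast]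
  rw [hspan]
  have h1 := IsLocalRing.finrank_quotient_map (R := ℤ_[q]) (S := B)
  letI : Field (ℤ_[q] ⧸ maximalIdeal ℤ_[q]) := Ideal.Quotient.field _
  have hq : Nat.card (ℤ_[q] ⧸ maximalIdeal ℤ_[q]) = q := by
    have e : (ℤ_[q] ⧸ maximalIdeal ℤ_[q]) ≃ ZMod q := (PadicInt.residueField (p := q)).toEquiv
    rw [Nat.card_congr e, Nat.card_zmod]
  have hfin2 : Module.Finite (ℤ_[q] ⧸ maximalIdeal ℤ_[q])
      (B ⧸ Ideal.map (algebraMap ℤ_[q] B) (maximalIdeal ℤ_[q])) :=
    Module.Finite.of_restrictScalars_finite ℤ_[q] _ _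
  rw [Module.natCard_eq_pow_finrank (K := ℤ_[q] ⧸ maximalIdeal ℤ_[q]), hq, h1]

/-- `|B / pB| = 1` if `p ≠ q` is another prime. -/
theorem powCard_natCard_quot_of_ne {p : ℕ} (hp : p.Prime) (hpq : q ≠ p) :
    Nat.card (B ⧸ Ideal.span {((p : ℕ) : B)}) = 1 := by
  have hu : IsUnit ((p : ℕ) : ℤ_[q]) := by
    rw [PadicInt.isUnit_iff, PadicInt.norm_natCast_eq_one_iff]
    exact (Nat.coprime_primes Fact.out hp).2 hpq
  have hu' : IsUnit ((p : ℕ) : B) := by
    have := hu.map (algebraMap ℤ_[q] B)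
    rwa [map_natCast] at this
  rw [Ideal.span_singleton_eq_top.2 hu']
  have : Subsingleton (B ⧸ (⊤ : Ideal B)) := Ideal.Quotient.subsingleton_iff.2 rfl
  exact Nat.card_unique

end General

end Fermat.Agent.CFT

namespace Fermat.Agent.CFT

open IsLocalRing

section Field

variable (q p : ℕ) [Fact q.Prime] [Fact p.Prime]
  (K : Type) [Field K] [Algebra ℚ_[q] K] [FiniteDimensional ℚ_[q] K]

/-- the `ℤ_q`-algebra structure on a `ℚ_q`-algebra -/
@[reducible] noncomputable def powCardAlgebra : Algebra ℤ_[q] K :=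
  ((algebraMap ℚ_[q] K).comp (algebraMap ℤ_[q] ℚ_[q])).toAlgebra

attribute [local instance] powCardAlgebra

omit [FiniteDimensional ℚ_[q] K] in
theorem powCard_isScalarTower : IsScalarTower ℤ_[q] ℚ_[q] K :=
  IsScalarTower.of_algebraMap_eq (fun _ => rfl)

attribute [local instance] powCard_isScalarTower

/-- `|A / pA|` for the ring of integers `A` of `K`. -/
theorem powCard_natCard_quot :
    Nat.card (integralClosure ℤ_[q] K ⧸ Ideal.span {((p : ℕ) : integralClosure ℤ_[q] K)}) =
      if q = p then p ^ Module.finrank ℚ_[q] K else 1 := by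
  have : Algebra.IsSeparable ℚ_[q] K := inferInstance
  have hfin : Module.Finite ℤ_[q] (integralClosure ℤ_[q] K) :=
    intClosure_finite ℤ_[q] ℚ_[q] K (integralClosure ℤ_[q] K)
  have hfree : Module.Free ℤ_[q] (integralClosure ℤ_[q] K) :=
    intClosure_free ℤ_[q] ℚ_[q] K (integralClosure ℤ_[q] K)
  have hrank : Module.finrank ℤ_[q] (integralClosure ℤ_[q] K) = Module.finrank ℚ_[q] K :=
    intClosure_finrank ℤ_[q] ℚ_[q] K (integralClosure ℤ_[q] K)
  split_ifs with h
  · subst h
    rw [powCard_natCard_quot_free, hrank]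
  · exact powCard_natCard_quot_of_ne q _ Fact.out h

/-- **The index of `p`-th powers** in a finite extension `K` of `ℚ_q` containing a primitive
`p`-th root of unity: `[Kˣ : Kˣᵖ] = p ^ (2 + [q = p]·[K : ℚ_q])`. -/
theorem powCard_index {ζ : K} (hζ : IsPrimitiveRoot ζ p) :
    (powMonoidHom p : Kˣ →* Kˣ).range.index =
      p ^ (2 + if q = p then Module.finrank ℚ_[q] K else 0) := by
  have hp : p.Prime := Fact.out
  have : Algebra.IsSeparable ℚ_[q] K := inferInstance
  have : CharZero K := charZero_of_injective_algebraMap (algebraMap ℚ_[q] K).injective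
  letI hdom : IsDomain (integralClosure ℤ_[q] K) :=
    intClosure_isDomain ℤ_[q] ℚ_[q] K (integralClosure ℤ_[q] K)
  letI hloc : IsLocalRing (integralClosure ℤ_[q] K) :=
    intClosure_isLocalRing ℤ_[q] ℚ_[q] K (integralClosure ℤ_[q] K)
  haveI hdvr : IsDiscreteValuationRing (integralClosure ℤ_[q] K) :=
    intClosure_isDiscreteValuationRing ℤ_[q] ℚ_[q] K (integralClosure ℤ_[q] K)
  haveI hfr : IsFractionRing (integralClosure ℤ_[q] K) K :=
    intClosure_isFractionRing ℤ_[q] ℚ_[q] K (integralClosure ℤ_[q] K)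
  haveI hcomp : IsAdicComplete (maximalIdeal (integralClosure ℤ_[q] K))
      (integralClosure ℤ_[q] K) :=
    intClosure_isAdicComplete ℤ_[q] ℚ_[q] K (integralClosure ℤ_[q] K)
  haveI hres0 : Finite (ResidueField ℤ_[q]) :=
    Finite.of_equiv (ZMod q) (PadicInt.residueField (p := q)).symm.toEquiv
  haveI hres : Finite (ResidueField (integralClosure ℤ_[q] K)) :=
    intClosure_finite_residueField ℤ_[q] ℚ_[q] K (integralClosure ℤ_[q] K)
  have key := powIndex_holds (integralClosure ℤ_[q] K) K p hp inferInstance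
  haveI : NeZero p := ⟨hp.ne_zero⟩
  have hroots : Nat.card (rootsOfUnity p K) = p := hζ.card_rootsOfUnity
  rw [key, hroots, powCard_natCard_quot q p K]
  split_ifs with h
  · rw [pow_add]; ring
  · rw [add_zero]; ring

end Field

end Fermat.Agent.CFT
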