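import Fermat.Agent.CFT.Local.OrdBasic

set_option autoImplicit false

/-!
# CFT stream [B] Local, chunk (L3): `e f = n` in valuation form

Setting: the `AKLB` block of `Local/Interface.lean` (`A`, `B` discrete valuation rings,
`K = Frac A`, `L / K` finite separable, `B` the integral closure of `A` in `L`).

* `ramIdx A B` : the ramification index `e`, characterised by `𝔪_A B = 𝔪_B ^ e`
  (`map_maximalIdeal_eq_pow_ramIdx`, `ramIdx_eq_of_map_eq`);
* `ord_algebraMap_eq_ramIdx_mul` : `ord_L x = e * ord_K x` for `x ∈ Kˣ`;
* `ramIdx_mul_finrank_residue` : `e * f = [L : K]`, `f = [k_B : k_A]`;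
* `ord_algebraMap_mul_finrank_residue` : `ord_L x * f = [L : K] * ord_K x`;
* `natCard_residueField_eq_pow` : `|k_B| = |k_A| ^ f`.
-/

namespace Fermat.Agent.CFT

open IsLocalRing

section RamIdxDef

variable (A B : Type*) [CommRing A] [IsDomain A] [IsDiscreteValuationRing A]
  [CommRing B] [IsDomain B] [IsDiscreteValuationRing B] [Algebra A B]

open Classical in
/-- The ramification index of the extension `B / A` of discrete valuation rings:
the exponent `e` with `𝔪_A B = 𝔪_B ^ e` (junk value `0` if there is none, i.e. if `𝔪_A B = 0`). -/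
noncomputable def ramIdx : ℕ :=
  if h : ∃ e : ℕ, Ideal.map (algebraMap A B) (maximalIdeal A) = maximalIdeal B ^ e then
    Nat.find h else 0

variable {A B}

omit [IsDomain A] [IsDiscreteValuationRing A] [Algebra A B] in
theorem ramIdx_pow_injective : Function.Injective (fun e : ℕ => maximalIdeal B ^ e) := by
  have h0 : maximalIdeal B ≠ ⊥ := IsDiscreteValuationRing.not_a_field B
  have h1 : maximalIdeal B ≠ ⊤ := Ideal.IsPrime.ne_top'
  exact (Ideal.pow_right_strictAnti _ h0 h1).injective

theorem ramIdx_eq_of_map_eq {e : ℕ}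
    (h : Ideal.map (algebraMap A B) (maximalIdeal A) = maximalIdeal B ^ e) : ramIdx A B = e := by
  classical
  have hex : ∃ e : ℕ, Ideal.map (algebraMap A B) (maximalIdeal A) = maximalIdeal B ^ e := ⟨e, h⟩
  unfold ramIdx
  rw [dif_pos hex]
  have h2 := Nat.find_spec hex
  exact ramIdx_pow_injective (B := B) (h2.symm.trans h)

/-- If a uniformiser of `A` is `u ϖB ^ e` in `B`, then `𝔪_A B = 𝔪_B ^ e`. -/
theorem ramIdx_map_eq_pow_of_eq {ϖ : A} (hϖ : Irreducible ϖ) {ϖB : B} (hϖB : Irreducible ϖB)
    {u : Bˣ} {e : ℕ} (h : algebraMap A B ϖ = (u : B) * ϖB ^ e) :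
    Ideal.map (algebraMap A B) (maximalIdeal A) = maximalIdeal B ^ e := by
  rw [(IsDiscreteValuationRing.irreducible_iff_uniformizer ϖ).1 hϖ,
    (IsDiscreteValuationRing.irreducible_iff_uniformizer ϖB).1 hϖB, Ideal.map_span,
    Set.image_singleton, h, Ideal.span_singleton_pow]
  exact Ideal.span_singleton_eq_span_singleton.2
    (associated_unit_mul_left _ _ u.isUnit)

theorem ramIdx_exists_map_eq_pow (hinj : Function.Injective (algebraMap A B)) :
    ∃ e : ℕ, Ideal.map (algebraMap A B) (maximalIdeal A) = maximalIdeal B ^ e := by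
  obtain ⟨ϖ, hϖ⟩ := IsDiscreteValuationRing.exists_irreducible A
  obtain ⟨ϖB, hϖB⟩ := IsDiscreteValuationRing.exists_irreducible B
  have h0 : algebraMap A B ϖ ≠ 0 := fun h => hϖ.ne_zero (hinj (by rw [h, map_zero]))
  obtain ⟨e, u, hu⟩ := IsDiscreteValuationRing.eq_unit_mul_pow_irreducible h0 hϖB
  exact ⟨e, ramIdx_map_eq_pow_of_eq hϖ hϖB hu⟩

/-- `𝔪_A B = 𝔪_B ^ e`, `e = ramIdx A B`. -/
theorem map_maximalIdeal_eq_pow_ramIdx (hinj : Function.Injective (algebraMap A B)) :
    Ideal.map (algebraMap A B) (maximalIdeal A) = maximalIdeal B ^ ramIdx A B := by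
  obtain ⟨e, he⟩ := ramIdx_exists_map_eq_pow hinj
  rw [ramIdx_eq_of_map_eq he, he]

/-- unramified means `e = 1`. -/
theorem ramIdx_eq_one_of_isUnramifiedExt (h : IsUnramifiedExt A B) : ramIdx A B = 1 :=
  ramIdx_eq_of_map_eq (by rw [pow_one]; exact h)

theorem isUnramifiedExt_of_ramIdx_eq_one (hinj : Function.Injective (algebraMap A B))
    (h : ramIdx A B = 1) : IsUnramifiedExt A B := by
  have := map_maximalIdeal_eq_pow_ramIdx hinj
  rw [h, pow_one] at this
  exact this

end RamIdxDef

section OrdRam

variable (A K L B : Type*) [CommRing A] [IsDomain A] [IsDiscreteValuationRing A]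
  [Field K] [Algebra A K] [IsFractionRing A K]
  [Field L] [Algebra K L] [Algebra A L] [IsScalarTower A K L]
  [CommRing B] [IsDomain B] [IsDiscreteValuationRing B] [Algebra A B] [Algebra B L]
  [IsScalarTower A B L] [IsFractionRing B L]

include K L in
omit [IsDomain A] [IsDiscreteValuationRing A] [IsDomain B] [IsDiscreteValuationRing B]
  [IsFractionRing B L] in
/-- `A → B` is injective (because `A → K → L` is). -/
theorem ramIdx_algebraMap_injective : Function.Injective (algebraMap A B) := by
  have h : Function.Injective (algebraMap A L) := by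
    rw [IsScalarTower.algebraMap_eq A K L]
    exact (algebraMap K L).injective.comp (IsFractionRing.injective A K)
  rw [IsScalarTower.algebraMap_eq A B L] at h
  exact Function.Injective.of_comp h

/-- `ord_L x = e * ord_K x` for `x ∈ Kˣ`. -/
theorem ord_algebraMap_eq_ramIdx_mul (x : Kˣ) :
    ord B L (Units.map (algebraMap K L : K →* L) x) = (ramIdx A B : ℤ) * ord A K x := by
  have hinj := ramIdx_algebraMap_injective A K L B
  obtain ⟨ϖ, hϖ⟩ := IsDiscreteValuationRing.exists_irreducible A
  obtain ⟨ϖB, hϖB⟩ := IsDiscreteValuationRing.exists_irreducible B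
  have h0 : algebraMap A B ϖ ≠ 0 := fun h => hϖ.ne_zero (hinj (by rw [h, map_zero]))
  obtain ⟨e, u, hu⟩ := IsDiscreteValuationRing.eq_unit_mul_pow_irreducible h0 hϖB
  have he : ramIdx A B = e := ramIdx_eq_of_map_eq (ramIdx_map_eq_pow_of_eq hϖ hϖB hu)
  have hϖK : algebraMap A K ϖ ≠ 0 := algebraMap_ne_zero_of_ne_zero A K hϖ.ne_zero
  have hϖL : algebraMap B L ((u : B) * ϖB ^ e) ≠ 0 := by
    rw [← hu]; exact algebraMap_ne_zero_of_ne_zero B L h0
  obtain ⟨w, hw⟩ := exists_eq_zpow_mul_unit A K (ord_irreducible A K hϖ hϖK) x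
  have e1 : Units.map (algebraMap K L : K →* L) (Units.mk0 (algebraMap A K ϖ) hϖK) =
      Units.mk0 (algebraMap B L ((u : B) * ϖB ^ e)) hϖL := by
    ext
    simp [← hu, ← IsScalarTower.algebraMap_apply]
  have e2 : Units.map (algebraMap K L : K →* L) (Units.map (algebraMap A K : A →* K) w) =
      Units.map (algebraMap B L : B →* L) (Units.map (algebraMap A B : A →* B) w) := by
    ext
    simp [← IsScalarTower.algebraMap_apply]
  conv_lhs => rw [hw]
  rw [map_mul, map_zpow, e1, e2, ord_mul, ord_zpow, ord_unit, ord_unit_mul_pow B L hϖB u e, he]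
  ring

end OrdRam

section EF

variable (A K L B : Type*) [CommRing A] [IsDomain A] [IsDiscreteValuationRing A]
  [Field K] [Algebra A K] [IsFractionRing A K]
  [Field L] [Algebra K L] [Algebra A L] [IsScalarTower A K L] [FiniteDimensional K L]
  [Algebra.IsSeparable K L]
  [CommRing B] [IsDomain B] [IsDiscreteValuationRing B] [Algebra A B] [Algebra B L]
  [IsScalarTower A B L] [IsIntegralClosure B A L]

include K L in
omit [IsDomain A] [IsDiscreteValuationRing A] [FiniteDimensional K L] [Algebra.IsSeparable K L]
  [IsDomain B] [IsDiscreteValuationRing B] in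
/-- In the `AKLB` block `A → B` is a local homomorphism (integral and injective); use
`haveI := ramIdx_isLocalHom A K L B` to get the `ResidueField A`-algebra `ResidueField B`. -/
theorem ramIdx_isLocalHom [IsLocalRing A] [IsLocalRing B] : IsLocalHom (algebraMap A B) := by
  have hint : Algebra.IsIntegral A B := IsIntegralClosure.isIntegral_algebra A L
  exact (algebraMap_isIntegral_iff.mpr hint).isLocalHom (ramIdx_algebraMap_injective A K L B)

variable [IsLocalHom (algebraMap A B)]

set_option linter.deprecated false in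
/-- `e f = n` for any `e` with `𝔪_A B = 𝔪_B ^ e`. -/
theorem ramIdx_mul_finrank_residue_of_map_eq {e : ℕ}
    (he : Ideal.map (algebraMap A B) (maximalIdeal A) = maximalIdeal B ^ e) :
    e * Module.finrank (ResidueField A) (ResidueField B) = Module.finrank K L := by
  have : Module.Finite A B := IsIntegralClosure.finite A K L B
  have : IsFractionRing B L := IsIntegralClosure.isFractionRing_of_finite_extension A K L B
  have hp0 : maximalIdeal A ≠ ⊥ := IsDiscreteValuationRing.not_a_field A
  have hP0 : maximalIdeal B ≠ ⊥ := IsDiscreteValuationRing.not_a_field B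
  have hP1 : maximalIdeal B ≠ ⊤ := Ideal.IsPrime.ne_top'
  have key := Ideal.ramificationIdx_mul_inertiaDeg_of_isLocalRing (R := A) B K L hp0
  have h1 : Ideal.ramificationIdx' (maximalIdeal A) (maximalIdeal B) = e := by
    apply Ideal.ramificationIdx'_spec
    · rw [he]
    · rw [he]
      exact not_le_of_gt (Ideal.pow_right_strictAnti _ hP0 hP1 (Nat.lt_succ_self e))
  have h2 : Ideal.inertiaDeg' (maximalIdeal A) (maximalIdeal B) =
      Module.finrank (ResidueField A) (ResidueField B) := by
    rw [Ideal.inertiaDeg'_algebraMap]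
    rfl
  rw [h1, h2] at key
  exact key

/-- **`e f = n`**. -/
theorem ramIdx_mul_finrank_residue :
    ramIdx A B * Module.finrank (ResidueField A) (ResidueField B) = Module.finrank K L :=
  ramIdx_mul_finrank_residue_of_map_eq A K L B
    (map_maximalIdeal_eq_pow_ramIdx (ramIdx_algebraMap_injective A K L B))

include K L in
theorem ramIdx_pos : 0 < ramIdx A B := by
  have h := ramIdx_mul_finrank_residue A K L B
  have hn : 0 < Module.finrank K L := Module.finrank_pos
  rcases Nat.eq_zero_or_pos (ramIdx A B) with h0 | h0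
  · rw [h0, zero_mul] at h; omega
  · exact h0

include K L in
theorem finrank_residue_pos : 0 < Module.finrank (ResidueField A) (ResidueField B) := by
  have h := ramIdx_mul_finrank_residue A K L B
  have hn : 0 < Module.finrank K L := Module.finrank_pos
  rcases Nat.eq_zero_or_pos (Module.finrank (ResidueField A) (ResidueField B)) with h0 | h0
  · rw [h0, mul_zero] at h; omega
  · exact h0

/-- **(L3)** `e f = n` in valuation form: `ord_L x * f = [L : K] * ord_K x` for `x ∈ Kˣ`. -/
theorem ord_algebraMap_mul_finrank_residue [IsFractionRing B L] (x : Kˣ) :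
    ord B L (Units.map (algebraMap K L : K →* L) x) *
        (Module.finrank (ResidueField A) (ResidueField B) : ℤ) =
      (Module.finrank K L : ℤ) * ord A K x := by
  rw [ord_algebraMap_eq_ramIdx_mul A K L B x, ← ramIdx_mul_finrank_residue A K L B]
  push_cast
  ring

/-- If `m f = [L : K]` then a uniformiser of `K` has order `m` in `L` (`m = e`). -/
theorem ord_algebraMap_eq_of_mul_finrank_residue [IsFractionRing B L] {m : ℕ}
    (hm : m * Module.finrank (ResidueField A) (ResidueField B) = Module.finrank K L)
    {ϖ : Kˣ} (hϖ : ord A K ϖ = 1) :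
    ord B L (Units.map (algebraMap K L : K →* L) ϖ) = m := by
  have h := ord_algebraMap_mul_finrank_residue A K L B ϖ
  rw [hϖ, mul_one, ← hm] at h
  have hf : (Module.finrank (ResidueField A) (ResidueField B) : ℤ) ≠ 0 := by
    have := finrank_residue_pos A K L B
    exact_mod_cast this.ne'
  push_cast at h
  exact mul_right_cancel₀ hf h

/-- the ramification index is the order in `L` of a uniformiser of `K`. -/
theorem ord_algebraMap_eq_ramIdx [IsFractionRing B L] {ϖ : Kˣ} (hϖ : ord A K ϖ = 1) :
    ord B L (Units.map (algebraMap K L : K →* L) ϖ) = ramIdx A B :=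
  ord_algebraMap_eq_of_mul_finrank_residue A K L B (ramIdx_mul_finrank_residue A K L B) hϖ

/-- unramified: the residue degree is the degree. -/
theorem finrank_residue_eq_of_isUnramifiedExt (h : IsUnramifiedExt A B) :
    Module.finrank (ResidueField A) (ResidueField B) = Module.finrank K L := by
  have := ramIdx_mul_finrank_residue A K L B
  rwa [ramIdx_eq_one_of_isUnramifiedExt h, one_mul] at this

include K L in
/-- `|k_B| = |k_A| ^ f`. -/
theorem natCard_residueField_eq_pow :
    Nat.card (ResidueField B) =
      Nat.card (ResidueField A) ^ Module.finrank (ResidueField A) (ResidueField B) := by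
  have : Module.Finite A B := IsIntegralClosure.finite A K L B
  exact Module.natCard_eq_pow_finrank

end EF

end Fermat.Agent.CFT
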