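import Mathlib

set_option autoImplicit false

/-!
# CFT, S55 local pool, chunk (LK): the Kummer sequence

`Ω` a field, `K ⊆ Ω`, `G = Ω ≃ₐ[K] Ω`, `p` a natural number.

* `muRep K Ω p : Rep ℤ G` : the `G`-module `μ_p(Ω)` (additive notation);
* `kummerSeq K Ω p : ShortComplex (Rep ℤ G)` : `μ_p ⟶ Ωˣ ⟶ Ωˣ`, the second map `x ↦ x ^ p`;
* `kummerSeq_shortExact` : it is short exact if `Ω` is algebraically closed and `p ≠ 0`;
* `muRepFp K Ω p : Rep (ZMod p) G` : the same module as an `𝔽_p`-representation, of cardinality `p`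
  and dimension `1` when `p` is prime and invertible in the algebraically closed field `Ω`;
* `exists_finite_intermediateField_fixing` : smoothness of `Ωˣ`.
-/

namespace Fermat.Agent.CFT

open CategoryTheory

universe u v w

section Generic

/-- exactness of a short complex of representations, elementwise (stated for a general coefficient
ring so that it can be used for `k = ℤ`, where instance synthesis for `forget₂` gets stuck). -/
theorem rep_shortComplex_exact_iff {k : Type u} {G : Type v} [CommRing k] [Monoid G]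
    (S : ShortComplex (Rep.{w} k G)) :
    S.Exact ↔ ∀ x₂ : S.X₂, S.g.hom x₂ = 0 → ∃ x₁ : S.X₁, S.f.hom x₁ = x₂ := by
  rw [← ShortComplex.exact_map_iff_of_faithful _ (forget₂ (Rep.{w} k G) (ModuleCat.{w} k)),
    ShortComplex.moduleCat_exact_iff]
  rfl

end Generic

section Action

variable (K : Type u) (Ω : Type v) [Field K] [Field Ω] [Algebra K Ω] (p : ℕ)

/-- the Galois action on the `p`-th roots of unity. -/
@[reducible] def muMulDistribMulAction : MulDistribMulAction (Ω ≃ₐ[K] Ω) (rootsOfUnity p Ω) where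
  smul g ζ := ⟨g • (ζ : Ωˣ), by
    rw [mem_rootsOfUnity, ← smul_pow', (mem_rootsOfUnity _ _).mp ζ.2, smul_one]⟩
  one_smul ζ := Subtype.ext (one_smul _ (ζ : Ωˣ))
  mul_smul g h ζ := Subtype.ext (mul_smul g h (ζ : Ωˣ))
  smul_mul g ζ ξ := Subtype.ext (smul_mul' g (ζ : Ωˣ) (ξ : Ωˣ))
  smul_one g := Subtype.ext (smul_one g)

attribute [local instance] muMulDistribMulAction

theorem coe_mu_smul (g : Ω ≃ₐ[K] Ω) (ζ : rootsOfUnity p Ω) :
    ((g • ζ : rootsOfUnity p Ω) : Ωˣ) = g • (ζ : Ωˣ) := rfl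

/-- `μ_p(Ω)` as a representation of `Ω ≃ₐ[K] Ω` over `ℤ`. -/
noncomputable def muRep : Rep ℤ (Ω ≃ₐ[K] Ω) :=
  Rep.ofMulDistribMulAction (Ω ≃ₐ[K] Ω) (rootsOfUnity p Ω)

theorem muRep_ρ_apply (g : Ω ≃ₐ[K] Ω) (a : Additive (rootsOfUnity p Ω)) :
    (muRep K Ω p).ρ g a = Additive.ofMul (g • a.toMul) := rfl

/-- the inclusion `μ_p ⟶ Ωˣ`. -/
noncomputable def muIncl : muRep K Ω p ⟶ Rep.ofAlgebraAutOnUnits K Ω :=
  Rep.ofHom
    { toLinearMap := (MonoidHom.toAdditive (rootsOfUnity p Ω).subtype).toIntLinearMap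
      isIntertwining' := fun g => by
        ext a
        rfl }

theorem muIncl_apply (a : Additive (rootsOfUnity p Ω)) :
    (muIncl K Ω p).hom a = Additive.ofMul ((a.toMul : rootsOfUnity p Ω) : Ωˣ) := rfl

/-- the `p`-th power map `Ωˣ ⟶ Ωˣ`. -/
noncomputable def unitsPowHom : Rep.ofAlgebraAutOnUnits K Ω ⟶ Rep.ofAlgebraAutOnUnits K Ω :=
  Rep.ofHom
    { toLinearMap := (MonoidHom.toAdditive (powMonoidHom p : Ωˣ →* Ωˣ)).toIntLinearMap
      isIntertwining' := fun g => by
        refine LinearMap.ext fun a => ?_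
        change Additive.ofMul ((g • Additive.toMul a) ^ p) =
          Additive.ofMul (g • (Additive.toMul a) ^ p)
        rw [smul_pow'] }

theorem unitsPowHom_apply (a : Additive Ωˣ) :
    (unitsPowHom K Ω p).hom a = Additive.ofMul ((a.toMul : Ωˣ) ^ p) := rfl

theorem muIncl_comp_unitsPowHom : muIncl K Ω p ≫ unitsPowHom K Ω p = 0 := by
  ext a
  change Additive (rootsOfUnity p Ω) at a
  change Additive.ofMul (((a.toMul : rootsOfUnity p Ω) : Ωˣ) ^ p) = Additive.ofMul (1 : Ωˣ)
  rw [(mem_rootsOfUnity _ _).mp (a.toMul).2]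

/-- the Kummer sequence `μ_p ⟶ Ωˣ ⟶ Ωˣ`. -/
noncomputable def kummerSeq : ShortComplex (Rep ℤ (Ω ≃ₐ[K] Ω)) :=
  ShortComplex.mk (muIncl K Ω p) (unitsPowHom K Ω p) (muIncl_comp_unitsPowHom K Ω p)

theorem kummerSeq_shortExact [IsAlgClosed Ω] (hp : p ≠ 0) : (kummerSeq K Ω p).ShortExact := by
  have hM : Mono (kummerSeq K Ω p).f := by
    rw [Rep.mono_iff_injective]
    intro a b hab
    change Additive (rootsOfUnity p Ω) at a b
    have h : ((a.toMul : rootsOfUnity p Ω) : Ωˣ) = ((b.toMul : rootsOfUnity p Ω) : Ωˣ) :=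
      congrArg Additive.toMul hab
    exact congrArg Additive.ofMul (Subtype.ext h)
  have hP : Epi (kummerSeq K Ω p).g := by
    rw [Rep.epi_iff_surjective]
    intro c
    change Additive Ωˣ at c
    obtain ⟨y, hy⟩ := IsAlgClosed.exists_pow_nat_eq ((c.toMul : Ωˣ) : Ω) (Nat.pos_of_ne_zero hp)
    have hy0 : y ≠ 0 := by
      rintro rfl
      rw [zero_pow hp] at hy
      exact (c.toMul : Ωˣ).ne_zero hy.symm
    refine ⟨Additive.ofMul (Units.mk0 y hy0), ?_⟩
    have h : (Units.mk0 y hy0) ^ p = (c.toMul : Ωˣ) :=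
      Units.ext (by rw [Units.val_pow_eq_pow_val, Units.val_mk0, hy])
    change Additive.ofMul ((Units.mk0 y hy0) ^ p) = c
    rw [h]
    rfl
  have hE : (kummerSeq K Ω p).Exact := by
    rw [rep_shortComplex_exact_iff]
    intro x hx
    change Additive Ωˣ at x
    have hx' : (x.toMul : Ωˣ) ^ p = 1 := congrArg Additive.toMul hx
    exact ⟨Additive.ofMul (⟨x.toMul, (mem_rootsOfUnity _ _).mpr hx'⟩ : rootsOfUnity p Ω), rfl⟩
  exact { exact := hE, mono_f := hM, epi_g := hP }

end Action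

section Fp

variable (K : Type u) (Ω : Type v) [Field K] [Field Ω] [Algebra K Ω] (p : ℕ)

attribute [local instance] muMulDistribMulAction

theorem mu_nsmul_eq_zero (a : Additive (rootsOfUnity p Ω)) : p • a = 0 := by
  have h : (a.toMul : rootsOfUnity p Ω) ^ p = 1 :=
    Subtype.ext ((mem_rootsOfUnity _ _).mp (a.toMul).2)
  exact congrArg Additive.ofMul h

/-- the `𝔽_p`-vector space structure on `μ_p(Ω)` (additive notation). -/
@[reducible] noncomputable def muZModModule : Module (ZMod p) (Additive (rootsOfUnity p Ω)) :=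
  AddCommGroup.zmodModule (mu_nsmul_eq_zero Ω p)

attribute [local instance] muZModModule

/-- the Galois action on `μ_p(Ω)` as an `𝔽_p`-linear representation. -/
noncomputable def muRepresentationFp :
    Representation (ZMod p) (Ω ≃ₐ[K] Ω) (Additive (rootsOfUnity p Ω)) where
  toFun g := AddMonoidHom.toZModLinearMap p ((muRep K Ω p).ρ g).toAddMonoidHom
  map_one' := by
    apply LinearMap.ext
    intro a
    change (muRep K Ω p).ρ 1 a = a
    rw [map_one]
    rfl
  map_mul' g h := by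
    apply LinearMap.ext
    intro a
    change (muRep K Ω p).ρ (g * h) a = (muRep K Ω p).ρ g ((muRep K Ω p).ρ h a)
    rw [map_mul]
    rfl

theorem muRepresentationFp_apply (g : Ω ≃ₐ[K] Ω) (a : Additive (rootsOfUnity p Ω)) :
    muRepresentationFp K Ω p g a = Additive.ofMul (g • a.toMul) := rfl

/-- `μ_p(Ω)` as a representation of `Ω ≃ₐ[K] Ω` over `𝔽_p`. -/
noncomputable def muRepFp : Rep (ZMod p) (Ω ≃ₐ[K] Ω) := Rep.of (muRepresentationFp K Ω p)

theorem muRepFp_ρ_apply (g : Ω ≃ₐ[K] Ω) (a : Additive (rootsOfUnity p Ω)) :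
    (muRepFp K Ω p).ρ g a = Additive.ofMul (g • a.toMul) := rfl

/-- the underlying additive groups of `muRep` and `muRepFp` coincide (both are
`Additive (rootsOfUnity p Ω)`), compatibly with the actions. -/
theorem muRepFp_ρ_eq_muRep_ρ (g : Ω ≃ₐ[K] Ω) (a : Additive (rootsOfUnity p Ω)) :
    (muRepFp K Ω p).ρ g a = (muRep K Ω p).ρ g a := rfl

variable [IsAlgClosed Ω] [Fact p.Prime] (hpΩ : (p : Ω) ≠ 0)

include hpΩ

theorem natCard_rootsOfUnity_of_isAlgClosed : Nat.card (rootsOfUnity p Ω) = p := by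
  have : NeZero (p : Ω) := ⟨hpΩ⟩
  have : NeZero p := ⟨(Fact.out : p.Prime).ne_zero⟩
  exact HasEnoughRootsOfUnity.natCard_rootsOfUnity Ω p

theorem natCard_muRepFp : Nat.card (muRepFp K Ω p) = p :=
  natCard_rootsOfUnity_of_isAlgClosed Ω p hpΩ

theorem natCard_muRep : Nat.card (muRep K Ω p) = p :=
  natCard_rootsOfUnity_of_isAlgClosed Ω p hpΩ

theorem finrank_muRepFp : Module.finrank (ZMod p) (muRepFp K Ω p) = 1 := by
  have hcard : Nat.card (muRepFp K Ω p) = p := natCard_muRepFp K Ω p hpΩ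
  have : Finite (muRepFp K Ω p) := Nat.finite_of_card_ne_zero (by
    rw [hcard]; exact (Fact.out : p.Prime).ne_zero)
  have h := Module.natCard_eq_pow_finrank (K := ZMod p) (V := muRepFp K Ω p)
  rw [hcard, Nat.card_zmod] at h
  have hp1 : 1 < p := (Fact.out : p.Prime).one_lt
  exact (Nat.pow_right_injective hp1 (by simpa using h)).symm

/-- the Galois group acts on `μ_p` through the mod `p` cyclotomic character (Mathlib's
`modularCyclotomicCharacter`). -/
theorem muRepFp_ρ_eq_cyclotomic_smul (g : Ω ≃ₐ[K] Ω) (a : Additive (rootsOfUnity p Ω)) :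
    haveI : NeZero p := ⟨(Fact.out : p.Prime).ne_zero⟩
    (muRepFp K Ω p).ρ g a =
      ((modularCyclotomicCharacter Ω (natCard_rootsOfUnity_of_isAlgClosed Ω p hpΩ)
        (g : Ω ≃+* Ω) : (ZMod p)ˣ) : ZMod p) • a := by
  haveI : NeZero p := ⟨(Fact.out : p.Prime).ne_zero⟩
  set c : ZMod p := ((modularCyclotomicCharacter Ω (natCard_rootsOfUnity_of_isAlgClosed Ω p hpΩ)
    (g : Ω ≃+* Ω) : (ZMod p)ˣ) : ZMod p) with hc
  have h1 : c • a = c.val • a := by
    rw [← Nat.cast_smul_eq_nsmul (ZMod p), ZMod.natCast_zmod_val]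
  rw [h1, muRepFp_ρ_apply]
  have h2 : g • (a.toMul : rootsOfUnity p Ω) = (a.toMul : rootsOfUnity p Ω) ^ c.val := by
    apply Subtype.ext
    apply Units.ext
    have := modularCyclotomicCharacter.spec (L := Ω)
      (natCard_rootsOfUnity_of_isAlgClosed Ω p hpΩ) (g : Ω ≃+* Ω) (a.toMul).2
    rw [Subgroup.coe_pow, Units.val_pow_eq_pow_val]
    exact this
  rw [h2]
  rfl

end Fp

section Smooth

variable (K : Type u) (Ω : Type v) [Field K] [Field Ω] [Algebra K Ω]

/-- smoothness of `Ω` (hence of `Ωˣ`) as a Galois module: every element is fixed by the fixing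
subgroup of a finite subextension. -/
theorem exists_finite_intermediateField_fixing [Algebra.IsAlgebraic K Ω] (a : Ω) :
    ∃ L : IntermediateField K Ω, FiniteDimensional K L ∧
      ∀ s ∈ L.fixingSubgroup, s a = a := by
  refine ⟨IntermediateField.adjoin K {a},
    IntermediateField.adjoin.finiteDimensional (Algebra.IsIntegral.isIntegral a), ?_⟩
  intro s hs
  exact hs ⟨a, IntermediateField.mem_adjoin_simple_self K a⟩

/-- smoothness of `Ωˣ`. -/
theorem exists_finite_intermediateField_fixing_units [Algebra.IsAlgebraic K Ω] (a : Ωˣ) :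
    ∃ L : IntermediateField K Ω, FiniteDimensional K L ∧
      ∀ s ∈ L.fixingSubgroup, (Rep.ofAlgebraAutOnUnits K Ω).ρ s (Additive.ofMul a) =
        Additive.ofMul a := by
  obtain ⟨L, hL, h⟩ := exists_finite_intermediateField_fixing K Ω (a : Ω)
  refine ⟨L, hL, fun s hs => ?_⟩
  apply congrArg Additive.ofMul
  exact Units.ext (h s hs)

/-- smoothness of `μ_p(Ω)`. -/
theorem exists_finite_intermediateField_fixing_mu [Algebra.IsAlgebraic K Ω] (p : ℕ)
    (a : Additive (rootsOfUnity p Ω)) :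
    ∃ L : IntermediateField K Ω, FiniteDimensional K L ∧
      ∀ s ∈ L.fixingSubgroup, (muRep K Ω p).ρ s a = a := by
  obtain ⟨L, hL, h⟩ := exists_finite_intermediateField_fixing K Ω
    (((a.toMul : rootsOfUnity p Ω) : Ωˣ) : Ω)
  refine ⟨L, hL, fun s hs => ?_⟩
  apply congrArg Additive.ofMul
  exact Subtype.ext (Units.ext (h s hs))

end Smooth

end Fermat.Agent.CFT
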