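import Fermat.Agent.CFT.Coh.CyclicHerbrand

set_option autoImplicit false

/-!
# CFT stream [B] Local : multiplicative `G`-modules in the vocabulary of `Coh/Interface.lean`

For a commutative group `M` with a `MulDistribMulAction G M` we put the corresponding additive
`G`-module structure on `Additive M` (`additiveDistribMulAction`, a reducible def to be used as
a local instance) and express `tateH0Card`, `tateH1Card` through the multiplicative maps
`mulNormHom G M : m ↦ ∏ g, g • m` and `mulSubOneHom M σ : m ↦ σ • m / m`.
-/

namespace Fermat.Agent.CFT

section

variable (G M : Type*) [Group G] [CommGroup M] [MulDistribMulAction G M]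

/-- The additive `G`-module attached to a multiplicative one. -/
@[reducible] def additiveDistribMulAction : DistribMulAction G (Additive M) where
  smul g a := Additive.ofMul (g • Additive.toMul a)
  one_smul a := by
    change Additive.ofMul ((1 : G) • Additive.toMul a) = a
    rw [one_smul]; rfl
  mul_smul g h a := by
    change Additive.ofMul ((g * h) • Additive.toMul a) =
      Additive.ofMul (g • Additive.toMul (Additive.ofMul (h • Additive.toMul a)))
    rw [mul_smul]; rfl
  smul_zero g := by
    change Additive.ofMul (g • (1 : M)) = 0
    rw [smul_one]; rfl
  smul_add g a b := by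
    change Additive.ofMul (g • (Additive.toMul a * Additive.toMul b)) =
      Additive.ofMul (g • Additive.toMul a) + Additive.ofMul (g • Additive.toMul b)
    rw [smul_mul']; rfl

attribute [local instance] additiveDistribMulAction

theorem additive_smul_def (g : G) (a : Additive M) :
    g • a = Additive.ofMul (g • Additive.toMul a) := rfl

/-- `m ↦ σ • m / m`. -/
def mulSubOneHom (σ : G) : M →* M where
  toFun m := σ • m / m
  map_one' := by simp
  map_mul' u v := by rw [smul_mul', mul_div_mul_comm]

@[simp] theorem mulSubOneHom_apply (σ : G) (m : M) : mulSubOneHom G M σ m = σ • m / m := rfl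

variable [Fintype G]

/-- `m ↦ ∏ g, g • m`. -/
def mulNormHom : M →* M where
  toFun m := ∏ g : G, g • m
  map_one' := by simp
  map_mul' u v := by simp [smul_mul', Finset.prod_mul_distrib]

@[simp] theorem mulNormHom_apply (m : M) : mulNormHom G M m = ∏ g : G, g • m := rfl

theorem normHom_additive : normHom G (Additive M) = MonoidHom.toAdditive (mulNormHom G M) := by
  refine AddMonoidHom.ext fun a => ?_
  change ∑ τ : G, τ • a = Additive.ofMul (∏ g : G, g • Additive.toMul a)
  exact (ofMul_prod Finset.univ (fun g : G => g • Additive.toMul a)).symm

omit [Fintype G] in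
theorem subOneHom_additive (σ : G) :
    subOneHom (Additive M) σ = MonoidHom.toAdditive (mulSubOneHom G M σ) := by
  refine AddMonoidHom.ext fun a => ?_
  rfl

theorem tateH0Card_additive (σ : G) :
    tateH0Card G (Additive M) σ = (mulNormHom G M).range.relIndex (mulSubOneHom G M σ).ker := by
  unfold tateH0Card hIndex
  rw [normHom_additive, subOneHom_additive, MonoidHom.coe_toAdditive_range, MonoidHom.coe_toAdditive_ker,
    Subgroup.relIndex_toAddSubgroup]

theorem tateH1Card_additive (σ : G) :
    tateH1Card G (Additive M) σ = (mulSubOneHom G M σ).range.relIndex (mulNormHom G M).ker := by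
  unfold tateH1Card hIndex
  rw [normHom_additive, subOneHom_additive, MonoidHom.coe_toAdditive_range, MonoidHom.coe_toAdditive_ker,
    Subgroup.relIndex_toAddSubgroup]

end

end Fermat.Agent.CFT
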