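import Fermat.Agent.CFT.Local.OrdBasic

set_option autoImplicit false

/-!
# CFT stream [B] Local : valuation of norms, the unramified norm group

`unramifiedNormIffDvd_holds` : contract [B-C2] from contract [B-C1].
-/

namespace Fermat.Agent.CFT

open IsLocalRing

section

variable (A K L B : Type*) [CommRing A] [IsDomain A] [IsDiscreteValuationRing A]
  [Field K] [Algebra A K] [IsFractionRing A K]
  [Field L] [Algebra K L] [Algebra A L] [IsScalarTower A K L] [FiniteDimensional K L]
  [IsGalois K L]
  [CommRing B] [IsDomain B] [IsDiscreteValuationRing B] [Algebra A B] [Algebra B L]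
  [IsScalarTower A B L] [IsIntegralClosure B A L]

/-- Compatibility of the integral norm with the field norm. -/
theorem algebraMap_norm_eq_norm (b : B) :
    algebraMap A K (Algebra.norm A b) = Algebra.norm K (algebraMap B L b) := by
  have : Module.Finite A B := IsIntegralClosure.finite A K L B
  have : Module.IsTorsionFree A L := .trans_faithfulSMul A K L
  have : Module.Free A B := IsIntegralClosure.module_free A K L B
  have : Algebra.IsIntegral A B := IsIntegralClosure.isIntegral_algebra A L
  have : Module.IsTorsionFree A B := inferInstance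
  rw [← Algebra.intNorm_eq_norm, Algebra.algebraMap_intNorm (K := K) (L := L)]

theorem algebraMap_intUnitsNorm (w : Bˣ) :
    Units.map (algebraMap A K : A →* K) (intUnitsNorm A B w) =
      unitsNorm K L (Units.map (algebraMap B L : B →* L) w) := by
  ext
  simp [intUnitsNorm, unitsNorm, algebraMap_norm_eq_norm A K L B]

variable [IsFractionRing B L]

omit [FiniteDimensional K L] [IsGalois K L] [IsIntegralClosure B A L] [IsFractionRing B L]
  [Field K] [Algebra A K] [IsFractionRing A K] [Field L] [Algebra K L] [Algebra A L]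
  [IsScalarTower A K L] [Algebra B L] [IsScalarTower A B L] in
theorem irreducible_algebraMap_of_unramified (h : IsUnramifiedExt A B) {ϖ : A}
    (hϖ : Irreducible ϖ) : Irreducible (algebraMap A B ϖ) := by
  rw [IsDiscreteValuationRing.irreducible_iff_uniformizer] at hϖ ⊢
  rw [← h, hϖ, Ideal.map_span, Set.image_singleton]

omit [FiniteDimensional K L] [IsGalois K L] [IsIntegralClosure B A L] in
/-- In the unramified case `ord_L` restricted to `K` is `ord_K`. -/
theorem ord_algebraMap_unramified (h : IsUnramifiedExt A B) (x : Kˣ) :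
    ord B L (Units.map (algebraMap K L : K →* L) x) = ord A K x := by
  obtain ⟨ϖ, hϖ⟩ := IsDiscreteValuationRing.exists_irreducible A
  have hϖK : algebraMap A K ϖ ≠ 0 := algebraMap_ne_zero_of_ne_zero A K hϖ.ne_zero
  have hϖB := irreducible_algebraMap_of_unramified A B h hϖ
  have hϖL : algebraMap B L (algebraMap A B ϖ) ≠ 0 :=
    algebraMap_ne_zero_of_ne_zero B L hϖB.ne_zero
  obtain ⟨u, hu⟩ := exists_eq_zpow_mul_unit A K (ord_irreducible A K hϖ hϖK) x
  have e1 : Units.map (algebraMap K L : K →* L) (Units.mk0 (algebraMap A K ϖ) hϖK) =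
      Units.mk0 (algebraMap B L (algebraMap A B ϖ)) hϖL := by
    ext
    simp [← IsScalarTower.algebraMap_apply]
  have e2 : Units.map (algebraMap K L : K →* L) (Units.map (algebraMap A K : A →* K) u) =
      Units.map (algebraMap B L : B →* L) (Units.map (algebraMap A B : A →* B) u) := by
    ext
    simp [← IsScalarTower.algebraMap_apply]
  conv_lhs => rw [hu]
  rw [map_mul, map_zpow, e1, e2, ord_mul, ord_zpow, ord_unit, ord_irreducible B L hϖB hϖL]
  ring

/-- In the unramified case `ord_K (N y) = [L : K] ord_L y`. -/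
theorem ord_unitsNorm_unramified (h : IsUnramifiedExt A B) (y : Lˣ) :
    ord A K (unitsNorm K L y) = Module.finrank K L * ord B L y := by
  rw [← ord_algebraMap_unramified A K L B h]
  have e1 : Units.map (algebraMap K L : K →* L) (unitsNorm K L y) =
      ∏ σ : L ≃ₐ[K] L, Units.map (σ : L →* L) y := by
    ext
    simp [unitsNorm, Algebra.norm_eq_prod_automorphisms]
  rw [e1, ord_prod]
  simp_rw [ord_galois A K L B]
  rw [Finset.sum_const, Finset.card_univ, ← Nat.card_eq_fintype_card,
    IsGalois.card_aut_eq_finrank]
  simp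

/-- **Contract [B-C2] from contract [B-C1].** -/
theorem unramifiedNormIffDvd_holds (h1 : UnramifiedUnitsAreNorms A B) :
    UnramifiedNormIffDvd A K L B := by
  intro h x
  constructor
  · rintro ⟨y, rfl⟩
    exact ⟨ord B L y, ord_unitsNorm_unramified A K L B h y⟩
  · rintro ⟨k, hk⟩
    obtain ⟨ϖ, hϖ⟩ := IsDiscreteValuationRing.exists_irreducible A
    have hϖK : algebraMap A K ϖ ≠ 0 := algebraMap_ne_zero_of_ne_zero A K hϖ.ne_zero
    obtain ⟨u, hu⟩ := exists_eq_zpow_mul_unit A K (ord_irreducible A K hϖ hϖK) x
    obtain ⟨w, hw⟩ := h1 h u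
    refine ⟨(Units.map (algebraMap K L : K →* L) (Units.mk0 (algebraMap A K ϖ) hϖK)) ^ k *
      Units.map (algebraMap B L : B →* L) w, ?_⟩
    rw [map_mul, map_zpow, ← algebraMap_intUnitsNorm A K L B, hw]
    have e1 : unitsNorm K L (Units.map (algebraMap K L : K →* L)
        (Units.mk0 (algebraMap A K ϖ) hϖK)) =
        (Units.mk0 (algebraMap A K ϖ) hϖK) ^ (Module.finrank K L) := by
      ext
      simp [unitsNorm, Algebra.norm_algebraMap]
    rw [e1]
    conv_rhs => rw [hu, hk]
    rw [← zpow_natCast, ← zpow_mul]

end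

end Fermat.Agent.CFT
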