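import Fermat.Agent.CFT.Local.UnitsCoh
import Fermat.Agent.CFT.Local.OrdBasic

set_option autoImplicit false

/-!
# CFT stream [B] Local : the local norm index `[Kˣ : N Lˣ] = [L : K]` for cyclic `L / K`

from `h(U_L) = 1`, through `1 → Bˣ → Lˣ → ℤ → 0`, Hilbert 90 and the Herbrand calculus of
stream [A].
-/

namespace Fermat.Agent.CFT

open IsLocalRing

attribute [local instance] additiveDistribMulAction

section Field

variable (K L : Type) [Field K] [Field L] [Algebra K L] [FiniteDimensional K L] [IsGalois K L]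

omit [FiniteDimensional K L] [IsGalois K L] in
theorem units_smul_def (τ : L ≃ₐ[K] L) (x : Lˣ) : ((τ • x : Lˣ) : L) = τ (x : L) := rfl

theorem ker_mulSubOneHom_field {σ : L ≃ₐ[K] L} (hσ : ∀ τ, τ ∈ Subgroup.zpowers σ) :
    (mulSubOneHom (L ≃ₐ[K] L) Lˣ σ).ker = (Units.map (algebraMap K L : K →* L)).range := by
  ext x
  rw [MonoidHom.mem_ker, mulSubOneHom_apply, div_eq_one, MonoidHom.mem_range]
  constructor
  · intro h
    have hfix : ∀ τ : L ≃ₐ[K] L, τ (x : L) = x := by
      intro τ
      obtain ⟨k, rfl⟩ := Subgroup.mem_zpowers_iff.1 (hσ τ)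
      have h1 : σ (x : L) = x := by rw [← units_smul_def, h]
      have h2 : ∀ n : ℕ, (σ ^ n) (x : L) = x := by
        intro n
        induction n with
        | zero => simp
        | succ n ih => rw [pow_succ, AlgEquiv.mul_apply, h1, ih]
      obtain ⟨n, rfl | rfl⟩ := Int.eq_nat_or_neg k
      · simpa using h2 n
      · rw [zpow_neg, zpow_natCast]
        have := h2 n
        calc (σ ^ n)⁻¹ (x : L) = (σ ^ n)⁻¹ ((σ ^ n) (x : L)) := by rw [this]
          _ = x := (σ ^ n).symm_apply_apply (x : L)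
    obtain ⟨y, hy⟩ := (IsGalois.mem_range_algebraMap_iff_fixed (F := K) (E := L) (x : L)).2 hfix
    have hy0 : y ≠ 0 := by
      rintro rfl
      rw [map_zero] at hy
      exact x.ne_zero hy.symm
    exact ⟨Units.mk0 y hy0, Units.ext (by simpa using hy)⟩
  · rintro ⟨y, rfl⟩
    ext
    rw [units_smul_def]
    simp

theorem range_mulNormHom_field :
    (mulNormHom (L ≃ₐ[K] L) Lˣ).range =
      (normSubgroup K L).map (Units.map (algebraMap K L : K →* L)) := by
  ext x
  simp only [MonoidHom.mem_range, Subgroup.mem_map, normSubgroup]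
  have key : ∀ y : Lˣ, mulNormHom (L ≃ₐ[K] L) Lˣ y =
      Units.map (algebraMap K L : K →* L) (unitsNorm K L y) := by
    intro y
    ext
    simp only [mulNormHom_apply, unitsNorm, Units.coe_map, MonoidHom.coe_coe, Units.coe_prod,
      Algebra.norm_eq_prod_automorphisms]
    rfl
  constructor
  · rintro ⟨y, rfl⟩
    exact ⟨unitsNorm K L y, ⟨y, rfl⟩, (key y).symm⟩
  · rintro ⟨_, ⟨y, rfl⟩, rfl⟩
    exact ⟨y, key y⟩

omit [FiniteDimensional K L] [IsGalois K L] in
theorem units_map_algebraMap_injective :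
    Function.Injective (Units.map (algebraMap K L : K →* L)) :=
  Units.map_injective (algebraMap K L).injective

/-- `|Ĥ⁰(G, Lˣ)| = [Kˣ : N Lˣ]`. -/
theorem tateH0Card_units_field {σ : L ≃ₐ[K] L} (hσ : ∀ τ, τ ∈ Subgroup.zpowers σ) :
    tateH0Card (L ≃ₐ[K] L) (Additive Lˣ) σ = (normSubgroup K L).index := by
  rw [tateH0Card_additive, ker_mulSubOneHom_field K L hσ, range_mulNormHom_field,
    MonoidHom.range_eq_map,
    Subgroup.relIndex_map_map_of_injective _ _ (units_map_algebraMap_injective K L),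
    Subgroup.relIndex_top_right]

/-- `|Ĥ¹(G, Lˣ)| = 1` : Hilbert 90. -/
theorem tateH1Card_units_field {σ : L ≃ₐ[K] L} (hσ : ∀ τ, τ ∈ Subgroup.zpowers σ) :
    tateH1Card (L ≃ₐ[K] L) (Additive Lˣ) σ = 1 := by
  rw [tateH1Card_additive, Subgroup.relIndex_eq_one]
  intro x hx
  rw [MonoidHom.mem_ker] at hx
  have hN : Algebra.norm K (x : L) = 1 := by
    have h1 : algebraMap K L (Algebra.norm K (x : L)) = 1 := by
      rw [Algebra.norm_eq_prod_automorphisms]
      have := congrArg (fun u : Lˣ => (u : L)) hx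
      simpa [mulNormHom_apply, Units.coe_prod] using this
    exact (algebraMap K L).injective (by rw [h1, map_one])
  have : IsCyclic (L ≃ₐ[K] L) := ⟨σ, hσ⟩
  obtain ⟨y, hy⟩ := groupCohomology.exists_div_of_norm_eq_one (K := K) (L := L) hσ hN
  refine ⟨y⁻¹, ?_⟩
  ext
  rw [mulSubOneHom_apply]
  simp only [smul_inv', div_inv_eq_mul, Units.val_mul, Units.val_inv_eq_inv_val]
  rw [units_smul_def, ← hy]
  have h1 : σ (y : L) ≠ 0 := by simp
  field_simp

end Field

section Tower

variable (A : Type*) (K L : Type) (B : Type*) [CommRing A] [IsDomain A] [IsDiscreteValuationRing A]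
  [Field K] [Algebra A K] [IsFractionRing A K]
  [Field L] [Algebra K L] [Algebra A L] [IsScalarTower A K L] [FiniteDimensional K L]
  [IsGalois K L]
  [CommRing B] [IsDomain B] [IsDiscreteValuationRing B] [Algebra A B] [Algebra B L]
  [IsScalarTower A B L] [IsIntegralClosure B A L]

omit [IsDiscreteValuationRing A] in
/-- **Local norm index from `h(U_L) = 1`.**  `G = Gal(L/K) = ⟨σ⟩` acts on `B` through
`IsIntegralClosure.MulSemiringAction A K L B` (i.e. `galRestrict`).  If
`[ (Bˣ)^G : N_G Bˣ ] = [ ker N_G : (σ - 1) Bˣ ] ≠ 0` then `[Kˣ : N Lˣ] = [L : K]`. -/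
theorem normSubgroup_index_of_unitsHerbrand {σ : L ≃ₐ[K] L}
    (hσ : ∀ τ, τ ∈ Subgroup.zpowers σ)
    (h0 : letI := IsIntegralClosure.MulSemiringAction A K L B
      letI : MulDistribMulAction (L ≃ₐ[K] L) Bˣ := Units.mulDistribMulActionRight
      (mulNormHom (L ≃ₐ[K] L) Bˣ).range.relIndex (mulSubOneHom (L ≃ₐ[K] L) Bˣ σ).ker ≠ 0)
    (h1 : letI := IsIntegralClosure.MulSemiringAction A K L B
      letI : MulDistribMulAction (L ≃ₐ[K] L) Bˣ := Units.mulDistribMulActionRight
      (mulNormHom (L ≃ₐ[K] L) Bˣ).range.relIndex (mulSubOneHom (L ≃ₐ[K] L) Bˣ σ).ker =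
      (mulSubOneHom (L ≃ₐ[K] L) Bˣ σ).range.relIndex (mulNormHom (L ≃ₐ[K] L) Bˣ).ker) :
    (normSubgroup K L).index = Module.finrank K L := by
  letI := IsIntegralClosure.MulSemiringAction A K L B
  letI : MulDistribMulAction (L ≃ₐ[K] L) Bˣ := Units.mulDistribMulActionRight
  have hfr : IsFractionRing B L := IsIntegralClosure.isFractionRing_of_finite_extension A K L B
  letI trivZ : DistribMulAction (L ≃ₐ[K] L) ℤ :=
    { smul := fun _ a => a
      one_smul := fun _ => rfl
      mul_smul := fun _ _ _ => rfl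
      smul_zero := fun _ => rfl
      smul_add := fun _ _ _ => rfl }
  have htriv : ∀ (τ : L ≃ₐ[K] L) (a : ℤ), τ • a = a := fun _ _ => rfl
  -- the maps
  let i : Additive Bˣ →+ Additive Lˣ := MonoidHom.toAdditive (Units.map (algebraMap B L : B →* L))
  let p : Additive Lˣ →+ ℤ :=
    AddMonoidHom.mk' (fun a => ord B L (Additive.toMul a)) (fun a b => ord_mul B L _ _)
  have hi : Function.Injective i := by
    intro a b hab
    have : Units.map (algebraMap B L : B →* L) (Additive.toMul a) =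
        Units.map (algebraMap B L : B →* L) (Additive.toMul b) := hab
    exact Units.map_injective (IsFractionRing.injective B L) this
  have hp : Function.Surjective p := by
    intro n
    obtain ⟨x, hx⟩ := ord_surjective B L n
    exact ⟨Additive.ofMul x, hx⟩
  have hex : i.range = p.ker := by
    ext a
    rw [AddMonoidHom.mem_range, AddMonoidHom.mem_ker]
    change (∃ u : Additive Bˣ, i u = a) ↔ ord B L (Additive.toMul a) = 0
    rw [ord_eq_zero_iff]
    constructor
    · rintro ⟨u, rfl⟩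
      exact ⟨Additive.toMul u, rfl⟩
    · rintro ⟨u, hu⟩
      exact ⟨Additive.ofMul u, hu⟩
  have hiG : ∀ (τ : L ≃ₐ[K] L) (a : Additive Bˣ), i (τ • a) = τ • i a := by
    intro τ a
    change Additive.ofMul (Units.map (algebraMap B L : B →* L) (τ • Additive.toMul a)) =
      Additive.ofMul (τ • Units.map (algebraMap B L : B →* L) (Additive.toMul a))
    congr 1
    ext
    rw [units_smul_def]
    exact algebraMap_galRestrict_apply A τ _
  have hpG : ∀ (τ : L ≃ₐ[K] L) (a : Additive Lˣ), p (τ • a) = τ • p a := by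
    intro τ a
    rw [htriv]
    change ord B L (τ • Additive.toMul a) = ord B L (Additive.toMul a)
    exact ord_galois A K L B τ _
  have key := tateCard_mul_mul_of_exact i p hi hp hex hiG hpG σ
  rw [tateH0Card_units_field K L hσ, tateH1Card_units_field K L hσ,
    tateH0Card_of_equiv_int (AddEquiv.refl ℤ) htriv, tateH1Card_of_equiv_int (AddEquiv.refl ℤ) htriv,
    tateH0Card_additive, tateH1Card_additive, ← h1, mul_one, one_mul] at key
  have := Nat.eq_of_mul_eq_mul_right (Nat.pos_of_ne_zero h0) (key.trans (mul_comm _ _))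
  rw [this, ← Nat.card_eq_fintype_card, IsGalois.card_aut_eq_finrank]

/-- **`h(U_L) = 1`, ring-level form** (the form produced by `Local/UnitsHerbrand.lean`):
for every generator `σ` of `G = Gal(L/K)`, acting on `B` through
`IsIntegralClosure.MulSemiringAction A K L B` and on `Bˣ` through
`Units.mulDistribMulActionRight`,
`[ker(σ - 1) : im N_G] = [ker N_G : im(σ - 1)] ≠ 0` on `Bˣ`. -/
def UnitsHerbrandOneRing : Prop :=
  ∀ σ : L ≃ₐ[K] L, (∀ τ, τ ∈ Subgroup.zpowers σ) →
    letI := IsIntegralClosure.MulSemiringAction A K L B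
    letI : MulDistribMulAction (L ≃ₐ[K] L) Bˣ := Units.mulDistribMulActionRight
    (mulNormHom (L ≃ₐ[K] L) Bˣ).range.relIndex (mulSubOneHom (L ≃ₐ[K] L) Bˣ σ).ker ≠ 0 ∧
    (mulNormHom (L ≃ₐ[K] L) Bˣ).range.relIndex (mulSubOneHom (L ≃ₐ[K] L) Bˣ σ).ker =
      (mulSubOneHom (L ≃ₐ[K] L) Bˣ σ).range.relIndex (mulNormHom (L ≃ₐ[K] L) Bˣ).ker

omit [IsDiscreteValuationRing A] in
/-- **Contract [B-C4] from `h(U_L) = 1`.** -/
theorem cyclicNormIndex_of_unitsHerbrandOneRing (h : UnitsHerbrandOneRing A K L B) :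
    CyclicNormIndex K L := by
  intro hcyc
  obtain ⟨σ, hσ⟩ := hcyc.exists_generator
  exact normSubgroup_index_of_unitsHerbrand A K L B hσ (h σ hσ).1 (h σ hσ).2

end Tower

end Fermat.Agent.CFT
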