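/-
CFT stream [B] Local, chunk (B5) (owner: helper13): the normal lattice inside the ring of integers
of a finite Galois extension of complete discretely valued fields, and finiteness of the index of
the higher unit groups.
-/
import Mathlib
import Fermat.Agent.CFT.Local.Interface

set_option autoImplicit false
set_option linter.unusedSectionVars false

namespace Fermat.Agent.CFT

open IsLocalRing

section Lattice

variable (A K L B : Type*) [CommRing A] [IsDomain A] [IsDiscreteValuationRing A]
  [Field K] [Algebra A K] [IsFractionRing A K]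
  [Field L] [Algebra K L] [Algebra A L] [IsScalarTower A K L] [FiniteDimensional K L] [IsGalois K L]
  [CommRing B] [IsDomain B] [Algebra A B] [Algebra B L]
  [IsScalarTower A B L] [IsIntegralClosure B A L]

include K L in
/-- `B` is a finite `A`-module. -/
theorem unitsLattice_moduleFinite : Module.Finite A B :=
  IsIntegralClosure.finite A K L B

include A in
/-- a normal basis element scaled into `B`. -/
theorem exists_normal_element :
    ∃ θ : B, LinearIndependent K (fun τ : L ≃ₐ[K] L => τ (algebraMap B L θ)) := by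
  obtain ⟨x, hx⟩ : ∃ x : L, x = IsGalois.normalBasis K L 1 := ⟨_, rfl⟩
  have halg : IsAlgebraic A x := by
    have h1 : IsAlgebraic K x := Algebra.IsAlgebraic.isAlgebraic x
    exact (IsFractionRing.isAlgebraic_iff A K L).mpr h1
  obtain ⟨y, hy0, hy⟩ := halg.exists_integral_multiple
  obtain ⟨θ, hθ⟩ := (IsIntegralClosure.isIntegral_iff (A := B)).mp hy
  refine ⟨θ, ?_⟩
  have hyK : algebraMap A K y ≠ 0 := by
    rwa [Ne, IsFractionRing.to_map_eq_zero_iff]
  have hb : LinearIndependent K (fun τ : L ≃ₐ[K] L => τ x) := by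
    have h := (IsGalois.normalBasis K L).linearIndependent
    have e : (fun τ : L ≃ₐ[K] L => τ x) = ⇑(IsGalois.normalBasis K L) := by
      funext τ
      rw [IsGalois.normalBasis_apply, hx]
    rw [e]
    exact h
  have e2 : (fun τ : L ≃ₐ[K] L => τ (algebraMap B L θ)) =
      fun τ : L ≃ₐ[K] L => (algebraMap A K y) • τ x := by
    funext τ
    have h3 : y • x = (algebraMap A K y) • x := (algebraMap_smul K y x).symm
    rw [hθ, h3, map_smul]
  rw [e2]
  exact hb.units_smul (fun _ => Units.mk0 _ hyK)

/-- **(B5a)** the normal lattice: a Galois orbit `(τ θ)_τ` in `B` which is `A`-linearly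
independent and whose `A`-span contains `ϖ ^ N0 • B`. -/
theorem exists_normal_lattice {ϖ : A} (hϖ : Irreducible ϖ) :
    ∃ (θ : B) (N0 : ℕ),
      LinearIndependent A (fun τ : L ≃ₐ[K] L => galRestrict A K L B τ θ) ∧
      ∀ b : B, ∃ c : (L ≃ₐ[K] L) → A,
        ϖ ^ N0 • b = ∑ τ : L ≃ₐ[K] L, c τ • galRestrict A K L B τ θ := by
  classical
  obtain ⟨θ, hθ⟩ := exists_normal_element A K L B
  have hfin : Module.Finite A B := unitsLattice_moduleFinite A K L B
  have hinjB : Function.Injective (algebraMap B L) :=
    IsIntegralClosure.algebraMap_injective B A L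
  -- the family in `B` and its image in `L`
  set w : (L ≃ₐ[K] L) → B := fun τ => galRestrict A K L B τ θ with hw
  have hwv : ∀ τ, algebraMap B L (w τ) = τ (algebraMap B L θ) := fun τ =>
    algebraMap_galRestrict_apply A τ θ
  -- a `K`-basis of `L`
  let bL : Module.Basis (L ≃ₐ[K] L) K L :=
    basisOfLinearIndependentOfCardEqFinrank hθ
      (Fintype.card_eq_nat_card.trans (IsGalois.card_aut_eq_finrank K L))
  have hbL : ∀ τ, bL τ = τ (algebraMap B L θ) := fun τ => by
    simp only [bL, coe_basisOfLinearIndependentOfCardEqFinrank]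
  -- `A`-linear independence
  have hliA : LinearIndependent A w := by
    have h1 : LinearIndependent A (fun τ : L ≃ₐ[K] L => τ (algebraMap B L θ)) :=
      hθ.restrict_scalars (by
        intro a b hab
        simp only [Algebra.smul_def, mul_one] at hab
        exact IsFractionRing.injective A K hab)
    refine LinearIndependent.of_comp (IsScalarTower.toAlgHom A B L).toLinearMap ?_
    have e : (⇑(IsScalarTower.toAlgHom A B L).toLinearMap ∘ w) =
        fun τ : L ≃ₐ[K] L => τ (algebraMap B L θ) := by
      funext τ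
      exact hwv τ
    rw [e]
    exact h1
  -- a common denominator for the coordinates of a finite generating set
  obtain ⟨S, hS⟩ := hfin.fg_top
  obtain ⟨⟨d, hd⟩, hdS⟩ := IsLocalization.exist_integer_multiples_of_finite (nonZeroDivisors A)
    (fun i : S × (L ≃ₐ[K] L) => bL.repr (algebraMap B L i.1.1) i.2)
  have hd0 : d ≠ 0 := nonZeroDivisors.ne_zero hd
  have hmem : ∀ b : B, d • b ∈ Submodule.span A (Set.range w) := by
    have hle : Submodule.span A (S : Set B) ≤
        (Submodule.span A (Set.range w)).comap (LinearMap.lsmul A B d) := by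
      rw [Submodule.span_le]
      intro s hs
      rw [SetLike.mem_coe, Submodule.mem_comap, LinearMap.lsmul_apply]
      choose a ha using fun τ : L ≃ₐ[K] L => hdS (⟨s, hs⟩, τ)
      have key : d • s = ∑ τ : L ≃ₐ[K] L, a τ • w τ := by
        apply hinjB
        rw [map_sum, Algebra.smul_def, map_mul, ← IsScalarTower.algebraMap_apply]
        have h2 : algebraMap B L s = ∑ τ : L ≃ₐ[K] L,
            bL.repr (algebraMap B L s) τ • bL τ := (bL.sum_repr _).symm
        rw [h2, Finset.mul_sum]
        refine Finset.sum_congr rfl fun τ _ => ?_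
        have h3 := ha τ
        simp only at h3
        have rhs : algebraMap B L (a τ • w τ) = algebraMap K L (algebraMap A K (a τ)) * bL τ := by
          rw [Algebra.smul_def, map_mul, ← IsScalarTower.algebraMap_apply A B L, hwv, ← hbL,
            IsScalarTower.algebraMap_apply A K L]
        rw [rhs, h3, Algebra.smul_def d, map_mul, IsScalarTower.algebraMap_apply A K L d,
          Algebra.smul_def]
        ring
      rw [key]
      exact Submodule.sum_mem _ fun τ _ =>
        Submodule.smul_mem _ _ (Submodule.subset_span ⟨τ, rfl⟩)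
    intro b
    have hb : b ∈ Submodule.span A (S : Set B) := by rw [hS]; trivial
    exact hle hb
  obtain ⟨n, u, hu⟩ := IsDiscreteValuationRing.eq_unit_mul_pow_irreducible hd0 hϖ
  refine ⟨θ, n, hliA, fun b => ?_⟩
  have h4 : ϖ ^ n • b ∈ Submodule.span A (Set.range w) := by
    have h5 : ϖ ^ n • b = ((u⁻¹ : Aˣ) : A) • (d • b) := by
      rw [hu, smul_smul, ← mul_assoc, Units.inv_mul, one_mul]
    rw [h5]
    exact Submodule.smul_mem _ _ (hmem b)
  obtain ⟨c, hc⟩ := (Submodule.mem_span_range_iff_exists_fun A).mp h4
  exact ⟨c, hc.symm⟩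

end Lattice

section FiniteIndex

variable (A B : Type*) [CommRing A] [IsDomain A] [IsDiscreteValuationRing A]
  [Finite (ResidueField A)]
  [CommRing B] [IsDomain B] [IsDiscreteValuationRing B] [Algebra A B] [Module.Finite A B]
  [FaithfulSMul A B]

include A in
/-- the residue field of `B` is finite. -/
theorem unitsLattice_finite_residueField : Finite (ResidueField B) :=
  IsLocalRing.ResidueField.finite_of_finite (R := A) (S := B) inferInstance

include A in
/-- the quotients `B ⧸ 𝔪_B ^ j` are finite. -/
theorem unitsLattice_finite_quotient_pow (j : ℕ) : Finite (B ⧸ maximalIdeal B ^ j) := by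
  haveI : Finite (B ⧸ maximalIdeal B) := unitsLattice_finite_residueField A B
  exact Ideal.finite_quotient_pow (IsNoetherian.noetherian _) j

/-- the higher unit group `1 + 𝔪_B ^ j` is the kernel of `Bˣ → (B ⧸ 𝔪_B ^ j)ˣ`. -/
theorem unitsFiltration_eq_ker (j : ℕ) :
    unitsFiltration B j = (Units.map (Ideal.Quotient.mk (maximalIdeal B ^ j)).toMonoidHom).ker := by
  ext u
  rw [MonoidHom.mem_ker, Units.ext_iff]
  change (u : B) - 1 ∈ maximalIdeal B ^ j ↔ Ideal.Quotient.mk (maximalIdeal B ^ j) (u : B) = 1
  rw [← map_one (Ideal.Quotient.mk (maximalIdeal B ^ j)), Ideal.Quotient.eq]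

include A in
/-- **(B5b1)** the higher unit groups of `B` have finite index. -/
theorem finiteIndex_unitsFiltration (j : ℕ) : (unitsFiltration B j).FiniteIndex := by
  haveI := unitsLattice_finite_quotient_pow A B j
  rw [unitsFiltration_eq_ker]
  exact Subgroup.finiteIndex_ker _

/-- **(B5b2)** `𝔪_A B = 𝔪_B ^ e` with `e ≠ 0`. -/
theorem exists_map_maximalIdeal_eq_pow :
    ∃ e : ℕ, e ≠ 0 ∧ Ideal.map (algebraMap A B) (maximalIdeal A) = maximalIdeal B ^ e := by
  obtain ⟨ϖB, hϖB⟩ := IsDiscreteValuationRing.exists_irreducible B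
  have hinj : Function.Injective (algebraMap A B) := FaithfulSMul.algebraMap_injective A B
  have hne : Ideal.map (algebraMap A B) (maximalIdeal A) ≠ ⊥ := by
    rw [Ne, Ideal.map_eq_bot_iff_of_injective hinj]
    exact IsDiscreteValuationRing.not_a_field A
  obtain ⟨e, he⟩ := IsDiscreteValuationRing.ideal_eq_span_pow_irreducible hne hϖB
  refine ⟨e, ?_, ?_⟩
  · rintro rfl
    rw [pow_zero, Ideal.span_singleton_one] at he
    have hloc : IsLocalHom (algebraMap A B) := inferInstance
    have hle : Ideal.map (algebraMap A B) (maximalIdeal A) ≤ maximalIdeal B :=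
      ((IsLocalRing.local_hom_TFAE (algebraMap A B)).out 0 2).mp hloc
    rw [he] at hle
    exact (maximalIdeal.isMaximal B).ne_top (top_le_iff.mp hle)
  · rw [he, hϖB.maximalIdeal_eq, Ideal.span_singleton_pow]

/-- **(B5b3)** any subgroup of `Bˣ` containing all units congruent to `1` modulo `ϖ ^ j B`
has finite index. -/
theorem finiteIndex_of_forall_smul_pow_mem {ϖ : A} (hϖ : Irreducible ϖ) (H : Subgroup Bˣ)
    (j : ℕ) (h : ∀ u : Bˣ, (∃ b : B, (u : B) - 1 = ϖ ^ j • b) → u ∈ H) : H.FiniteIndex := by
  obtain ⟨e, -, he⟩ := exists_map_maximalIdeal_eq_pow A B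
  haveI := finiteIndex_unitsFiltration A B (e * j)
  refine Subgroup.finiteIndex_of_le (H := unitsFiltration B (e * j)) fun u hu => h u ?_
  have h1 : maximalIdeal B ^ (e * j) = Ideal.span {algebraMap A B (ϖ ^ j)} := by
    rw [pow_mul, ← he, ← Ideal.map_pow, hϖ.maximalIdeal_eq, Ideal.span_singleton_pow,
      Ideal.map_span, Set.image_singleton]
  have h2 : (u : B) - 1 ∈ Ideal.span {algebraMap A B (ϖ ^ j)} := h1 ▸ hu
  obtain ⟨b, hb⟩ := Ideal.mem_span_singleton'.mp h2
  exact ⟨b, by rw [← hb, Algebra.smul_def, mul_comm]⟩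

end FiniteIndex

section AKLB

variable (A K L B : Type*) [CommRing A] [IsDomain A] [IsDiscreteValuationRing A]
  [Finite (ResidueField A)]
  [Field K] [Algebra A K] [IsFractionRing A K]
  [Field L] [Algebra K L] [Algebra A L] [IsScalarTower A K L] [FiniteDimensional K L] [IsGalois K L]
  [CommRing B] [IsDomain B] [IsDiscreteValuationRing B] [Algebra A B] [Algebra B L]
  [IsScalarTower A B L] [IsIntegralClosure B A L]

include K L in
/-- `A → B` is injective. -/
theorem unitsLattice_faithfulSMul : FaithfulSMul A B := by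
  rw [faithfulSMul_iff_algebraMap_injective]
  intro a b hab
  have h := congrArg (algebraMap B L) hab
  rw [← IsScalarTower.algebraMap_apply, ← IsScalarTower.algebraMap_apply,
    IsScalarTower.algebraMap_apply A K L, IsScalarTower.algebraMap_apply A K L] at h
  exact IsFractionRing.injective A K ((algebraMap K L).injective h)

include A K L in
/-- **(B5b1)**, `AKLB` form. -/
theorem finiteIndex_unitsFiltration_aklb (j : ℕ) : (unitsFiltration B j).FiniteIndex := by
  haveI := unitsLattice_moduleFinite A K L B
  haveI := unitsLattice_faithfulSMul A K L B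
  exact finiteIndex_unitsFiltration A B j

include K L in
/-- **(B5b2)**, `AKLB` form. -/
theorem exists_map_maximalIdeal_eq_pow_aklb :
    ∃ e : ℕ, e ≠ 0 ∧ Ideal.map (algebraMap A B) (maximalIdeal A) = maximalIdeal B ^ e := by
  haveI := unitsLattice_moduleFinite A K L B
  haveI := unitsLattice_faithfulSMul A K L B
  exact exists_map_maximalIdeal_eq_pow A B

include K L in
/-- **(B5b3)**, `AKLB` form: any subgroup of `Bˣ` containing all units congruent to `1` modulo
`ϖ ^ j B` has finite index. -/
theorem finiteIndex_of_forall_smul_pow_mem_aklb {ϖ : A} (hϖ : Irreducible ϖ) (H : Subgroup Bˣ)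
    (j : ℕ) (h : ∀ u : Bˣ, (∃ b : B, (u : B) - 1 = ϖ ^ j • b) → u ∈ H) : H.FiniteIndex := by
  haveI := unitsLattice_moduleFinite A K L B
  haveI := unitsLattice_faithfulSMul A K L B
  exact finiteIndex_of_forall_smul_pow_mem A B hϖ H j h

end AKLB

end Fermat.Agent.CFT
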