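import Fermat.Agent.CFT.Local.UnitsHerbrand
import Fermat.Agent.CFT.Local.UnitsLattice
import Fermat.Agent.CFT.Local.NormIndex

set_option autoImplicit false

/-!
# CFT stream [B] Local : `h(U_L) = 1` in the ring-level shape of `Local/NormIndex.lean`,
and the local norm index `[Kˣ : N Lˣ] = [L : K]` for cyclic extensions (contract [B-C4])
-/

namespace Fermat.Agent.CFT

open IsLocalRing

variable (A : Type*) (K L : Type) (B : Type*) [CommRing A] [IsDomain A] [IsDiscreteValuationRing A]
  [IsAdicComplete (maximalIdeal A) A] [Finite (ResidueField A)]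
  [Field K] [Algebra A K] [IsFractionRing A K]
  [Field L] [Algebra K L] [Algebra A L] [IsScalarTower A K L] [FiniteDimensional K L] [IsGalois K L]
  [CommRing B] [IsDomain B] [IsDiscreteValuationRing B] [Algebra A B] [Algebra B L]
  [IsScalarTower A B L] [IsIntegralClosure B A L]

/-- `h(U_L) = 1` for a finite cyclic extension, in the shape consumed by `Local/NormIndex.lean`. -/
theorem unitsHerbrandOneRing_holds : UnitsHerbrandOneRing A K L B := by
  classical
  intro σ hσ
  obtain ⟨ϖ, hϖ⟩ := IsDiscreteValuationRing.exists_irreducible A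
  obtain ⟨θ, N0, hlin, hN0⟩ := exists_normal_lattice A K L B hϖ
  haveI : Module.Finite A B := aklb_finite A K L B
  haveI : FaithfulSMul A B := aklb_faithfulSMul A K L B
  haveI : Algebra.IsIntegral A B := IsIntegralClosure.isIntegral_algebra A L
  haveI : IsLocalHom (algebraMap A B) := inferInstance
  letI act : MulSemiringAction (L ≃ₐ[K] L) B := IsIntegralClosure.MulSemiringAction A K L B
  letI act2 : MulDistribMulAction (L ≃ₐ[K] L) Bˣ := Units.mulDistribMulActionRight
  have hact : ∀ (τ : L ≃ₐ[K] L) (b : B), τ • b = galRestrict A K L B τ b := fun _ _ => rfl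
  haveI : SMulCommClass (L ≃ₐ[K] L) A B := ⟨fun τ a b => by
    rw [hact, hact, map_smul]⟩
  have hϖB : algebraMap A B ϖ ∈ maximalIdeal B := by
    rw [mem_maximalIdeal, mem_nonunits_iff]
    exact fun h => hϖ.not_isUnit (isUnit_of_map_unit (algebraMap A B) ϖ h)
  have key := relIndex_eq_of_lattice (G := L ≃ₐ[K] L) hϖ hϖB θ hlin N0 hN0 hσ
    (fun H h => finiteIndex_of_forall_smul_pow_mem_aklb A K L B hϖ H _ h)
  have e1 : mulNormHom (L ≃ₐ[K] L) Bˣ = galUnitsNorm (B := B) (L ≃ₐ[K] L) :=
    MonoidHom.ext fun u => rfl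
  have e2 : mulSubOneHom (L ≃ₐ[K] L) Bˣ σ = galUnitsSubOne (B := B) σ :=
    MonoidHom.ext fun u => rfl
  show (mulNormHom (L ≃ₐ[K] L) Bˣ).range.relIndex (mulSubOneHom (L ≃ₐ[K] L) Bˣ σ).ker ≠ 0 ∧
    (mulNormHom (L ≃ₐ[K] L) Bˣ).range.relIndex (mulSubOneHom (L ≃ₐ[K] L) Bˣ σ).ker =
      (mulSubOneHom (L ≃ₐ[K] L) Bˣ σ).range.relIndex (mulNormHom (L ≃ₐ[K] L) Bˣ).ker
  rw [e1, e2]
  exact key

include A B in
/-- **[B-C4]** the local norm index: `[Kˣ : N_{L/K} Lˣ] = [L : K]` for every finite cyclic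
extension `L / K` of a complete discretely valued field with finite residue field. -/
theorem cyclicNormIndex_holds : CyclicNormIndex K L :=
  cyclicNormIndex_of_unitsHerbrandOneRing A K L B (unitsHerbrandOneRing_holds A K L B)

end Fermat.Agent.CFT
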