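import Mathlib
import Fermat.Prelude.Thm_IsLocalRing_isAdicComplete_of_module_finite
import Fermat.Agent.CFT.Local.Interface
import Fermat.Agent.CFT.Local.Unramified

set_option autoImplicit false

/-!
# CFT stream [B] Local, layer (B2): in an unramified extension every unit is a norm

`unramifiedUnitsAreNorms_holds : UnramifiedUnitsAreNorms A K L B` (contract [B-C1] of
`Local/Interface.lean`), by bridging the `AKLB` setting to the ring-level statement
`exists_unit_prod_smul_eq_algebraMap` of `Local/Unramified.lean`.
-/

namespace Fermat.Agent.CFT

open IsLocalRing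

section Bridge

variable (A K L B : Type*) [CommRing A] [IsDomain A] [IsDiscreteValuationRing A]
  [Field K] [Algebra A K] [IsFractionRing A K]
  [Field L] [Algebra K L] [Algebra A L] [IsScalarTower A K L] [FiniteDimensional K L] [IsGalois K L]
  [CommRing B] [IsDomain B] [Algebra A B] [Algebra B L]
  [IsScalarTower A B L] [IsIntegralClosure B A L]

include K L in
/-- `B` is a finite `A`-module (AKLB, `L / K` finite separable). -/
theorem aklb_finite : Module.Finite A B := IsIntegralClosure.finite A K L B

include K L in
/-- `A → B` is injective. -/
theorem aklb_faithfulSMul : FaithfulSMul A B := by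
  rw [faithfulSMul_iff_algebraMap_injective]
  have h : Function.Injective (algebraMap A L) := by
    rw [IsScalarTower.algebraMap_eq A K L]
    exact (algebraMap K L).injective.comp (IsFractionRing.injective A K)
  rw [IsScalarTower.algebraMap_eq A B L] at h
  exact Function.Injective.of_comp h

/-- the integral norm is the product over the Galois group (AKLB, `L / K` Galois) -/
theorem algebraMap_norm_eq_prod_galRestrict [IsIntegrallyClosed B] [Module.Free A B]
    [Module.Finite A B] (b : B) :
    algebraMap A B (Algebra.norm A b) = ∏ σ : L ≃ₐ[K] L, galRestrict A K L B σ b := by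
  haveI : IsFractionRing B L := IsIntegralClosure.isFractionRing_of_finite_extension A K L B
  apply IsFractionRing.injective B L
  rw [← IsScalarTower.algebraMap_apply A B L, IsScalarTower.algebraMap_apply A K L,
    ← Algebra.intNorm_eq_norm, Algebra.algebraMap_intNorm (A := A) (K := K) (L := L) (B := B),
    Algebra.norm_eq_prod_automorphisms, map_prod]
  exact Finset.prod_congr rfl fun σ _ => (algebraMap_galRestrict_apply A σ b).symm

end Bridge

section Main

variable (A K L B : Type*) [CommRing A] [IsDomain A] [IsDiscreteValuationRing A]
  [IsAdicComplete (maximalIdeal A) A] [Finite (ResidueField A)]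
  [Field K] [Algebra A K] [IsFractionRing A K]
  [Field L] [Algebra K L] [Algebra A L] [IsScalarTower A K L] [FiniteDimensional K L] [IsGalois K L]
  [CommRing B] [IsDomain B] [IsDiscreteValuationRing B] [Algebra A B] [Algebra B L]
  [IsScalarTower A B L] [IsIntegralClosure B A L]

include K L in
/-- **[B-C1]** In an unramified extension of complete discretely valued fields with finite
residue field every unit of the base is the norm of a unit. -/
theorem unramifiedUnitsAreNorms_holds : UnramifiedUnitsAreNorms A B := by
  classical
  intro hunr a
  haveI : Module.Finite A B := aklb_finite A K L B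
  haveI : FaithfulSMul A B := aklb_faithfulSMul A K L B
  haveI : IsFractionRing B L := IsIntegralClosure.isFractionRing_of_finite_extension A K L B
  haveI : Algebra.IsIntegral A B := IsIntegralClosure.isIntegral_algebra A L
  haveI : Module.IsTorsionFree A B := inferInstance
  haveI : Module.Free A B := inferInstance
  letI : MulSemiringAction (L ≃ₐ[K] L) B := IsIntegralClosure.MulSemiringAction A K L B
  haveI : IsGaloisGroup (L ≃ₐ[K] L) A B := IsGaloisGroup.of_isFractionRing (L ≃ₐ[K] L) A B K L
  haveI : Finite (A ⧸ maximalIdeal A) := inferInstanceAs (Finite (ResidueField A))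
  haveI : IsLocalHom (algebraMap A B) := by
    refine ⟨fun x hx => ?_⟩
    by_contra hnu
    have h1 : x ∈ maximalIdeal A := hnu
    have h2 : algebraMap A B x ∈ maximalIdeal B := by
      rw [← hunr]; exact Ideal.mem_map_of_mem _ h1
    exact h2 hx
  haveI : IsAdicComplete (maximalIdeal B) B :=
    IsLocalRing.isAdicComplete_of_module_finite (𝒪 := A) (T := B)
  obtain ⟨v, hv⟩ := exists_unit_prod_smul_eq_algebraMap (L ≃ₐ[K] L) A B hunr a
  refine ⟨v, Units.ext ?_⟩
  apply FaithfulSMul.algebraMap_injective A B
  change algebraMap A B (Algebra.norm A (v : B)) = algebraMap A B a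
  rw [algebraMap_norm_eq_prod_galRestrict A K L B, ← hv]
  rfl

end Main

end Fermat.Agent.CFT
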