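import Mathlib
import Fermat.Agent.CFT.Local.Interface
import Fermat.Agent.CFT.Local.Unramified
import Fermat.Agent.CFT.Local.UnramifiedNorm

set_option autoImplicit false

/-!
# CFT stream [B] Local, layer (B4): the Frobenius of an unramified extension

`unramifiedFrobenius_holds : UnramifiedFrobenius A K L B` (contract [B-C3] of
`Local/Interface.lean`): an unramified extension `L / K` of complete discretely valued fields
with finite residue field is cyclic, generated by a Frobenius element `σ` with
`σ b ≡ b ^ |k| (mod 𝔪_B)` for all `b ∈ B`.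

Proof: by `residueHom_bijective` (`Local/Unramified.lean`) the reduction map
`Gal(L/K) → Gal(l/k)` is an isomorphism, and `Gal(l/k)` is generated by `x ↦ x ^ |k|`.
-/

namespace Fermat.Agent.CFT

open IsLocalRing

attribute [local instance] Ideal.Quotient.field

section RingLevel

variable (G : Type*) [Group G] [Finite G] (A B : Type*) [CommRing A] [CommRing B] [Algebra A B]
  [IsDomain A] [IsDiscreteValuationRing A] [IsDomain B] [IsDiscreteValuationRing B]
  [Module.Finite A B] [FaithfulSMul A B]
  [MulSemiringAction G B] [IsGaloisGroup G A B] [Finite (A ⧸ maximalIdeal A)]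

/-- Ring-level Frobenius: in an unramified extension of discrete valuation rings with finite
residue field and Galois group `G`, there is `σ : G` generating `G` with
`σ • b ≡ b ^ |k| (mod 𝔪_B)`. -/
theorem exists_frobenius_of_unramified
    (hunr : (maximalIdeal A).map (algebraMap A B) = maximalIdeal B) :
    ∃ σ : G, (∀ τ : G, τ ∈ Subgroup.zpowers σ) ∧
      ∀ b : B, σ • b - b ^ Nat.card (A ⧸ maximalIdeal A) ∈ maximalIdeal B := by
  classical
  have : Finite (B ⧸ maximalIdeal B) := Module.finite_of_finite (A ⧸ maximalIdeal A)
  let : Fintype (A ⧸ maximalIdeal A) := Fintype.ofFinite _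
  have hbij := residueHom_bijective G A B hunr
  let φ := FiniteField.frobeniusAlgEquivOfAlgebraic (A ⧸ maximalIdeal A) (B ⧸ maximalIdeal B)
  obtain ⟨σ, hσ⟩ := hbij.2 φ
  refine ⟨σ, fun τ => ?_, fun b => ?_⟩
  · obtain ⟨n, hn⟩ :=
      (FiniteField.bijective_frobeniusAlgEquivOfAlgebraic_pow (A ⧸ maximalIdeal A)
        (B ⧸ maximalIdeal B)).2 (residueHom G A B τ)
    refine ⟨(n.1 : ℤ), ?_⟩
    apply hbij.1
    simp only [zpow_natCast, map_pow, hσ]
    exact hn
  · rw [← Ideal.Quotient.eq, map_pow, ← residueHom_mk G A B σ b, hσ,
      FiniteField.coe_frobeniusAlgEquivOfAlgebraic, Nat.card_eq_fintype_card]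

end RingLevel

section Main

variable (A K L B : Type*) [CommRing A] [IsDomain A] [IsDiscreteValuationRing A]
  [IsAdicComplete (maximalIdeal A) A] [Finite (ResidueField A)]
  [Field K] [Algebra A K] [IsFractionRing A K]
  [Field L] [Algebra K L] [Algebra A L] [IsScalarTower A K L] [FiniteDimensional K L] [IsGalois K L]
  [CommRing B] [IsDomain B] [IsDiscreteValuationRing B] [Algebra A B] [Algebra B L]
  [IsScalarTower A B L] [IsIntegralClosure B A L]

omit [IsAdicComplete (maximalIdeal A) A] in
/-- **[B-C3]** An unramified extension of complete discretely valued fields with finite residue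
field is cyclic, generated by a Frobenius `σ` with `σ b ≡ b ^ |k| (mod 𝔪_B)`. -/
theorem unramifiedFrobenius_holds : UnramifiedFrobenius A K L B := by
  classical
  intro hunr
  have : Module.Finite A B := aklb_finite A K L B
  have : FaithfulSMul A B := aklb_faithfulSMul A K L B
  have : IsFractionRing B L := IsIntegralClosure.isFractionRing_of_finite_extension A K L B
  have : Algebra.IsIntegral A B := IsIntegralClosure.isIntegral_algebra A L
  let : MulSemiringAction (L ≃ₐ[K] L) B := IsIntegralClosure.MulSemiringAction A K L B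
  have : IsGaloisGroup (L ≃ₐ[K] L) A B := IsGaloisGroup.of_isFractionRing (L ≃ₐ[K] L) A B K L
  have : Finite (A ⧸ maximalIdeal A) := inferInstanceAs (Finite (ResidueField A))
  obtain ⟨σ, hgen, hfrob⟩ := exists_frobenius_of_unramified (L ≃ₐ[K] L) A B hunr
  refine ⟨σ, hgen, fun b => ⟨σ • b - b ^ Nat.card (ResidueField A), hfrob b, ?_⟩⟩
  rw [add_sub_cancel]
  exact (algebraMap_galRestrict_apply A σ b).symm

end Main

end Fermat.Agent.CFT
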