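import Fermat.Agent.CFT.Local.CompleteDVRExt
import Fermat.Agent.CFT.Local.UnitsHerbrandRing
import Fermat.Agent.CFT.Local.UnramifiedNorm
import Fermat.Agent.CFT.Local.UnramifiedFrob
import Fermat.Agent.CFT.Local.OrdNorm

set_option autoImplicit false

/-!
# CFT stream [B] Local, Tier 2 : the field-only vocabulary

`IsLocalFieldNA K` : `K` is the fraction field of a complete discrete valuation ring with finite
residue field (universe `0`).  Finite separable extensions of such fields are again such fields
(`IsLocalFieldNA.of_finite`), so towers need no bookkeeping of rings of integers.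
-/

namespace Fermat.Agent.CFT

open IsLocalRing

/-- `K` is a complete discretely valued field with finite residue field. -/
def IsLocalFieldNA (K : Type) [Field K] : Prop :=
  ∃ (A : Type) (_ : CommRing A) (_ : IsDomain A) (_ : IsDiscreteValuationRing A)
    (_ : Algebra A K), IsFractionRing A K ∧ IsAdicComplete (maximalIdeal A) A ∧
      Finite (ResidueField A)

section Ext

variable {K L : Type} [Field K] [Field L] [Algebra K L] [FiniteDimensional K L]
  [Algebra.IsSeparable K L]

/-- A finite separable extension of a local field is a local field. -/
theorem IsLocalFieldNA.of_finite (hK : IsLocalFieldNA K) : IsLocalFieldNA L := by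
  obtain ⟨A, _, _, _, _, hfr, hcomp, hfin⟩ := hK
  letI : Algebra A L := ((algebraMap K L).comp (algebraMap A K)).toAlgebra
  haveI : IsScalarTower A K L := IsScalarTower.of_algebraMap_eq (fun _ => rfl)
  let B := integralClosure A L
  haveI hdom : IsDomain B := intClosure_isDomain A K L B
  haveI hloc : IsLocalRing B := intClosure_isLocalRing A K L B
  exact ⟨B, inferInstance, hdom, intClosure_isDiscreteValuationRing A K L B, inferInstance,
    intClosure_isFractionRing A K L B, intClosure_isAdicComplete A K L B,
    intClosure_finite_residueField A K L B⟩

end Ext

section Cyclic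

variable {K L : Type} [Field K] [Field L] [Algebra K L] [FiniteDimensional K L] [IsGalois K L]

/-- **Local norm index** in field-only form: `[Kˣ : N Lˣ] = [L : K]` for cyclic `L / K`. -/
theorem IsLocalFieldNA.normSubgroup_index (hK : IsLocalFieldNA K) [IsCyclic (L ≃ₐ[K] L)] :
    (normSubgroup K L).index = Module.finrank K L := by
  obtain ⟨A, _, _, _, _, hfr, hcomp, hfin⟩ := hK
  letI : Algebra A L := ((algebraMap K L).comp (algebraMap A K)).toAlgebra
  haveI : IsScalarTower A K L := IsScalarTower.of_algebraMap_eq (fun _ => rfl)
  let B := integralClosure A L
  haveI hdom : IsDomain B := intClosure_isDomain A K L B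
  haveI hloc : IsLocalRing B := intClosure_isLocalRing A K L B
  haveI hdvr : IsDiscreteValuationRing B := intClosure_isDiscreteValuationRing A K L B
  exact cyclicNormIndex_holds A K L B inferInstance

end Cyclic

end Fermat.Agent.CFT
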