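import Mathlib
import Fermat.Prelude.Thm_Algebra_finite_maximalSpectrum_and_bijective_localization_of_module_finite
import Fermat.Prelude.Thm_IsLocalRing_isAdicComplete_of_module_finite

set_option autoImplicit false

/-!
# CFT, local stream: finite extensions of complete discretely valued fields

`A` is a complete discrete valuation ring with fraction field `K`, `L / K` is a finite separable
extension and `B` is the integral closure of `A` in `L`.  Then `B` is again a complete discrete
valuation ring, finite and free over `A` of rank `[L : K]`, with fraction field `L`
(the unique extension of the valuation).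
-/

namespace Fermat.Agent.CFT

open IsLocalRing

/-- A domain which is a finite algebra over a complete Noetherian local ring is local. -/
theorem isLocalRing_of_finite_of_isDomain (A : Type) [CommRing A] [IsLocalRing A]
    [IsNoetherianRing A] [IsAdicComplete (maximalIdeal A) A] (B : Type) [CommRing B] [IsDomain B]
    [Algebra A B] [Module.Finite A B] : IsLocalRing B := by
  classical
  obtain ⟨-, hbij, -, -⟩ :=
    Algebra.finite_maximalSpectrum_and_bijective_localization_of_module_finite (𝒪 := A) B
  have hsub : ∀ I J : MaximalSpectrum B, I = J := by
    intro I J
    by_contra hIJ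
    obtain ⟨b, hb⟩ := hbij.2 (Pi.single I 1)
    obtain ⟨c, hc⟩ := hbij.2 (Pi.single J 1)
    have hbc : b * c = 0 := by
      apply hbij.1
      rw [map_mul, hb, hc, map_zero]
      ext K
      by_cases hK : K = I
      · subst hK
        simp [Pi.single_eq_of_ne hIJ]
      · simp [Pi.single_eq_of_ne hK]
    rcases mul_eq_zero.mp hbc with h | h
    · rw [h, map_zero] at hb
      have := congrFun hb I
      simp at this
    · rw [h, map_zero] at hc
      have := congrFun hc J
      simp at this
  obtain ⟨M, hM⟩ := Ideal.exists_maximal B
  refine IsLocalRing.of_unique_max_ideal ⟨M, hM, fun M' hM' => ?_⟩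
  exact congrArg MaximalSpectrum.asIdeal (hsub ⟨M', hM'⟩ ⟨M, hM⟩)


theorem intClosure_isDomain (A : Type) [CommRing A] [IsDomain A] [IsDiscreteValuationRing A]
    [IsAdicComplete (maximalIdeal A) A]
    (K : Type) [Field K] [Algebra A K] [IsFractionRing A K]
    (L : Type) [Field L] [Algebra K L] [Algebra A L] [IsScalarTower A K L]
    [FiniteDimensional K L] [Algebra.IsSeparable K L]
    (B : Type) [CommRing B] [Algebra A B] [Algebra B L] [IsScalarTower A B L]
    [IsIntegralClosure B A L] : IsDomain B :=
  (IsIntegralClosure.equiv A B L (integralClosure A L)).toMulEquiv.isDomain (integralClosure A L)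

theorem intClosure_finite (A : Type) [CommRing A] [IsDomain A] [IsDiscreteValuationRing A]
    [IsAdicComplete (maximalIdeal A) A]
    (K : Type) [Field K] [Algebra A K] [IsFractionRing A K]
    (L : Type) [Field L] [Algebra K L] [Algebra A L] [IsScalarTower A K L]
    [FiniteDimensional K L] [Algebra.IsSeparable K L]
    (B : Type) [CommRing B] [Algebra A B] [Algebra B L] [IsScalarTower A B L]
    [IsIntegralClosure B A L] : Module.Finite A B :=
  IsIntegralClosure.finite A K L B

theorem intClosure_isDedekindDomain (A : Type) [CommRing A] [IsDomain A] [IsDiscreteValuationRing A]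
    [IsAdicComplete (maximalIdeal A) A]
    (K : Type) [Field K] [Algebra A K] [IsFractionRing A K]
    (L : Type) [Field L] [Algebra K L] [Algebra A L] [IsScalarTower A K L]
    [FiniteDimensional K L] [Algebra.IsSeparable K L]
    (B : Type) [CommRing B] [Algebra A B] [Algebra B L] [IsScalarTower A B L]
    [IsIntegralClosure B A L] : IsDedekindDomain B := by
  haveI := intClosure_isDomain A K L B
  exact IsIntegralClosure.isDedekindDomain A K L B

theorem intClosure_isFractionRing (A : Type) [CommRing A] [IsDomain A] [IsDiscreteValuationRing A]
    [IsAdicComplete (maximalIdeal A) A]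
    (K : Type) [Field K] [Algebra A K] [IsFractionRing A K]
    (L : Type) [Field L] [Algebra K L] [Algebra A L] [IsScalarTower A K L]
    [FiniteDimensional K L] [Algebra.IsSeparable K L]
    (B : Type) [CommRing B] [Algebra A B] [Algebra B L] [IsScalarTower A B L]
    [IsIntegralClosure B A L] : IsFractionRing B L := by
  haveI := intClosure_isDomain A K L B
  exact IsIntegralClosure.isFractionRing_of_finite_extension A K L B

theorem intClosure_algebraMap_injective (A : Type) [CommRing A] [IsDomain A] [IsDiscreteValuationRing A]
    [IsAdicComplete (maximalIdeal A) A]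
    (K : Type) [Field K] [Algebra A K] [IsFractionRing A K]
    (L : Type) [Field L] [Algebra K L] [Algebra A L] [IsScalarTower A K L]
    [FiniteDimensional K L] [Algebra.IsSeparable K L]
    (B : Type) [CommRing B] [Algebra A B] [Algebra B L] [IsScalarTower A B L]
    [IsIntegralClosure B A L] : Function.Injective (algebraMap A B) := by
  have h1 : Function.Injective (algebraMap A L) := by
    rw [IsScalarTower.algebraMap_eq A K L]
    exact (algebraMap K L).injective.comp (IsFractionRing.injective A K)
  intro x y hxy
  apply h1
  rw [IsScalarTower.algebraMap_apply A B L, IsScalarTower.algebraMap_apply A B L, hxy]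

/-- the integral closure of a complete DVR in a finite separable extension is local -/
theorem intClosure_isLocalRing (A : Type) [CommRing A] [IsDomain A] [IsDiscreteValuationRing A]
    [IsAdicComplete (maximalIdeal A) A]
    (K : Type) [Field K] [Algebra A K] [IsFractionRing A K]
    (L : Type) [Field L] [Algebra K L] [Algebra A L] [IsScalarTower A K L]
    [FiniteDimensional K L] [Algebra.IsSeparable K L]
    (B : Type) [CommRing B] [Algebra A B] [Algebra B L] [IsScalarTower A B L]
    [IsIntegralClosure B A L] : IsLocalRing B := by
  haveI := intClosure_isDomain A K L B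
  haveI := intClosure_finite A K L B
  exact isLocalRing_of_finite_of_isDomain A B

theorem intClosure_not_isField (A : Type) [CommRing A] [IsDomain A] [IsDiscreteValuationRing A]
    [IsAdicComplete (maximalIdeal A) A]
    (K : Type) [Field K] [Algebra A K] [IsFractionRing A K]
    (L : Type) [Field L] [Algebra K L] [Algebra A L] [IsScalarTower A K L]
    [FiniteDimensional K L] [Algebra.IsSeparable K L]
    (B : Type) [CommRing B] [Algebra A B] [Algebra B L] [IsScalarTower A B L]
    [IsIntegralClosure B A L] : ¬ IsField B := by
  haveI := intClosure_isDomain A K L B
  intro hB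
  have hint : Algebra.IsIntegral A B := IsIntegralClosure.isIntegral_algebra A L
  exact IsDiscreteValuationRing.not_isField A
    ((isField_of_isIntegral_of_isField (intClosure_algebraMap_injective A K L B)) hB)

/-- the integral closure of a complete DVR in a finite separable extension is a DVR -/
theorem intClosure_isDiscreteValuationRing (A : Type) [CommRing A] [IsDomain A] [IsDiscreteValuationRing A]
    [IsAdicComplete (maximalIdeal A) A]
    (K : Type) [Field K] [Algebra A K] [IsFractionRing A K]
    (L : Type) [Field L] [Algebra K L] [Algebra A L] [IsScalarTower A K L]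
    [FiniteDimensional K L] [Algebra.IsSeparable K L]
    (B : Type) [CommRing B] [Algebra A B] [Algebra B L] [IsScalarTower A B L]
    [IsIntegralClosure B A L] :
    @IsDiscreteValuationRing B _ (intClosure_isDomain A K L B) := by
  haveI := intClosure_isDomain A K L B
  haveI := intClosure_isLocalRing A K L B
  have hD := intClosure_isDedekindDomain A K L B
  exact ((IsDiscreteValuationRing.TFAE B (intClosure_not_isField A K L B)).out 2 0).mp hD

theorem intClosure_isLocalHom (A : Type) [CommRing A] [IsDomain A] [IsDiscreteValuationRing A]
    [IsAdicComplete (maximalIdeal A) A]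
    (K : Type) [Field K] [Algebra A K] [IsFractionRing A K]
    (L : Type) [Field L] [Algebra K L] [Algebra A L] [IsScalarTower A K L]
    [FiniteDimensional K L] [Algebra.IsSeparable K L]
    (B : Type) [CommRing B] [Algebra A B] [Algebra B L] [IsScalarTower A B L]
    [IsIntegralClosure B A L] :
    @IsLocalHom A B _ _ _ _ (algebraMap A B) := by
  have hint : Algebra.IsIntegral A B := IsIntegralClosure.isIntegral_algebra A L
  exact (algebraMap_isIntegral_iff.mpr hint).isLocalHom (intClosure_algebraMap_injective A K L B)

/-- the integral closure of a complete DVR in a finite separable extension is complete -/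
theorem intClosure_isAdicComplete (A : Type) [CommRing A] [IsDomain A] [IsDiscreteValuationRing A]
    [IsAdicComplete (maximalIdeal A) A]
    (K : Type) [Field K] [Algebra A K] [IsFractionRing A K]
    (L : Type) [Field L] [Algebra K L] [Algebra A L] [IsScalarTower A K L]
    [FiniteDimensional K L] [Algebra.IsSeparable K L]
    (B : Type) [CommRing B] [Algebra A B] [Algebra B L] [IsScalarTower A B L]
    [IsIntegralClosure B A L] :
    @IsAdicComplete B _ (@maximalIdeal B _ (intClosure_isLocalRing A K L B)) B _ _ := by
  haveI := intClosure_isLocalRing A K L B
  haveI := intClosure_finite A K L B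
  haveI := intClosure_isLocalHom A K L B
  exact IsLocalRing.isAdicComplete_of_module_finite (𝒪 := A) (T := B)

theorem intClosure_finite_residueField (A : Type) [CommRing A] [IsDomain A] [IsDiscreteValuationRing A]
    [IsAdicComplete (maximalIdeal A) A]
    (K : Type) [Field K] [Algebra A K] [IsFractionRing A K]
    (L : Type) [Field L] [Algebra K L] [Algebra A L] [IsScalarTower A K L]
    [FiniteDimensional K L] [Algebra.IsSeparable K L]
    (B : Type) [CommRing B] [Algebra A B] [Algebra B L] [IsScalarTower A B L]
    [IsIntegralClosure B A L] [Finite (ResidueField A)] :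
    @Finite (@ResidueField B _ (intClosure_isLocalRing A K L B)) := by
  haveI := intClosure_isLocalRing A K L B
  haveI := intClosure_finite A K L B
  haveI := intClosure_isLocalHom A K L B
  exact IsLocalRing.ResidueField.finite_of_finite (R := A) (S := B) inferInstance

theorem intClosure_free (A : Type) [CommRing A] [IsDomain A] [IsDiscreteValuationRing A]
    [IsAdicComplete (maximalIdeal A) A]
    (K : Type) [Field K] [Algebra A K] [IsFractionRing A K]
    (L : Type) [Field L] [Algebra K L] [Algebra A L] [IsScalarTower A K L]
    [FiniteDimensional K L] [Algebra.IsSeparable K L]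
    (B : Type) [CommRing B] [Algebra A B] [Algebra B L] [IsScalarTower A B L]
    [IsIntegralClosure B A L] : Module.Free A B := by
  haveI : Module.IsTorsionFree A L := .trans_faithfulSMul A K L
  exact IsIntegralClosure.module_free A K L B

theorem intClosure_finrank (A : Type) [CommRing A] [IsDomain A] [IsDiscreteValuationRing A]
    [IsAdicComplete (maximalIdeal A) A]
    (K : Type) [Field K] [Algebra A K] [IsFractionRing A K]
    (L : Type) [Field L] [Algebra K L] [Algebra A L] [IsScalarTower A K L]
    [FiniteDimensional K L] [Algebra.IsSeparable K L]
    (B : Type) [CommRing B] [Algebra A B] [Algebra B L] [IsScalarTower A B L]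
    [IsIntegralClosure B A L] : Module.finrank A B = Module.finrank K L := by
  haveI : Module.IsTorsionFree A L := .trans_faithfulSMul A K L
  exact IsIntegralClosure.rank A K L B

end Fermat.Agent.CFT
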