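import Mathlib
import Fermat.Agent.CFT.Local.UnramifiedNorm
import Fermat.Agent.CFT.Local.UnitsHerbrandRing

set_option autoImplicit false
set_option linter.unusedSectionVars false

/-!
# S55 pool, chunk (GL7), local part: the units of an unramified cyclic extension of local fields
are cohomologically trivial (helper20)

`AKLB` block of `Local/Interface.lean` (`A` complete DVR with finite residue field, `L / K` finite
Galois, `B` the integral closure), `G = Gal(L/K) = ⟨σ⟩` acting on `Bˣ` through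
`IsIntegralClosure.MulSemiringAction A K L B` and `Units.mulDistribMulActionRight`:

* `ker_mulSubOneHom_le_range_mulNormHom_of_unramified` : `(Bˣ)^G ≤ N_G Bˣ` ([B-C1], ring level);
* `tateCard_units_of_isUnramifiedExt` : `|Ĥ⁰(G, Bˣ)| = |Ĥ¹(G, Bˣ)| = 1` if `B / A` is unramified
  (from [B-C1] and `h(Bˣ) = 1` = [B-C5]).
-/

namespace Fermat.Agent.CFT

open IsLocalRing

attribute [local instance] additiveDistribMulAction

variable (A : Type*) (K L : Type) (B : Type*) [CommRing A] [IsDomain A] [IsDiscreteValuationRing A]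
  [IsAdicComplete (maximalIdeal A) A] [Finite (ResidueField A)]
  [Field K] [Algebra A K] [IsFractionRing A K]
  [Field L] [Algebra K L] [Algebra A L] [IsScalarTower A K L] [FiniteDimensional K L] [IsGalois K L]
  [CommRing B] [IsDomain B] [IsDiscreteValuationRing B] [Algebra A B] [Algebra B L]
  [IsScalarTower A B L] [IsIntegralClosure B A L]

/-- **[B-C1], cohomological form**: in an unramified extension the `G`-invariant units are norms
(`σ` a generator of `G = Gal(L/K)`). -/
theorem ker_mulSubOneHom_le_range_mulNormHom_of_unramified {σ : L ≃ₐ[K] L}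
    (hσ : ∀ τ, τ ∈ Subgroup.zpowers σ) (hunr : IsUnramifiedExt A B) :
    letI := IsIntegralClosure.MulSemiringAction A K L B
    letI : MulDistribMulAction (L ≃ₐ[K] L) Bˣ := Units.mulDistribMulActionRight
    (mulSubOneHom (L ≃ₐ[K] L) Bˣ σ).ker ≤ (mulNormHom (L ≃ₐ[K] L) Bˣ).range := by
  classical
  haveI : Module.Finite A B := aklb_finite A K L B
  haveI : FaithfulSMul A B := aklb_faithfulSMul A K L B
  haveI : IsFractionRing B L := IsIntegralClosure.isFractionRing_of_finite_extension A K L B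
  haveI : Algebra.IsIntegral A B := IsIntegralClosure.isIntegral_algebra A L
  letI act : MulSemiringAction (L ≃ₐ[K] L) B := IsIntegralClosure.MulSemiringAction A K L B
  letI act2 : MulDistribMulAction (L ≃ₐ[K] L) Bˣ := Units.mulDistribMulActionRight
  haveI : IsGaloisGroup (L ≃ₐ[K] L) A B := IsGaloisGroup.of_isFractionRing (L ≃ₐ[K] L) A B K L
  haveI : Finite (A ⧸ maximalIdeal A) := inferInstanceAs (Finite (ResidueField A))
  haveI : IsLocalHom (algebraMap A B) := by
    refine ⟨fun x hx => ?_⟩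
    by_contra hnu
    have h1 : x ∈ maximalIdeal A := hnu
    have h2 : algebraMap A B x ∈ maximalIdeal B := by
      rw [← hunr]; exact Ideal.mem_map_of_mem _ h1
    exact h2 hx
  haveI : IsAdicComplete (maximalIdeal B) B :=
    IsLocalRing.isAdicComplete_of_module_finite (𝒪 := A) (T := B)
  show (mulSubOneHom (L ≃ₐ[K] L) Bˣ σ).ker ≤ (mulNormHom (L ≃ₐ[K] L) Bˣ).range
  intro u hu
  rw [MonoidHom.mem_ker, mulSubOneHom_apply, div_eq_one] at hu
  -- `u` is fixed by the whole group
  have hfix : ∀ g : L ≃ₐ[K] L, g • u = u := by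
    intro g
    have hmem : σ ∈ MulAction.stabilizer (L ≃ₐ[K] L) u := hu
    obtain ⟨k, rfl⟩ := Subgroup.mem_zpowers_iff.mp (hσ g)
    exact (MulAction.stabilizer (L ≃ₐ[K] L) u).zpow_mem hmem k
  have hfix' : ∀ g : L ≃ₐ[K] L, g • (u : B) = u := fun g => by
    have := congrArg (fun w : Bˣ => (w : B)) (hfix g)
    exact this
  obtain ⟨v, hv⟩ := exists_unit_prod_smul_eq (L ≃ₐ[K] L) A B hunr u hfix'
  refine ⟨v, Units.ext ?_⟩
  rw [mulNormHom_apply, Units.coe_prod, ← hv]
  rfl

/-- **(GL7), local part**: the units of an unramified cyclic extension are cohomologically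
trivial: `|Ĥ⁰(G, Bˣ)| = |Ĥ¹(G, Bˣ)| = 1`. -/
theorem tateCard_units_of_isUnramifiedExt {σ : L ≃ₐ[K] L}
    (hσ : ∀ τ, τ ∈ Subgroup.zpowers σ) (hunr : IsUnramifiedExt A B) :
    letI := IsIntegralClosure.MulSemiringAction A K L B
    letI : MulDistribMulAction (L ≃ₐ[K] L) Bˣ := Units.mulDistribMulActionRight
    tateH0Card (L ≃ₐ[K] L) (Additive Bˣ) σ = 1 ∧ tateH1Card (L ≃ₐ[K] L) (Additive Bˣ) σ = 1 := by
  letI act : MulSemiringAction (L ≃ₐ[K] L) B := IsIntegralClosure.MulSemiringAction A K L B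
  letI act2 : MulDistribMulAction (L ≃ₐ[K] L) Bˣ := Units.mulDistribMulActionRight
  have h0 : (mulNormHom (L ≃ₐ[K] L) Bˣ).range.relIndex (mulSubOneHom (L ≃ₐ[K] L) Bˣ σ).ker = 1 :=
    Subgroup.relIndex_eq_one.mpr
      (ker_mulSubOneHom_le_range_mulNormHom_of_unramified A K L B hσ hunr)
  obtain ⟨-, h1⟩ := unitsHerbrandOneRing_holds A K L B σ hσ
  have h1' : (mulNormHom (L ≃ₐ[K] L) Bˣ).range.relIndex (mulSubOneHom (L ≃ₐ[K] L) Bˣ σ).ker =
      (mulSubOneHom (L ≃ₐ[K] L) Bˣ σ).range.relIndex (mulNormHom (L ≃ₐ[K] L) Bˣ).ker := h1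
  show tateH0Card (L ≃ₐ[K] L) (Additive Bˣ) σ = 1 ∧ tateH1Card (L ≃ₐ[K] L) (Additive Bˣ) σ = 1
  rw [tateH0Card_additive, tateH1Card_additive, ← h1', h0]
  exact ⟨rfl, rfl⟩

end Fermat.Agent.CFT
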