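import Mathlib
import Fermat.Agent.CFT.Local.UnramUnitsCoh
import Fermat.Agent.CFT.Local.CompleteDVRExt
import Fermat.Agent.CFT.Idele.LocalHerbrand

set_option autoImplicit false
set_option linter.unusedSectionVars false
set_option linter.style.haveILetI false

/-!
# S55 pool, chunk (GL7-rel), local part: units of an unramified extension under a generic cyclic
group of automorphisms (helper20)

`O` a complete DVR with finite residue field, `F = Frac O`, `E / F` a finite separable extension
(NOT necessarily Galois), `B = integralClosure O E`, `D = ⟨τ⟩` a finite cyclic group acting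
faithfully on `E` by `F`-automorphisms (`ucg_actB` : the induced action on `B`).  If `B / O` is
unramified then `|Ĥ⁰(D, Bˣ)| = |Ĥ¹(D, Bˣ)| = 1` (`ucg_tateCard_units`).

Proof: `F' = E^D` (`ucg_F'`), `A' = integralClosure O F'` (`ucg_A'`) is again a complete DVR with
finite residue field, `B` is the integral closure of `A'` in `E` (`ucg_isIntegralClosure`),
`B / A'` is unramified, `E / F'` is Galois with group `D`; apply
`tateCard_units_of_isUnramifiedExt` (`Local/UnramUnitsCoh.lean`) and change the group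
(`tateH0Card_mulEquiv`, helper28).
-/

namespace Fermat.Agent.CFT

open IsLocalRing

section

variable (O : Type) (F E : Type) [CommRing O] [IsDomain O] [IsDiscreteValuationRing O]
  [IsAdicComplete (maximalIdeal O) O] [Finite (ResidueField O)]
  [Field F] [Algebra O F] [IsFractionRing O F]
  [Field E] [Algebra F E] [Algebra O E] [IsScalarTower O F E] [FiniteDimensional F E]
  [Algebra.IsSeparable F E]
  (D : Type*) [Group D] [Fintype D] [MulSemiringAction D E] [SMulCommClass D F E] [FaithfulSMul D E]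

/-- the fixed field of `D`. -/
abbrev ucg_F' : IntermediateField F E := FixedPoints.intermediateField D

/-- the integral closure of `O` in the fixed field. -/
abbrev ucg_A' : Subalgebra O ↥(ucg_F' F E D) := integralClosure O ↥(ucg_F' F E D)

/-- the integral closure of `O` in `E`. -/
abbrev ucg_B : Subalgebra O E := integralClosure O E

theorem ucg_isGaloisGroup : IsGaloisGroup D ↥(ucg_F' F E D) E where
  faithful := inferInstance
  commutes := ⟨fun d a x => by
    rw [Algebra.smul_def, Algebra.smul_def, smul_mul']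
    congr 1
    exact a.2 d⟩
  isInvariant := ⟨fun x hx => ⟨⟨x, hx⟩, rfl⟩⟩

theorem ucg_isScalarTower_F' : IsScalarTower O ↥(ucg_F' F E D) E :=
  IsScalarTower.of_algebraMap_eq fun _ => rfl

theorem ucg_isScalarTower_A' : IsScalarTower O ↥(ucg_A' O F E D) E :=
  IsScalarTower.of_algebraMap_eq fun _ => rfl

attribute [local instance] ucg_isScalarTower_F' ucg_isScalarTower_A'

/-- `A' → B`. -/
noncomputable def ucg_ringHom : ↥(ucg_A' O F E D) →+* ↥(ucg_B O E) where
  toFun x := ⟨algebraMap ↥(ucg_F' F E D) E (x : ↥(ucg_F' F E D)), x.2.algebraMap⟩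
  map_one' := Subtype.ext (by simp)
  map_mul' x y := Subtype.ext (by simp)
  map_zero' := Subtype.ext (by simp)
  map_add' x y := Subtype.ext (by simp)

/-- the `A'`-algebra structure on `B`. -/
@[reducible] noncomputable def ucg_algebra : Algebra ↥(ucg_A' O F E D) ↥(ucg_B O E) :=
  (ucg_ringHom O F E D).toAlgebra

attribute [local instance] ucg_algebra

theorem ucg_isScalarTower_B : IsScalarTower ↥(ucg_A' O F E D) ↥(ucg_B O E) E :=
  IsScalarTower.of_algebraMap_eq fun _ => rfl

theorem ucg_isScalarTower_OAB : IsScalarTower O ↥(ucg_A' O F E D) ↥(ucg_B O E) :=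
  IsScalarTower.of_algebraMap_eq fun _ => rfl

attribute [local instance] ucg_isScalarTower_B ucg_isScalarTower_OAB

theorem ucg_isIntegralClosure : IsIntegralClosure ↥(ucg_B O E) ↥(ucg_A' O F E D) E where
  algebraMap_injective := Subtype.val_injective
  isIntegral_iff := by
    intro x
    haveI : Algebra.IsIntegral O ↥(ucg_A' O F E D) :=
      IsIntegralClosure.isIntegral_algebra O ↥(ucg_F' F E D)
    constructor
    · intro hx
      exact ⟨⟨x, isIntegral_trans (R := O) (A := ↥(ucg_A' O F E D)) x hx⟩, rfl⟩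
    · rintro ⟨y, rfl⟩
      exact y.2.tower_top

/-- the action of `D` on `B`. -/
@[reducible] noncomputable def ucg_actB : MulSemiringAction D ↥(ucg_B O E) where
  smul d b := ⟨d • (b : E), by
    haveI : SMulCommClass D O E := ⟨fun d a x => by
      rw [← IsScalarTower.algebraMap_smul F a x, ← IsScalarTower.algebraMap_smul F a (d • x),
        smul_comm]⟩
    exact b.2.map (MulSemiringAction.toAlgHom O E d)⟩
  one_smul b := Subtype.ext (one_smul D (b : E))
  mul_smul d d' b := Subtype.ext (mul_smul d d' (b : E))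
  smul_zero d := Subtype.ext (smul_zero d)
  smul_add d b b' := Subtype.ext (smul_add d (b : E) b')
  smul_one d := Subtype.ext (smul_one d)
  smul_mul d b b' := Subtype.ext (smul_mul' d (b : E) b')

theorem ucg_actB_coe (d : D) (b : ↥(ucg_B O E)) :
    letI := ucg_actB O F E D
    ((d • b : ↥(ucg_B O E)) : E) = d • (b : E) := rfl

attribute [local instance] additiveDistribMulAction

/-- **(GL7-rel), local part**: `O` a complete DVR with finite residue field, `F = Frac O`, `E / F` a
finite separable extension such that the integral closure `B` of `O` in `E` is unramified over `O`,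
`D = ⟨τ⟩` a finite cyclic group acting faithfully on `E` by `F`-automorphisms.  Then
`|Ĥ⁰(D, Bˣ)| = |Ĥ¹(D, Bˣ)| = 1`. -/
theorem ucg_tateCard_units
    (hB : letI := intClosure_isLocalRing O F E ↥(ucg_B O E); IsUnramifiedExt O ↥(ucg_B O E))
    {τ : D} (hτ : ∀ d, d ∈ Subgroup.zpowers τ) :
    letI := ucg_actB O F E D
    letI : MulDistribMulAction D (↥(ucg_B O E))ˣ := Units.mulDistribMulActionRight
    tateH0Card D (Additive (↥(ucg_B O E))ˣ) τ = 1 ∧
      tateH1Card D (Additive (↥(ucg_B O E))ˣ) τ = 1 := by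
  letI actB := ucg_actB O F E D
  letI actU : MulDistribMulAction D (↥(ucg_B O E))ˣ := Units.mulDistribMulActionRight
  -- the tower `O ⊆ A' ⊆ B`
  haveI := ucg_isGaloisGroup F E D
  haveI : FiniteDimensional ↥(ucg_F' F E D) E := IsGaloisGroup.finiteDimensional D _ E
  haveI : IsGalois ↥(ucg_F' F E D) E := IsGaloisGroup.isGalois D _ E
  haveI := intClosure_isLocalRing O F ↥(ucg_F' F E D) ↥(ucg_A' O F E D)
  haveI := intClosure_isDiscreteValuationRing O F ↥(ucg_F' F E D) ↥(ucg_A' O F E D)
  haveI := intClosure_isAdicComplete O F ↥(ucg_F' F E D) ↥(ucg_A' O F E D)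
  haveI := intClosure_finite_residueField O F ↥(ucg_F' F E D) ↥(ucg_A' O F E D)
  haveI := intClosure_isFractionRing O F ↥(ucg_F' F E D) ↥(ucg_A' O F E D)
  haveI := intClosure_isLocalHom O F ↥(ucg_F' F E D) ↥(ucg_A' O F E D)
  haveI := intClosure_isLocalRing O F E ↥(ucg_B O E)
  haveI := intClosure_isDiscreteValuationRing O F E ↥(ucg_B O E)
  haveI := ucg_isIntegralClosure O F E D
  haveI : IsLocalHom (algebraMap ↥(ucg_A' O F E D) ↥(ucg_B O E)) :=
    intClosure_isLocalHom ↥(ucg_A' O F E D) ↥(ucg_F' F E D) E ↥(ucg_B O E)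
  -- `B / A'` is unramified
  have hunr : IsUnramifiedExt ↥(ucg_A' O F E D) ↥(ucg_B O E) := by
    have hB' : Ideal.map (algebraMap O ↥(ucg_B O E)) (maximalIdeal O) =
        maximalIdeal ↥(ucg_B O E) := hB
    show Ideal.map (algebraMap ↥(ucg_A' O F E D) ↥(ucg_B O E)) (maximalIdeal ↥(ucg_A' O F E D)) =
      maximalIdeal ↥(ucg_B O E)
    apply le_antisymm
    · rw [Ideal.map_le_iff_le_comap]
      intro x hx
      rw [Ideal.mem_comap]
      exact (map_mem_nonunits_iff (algebraMap ↥(ucg_A' O F E D) ↥(ucg_B O E)) x).mpr hx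
    · rw [← hB', IsScalarTower.algebraMap_eq O ↥(ucg_A' O F E D) ↥(ucg_B O E), ← Ideal.map_map]
      apply Ideal.map_mono
      rw [Ideal.map_le_iff_le_comap]
      intro x hx
      rw [Ideal.mem_comap]
      exact (map_mem_nonunits_iff (algebraMap O ↥(ucg_A' O F E D)) x).mpr hx
  -- the group change
  let e : D ≃* (E ≃ₐ[↥(ucg_F' F E D)] E) :=
    IsGaloisGroup.mulEquivCongr D (E ≃ₐ[↥(ucg_F' F E D)] E) ↥(ucg_F' F E D) E
  have he : ∀ (d : D) (x : E), e d x = d • x := fun d x =>
    IsGaloisGroup.mulEquivCongr_apply_smul D (E ≃ₐ[↥(ucg_F' F E D)] E) ↥(ucg_F' F E D) E d x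
  have hgen : ∀ σ : E ≃ₐ[↥(ucg_F' F E D)] E, σ ∈ Subgroup.zpowers (e τ) := by
    intro σ
    obtain ⟨d, rfl⟩ := e.surjective σ
    obtain ⟨k, rfl⟩ := Subgroup.mem_zpowers_iff.mp (hτ d)
    exact Subgroup.mem_zpowers_iff.mpr ⟨k, (map_zpow e τ k).symm⟩
  obtain ⟨l0, l1⟩ := tateCard_units_of_isUnramifiedExt ↥(ucg_A' O F E D) ↥(ucg_F' F E D) E
    ↥(ucg_B O E) hgen hunr
  letI actG : MulSemiringAction (E ≃ₐ[↥(ucg_F' F E D)] E) ↥(ucg_B O E) :=
    IsIntegralClosure.MulSemiringAction ↥(ucg_A' O F E D) ↥(ucg_F' F E D) E ↥(ucg_B O E)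
  letI actGU : MulDistribMulAction (E ≃ₐ[↥(ucg_F' F E D)] E) (↥(ucg_B O E))ˣ :=
    Units.mulDistribMulActionRight
  have hact : ∀ (d : D) (a : Additive (↥(ucg_B O E))ˣ), e d • a = d • a := by
    intro d a
    apply congrArg Additive.ofMul
    apply Units.ext
    apply Subtype.ext
    show algebraMap ↥(ucg_B O E) E (galRestrict ↥(ucg_A' O F E D) ↥(ucg_F' F E D) E ↥(ucg_B O E)
      (e d) ((Additive.toMul a : (↥(ucg_B O E))ˣ) : ↥(ucg_B O E))) = _
    rw [algebraMap_galRestrict_apply, he]
    rfl
  constructor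
  · rw [← tateH0Card_mulEquiv e hact τ]
    exact l0
  · rw [← tateH1Card_mulEquiv e hact τ]
    exact l1

end

end Fermat.Agent.CFT
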