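import Fermat.Agent.CFT.Coh.CyclicBridge
import Fermat.Agent.CFT.Local.LocalField

set_option autoImplicit false

/-!
# CFT stream [B] Local, Tier 2, layer (S1) : `H²` of a cyclic extension

For a finite cyclic Galois extension `L / K` (universe `0`), Mathlib's
`H²(Gal(L/K), Lˣ) = groupCohomology.H2 (Rep.ofAlgebraAutOnUnits K L)` has cardinality
`[Kˣ : N Lˣ]` (`natCard_H2_units_eq_index`), hence `[L : K]` when `K` is a local field
(`IsLocalFieldNA.natCard_H2_units_cyclic`, from the local norm index theorem [B-C4]).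
-/

namespace Fermat.Agent.CFT

open IsLocalRing

attribute [local instance] additiveDistribMulAction

section

variable (K L : Type) [Field K] [Field L] [Algebra K L] [FiniteDimensional K L] [IsGalois K L]

attribute [local instance] IsCyclic.commGroup in
/-- For a finite cyclic Galois extension, `|H²(Gal(L/K), Lˣ)| = [Kˣ : N Lˣ]`
(Mathlib's `groupCohomology`, `0` if infinite). -/
theorem natCard_H2_units_eq_index [IsCyclic (L ≃ₐ[K] L)] :
    Nat.card (groupCohomology.H2 (Rep.ofAlgebraAutOnUnits K L)) = (normSubgroup K L).index := by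
  classical
  obtain ⟨σ, hσ⟩ := IsCyclic.exists_generator (α := L ≃ₐ[K] L)
  have h1 := natCard_groupCohomology_even (Rep.ofAlgebraAutOnUnits K L) σ hσ 2 (by decide)
  have h2 : repSubOne (Rep.ofAlgebraAutOnUnits K L) σ = subOneHom (Additive Lˣ) σ := by
    ext a; rfl
  have h3 : repNorm (Rep.ofAlgebraAutOnUnits K L) = normHom (L ≃ₐ[K] L) (Additive Lˣ) := by
    ext a
    rw [repNorm_apply]
    rfl
  rw [← tateH0Card_units_field K L hσ]
  unfold tateH0Card
  rw [← h2, ← h3]
  exact h1

variable {K L}

/-- **(S1)** For a cyclic extension `L / K` of local fields, `|H²(Gal(L/K), Lˣ)| = [L : K]`. -/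
theorem IsLocalFieldNA.natCard_H2_units_cyclic (hK : IsLocalFieldNA K) [IsCyclic (L ≃ₐ[K] L)] :
    Nat.card (groupCohomology.H2 (Rep.ofAlgebraAutOnUnits K L)) = Module.finrank K L := by
  rw [natCard_H2_units_eq_index, hK.normSubgroup_index]

/-- For a cyclic extension `L / K` of local fields, `H²(Gal(L/K), Lˣ)` is finite. -/
theorem IsLocalFieldNA.finite_H2_units_cyclic (hK : IsLocalFieldNA K) [IsCyclic (L ≃ₐ[K] L)] :
    Finite (groupCohomology.H2 (Rep.ofAlgebraAutOnUnits K L)) := by
  apply Nat.finite_of_card_ne_zero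
  rw [hK.natCard_H2_units_cyclic]
  exact Module.finrank_pos.ne'

end

end Fermat.Agent.CFT
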