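import Fermat.Agent.CFT.Local.CyclicCocycle

set_option autoImplicit false
set_option linter.unusedSectionVars false

/-!
# CFT stream [B] Local, Tier 2 : pull-back of the cyclic 2-cocycle to a subgroup

`ι : H →* G` an injective homomorphism of finite cyclic groups with generators `h`, `g`,
`ι h = g ^ d`, `d * |H| = |G|`.  Then the cyclic cocycle of `g` pulls back to the cyclic cocycle
of `h` on the nose: `cycCocycle g a (ι x, ι y) = cycCocycle h a (x, y)` (and multiplicatively).
-/

namespace Fermat.Agent.CFT

section Pullback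

variable {G H : Type*} [Group G] [Fintype G] [Group H] [Fintype H] {g : G} {h : H}
  (ι : H →* G) (hh : ∀ x, x ∈ Subgroup.zpowers h) {d : ℕ} (hd : ι h = g ^ d)
  (hcard : d * orderOf h = orderOf g)

include hh hd hcard in
theorem cycIdx_map_eq (x : H) : cycIdx g (ι x) = d * cycIdx h x := by
  have hN : 0 < orderOf g := orderOf_pos g
  have hd0 : 0 < d := by
    rcases Nat.eq_zero_or_pos d with rfl | h0
    · rw [zero_mul] at hcard; omega
    · exact h0
  have h1 : ι x = g ^ (d * cycIdx h x) := by
    conv_lhs => rw [← pow_cycIdx hh x]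
    rw [map_pow, hd, ← pow_mul]
  rw [h1, cycIdx_pow, ← hcard]
  exact Nat.mod_eq_of_lt (Nat.mul_lt_mul_of_pos_left (cycIdx_lt hh x) hd0)

include hh hd hcard in
theorem cycIdx_add_div_eq (x y : H) :
    (cycIdx g (ι x) + cycIdx g (ι y)) / orderOf g = (cycIdx h x + cycIdx h y) / orderOf h := by
  have hN : 0 < orderOf g := orderOf_pos g
  have hd0 : 0 < d := by
    rcases Nat.eq_zero_or_pos d with rfl | h0
    · rw [zero_mul] at hcard; omega
    · exact h0
  rw [cycIdx_map_eq ι hh hd hcard, cycIdx_map_eq ι hh hd hcard, ← hcard, ← mul_add,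
    Nat.mul_div_mul_left _ _ hd0]

include hh hd hcard in
/-- The cyclic cocycle of `g` restricted along `ι` is the cyclic cocycle of `h`. -/
theorem cycCocycle_map {A : Type*} [AddCommGroup A] [DistribMulAction G A] [DistribMulAction H A]
    (a : A) (x y : H) : cycCocycle g a (ι x, ι y) = cycCocycle h a (x, y) := by
  rw [cycCocycle_apply, cycCocycle_apply, cycIdx_add_div_eq ι hh hd hcard]

include hh hd hcard in
/-- The multiplicative cyclic cocycle of `g` restricted along `ι` is that of `h`. -/
theorem mulCycCocycle_map {M : Type*} [CommGroup M] [MulDistribMulAction G M]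
    [MulDistribMulAction H M] (a : M) (x y : H) :
    mulCycCocycle g a (ι x, ι y) = mulCycCocycle h a (x, y) := by
  rw [mulCycCocycle_apply, mulCycCocycle_apply, cycIdx_add_div_eq ι hh hd hcard]

end Pullback

section Generator

variable {G H : Type*} [Group G] [Fintype G] [Group H] [Fintype H] {g : G}

/-- An injective homomorphism from a group `H` into a finite cyclic group `G = ⟨g⟩` with
`d * |H| = |G|`: there is a generator `h` of `H` with `ι h = g ^ d`. -/
theorem exists_generator_map_eq_pow (ι : H →* G) (hι : Function.Injective ι)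
    (hg : ∀ x, x ∈ Subgroup.zpowers g) {d : ℕ} (hcard : d * Nat.card H = Nat.card G) :
    ∃ h : H, (∀ x, x ∈ Subgroup.zpowers h) ∧ ι h = g ^ d ∧ d * orderOf h = orderOf g := by
  have hG : orderOf g = Nat.card G := orderOf_eq_card_of_forall_mem_zpowers hg
  have hGpos : 0 < Nat.card G := Nat.card_pos
  have hHpos : 0 < Nat.card H := Nat.card_pos
  have hd0 : 0 < d := by
    rcases Nat.eq_zero_or_pos d with rfl | h0
    · rw [zero_mul] at hcard; omega
    · exact h0
  haveI : IsCyclic G := ⟨g, hg⟩
  -- `g ^ d` has order `|H|` and `ι.range` is the set of solutions of `y ^ |H| = 1`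
  have hord : orderOf (g ^ d) = Nat.card H := by
    rw [orderOf_pow' g hd0.ne', hG, ← hcard, Nat.gcd_comm, Nat.gcd_mul_right_right,
      Nat.mul_div_cancel_left _ hd0]
  have hrange : Nat.card ι.range = Nat.card H :=
    Nat.card_congr (MonoidHom.ofInjective hι).toEquiv.symm
  have hmem : g ^ d ∈ ι.range := by
    classical
    have hsub : (ι.range : Set G) ⊆ {y : G | y ^ Nat.card H = 1} := by
      rintro _ ⟨x, rfl⟩
      change ι x ^ Nat.card H = 1
      rw [← map_pow, pow_card_eq_one', map_one]
    have hle : ({y : G | y ^ Nat.card H = 1} : Set G).ncard ≤ (ι.range : Set G).ncard := by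
      rw [← Nat.card_coe_set_eq (ι.range : Set G)]
      change _ ≤ Nat.card ι.range
      rw [hrange, Set.ncard_eq_toFinset_card']
      refine le_trans (le_of_eq ?_) (IsCyclic.card_pow_eq_one_le (α := G) hHpos)
      congr 1
      ext y
      simp
    have heq := Set.eq_of_subset_of_ncard_le hsub hle (Set.toFinite _)
    have : g ^ d ∈ ({y : G | y ^ Nat.card H = 1} : Set G) := by
      change (g ^ d) ^ Nat.card H = 1
      rw [← pow_mul, hcard, ← hG, pow_orderOf_eq_one]
    rw [← heq] at this
    exact this
  obtain ⟨h, hh⟩ := hmem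
  have hordh : orderOf h = Nat.card H := by
    rw [← orderOf_injective ι hι h, hh, hord]
  refine ⟨h, ?_, hh, ?_⟩
  · intro x
    have : Subgroup.zpowers h = ⊤ := by
      apply Subgroup.eq_top_of_card_eq
      rw [Nat.card_zpowers, hordh]
    rw [this]
    trivial
  · rw [hordh, hcard, hG]

end Generator

end Fermat.Agent.CFT
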