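import Fermat.Agent.CFT.Coh.H2Units
import Fermat.Agent.CFT.Local.H2Cyclic

set_option autoImplicit false

/-!
# CFT stream [B] Local, Tier 2, layer (S2) : the upper bound `|H²(L/K)| ∣ [L : K]`
-/

namespace Fermat.Agent.CFT

open groupCohomology IntermediateField

/-- **(S2), `p`-group case**: if `[L : K] = p ^ k` then `|H²(Gal(L/K), Lˣ)| ∣ p ^ k`. -/
theorem IsLocalFieldNA.natCard_H2_units_dvd_of_prime_pow (p : ℕ) [Fact p.Prime] :
    ∀ (k : ℕ) (K L : Type) [Field K] [Field L] [Algebra K L] [FiniteDimensional K L]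
      [IsGalois K L], IsLocalFieldNA K → Module.finrank K L = p ^ k →
      Nat.card (H2 (Rep.ofAlgebraAutOnUnits K L)) ∣ p ^ k := by
  intro k
  induction k with
  | zero =>
    intro K L _ _ _ _ _ hK hdeg
    have hcard : Nat.card (L ≃ₐ[K] L) = 1 := by
      rw [IsGalois.card_aut_eq_finrank, hdeg, pow_zero]
    have : Subsingleton (L ≃ₐ[K] L) := (Nat.card_eq_one_iff_unique.mp hcard).1
    have : IsCyclic (L ≃ₐ[K] L) := isCyclic_of_subsingleton
    rw [hK.natCard_H2_units_cyclic, hdeg]
  | succ k ih =>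
    intro K L _ _ _ _ _ hK hdeg
    have hp : p.Prime := Fact.out
    have hcard : Nat.card (L ≃ₐ[K] L) = p ^ (k + 1) := by
      rw [IsGalois.card_aut_eq_finrank, hdeg]
    have hG : IsPGroup p (L ≃ₐ[K] L) := IsPGroup.of_card hcard
    have : Nontrivial (L ≃ₐ[K] L) := by
      rw [← Finite.one_lt_card_iff_nontrivial, hcard]
      exact Nat.one_lt_pow (Nat.succ_ne_zero k) hp.one_lt
    have hc : Nontrivial (Subgroup.center (L ≃ₐ[K] L)) := hG.center_nontrivial
    have hpc : p ∣ Nat.card (Subgroup.center (L ≃ₐ[K] L)) := by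
      obtain ⟨j, hj⟩ := (hG.to_subgroup (Subgroup.center (L ≃ₐ[K] L))).exists_card_eq
      rw [hj]
      rcases j with _ | j
      · exfalso
        rw [pow_zero] at hj
        have := (Finite.one_lt_card_iff_nontrivial).mpr hc
        omega
      · exact dvd_pow_self p (Nat.succ_ne_zero j)
    obtain ⟨z, hz⟩ := exists_prime_orderOf_dvd_card' p hpc
    set S : Subgroup (L ≃ₐ[K] L) := Subgroup.zpowers (z : L ≃ₐ[K] L) with hS
    have : S.Normal := by
      refine ⟨fun n hn g => ?_⟩
      obtain ⟨i, rfl⟩ := Subgroup.mem_zpowers_iff.mp hn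
      have hcomm : g * (z : L ≃ₐ[K] L) ^ i = (z : L ≃ₐ[K] L) ^ i * g :=
        (Subgroup.mem_center_iff.mp (Subgroup.zpow_mem _ z.2 i) g)
      rw [hcomm, mul_inv_cancel_right]
      exact Subgroup.zpow_mem_zpowers _ i
    have hScard : Nat.card S = p := by
      rw [hS, Nat.card_zpowers, Subgroup.orderOf_coe, hz]
    have h1 : Module.finrank (fixedField S) L = p := by
      rw [finrank_fixedField_eq_card, hScard]
    have h2 : Module.finrank K (fixedField S) = p ^ k := by
      have := Module.finrank_mul_finrank K (fixedField S) L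
      rw [h1, hdeg, pow_succ] at this
      exact Nat.eq_of_mul_eq_mul_right hp.pos this
    have : IsGalois K (fixedField S) := IsGalois.of_fixedField_normal_subgroup S
    have hF : IsLocalFieldNA (fixedField S) := hK.of_finite
    have : IsCyclic (L ≃ₐ[fixedField S] L) := by
      apply isCyclic_of_prime_card (p := p)
      rw [IsGalois.card_aut_eq_finrank, h1]
    have h3 := hF.natCard_H2_units_cyclic (L := L)
    have h4 := ih K (fixedField S) hK h2
    have h5 := natCard_H2_units_dvd_mul K (fixedField S) L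
    refine h5.trans ?_
    rw [pow_succ, h3, h1]
    exact Nat.mul_dvd_mul_right h4 p

end Fermat.Agent.CFT
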