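import Fermat.Agent.CFT.Local.CyclicCocycleField

set_option autoImplicit false
set_option linter.unusedSectionVars false

/-!
# CFT stream [B] Local, Tier 2 : `H²` of an unramified extension

`A` complete DVR with finite residue field, `K = Frac A`, `L / K` finite Galois with ring of
integers `B` (the instance block of `Local/Interface.lean`, `K L : Type`), `B / A` unramified.
Then `Gal(L/K)` is cyclic; for any generator `σ` and any `a ∈ Kˣ` the cyclic class
`cycClassField K L hσ a ∈ H²(Gal(L/K), Lˣ)` vanishes iff `[L:K] ∣ ord a`; the class of a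
uniformiser has order `[L:K]` and generates `H²(Gal(L/K), Lˣ)`, which is therefore cyclic of
order `[L:K]`.
-/

open groupCohomology IsLocalRing

namespace Fermat.Agent.CFT

section

variable (A : Type*) (K L : Type) (B : Type*) [CommRing A] [IsDomain A] [IsDiscreteValuationRing A]
  [IsAdicComplete (maximalIdeal A) A] [Finite (ResidueField A)]
  [Field K] [Algebra A K] [IsFractionRing A K]
  [Field L] [Algebra K L] [Algebra A L] [IsScalarTower A K L] [FiniteDimensional K L] [IsGalois K L]
  [CommRing B] [IsDomain B] [IsDiscreteValuationRing B] [Algebra A B] [Algebra B L]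
  [IsScalarTower A B L] [IsIntegralClosure B A L]

include A B in
/-- The Galois group of an unramified extension is cyclic. -/
theorem isCyclic_of_isUnramifiedExt (h : IsUnramifiedExt A B) : IsCyclic (L ≃ₐ[K] L) := by
  obtain ⟨σ, hσ, -⟩ := unramifiedFrobenius_holds A K L B h
  exact ⟨σ, hσ⟩

variable {σ : L ≃ₐ[K] L} (hσ : ∀ τ, τ ∈ Subgroup.zpowers σ)

include B in
/-- In an unramified extension the cyclic class of `a` vanishes iff `[L:K] ∣ ord a`. -/
theorem cycClassField_eq_zero_iff_dvd (h : IsUnramifiedExt A B) (a : Kˣ) :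
    cycClassField K L hσ a = 0 ↔ (Module.finrank K L : ℤ) ∣ ord A K a := by
  have : IsFractionRing B L := IsIntegralClosure.isFractionRing_of_finite_extension A K L B
  rw [cycClassField_eq_zero_iff_mem]
  exact unramifiedNormIffDvd_holds A K L B (unramifiedUnitsAreNorms_holds A K L B) h a

omit [IsAdicComplete (maximalIdeal A) A] [Finite (ResidueField A)] [CommRing A] [IsDomain A]
  [IsDiscreteValuationRing A] [Algebra A K] [IsFractionRing A K] [Algebra A L]
  [IsScalarTower A K L] in
theorem cycClassField_pow (a : Kˣ) (k : ℕ) :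
    cycClassField K L hσ (a ^ k) = k • cycClassField K L hσ a := by
  induction k with
  | zero => rw [pow_zero, cycClassField_one, zero_smul]
  | succ k ih => rw [pow_succ, cycClassField_mul, ih, succ_nsmul]

omit [IsAdicComplete (maximalIdeal A) A] [Finite (ResidueField A)] [CommRing A] [IsDomain A]
  [IsDiscreteValuationRing A] [Algebra A K] [IsFractionRing A K] [Algebra A L]
  [IsScalarTower A K L] in
theorem cycClassField_zpow (a : Kˣ) (k : ℤ) :
    cycClassField K L hσ (a ^ k) = k • cycClassField K L hσ a := by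
  have h := map_zpow (cycClassHom K L hσ) a k
  rw [cycClassHom_apply, cycClassHom_apply] at h
  have h2 := congrArg Multiplicative.toAdd h
  rw [toAdd_ofAdd, toAdd_zpow, toAdd_ofAdd] at h2
  exact h2

include B in
/-- The cyclic class of a uniformiser has order `[L:K]`. -/
theorem addOrderOf_cycClassField (h : IsUnramifiedExt A B) {ϖ : Kˣ} (hϖ : ord A K ϖ = 1) :
    addOrderOf (cycClassField K L hσ ϖ) = Module.finrank K L := by
  have hn : 0 < Module.finrank K L := Module.finrank_pos
  rw [addOrderOf_eq_iff hn]
  refine ⟨?_, fun m hm hm0 => ?_⟩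
  · rw [← cycClassField_pow, cycClassField_eq_zero_iff_dvd A K L B hσ h, ord_pow, hϖ, mul_one]
  · rw [← cycClassField_pow, Ne, cycClassField_eq_zero_iff_dvd A K L B hσ h, ord_pow, hϖ, mul_one,
      Int.natCast_dvd_natCast]
    exact Nat.not_dvd_of_pos_of_lt hm0 hm

include A B in
/-- Every class of `H²(Gal(L/K), Lˣ)` is a multiple of the cyclic class of a uniformiser. -/
theorem exists_zsmul_cycClassField_eq (h : IsUnramifiedExt A B) {ϖ : Kˣ} (hϖ : ord A K ϖ = 1)
    (y : groupCohomology.H2 (Rep.ofAlgebraAutOnUnits K L)) :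
    ∃ k : ℤ, k • cycClassField K L hσ ϖ = y := by
  have := isCyclic_of_isUnramifiedExt A K L B h
  have hidx : (normSubgroup K L).index ≠ 0 := by
    rw [cyclicNormIndex_holds A K L B inferInstance]
    exact Module.finrank_pos.ne'
  obtain ⟨a, ha⟩ := cycClassHom_surjective K L hσ hidx (Multiplicative.ofAdd y)
  rw [cycClassHom_apply] at ha
  have ha' : cycClassField K L hσ a = y := Multiplicative.ofAdd.injective ha
  refine ⟨ord A K a, ?_⟩
  have hdiv : cycClassField K L hσ (ϖ ^ ord A K a / a) = 0 := by
    rw [cycClassField_eq_zero_iff_dvd A K L B hσ h, ord_div, ord_zpow, hϖ, mul_one, sub_self]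
    exact dvd_zero _
  have hmul := cycClassField_mul K L hσ (ϖ ^ ord A K a / a) a
  rw [div_mul_cancel, hdiv, zero_add] at hmul
  rw [← cycClassField_zpow, hmul, ha']

include A B in
/-- `H²(Gal(L/K), Lˣ)` of an unramified extension is cyclic. -/
theorem isAddCyclic_H2_of_isUnramifiedExt (h : IsUnramifiedExt A B) :
    IsAddCyclic (groupCohomology.H2 (Rep.ofAlgebraAutOnUnits K L)) := by
  obtain ⟨σ, hσ, -⟩ := unramifiedFrobenius_holds A K L B h
  obtain ⟨ϖ, hϖ⟩ := exists_ord_eq_one A K
  exact ⟨cycClassField K L hσ ϖ, fun y => exists_zsmul_cycClassField_eq A K L B hσ h hϖ y⟩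

include A B in
/-- `|H²(Gal(L/K), Lˣ)| = [L:K]` for an unramified extension. -/
theorem natCard_H2_of_isUnramifiedExt (h : IsUnramifiedExt A B) :
    Nat.card (groupCohomology.H2 (Rep.ofAlgebraAutOnUnits K L)) = Module.finrank K L := by
  have := isCyclic_of_isUnramifiedExt A K L B h
  rw [natCard_H2_units_eq_index, cyclicNormIndex_holds A K L B inferInstance]

end

end Fermat.Agent.CFT
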