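import Fermat.Agent.CFT.Coh.H2Units
import Fermat.Agent.CFT.Local.UnramifiedH2

set_option autoImplicit false

/-!
# CFT stream [B] Local, Tier 2, layer (S3) : a class of order `[L : K]` in `H²(L/K)`
-/

namespace Fermat.Agent.CFT

open groupCohomology

section GroupLemma

variable {G H : Type*} [Group G] [Group H] [Finite G] [Finite H]

/-- **(P4)** Comparison of cyclic indices along `ι : H →* G` with `ι h = g ^ d`,
`d * |H| = |G|`. -/
theorem cycIdx_map_eq_mul {g : G} {h : H} (hh : ∀ x, x ∈ Subgroup.zpowers h)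
    (hg : ∀ x, x ∈ Subgroup.zpowers g) (ι : H →* G) {d : ℕ} (hι : ι h = g ^ d)
    (hd : d * Nat.card H = Nat.card G) (x : H) :
    cycIdx g (ι x) = d * cycIdx h x := by
  have hoh : orderOf h = Nat.card H := orderOf_eq_card_of_forall_mem_zpowers hh
  have hog : orderOf g = Nat.card G := orderOf_eq_card_of_forall_mem_zpowers hg
  have h1 : ι x = g ^ (d * cycIdx h x) := by
    conv_lhs => rw [← pow_cycIdx hh x]
    rw [map_pow, hι, ← pow_mul]
  rw [h1, cycIdx_pow, hog, ← hd]
  apply Nat.mod_eq_of_lt
  have hlt := cycIdx_lt hh x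
  rw [hoh] at hlt
  have hd0 : 0 < d := by
    rcases Nat.eq_zero_or_pos d with h0 | h0
    · rw [h0, zero_mul] at hd
      exact absurd hd.symm Nat.card_pos.ne'
    · exact h0
  exact Nat.mul_lt_mul_of_pos_left hlt hd0

theorem cycIdx_carry_map_eq {g : G} {h : H} (hh : ∀ x, x ∈ Subgroup.zpowers h)
    (hg : ∀ x, x ∈ Subgroup.zpowers g) (ι : H →* G) {d : ℕ} (hι : ι h = g ^ d)
    (hd : d * Nat.card H = Nat.card G) (x y : H) :
    (cycIdx g (ι x) + cycIdx g (ι y)) / orderOf g = (cycIdx h x + cycIdx h y) / orderOf h := by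
  have hoh : orderOf h = Nat.card H := orderOf_eq_card_of_forall_mem_zpowers hh
  have hog : orderOf g = Nat.card G := orderOf_eq_card_of_forall_mem_zpowers hg
  have hd0 : 0 < d := by
    rcases Nat.eq_zero_or_pos d with h0 | h0
    · rw [h0, zero_mul] at hd
      exact absurd hd.symm Nat.card_pos.ne'
    · exact h0
  rw [cycIdx_map_eq_mul hh hg ι hι hd, cycIdx_map_eq_mul hh hg ι hι hd, hog, ← hd, hoh,
    ← Nat.mul_add, Nat.mul_div_mul_left _ _ hd0]

end GroupLemma

section Tower

variable (K K' L E : Type) [Field K] [Field K'] [Field L] [Field E]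
  [Algebra K K'] [Algebra K L] [Algebra K E] [Algebra K' E] [Algebra L E]
  [IsScalarTower K K' E] [IsScalarTower K L E]
  [FiniteDimensional K K'] [IsGalois K K'] [FiniteDimensional L E] [IsGalois L E]
  {σK : K' ≃ₐ[K] K'} (hσK : ∀ τ, τ ∈ Subgroup.zpowers σK)
  {σL : E ≃ₐ[L] E} (hσL : ∀ τ, τ ∈ Subgroup.zpowers σL)
  {d : ℕ} (hd : d * Module.finrank L E = Module.finrank K K')
  (hres : galProj K K' E (galIncl K L E σL) = σK ^ d)

include hd hres in
/-- Restricting to `Gal(E/L)` the inflation of the cyclic class of `a ∈ Kˣ` for `K'/K` gives the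
cyclic class of `a` for `E/L`. -/
theorem H2unitsRes_H2unitsInf_cycClassField (a : Kˣ) :
    H2unitsRes K L E (H2unitsInf K K' E (cycClassField K K' hσK a)) =
      cycClassField L E hσL (Units.map (algebraMap K L : K →* L) a) := by
  have hcard : d * Nat.card (E ≃ₐ[L] E) = Nat.card (K' ≃ₐ[K] K') := by
    rw [IsGalois.card_aut_eq_finrank, IsGalois.card_aut_eq_finrank, hd]
  let cK : cocycles₂ (Rep.ofAlgebraAutOnUnits K K') :=
    cocyclesOfIsMulCocycle₂ (isMulCocycle₂_mulCycCocycle hσK
      (fun τ => smul_units_map_algebraMap K K' τ a))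
  let cL : cocycles₂ (Rep.ofAlgebraAutOnUnits L E) :=
    cocyclesOfIsMulCocycle₂ (isMulCocycle₂_mulCycCocycle hσL
      (fun τ => smul_units_map_algebraMap L E τ (Units.map (algebraMap K L : K →* L) a)))
  have e1 : cycClassField K K' hσK a = H2π (Rep.ofAlgebraAutOnUnits K K') cK := rfl
  have e2 : cycClassField L E hσL (Units.map (algebraMap K L : K →* L) a) =
      H2π (Rep.ofAlgebraAutOnUnits L E) cL := rfl
  rw [e1, e2, H2π_comp_map_apply (galProj K K' E), H2π_comp_map_apply (galIncl K L E)]
  congr 1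
  apply Subtype.ext
  funext ⟨x, y⟩
  have key := cycIdx_carry_map_eq hσL hσK ((galProj K K' E).comp (galIncl K L E)) hres hcard x y
  simp only [MonoidHom.comp_apply] at key
  change Additive.ofMul (Units.map (algebraMap K' E : K' →* E)
      (mulCycCocycle σK (Units.map (algebraMap K K' : K →* K') a)
        ((galProj K K' E) ((galIncl K L E) x), (galProj K K' E) ((galIncl K L E) y)))) =
    Additive.ofMul (mulCycCocycle σL
      (Units.map (algebraMap L E : L →* E) (Units.map (algebraMap K L : K →* L) a)) (x, y))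
  rw [mulCycCocycle_apply, mulCycCocycle_apply, map_pow, key]
  congr 2
  ext
  change algebraMap K' E (algebraMap K K' (a : K)) = algebraMap L E (algebraMap K L (a : K))
  rw [← IsScalarTower.algebraMap_apply K K' E, ← IsScalarTower.algebraMap_apply K L E]

end Tower

section Local

open IsLocalRing

variable (A K L B : Type) [CommRing A] [IsDomain A] [IsDiscreteValuationRing A]
  [IsAdicComplete (maximalIdeal A) A] [Finite (ResidueField A)]
  [Field K] [Algebra A K] [IsFractionRing A K]
  [Field L] [Algebra K L] [FiniteDimensional K L] [IsGalois K L]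
  [CommRing B] [IsDomain B] [IsDiscreteValuationRing B]
  [IsAdicComplete (maximalIdeal B) B] [Finite (ResidueField B)] [Algebra B L] [IsFractionRing B L]
  (A' K' : Type) [Field K'] [Algebra K K'] [Algebra A K'] [IsScalarTower A K K']
  [FiniteDimensional K K'] [IsGalois K K']
  [CommRing A'] [IsDomain A'] [IsDiscreteValuationRing A'] [Algebra A A'] [Algebra A' K']
  [IsScalarTower A A' K'] [IsIntegralClosure A' A K']
  (C E : Type) [Field E] [Algebra L E] [Algebra B E] [IsScalarTower B L E]
  [FiniteDimensional L E] [IsGalois L E]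
  [CommRing C] [IsDomain C] [IsDiscreteValuationRing C] [Algebra B C] [Algebra C E]
  [IsScalarTower B C E] [IsIntegralClosure C B E]
  [Algebra K E] [Algebra K' E] [IsScalarTower K K' E] [IsScalarTower K L E]
  [FiniteDimensional K E] [IsGalois K E]

omit [FiniteDimensional K L] in
include A' C in
/-- **(S3)** Given the unramified square `K ≤ K' , L ≤ E = L K'`, the group `H²(Gal(L/K), Lˣ)`
contains an element of order `[L : K]`. -/
theorem exists_addOrderOf_eq_finrank_of_square
    (hA' : IsUnramifiedExt A A') (hC : IsUnramifiedExt B C)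
    (hn : Module.finrank K K' = Module.finrank K L)
    {σK : K' ≃ₐ[K] K'} (hσK : ∀ τ, τ ∈ Subgroup.zpowers σK)
    {σL : E ≃ₐ[L] E} (hσL : ∀ τ, τ ∈ Subgroup.zpowers σL)
    {d : ℕ} (hd : d * Module.finrank L E = Module.finrank K K')
    (hres : galProj K K' E (galIncl K L E σL) = σK ^ d)
    {ϖ : Kˣ} (hϖ : ord A K ϖ = 1)
    (hϖL : ord B L (Units.map (algebraMap K L : K →* L) ϖ) = Module.finrank L E) :
    ∃ w : H2 (Rep.ofAlgebraAutOnUnits K L), addOrderOf w = Module.finrank K L := by
  have hu : addOrderOf (cycClassField K K' hσK ϖ) = Module.finrank K K' :=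
    addOrderOf_cycClassField A K K' A' hσK hA' hϖ
  have hres0 : H2unitsRes K L E (H2unitsInf K K' E (cycClassField K K' hσK ϖ)) = 0 := by
    rw [H2unitsRes_H2unitsInf_cycClassField K K' L E hσK hσL hd hres,
      cycClassField_eq_zero_iff_dvd B L E C hσL hC, hϖL]
  obtain ⟨w, hw⟩ := H2units_exact K L E _ hres0
  refine ⟨w, ?_⟩
  have h1 : addOrderOf (H2unitsInf K L E w) = addOrderOf w :=
    addOrderOf_injective (H2unitsInf K L E).hom.toAddMonoidHom (H2unitsInf_injective K L E) w
  have h2 : addOrderOf (H2unitsInf K K' E (cycClassField K K' hσK ϖ)) =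
      addOrderOf (cycClassField K K' hσK ϖ) :=
    addOrderOf_injective (H2unitsInf K K' E).hom.toAddMonoidHom (H2unitsInf_injective K K' E) _
  rw [← h1, hw, h2, hu, hn]

/-- A finite-or-not abelian group whose cardinality divides `n > 0` and which contains an element
of order `n` is cyclic of order `n`. -/
theorem natCard_eq_and_isAddCyclic_of_addOrderOf {X : Type*} [AddCommGroup X] {n : ℕ} (hn : 0 < n)
    (hdvd : Nat.card X ∣ n) (w : X) (hw : addOrderOf w = n) :
    Nat.card X = n ∧ IsAddCyclic X := by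
  have hne : Nat.card X ≠ 0 := fun h0 => by rw [h0, zero_dvd_iff] at hdvd; omega
  have : Finite X := Nat.finite_of_card_ne_zero hne
  have h1 : n ∣ Nat.card X := hw ▸ addOrderOf_dvd_natCard w
  have h2 : Nat.card X = n := Nat.dvd_antisymm hdvd h1
  exact ⟨h2, isAddCyclic_of_addOrderOf_eq_card w (hw.trans h2.symm)⟩

end Local

end Fermat.Agent.CFT
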