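import Fermat.Agent.CFT.Coh.IndexCard
import Fermat.Agent.CFT.Local.H2Bound
import Fermat.Agent.CFT.Local.H2Class

set_option autoImplicit false

/-!
# CFT stream [B] Local, Tier 2, layer (S2) : `|H²(L/K)| ∣ [L : K]` for every finite Galois `L/K`
-/

namespace Fermat.Agent.CFT

open groupCohomology IntermediateField CategoryTheory Rep

section

variable {K L : Type} [Field K] [Field L] [Algebra K L] [FiniteDimensional K L] [IsGalois K L]

omit [IsGalois K L] in
/-- The image of `Gal(L/L^P)` in `Gal(L/K)` is `P`. -/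
theorem range_galIncl_fixedField (P : Subgroup (L ≃ₐ[K] L)) :
    (galIncl K (fixedField P) L).range = P := by
  conv_rhs => rw [← fixingSubgroup_fixedField P]
  ext σ
  constructor
  · rintro ⟨τ, rfl⟩ x
    exact τ.commutes x
  · intro h
    exact ⟨{ σ with commutes' := fun x => h x }, by ext; rfl⟩

/-- `H²(P, Lˣ) ≃ H²(Gal(L/L^P), Lˣ)` (cardinalities). -/
theorem natCard_H2_res_units (P : Subgroup (L ≃ₐ[K] L)) :
    Nat.card (groupCohomology (res P.subtype (Rep.ofAlgebraAutOnUnits K L)) 2) =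
      Nat.card (H2 (Rep.ofAlgebraAutOnUnits (fixedField P) L)) :=
  Nat.card_congr (Equiv.ofBijective _
    (map_resHom_bijective P (galIncl K (fixedField P) L) (unitsResHom K (fixedField P) L)
      (galIncl_injective K (fixedField P) L) (range_galIncl_fixedField P)
      ⟨fun _ _ h => h, fun b => ⟨b, rfl⟩⟩ 2))

/-- **(S2)** For a finite Galois extension `L / K` of local fields, `|H²(Gal(L/K), Lˣ)|` is finite
and divides `[L : K]`. -/
theorem IsLocalFieldNA.finite_and_natCard_H2_units_dvd (hK : IsLocalFieldNA K) :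
    Finite (H2 (Rep.ofAlgebraAutOnUnits K L)) ∧
      Nat.card (H2 (Rep.ofAlgebraAutOnUnits K L)) ∣ Module.finrank K L := by
  rw [← IsGalois.card_aut_eq_finrank K L]
  refine finite_and_natCard_dvd_of_sylow (Rep.ofAlgebraAutOnUnits K L) 1 ?_
  intro p _ _
  obtain ⟨P⟩ : Nonempty (Sylow p (L ≃ₐ[K] L)) := inferInstance
  refine ⟨P, ?_⟩
  obtain ⟨k, hk⟩ := P.2.exists_card_eq
  have hF : IsLocalFieldNA (fixedField (P : Subgroup (L ≃ₐ[K] L))) := hK.of_finite
  have hdeg : Module.finrank (fixedField (P : Subgroup (L ≃ₐ[K] L))) L = p ^ k := by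
    rw [finrank_fixedField_eq_card, hk]
  have h1 := IsLocalFieldNA.natCard_H2_units_dvd_of_prime_pow p k
    (fixedField (P : Subgroup (L ≃ₐ[K] L))) L hF hdeg
  have h2 : Nat.card (groupCohomology (res (P : Subgroup (L ≃ₐ[K] L)).subtype
      (Rep.ofAlgebraAutOnUnits K L)) 2) ∣ Nat.card (P : Subgroup (L ≃ₐ[K] L)) := by
    rw [natCard_H2_res_units, hk]
    exact h1
  refine ⟨?_, h2⟩
  apply Nat.finite_of_card_ne_zero
  intro h0
  rw [h0, zero_dvd_iff, hk] at h2
  exact (pow_pos (Fact.out : p.Prime).pos k).ne' h2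

/-- If `H²(Gal(L/K), Lˣ)` contains an element of order `[L : K]`, it is cyclic of that order. -/
theorem IsLocalFieldNA.natCard_H2_units_eq_of_addOrderOf (hK : IsLocalFieldNA K)
    (w : H2 (Rep.ofAlgebraAutOnUnits K L)) (hw : addOrderOf w = Module.finrank K L) :
    Nat.card (H2 (Rep.ofAlgebraAutOnUnits K L)) = Module.finrank K L ∧
      IsAddCyclic (H2 (Rep.ofAlgebraAutOnUnits K L)) :=
  natCard_eq_and_isAddCyclic_of_addOrderOf Module.finrank_pos
    (hK.finite_and_natCard_H2_units_dvd (L := L)).2 w hw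

end

end Fermat.Agent.CFT
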