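import Fermat.Agent.CFT.Local.UnramifiedPoly
import Fermat.Agent.CFT.Local.LocalField
import Fermat.Agent.CFT.Local.CyclicCocyclePullback
import Fermat.Agent.CFT.Local.H2Class
import Fermat.Agent.CFT.Local.H2BoundAll
import Fermat.Agent.CFT.Global.CrossFieldsGalois

set_option autoImplicit false
set_option linter.style.haveILetI false
set_option linter.unusedSectionVars false

/-!
# CFT stream [B] Local, Tier 2, layer (S3) : an element of order `[L : K]` in `H²(Gal(L/K), Lˣ)`

For the AKLB block of `Local/Interface.lean` (`A` complete DVR with finite residue field,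
`L / K` finite Galois, any ramification), `n = [L : K]`, `f = [k_L : k]`, `e = n / f`:

* `f ∈ A[X]` a monic lift of an irreducible `f̄ ∈ k[X]` of degree `n`; `K_n = Frac (A[X]/f)` is the
  unramified extension of `K` of degree `n` (`unramified_block`);
* `g ∈ B[X]` a monic lift of an irreducible factor `ḡ` of `f̄` over `k_L` (of degree `e`);
  `E = Frac (B[X]/g)` is the unramified extension of `L` of degree `e`;
* by Hensel `f` has a root in `B[X]/g`, whence `K_n → E` over `K`; `E = L K_n` is Galois over `K`
  and `Gal(E/L) → Gal(K_n/K)` is injective with image of index `f`;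
* `exists_addOrderOf_eq_finrank_of_square` (`Local/H2Class.lean`) then yields a class of order `n`
  in `H²(Gal(L/K), Lˣ)`.

Consequences (`IsLocalFieldNA` vocabulary): `H²(Gal(L/K), Lˣ)` is cyclic of order `[L : K]` for
every finite Galois extension of local fields.
-/

namespace Fermat.Agent.CFT

open IsLocalRing Polynomial IntermediateField groupCohomology

/-- Finite fields `k ⊆ k'`, `f̄` irreducible over `k` of degree `n = e · [k' : k]`: every
irreducible factor of `f̄` over `k'` has degree dividing `e`. -/
theorem natDegree_dvd_of_irreducible_factor (k k' : Type*) [Field k] [Finite k] [Field k']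
    [Finite k'] [Algebra k k'] {fbar : k[X]} (hf : Irreducible fbar) {gbar : k'[X]}
    (hg : Irreducible gbar) (hdvd : gbar ∣ fbar.map (algebraMap k k')) {e : ℕ}
    (he : e * Module.finrank k k' = fbar.natDegree) : gbar.natDegree ∣ e := by
  have h1 : fbar ∣ X ^ (Nat.card k) ^ fbar.natDegree - X :=
    (Irreducible.natDegree_dvd_iff_dvd_X_pow_card_pow_sub_X hf).mp dvd_rfl
  have h2 : gbar ∣ X ^ (Nat.card k') ^ e - X := by
    refine hdvd.trans ?_
    have h3 := Polynomial.map_dvd (algebraMap k k') h1
    rw [Polynomial.map_sub, Polynomial.map_pow, Polynomial.map_X] at h3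
    have h4 : Nat.card k' = Nat.card k ^ Module.finrank k k' := Module.natCard_eq_pow_finrank
    rw [h4, ← pow_mul, mul_comm, he]
    exact h3
  exact hg.natDegree_dvd_of_dvd_X_pow_card_pow_sub_X h2


/-- Finite fields `k ⊆ k'`, `f̄` irreducible over `k`: for every irreducible factor `ḡ` of `f̄`
over `k'`, `deg f̄ ∣ deg ḡ · [k' : k]`. -/
theorem natDegree_dvd_mul_finrank_of_irreducible_factor (k k' : Type*) [Field k] [Finite k]
    [Field k'] [Finite k'] [Algebra k k'] {fbar : k[X]} (hf : Irreducible fbar) {gbar : k'[X]}
    (hg : Irreducible gbar) (hdvd : gbar ∣ fbar.map (algebraMap k k')) :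
    fbar.natDegree ∣ gbar.natDegree * Module.finrank k k' := by
  rw [hf.natDegree_dvd_iff_dvd_X_pow_card_pow_sub_X]
  by_contra hnd
  have hcop : IsCoprime fbar (X ^ Nat.card k ^ (gbar.natDegree * Module.finrank k k') - X) :=
    (hf.coprime_iff_not_dvd).mpr hnd
  have hcop' := hcop.map (Polynomial.mapRingHom (algebraMap k k'))
  have h2 : gbar ∣ X ^ (Nat.card k') ^ gbar.natDegree - X :=
    (hg.natDegree_dvd_iff_dvd_X_pow_card_pow_sub_X).mp dvd_rfl
  have h4 : Nat.card k' = Nat.card k ^ Module.finrank k k' := Module.natCard_eq_pow_finrank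
  rw [h4, ← pow_mul, mul_comm (Module.finrank k k')] at h2
  simp only [coe_mapRingHom, Polynomial.map_sub, Polynomial.map_pow, Polynomial.map_X] at hcop'
  exact hg.not_isUnit (hcop'.isUnit_of_dvd' hdvd h2)

/-- Hensel: a simple root of the reduction of a monic polynomial over a complete local ring
lifts to a root. -/
theorem exists_root_of_residue_root (B : Type*) [CommRing B] [IsLocalRing B]
    [IsAdicComplete (maximalIdeal B) B] {G : B[X]} (hG : G.Monic)
    (hsep : (G.map (residue B)).Separable) (b₀ : B)
    (h : (G.map (residue B)).eval (residue B b₀) = 0) :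
    ∃ b : B, G.eval b = 0 ∧ residue B b = residue B b₀ := by
  have h₁ : G.eval b₀ ∈ maximalIdeal B := by
    rw [← residue_eq_zero_iff, ← h, eval_map, eval₂_at_apply]
  have h₂ : IsUnit (Ideal.Quotient.mk (maximalIdeal B) (G.derivative.eval b₀)) := by
    have h3 : (G.map (residue B)).derivative.eval (residue B b₀) ≠ 0 := by
      have := hsep.eval₂_derivative_ne_zero (RingHom.id _) (x := residue B b₀)
        (by rw [eval₂_id]; exact h)
      rwa [eval₂_id] at this
    rw [derivative_map, eval_map, eval₂_at_apply] at h3
    exact (isUnit_iff_ne_zero (G₀ := ResidueField B)).mpr h3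
  obtain ⟨b, hb, hbb⟩ := HenselianRing.is_henselian (I := maximalIdeal B) G hG b₀ h₁ h₂
  exact ⟨b, hb, by rw [← sub_eq_zero, ← map_sub, residue_eq_zero_iff]; exact hbb⟩

section Over

variable (A K L B : Type) [CommRing A] [IsDomain A] [IsDiscreteValuationRing A]
  [IsAdicComplete (maximalIdeal A) A] [Finite (ResidueField A)]
  [Field K] [Algebra A K] [IsFractionRing A K]
  [Field L] [Algebra K L] [Algebra A L] [IsScalarTower A K L] [FiniteDimensional K L] [IsGalois K L]
  [CommRing B] [IsDomain B] [IsDiscreteValuationRing B] [Algebra A B] [Algebra B L]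
  [IsScalarTower A B L] [IsIntegralClosure B A L]

include A K L in
theorem aklb_isAdicComplete : IsAdicComplete (maximalIdeal B) B :=
  intClosure_isAdicComplete A K L B

include A K L in
theorem aklb_finite_residueField : Finite (ResidueField B) :=
  intClosure_finite_residueField A K L B

include K L in
theorem aklb_isLocalHom : IsLocalHom (algebraMap A B) :=
  intClosure_isLocalHom A K L B

set_option linter.deprecated false in
omit [IsAdicComplete (maximalIdeal A) A] [Finite (ResidueField A)] in
/-- ramification index and residue degree: `e f = n`, and `ord_L = e · ord_K` on `K`. -/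
theorem exists_ramification_index [IsLocalHom (algebraMap A B)] [IsFractionRing B L] :
    ∃ e : ℕ, e * Module.finrank (ResidueField A) (ResidueField B) = Module.finrank K L ∧
      ∀ x : Kˣ, ord B L (Units.map (algebraMap K L : K →* L) x) = e * ord A K x := by
  have hfin : Module.Finite A B := IsIntegralClosure.finite A K L B
  have htf : Module.IsTorsionFree A B := by
    have : FaithfulSMul A B := aklb_faithfulSMul A K L B
    infer_instance
  refine ⟨(maximalIdeal A).ramificationIdx' (maximalIdeal B), ?_, ?_⟩
  · have h1 := Ideal.ramificationIdx_mul_inertiaDeg_of_isLocalRing B K L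
      (p := maximalIdeal A) (IsDiscreteValuationRing.not_a_field A)
    rw [Ideal.inertiaDeg'_algebraMap] at h1
    exact h1
  · intro x
    haveI : (IsDiscreteValuationRing.maximalIdeal B).asIdeal.LiesOver
        (IsDiscreteValuationRing.maximalIdeal A).asIdeal :=
      inferInstanceAs ((maximalIdeal B).LiesOver (maximalIdeal A))
    have h2 := IsDedekindDomain.HeightOneSpectrum.valuation_liesOver L
      (IsDiscreteValuationRing.maximalIdeal A) (IsDiscreteValuationRing.maximalIdeal B) (x : K)
    have h3 := coe_ordHom_eq_exp A K x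
    have h4 := coe_ordHom_eq_exp B L (Units.map (algebraMap K L : K →* L) x)
    have h5 : WithZero.exp (-ord A K x) ^ (maximalIdeal A).ramificationIdx' (maximalIdeal B) =
        WithZero.exp (-ord B L (Units.map (algebraMap K L : K →* L) x)) := by
      rw [← h3, ← h4]; exact h2
    rw [← WithZero.exp_nsmul, WithZero.exp_inj, nsmul_eq_mul] at h5
    linarith

include A B in
/-- **(S3)** For a finite Galois extension `L / K` of a complete discretely valued field with
finite residue field, `H²(Gal(L/K), Lˣ)` contains an element of order `[L : K]`.  Proof: let `K_n`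
be the unramified extension of `K` of degree `n = [L : K]` and `E = L K_n`, which is the
unramified extension of `L` of degree `e = e(L/K)`; the inflation to `E / K` of the cyclic class
of a uniformiser of `K` for `K_n / K` (of order `n`) restricts to the cyclic class of the same
element for `E / L`, which vanishes since its `L`-valuation is `e = [E : L]`; so it comes from
`H²(L/K)`. -/
theorem exists_addOrderOf_eq_finrank_of_aklb :
    ∃ w : H2 (Rep.ofAlgebraAutOnUnits K L), addOrderOf w = Module.finrank K L := by
  classical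
  haveI hBcomp : IsAdicComplete (maximalIdeal B) B := aklb_isAdicComplete A K L B
  haveI hBfin : Finite (ResidueField B) := aklb_finite_residueField A K L B
  haveI hlh : IsLocalHom (algebraMap A B) := aklb_isLocalHom A K L B
  haveI hfrac : IsFractionRing B L := IsIntegralClosure.isFractionRing_of_finite_extension A K L B
  have hn : 0 < Module.finrank K L := Module.finrank_pos
  -- Step 1 : the polynomial `f`
  obtain ⟨fbar, hfbar_monic, hfbar_irr, hfbar_deg⟩ :=
    exists_monic_irreducible_natDegree_eq (ResidueField A) (Module.finrank K L) hn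
  obtain ⟨f, hfmap, hfdeg, hf⟩ := lifts_and_natDegree_eq_and_monic
    ((mem_lifts fbar).mpr (map_surjective (residue A) residue_surjective fbar)) hfbar_monic
  have hirr : Irreducible (f.map (residue A)) := by rw [hfmap]; exact hfbar_irr
  have hdeg : f.natDegree = Module.finrank K L := by rw [hfdeg, hfbar_deg]
  -- Step 2 : the polynomial `g`
  have hnu : ¬ IsUnit (fbar.map (algebraMap (ResidueField A) (ResidueField B))) := by
    apply not_isUnit_of_natDegree_pos
    rw [natDegree_map, hfbar_deg]; exact hn
  obtain ⟨gbar, hgbar_monic, hgbar_irr, hgbar_dvd⟩ := exists_monic_irreducible_factor _ hnu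
  obtain ⟨g, hgmap, hgdeg, hg⟩ := lifts_and_natDegree_eq_and_monic
    ((mem_lifts gbar).mpr (map_surjective (residue B) residue_surjective gbar)) hgbar_monic
  have hgirr : Irreducible (g.map (residue B)) := by rw [hgmap]; exact hgbar_irr
  -- the two unramified blocks
  obtain ⟨hdomN, hdvrN, algKKn, towAKKn, fdKKn, galKKn, icN, hfinrankN, hunrN, hcompN, hlhN⟩ :=
    unramified_block A K hf hirr
  obtain ⟨hdomE, hdvrE, algLE, towBLE, fdLE, galLE, icE, hfinrankE, hunrE, hcompE, hlhE⟩ :=
    unramified_block B L hg hgirr
  -- Step 3 : a root of `f` in `B_E`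
  have hfbar_sep : fbar.Separable := PerfectField.separable_of_irreducible hfbar_irr
  have hres_comp : (residue (AdjoinRoot g)).comp (algebraMap A (AdjoinRoot g)) =
      ((algebraMap (ResidueField B) (ResidueField (AdjoinRoot g))).comp
        (algebraMap (ResidueField A) (ResidueField B))).comp (residue A) := by
    ext a
    simp only [RingHom.comp_apply]
    rw [ResidueField.algebraMap_residue, ResidueField.algebraMap_residue,
      ← IsScalarTower.algebraMap_apply]
  have hFmap : (f.map (algebraMap A (AdjoinRoot g))).map (residue (AdjoinRoot g)) =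
      (fbar.map (algebraMap (ResidueField A) (ResidueField B))).map
        (algebraMap (ResidueField B) (ResidueField (AdjoinRoot g))) := by
    rw [Polynomial.map_map, hres_comp, ← Polynomial.map_map, ← Polynomial.map_map, hfmap]
  have hroot0 : ((f.map (algebraMap A (AdjoinRoot g))).map (residue (AdjoinRoot g))).eval
      (residue (AdjoinRoot g) (AdjoinRoot.root g)) = 0 := by
    rw [hFmap]
    obtain ⟨q, hq⟩ := hgbar_dvd
    rw [hq, Polynomial.map_mul, eval_mul, ← hgmap, Polynomial.map_map]
    have : (residue (AdjoinRoot g)).comp (algebraMap B (AdjoinRoot g)) =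
        (algebraMap (ResidueField B) (ResidueField (AdjoinRoot g))).comp (residue B) := by
      ext b; rfl
    rw [← this, ← Polynomial.map_map, eval_map, eval₂_at_apply, eval_map, AdjoinRoot.algebraMap_eq,
      AdjoinRoot.eval₂_root, map_zero, zero_mul]
  have hFsep : ((f.map (algebraMap A (AdjoinRoot g))).map (residue (AdjoinRoot g))).Separable := by
    rw [hFmap]
    exact (hfbar_sep.map).map
  obtain ⟨θ', hθ'root, hθ'res⟩ := exists_root_of_residue_root (AdjoinRoot g) (hf.map _) hFsep
    (AdjoinRoot.root g) hroot0
  -- Step 4 : the maps `B_n → B_E`, `K_n → E`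
  have hθ'2 : f.eval₂ (algebraMap A (AdjoinRoot g)) θ' = 0 := by rw [← eval_map]; exact hθ'root
  let φ : AdjoinRoot f →+* AdjoinRoot g := AdjoinRoot.lift (algebraMap A (AdjoinRoot g)) θ' hθ'2
  have hφ_of : ∀ a : A, φ (algebraMap A (AdjoinRoot f) a) = algebraMap A (AdjoinRoot g) a :=
    fun a => by rw [AdjoinRoot.algebraMap_eq]; exact AdjoinRoot.lift_of hθ'2
  have hφ_root : φ (AdjoinRoot.root f) = θ' := AdjoinRoot.lift_root hθ'2
  have hinjAB : Function.Injective (algebraMap A B) := by
    have : FaithfulSMul A B := aklb_faithfulSMul A K L B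
    exact FaithfulSMul.algebraMap_injective A B
  have hinjABE : Function.Injective (algebraMap A (AdjoinRoot g)) := by
    rw [IsScalarTower.algebraMap_eq A B (AdjoinRoot g)]
    exact (adjoinRoot_algebraMap_injective B hg hgirr).comp hinjAB
  have hinjBEE : Function.Injective (algebraMap (AdjoinRoot g) (FractionRing (AdjoinRoot g))) :=
    IsFractionRing.injective _ _
  let ψ₀ : AdjoinRoot f →+* FractionRing (AdjoinRoot g) :=
    (algebraMap (AdjoinRoot g) (FractionRing (AdjoinRoot g))).comp φ
  have hψ₀inj : Function.Injective ψ₀ := by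
    rw [RingHom.injective_iff_ker_eq_bot]
    haveI : Module.Finite A (AdjoinRoot f) := hf.finite_adjoinRoot
    apply Ideal.eq_bot_of_comap_eq_bot (R := A)
    rw [eq_bot_iff]
    intro a ha
    rw [Ideal.mem_comap, RingHom.mem_ker] at ha
    change algebraMap (AdjoinRoot g) (FractionRing (AdjoinRoot g))
      (φ (algebraMap A (AdjoinRoot f) a)) = 0 at ha
    rw [hφ_of, ← map_zero (algebraMap (AdjoinRoot g) (FractionRing (AdjoinRoot g)))] at ha
    have := hinjABE (by rw [hinjBEE ha, map_zero] : algebraMap A (AdjoinRoot g) a =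
      algebraMap A (AdjoinRoot g) 0)
    rw [this]; exact Ideal.zero_mem _
  let ψ : FractionRing (AdjoinRoot f) →+* FractionRing (AdjoinRoot g) := IsFractionRing.lift hψ₀inj
  have hψ_alg : ∀ b : AdjoinRoot f, ψ (algebraMap (AdjoinRoot f) (FractionRing (AdjoinRoot f)) b) =
      algebraMap (AdjoinRoot g) (FractionRing (AdjoinRoot g)) (φ b) :=
    fun b => IsFractionRing.lift_algebraMap hψ₀inj b
  letI algKE : Algebra K (FractionRing (AdjoinRoot g)) :=
    ((algebraMap L (FractionRing (AdjoinRoot g))).comp (algebraMap K L)).toAlgebra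
  haveI towKLE : IsScalarTower K L (FractionRing (AdjoinRoot g)) :=
    IsScalarTower.of_algebraMap_eq (fun _ => rfl)
  letI algKnE : Algebra (FractionRing (AdjoinRoot f)) (FractionRing (AdjoinRoot g)) := ψ.toAlgebra
  have hKnE : ∀ y, algebraMap (FractionRing (AdjoinRoot f)) (FractionRing (AdjoinRoot g)) y = ψ y :=
    fun _ => rfl
  haveI towKKnE : IsScalarTower K (FractionRing (AdjoinRoot f)) (FractionRing (AdjoinRoot g)) := by
    apply IsScalarTower.of_algebraMap_eq'
    apply IsLocalization.ringHom_ext (nonZeroDivisors A)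
    ext a
    simp only [RingHom.comp_apply]
    rw [hKnE, ← IsScalarTower.algebraMap_apply A K (FractionRing (AdjoinRoot f)),
      IsScalarTower.algebraMap_apply A (AdjoinRoot f) (FractionRing (AdjoinRoot f)), hψ_alg, hφ_of]
    rw [IsScalarTower.algebraMap_apply K L (FractionRing (AdjoinRoot g)),
      ← IsScalarTower.algebraMap_apply A K L, IsScalarTower.algebraMap_apply A B L,
      ← IsScalarTower.algebraMap_apply B L (FractionRing (AdjoinRoot g)),
      IsScalarTower.algebraMap_apply B (AdjoinRoot g) (FractionRing (AdjoinRoot g)),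
      ← IsScalarTower.algebraMap_apply A B (AdjoinRoot g)]
  -- Step 5 : `E = L(θ')`
  have hcompres : (residue (AdjoinRoot g)).comp (algebraMap B (AdjoinRoot g)) =
      (algebraMap (ResidueField B) (ResidueField (AdjoinRoot g))).comp (residue B) := by
    ext b; rfl
  have hgroot : Polynomial.aeval (residue (AdjoinRoot g) (AdjoinRoot.root g)) gbar = 0 := by
    rw [aeval_def, ← eval_map, ← hgmap, Polynomial.map_map, ← hcompres, ← Polynomial.map_map,
      eval_map, eval₂_at_apply, eval_map, AdjoinRoot.algebraMap_eq, AdjoinRoot.eval₂_root, map_zero]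
  have hgmin : gbar = minpoly (ResidueField B) (residue (AdjoinRoot g) (AdjoinRoot.root g)) :=
    minpoly.eq_of_irreducible_of_monic hgbar_irr hgroot hgbar_monic
  haveI hfinBBE : Module.Finite B (AdjoinRoot g) := hg.finite_adjoinRoot
  have hθ'int : IsIntegral B θ' := Algebra.IsIntegral.isIntegral θ'
  have hμ_monic := minpoly.monic hθ'int
  have hμroot : Polynomial.aeval (residue (AdjoinRoot g) (AdjoinRoot.root g))
      ((minpoly B θ').map (residue B)) = 0 := by
    rw [aeval_def, ← eval_map, Polynomial.map_map, ← hcompres, ← Polynomial.map_map, ← hθ'res,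
      eval_map, eval₂_at_apply, eval_map, ← aeval_def, minpoly.aeval, map_zero]
  have hdvd : gbar ∣ (minpoly B θ').map (residue B) := by
    rw [hgmin]; exact minpoly.dvd _ _ hμroot
  have hdeg_le : gbar.natDegree ≤ (minpoly B θ').natDegree := by
    have := natDegree_le_of_dvd hdvd (hμ_monic.map _).ne_zero
    rwa [hμ_monic.natDegree_map] at this
  have hmin := minpoly.isIntegrallyClosed_eq_field_fractions L (FractionRing (AdjoinRoot g)) hθ'int
  have hprim : L⟮algebraMap (AdjoinRoot g) (FractionRing (AdjoinRoot g)) θ'⟯ = ⊤ := by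
    have h1 := minpoly.natDegree_le (A := L)
      (algebraMap (AdjoinRoot g) (FractionRing (AdjoinRoot g)) θ')
    rw [Field.primitive_element_iff_minpoly_natDegree_eq]
    rw [hmin, hμ_monic.natDegree_map, hfinrankE, hgdeg] at h1 ⊢
    exact le_antisymm h1 hdeg_le
  have hgen : IntermediateField.adjoin L
      (Set.range (algebraMap (FractionRing (AdjoinRoot f)) (FractionRing (AdjoinRoot g)))) = ⊤ := by
    rw [eq_top_iff, ← hprim]
    apply IntermediateField.adjoin.mono
    rw [Set.singleton_subset_iff]
    refine ⟨algebraMap (AdjoinRoot f) (FractionRing (AdjoinRoot f)) (AdjoinRoot.root f), ?_⟩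
    rw [hKnE, hψ_alg, hφ_root]
  -- Step 6 : `E / K` is Galois
  haveI fdKE : FiniteDimensional K (FractionRing (AdjoinRoot g)) := Module.Finite.trans L _
  haveI galKE : IsGalois K (FractionRing (AdjoinRoot g)) :=
    isGalois_of_isCompositum (K := K) (F := L) (L := FractionRing (AdjoinRoot f))
      (M := FractionRing (AdjoinRoot g)) hgen
  -- Step 7 : numerology `deg ḡ = e`
  obtain ⟨e, hef, hord⟩ := exists_ramification_index A K L B
  have hm_dvd : gbar.natDegree ∣ e :=
    natDegree_dvd_of_irreducible_factor _ _ hfbar_irr hgbar_irr hgbar_dvd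
      (by rw [hef, hfbar_deg])
  have hn_dvd : Module.finrank K L ∣
      gbar.natDegree * Module.finrank (ResidueField A) (ResidueField B) := by
    have := natDegree_dvd_mul_finrank_of_irreducible_factor _ _ hfbar_irr hgbar_irr hgbar_dvd
    rwa [hfbar_deg] at this
  have hfpos : 0 < Module.finrank (ResidueField A) (ResidueField B) :=
    Nat.pos_of_ne_zero (fun h => by rw [h, mul_zero] at hef; omega)
  have hme : gbar.natDegree = e := by
    rw [← hef] at hn_dvd
    exact Nat.dvd_antisymm hm_dvd (Nat.dvd_of_mul_dvd_mul_right hfpos hn_dvd)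
  -- Step 8 : the Galois groups
  haveI cycN : IsCyclic (FractionRing (AdjoinRoot f) ≃ₐ[K] FractionRing (AdjoinRoot f)) :=
    isCyclic_of_isUnramifiedExt A K (FractionRing (AdjoinRoot f)) (AdjoinRoot f) hunrN
  obtain ⟨σK, hσK⟩ := cycN.exists_generator
  let ι : (FractionRing (AdjoinRoot g) ≃ₐ[L] FractionRing (AdjoinRoot g)) →*
      (FractionRing (AdjoinRoot f) ≃ₐ[K] FractionRing (AdjoinRoot f)) :=
    (galProj K (FractionRing (AdjoinRoot f)) (FractionRing (AdjoinRoot g))).comp
      (galIncl K L (FractionRing (AdjoinRoot g)))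
  have hι : Function.Injective ι := by
    rw [injective_iff_map_eq_one]
    intro σ hσ
    have hfix : ∀ x : FractionRing (AdjoinRoot f),
        σ (algebraMap (FractionRing (AdjoinRoot f)) (FractionRing (AdjoinRoot g)) x) =
          algebraMap (FractionRing (AdjoinRoot f)) (FractionRing (AdjoinRoot g)) x := by
      have hker : galIncl K L (FractionRing (AdjoinRoot g)) σ ∈
          (galProj K (FractionRing (AdjoinRoot f)) (FractionRing (AdjoinRoot g))).ker := hσ
      rw [mem_ker_galProj_iff] at hker
      exact hker
    have hle : IntermediateField.adjoin L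
        (Set.range (algebraMap (FractionRing (AdjoinRoot f)) (FractionRing (AdjoinRoot g)))) ≤
        IntermediateField.fixedField (Subgroup.zpowers σ) := by
      rw [IntermediateField.adjoin_le_iff]
      rintro _ ⟨x, rfl⟩
      rintro ⟨h, hh⟩
      obtain ⟨n, rfl⟩ := Subgroup.mem_zpowers_iff.mp hh
      change (σ ^ n) (algebraMap (FractionRing (AdjoinRoot f)) (FractionRing (AdjoinRoot g)) x) =
        algebraMap (FractionRing (AdjoinRoot f)) (FractionRing (AdjoinRoot g)) x
      have hstab : σ ∈ MulAction.stabilizer
          (FractionRing (AdjoinRoot g) ≃ₐ[L] FractionRing (AdjoinRoot g))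
          (algebraMap (FractionRing (AdjoinRoot f)) (FractionRing (AdjoinRoot g)) x) := hfix x
      exact (Subgroup.zpow_mem _ hstab n)
    rw [hgen, top_le_iff] at hle
    ext y
    have hy : y ∈ IntermediateField.fixedField (Subgroup.zpowers σ) := by rw [hle]; trivial
    exact hy ⟨σ, Subgroup.mem_zpowers σ⟩
  have hd : Module.finrank (ResidueField A) (ResidueField B) *
      Module.finrank L (FractionRing (AdjoinRoot g)) =
      Module.finrank K (FractionRing (AdjoinRoot f)) := by
    rw [hfinrankE, hfinrankN, hgdeg, hme, hdeg, mul_comm, hef]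
  have hcard : Module.finrank (ResidueField A) (ResidueField B) *
      Nat.card (FractionRing (AdjoinRoot g) ≃ₐ[L] FractionRing (AdjoinRoot g)) =
      Nat.card (FractionRing (AdjoinRoot f) ≃ₐ[K] FractionRing (AdjoinRoot f)) := by
    rw [IsGalois.card_aut_eq_finrank, IsGalois.card_aut_eq_finrank, hd]
  obtain ⟨σL, hσL, hres, -⟩ := exists_generator_map_eq_pow ι hι hσK hcard
  obtain ⟨ϖ, hϖ⟩ := exists_ord_eq_one A K
  have hϖL : ord B L (Units.map (algebraMap K L : K →* L) ϖ) =
      Module.finrank L (FractionRing (AdjoinRoot g)) := by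
    rw [hord, hϖ, mul_one, hfinrankE, hgdeg, hme]
  exact exists_addOrderOf_eq_finrank_of_square A K L B (AdjoinRoot f)
    (FractionRing (AdjoinRoot f)) (AdjoinRoot g) (FractionRing (AdjoinRoot g)) hunrN hunrE
    (hfinrankN.trans hdeg) hσK hσL hd hres hϖ hϖL

end Over

section LocalField

variable {K L : Type} [Field K] [Field L] [Algebra K L] [FiniteDimensional K L] [IsGalois K L]

/-- **(S3)**, field-only form: `H²(Gal(L/K), Lˣ)` contains an element of order `[L : K]`. -/
theorem IsLocalFieldNA.exists_addOrderOf_eq_finrank (hK : IsLocalFieldNA K) :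
    ∃ w : H2 (Rep.ofAlgebraAutOnUnits K L), addOrderOf w = Module.finrank K L := by
  obtain ⟨A, _, _, _, _, hfr, hcomp, hfin⟩ := hK
  letI : Algebra A L := ((algebraMap K L).comp (algebraMap A K)).toAlgebra
  haveI : IsScalarTower A K L := IsScalarTower.of_algebraMap_eq (fun _ => rfl)
  let B := integralClosure A L
  haveI hdom : IsDomain B := intClosure_isDomain A K L B
  haveI hloc : IsLocalRing B := intClosure_isLocalRing A K L B
  haveI hdvr : IsDiscreteValuationRing B := intClosure_isDiscreteValuationRing A K L B
  exact exists_addOrderOf_eq_finrank_of_aklb A K L B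

/-- **(LCF)** `|H²(Gal(L/K), Lˣ)| = [L : K]` for every finite Galois extension of local fields. -/
theorem IsLocalFieldNA.natCard_H2_units (hK : IsLocalFieldNA K) :
    Nat.card (H2 (Rep.ofAlgebraAutOnUnits K L)) = Module.finrank K L := by
  obtain ⟨w, hw⟩ := hK.exists_addOrderOf_eq_finrank (L := L)
  exact (hK.natCard_H2_units_eq_of_addOrderOf w hw).1

/-- **(LCF)** `H²(Gal(L/K), Lˣ)` is cyclic for every finite Galois extension of local fields. -/
theorem IsLocalFieldNA.isAddCyclic_H2_units (hK : IsLocalFieldNA K) :
    IsAddCyclic (H2 (Rep.ofAlgebraAutOnUnits K L)) := by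
  obtain ⟨w, hw⟩ := hK.exists_addOrderOf_eq_finrank (L := L)
  exact (hK.natCard_H2_units_eq_of_addOrderOf w hw).2

/-- `H²(Gal(L/K), Lˣ)` is finite for every finite Galois extension of local fields. -/
theorem IsLocalFieldNA.finite_H2_units (hK : IsLocalFieldNA K) :
    Finite (H2 (Rep.ofAlgebraAutOnUnits K L)) :=
  (hK.finite_and_natCard_H2_units_dvd (L := L)).1

end LocalField

end Fermat.Agent.CFT
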