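import Fermat.Agent.CFT.Coh.TateClass
import Fermat.Agent.CFT.Local.UnramifiedOver

set_option autoImplicit false

/-!
# Tate's theorem for local fields

For a finite Galois extension `L / K` of (non-archimedean) local fields, `Lˣ` is a class module
for `Gal(L/K)`: Hilbert 90 on all subgroups, `|H²(S, Lˣ)| = |S|` and a class of order `[L : K]`
(the local class formation (LCF)).  Hence Tate's theorem applies: `H³(S, Lˣ) = 0` and
`Hᵠ⁺¹(S, ℤ) ≅ Hᵠ⁺³(S, Lˣ)` for every subgroup `S ≤ Gal(L/K)`.
-/

namespace Fermat.Agent.CFT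

open groupCohomology IntermediateField CategoryTheory Rep

section

variable {K L : Type} [Field K] [Field L] [Algebra K L] [FiniteDimensional K L] [IsGalois K L]

/-- `Hⁿ(P, Lˣ) ≃ Hⁿ(Gal(L/L^P), Lˣ)` for a subgroup `P ≤ Gal(L/K)`, as a bijection. -/
theorem bijective_res_units (P : Subgroup (L ≃ₐ[K] L)) (n : ℕ) :
    Function.Bijective
      (map (toSubEquiv P (galIncl K (fixedField P) L) (galIncl_injective K (fixedField P) L)
          (range_galIncl_fixedField P)).toMonoidHom
        (resHom P (galIncl K (fixedField P) L) (unitsResHom K (fixedField P) L)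
          (galIncl_injective K (fixedField P) L) (range_galIncl_fixedField P)) n) :=
  map_resHom_bijective P (galIncl K (fixedField P) L) (unitsResHom K (fixedField P) L)
    (galIncl_injective K (fixedField P) L) (range_galIncl_fixedField P)
    ⟨fun _ _ h => h, fun b => ⟨b, rfl⟩⟩ n

/-- Hilbert 90 on subgroups: `H¹(P, Lˣ) = 0`. -/
theorem isZero_H1_res_units (P : Subgroup (L ≃ₐ[K] L)) :
    Limits.IsZero (groupCohomology (res P.subtype (Rep.ofAlgebraAutOnUnits K L)) 1) := by
  rw [ModuleCat.isZero_iff_subsingleton]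
  have hsub : Subsingleton (H1 (Rep.ofAlgebraAutOnUnits (fixedField P) L)) :=
    (H1ofAutOnUnitsUnique (fixedField P) L).instSubsingleton
  exact (bijective_res_units P 1).1.subsingleton

/-- `|H²(P, Lˣ)| = |P|` for local fields. -/
theorem IsLocalFieldNA.natCard_H2_res_units_eq (hK : IsLocalFieldNA K)
    (P : Subgroup (L ≃ₐ[K] L)) :
    Nat.card (groupCohomology (res P.subtype (Rep.ofAlgebraAutOnUnits K L)) 2) = Nat.card P := by
  have hF : IsLocalFieldNA (fixedField P) := hK.of_finite
  rw [natCard_H2_res_units, hF.natCard_H2_units, finrank_fixedField_eq_card]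

/-- A class of order `|Gal(L/K)|` exists. -/
theorem IsLocalFieldNA.exists_addOrderOf_eq_natCard (hK : IsLocalFieldNA K) :
    ∃ w : groupCohomology (Rep.ofAlgebraAutOnUnits K L) 2,
      addOrderOf w = Nat.card (L ≃ₐ[K] L) := by
  obtain ⟨w, hw⟩ := hK.exists_addOrderOf_eq_finrank (L := L)
  exact ⟨w, by rw [hw, IsGalois.card_aut_eq_finrank]⟩

/-- **`Lˣ` carries a class cocycle** for every finite Galois extension of local fields. -/
theorem IsLocalFieldNA.exists_isClassCocycle_units (hK : IsLocalFieldNA K) :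
    ∃ φ : cocycles₂ (Rep.ofAlgebraAutOnUnits K L),
      IsClassCocycle (Rep.ofAlgebraAutOnUnits K L) φ :=
  exists_isClassCocycle _ isZero_H1_res_units (fun P => hK.natCard_H2_res_units_eq P)
    hK.exists_addOrderOf_eq_natCard

/-- **Tate's theorem for local fields, `n = 1`**: `H³(S, Lˣ) = 0` for all `S ≤ Gal(L/K)`. -/
theorem IsLocalFieldNA.isZero_H3_res_units (hK : IsLocalFieldNA K)
    (S : Subgroup (L ≃ₐ[K] L)) :
    Limits.IsZero (groupCohomology (res S.subtype (Rep.ofAlgebraAutOnUnits K L)) 3) :=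
  isZero_H3_of_card _ isZero_H1_res_units (fun P => hK.natCard_H2_res_units_eq P)
    hK.exists_addOrderOf_eq_natCard S

/-- **Tate's theorem for local fields**: `Hᵠ⁺¹(S, ℤ) ≃ Hᵠ⁺³(S, Lˣ)` for all `S ≤ Gal(L/K)`. -/
theorem IsLocalFieldNA.nonempty_tateIso_units (hK : IsLocalFieldNA K)
    (S : Subgroup (L ≃ₐ[K] L)) (q : ℕ) :
    Nonempty (groupCohomology (res S.subtype (Rep.trivial ℤ (L ≃ₐ[K] L) ℤ)) (q + 1) ≅
      groupCohomology (res S.subtype (Rep.ofAlgebraAutOnUnits K L)) (q + 3)) := by
  obtain ⟨φ, hφ⟩ := hK.exists_isClassCocycle_units (L := L)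
  exact ⟨tateIsoInt _ φ hφ S q⟩

/-- In particular `H³(Gal(L/K), Lˣ) = 0`. -/
theorem IsLocalFieldNA.isZero_H3_units (hK : IsLocalFieldNA K) :
    Limits.IsZero (groupCohomology (Rep.ofAlgebraAutOnUnits K L) 3) := by
  have h := hK.isZero_H3_res_units (L := L) ⊤
  have e := resRangeIso (Rep.ofAlgebraAutOnUnits K L) (MonoidHom.id (L ≃ₐ[K] L))
    Function.injective_id 3
  have htop : (MonoidHom.id (L ≃ₐ[K] L)).range = ⊤ := MonoidHom.range_eq_top.2 Function.surjective_id
  rw [htop] at e
  exact h.of_iso e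

end

end Fermat.Agent.CFT
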