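import Mathlib
import Fermat.Prelude.Thm_IsLocalRing_isAdicComplete_of_module_finite
import Fermat.Agent.CFT.Local.Interface

set_option autoImplicit false
set_option linter.style.haveILetI false

/-!
# CFT, local stream: existence of unramified extensions

`A` a complete discrete valuation ring with finite residue field `k`, `K = Frac A`, `n ≥ 1`.
We construct an unramified extension `L / K` of degree `n` together with its ring of integers `B`,
with the full instance block of the contracts in `Local/Interface.lean`:

* `f ∈ A[X]` a monic lift of a monic irreducible `f̄ ∈ k[X]` of degree `n`,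
* `B := AdjoinRoot f` (a complete DVR with maximal ideal `𝔪_A B`, finite free of rank `n`),
* `L := FractionRing B`, Galois over `K` because Hensel's lemma lifts the `n` distinct roots of
  `f̄` in the residue field of `B` to roots of `f` in `B`.

Main statement: `exists_unramified_ext`.
-/

namespace Fermat.Agent.CFT

open IsLocalRing Polynomial IntermediateField


universe u v

/-- Over a finite field there is a monic irreducible polynomial of every positive degree. -/
theorem exists_monic_irreducible_natDegree_eq (k : Type*) [Field k] [Finite k] (n : ℕ)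
    (hn : 0 < n) : ∃ g : k[X], g.Monic ∧ Irreducible g ∧ g.natDegree = n := by
  obtain ⟨p, hp⟩ := CharP.exists k
  have : Fact p.Prime := ⟨CharP.char_is_prime k p⟩
  have : NeZero n := ⟨hn.ne'⟩
  obtain ⟨α, hα⟩ := Field.exists_primitive_element k (FiniteField.Extension k p n)
  have hint : IsIntegral k α := IsIntegral.of_finite k α
  refine ⟨minpoly k α, minpoly.monic hint, minpoly.irreducible hint, ?_⟩
  rw [(Field.primitive_element_iff_minpoly_natDegree_eq k α).mp hα,
    FiniteField.finrank_extension k p n]

section Construction

variable (A : Type u) [CommRing A] [IsDomain A] [IsDiscreteValuationRing A]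
variable {f : A[X]}

theorem adjoinRoot_isDomain_of_residue (hf : f.Monic)
    (hirr : Irreducible (f.map (residue A))) : IsDomain (AdjoinRoot f) := by
  have h1 : Irreducible f := Polynomial.Monic.irreducible_of_irreducible_map (residue A) f hf hirr
  exact AdjoinRoot.isDomain_of_prime h1.prime

theorem adjoinRoot_map_maximalIdeal_isMaximal
    (hirr : Irreducible (f.map (residue A))) :
    ((maximalIdeal A).map (algebraMap A (AdjoinRoot f))).IsMaximal := by
  letI : Field (A ⧸ maximalIdeal A) := Ideal.Quotient.field (maximalIdeal A)
  have h2 : (Ideal.span ({f.map (Ideal.Quotient.mk (maximalIdeal A))} :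
      Set (A ⧸ maximalIdeal A)[X])).IsMaximal :=
    PrincipalIdealRing.isMaximal_of_irreducible hirr
  have h3 : IsField ((A ⧸ maximalIdeal A)[X] ⧸
      Ideal.span ({f.map (Ideal.Quotient.mk (maximalIdeal A))} : Set (A ⧸ maximalIdeal A)[X])) :=
    (Ideal.Quotient.maximal_ideal_iff_isField_quotient _).mp h2
  have h4 : IsField (AdjoinRoot f ⧸ (maximalIdeal A).map (AdjoinRoot.of f)) :=
    (AdjoinRoot.quotEquivQuotMap f (maximalIdeal A)).toRingEquiv.toMulEquiv.isField h3
  exact (Ideal.Quotient.maximal_ideal_iff_isField_quotient _).mpr h4

theorem adjoinRoot_isLocalRing_of_residue (hf : f.Monic)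
    (hirr : Irreducible (f.map (residue A))) : IsLocalRing (AdjoinRoot f) := by
  have hmax := adjoinRoot_map_maximalIdeal_isMaximal A hirr
  have : Module.Finite A (AdjoinRoot f) := hf.finite_adjoinRoot
  refine IsLocalRing.of_unique_max_ideal ⟨_, hmax, fun M hM => ?_⟩
  have h1 : (M.comap (algebraMap A (AdjoinRoot f))).IsMaximal :=
    Ideal.isMaximal_comap_of_isIntegral_of_isMaximal M
  have h2 : M.comap (algebraMap A (AdjoinRoot f)) = maximalIdeal A :=
    IsLocalRing.eq_maximalIdeal h1
  have h3 : (maximalIdeal A).map (algebraMap A (AdjoinRoot f)) ≤ M := by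
    rw [← h2]; exact Ideal.map_comap_le
  exact (hmax.eq_of_le hM.ne_top h3).symm

theorem adjoinRoot_maximalIdeal_eq (hf : f.Monic)
    (hirr : Irreducible (f.map (residue A))) :
    haveI := adjoinRoot_isLocalRing_of_residue A hf hirr
    (maximalIdeal A).map (algebraMap A (AdjoinRoot f)) = maximalIdeal (AdjoinRoot f) := by
  haveI := adjoinRoot_isLocalRing_of_residue A hf hirr
  exact IsLocalRing.eq_maximalIdeal (adjoinRoot_map_maximalIdeal_isMaximal A hirr)

theorem natDegree_pos_of_residue (hf : f.Monic)
    (hirr : Irreducible (f.map (residue A))) : 0 < f.natDegree := by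
  rw [← hf.natDegree_map (residue A)]
  exact hirr.natDegree_pos

theorem adjoinRoot_algebraMap_injective (hf : f.Monic)
    (hirr : Irreducible (f.map (residue A))) :
    Function.Injective (algebraMap A (AdjoinRoot f)) :=
  AdjoinRoot.of.injective_of_degree_ne_zero (by
    intro h
    have := natDegree_pos_of_residue A hf hirr
    rw [natDegree_eq_of_degree_eq_some h] at this
    exact lt_irrefl _ this)

theorem adjoinRoot_not_isField (hf : f.Monic)
    (hirr : Irreducible (f.map (residue A))) : ¬ IsField (AdjoinRoot f) := by
  haveI := adjoinRoot_isDomain_of_residue A hf hirr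
  have : Module.Finite A (AdjoinRoot f) := hf.finite_adjoinRoot
  intro hB
  exact IsDiscreteValuationRing.not_isField A
    ((isField_of_isIntegral_of_isField (adjoinRoot_algebraMap_injective A hf hirr)) hB)

theorem adjoinRoot_isDiscreteValuationRing (hf : f.Monic)
    (hirr : Irreducible (f.map (residue A))) :
    @IsDiscreteValuationRing (AdjoinRoot f) _ (adjoinRoot_isDomain_of_residue A hf hirr) := by
  haveI := adjoinRoot_isDomain_of_residue A hf hirr
  haveI := adjoinRoot_isLocalRing_of_residue A hf hirr
  have : Module.Finite A (AdjoinRoot f) := hf.finite_adjoinRoot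
  have : IsNoetherianRing (AdjoinRoot f) := IsNoetherianRing.of_finite A _
  refine ((IsDiscreteValuationRing.TFAE (AdjoinRoot f)
    (adjoinRoot_not_isField A hf hirr)).out 4 0).mp ?_
  rw [← adjoinRoot_maximalIdeal_eq A hf hirr]
  obtain ⟨ϖ, hϖ⟩ := IsDiscreteValuationRing.exists_irreducible A
  rw [hϖ.maximalIdeal_eq, Ideal.map_span, Set.image_singleton]
  exact ⟨⟨_, rfl⟩⟩

theorem adjoinRoot_isLocalHom (hf : f.Monic)
    (hirr : Irreducible (f.map (residue A))) :
    IsLocalHom (algebraMap A (AdjoinRoot f)) := by
  have : Module.Finite A (AdjoinRoot f) := hf.finite_adjoinRoot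
  have hint : Algebra.IsIntegral A (AdjoinRoot f) := inferInstance
  exact (algebraMap_isIntegral_iff.mpr hint).isLocalHom (adjoinRoot_algebraMap_injective A hf hirr)

theorem adjoinRoot_isAdicComplete [IsAdicComplete (maximalIdeal A) A] (hf : f.Monic)
    (hirr : Irreducible (f.map (residue A))) :
    haveI := adjoinRoot_isLocalRing_of_residue A hf hirr
    IsAdicComplete (maximalIdeal (AdjoinRoot f)) (AdjoinRoot f) := by
  haveI := adjoinRoot_isLocalRing_of_residue A hf hirr
  have : Module.Finite A (AdjoinRoot f) := hf.finite_adjoinRoot
  haveI := adjoinRoot_isLocalHom A hf hirr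
  exact IsLocalRing.isAdicComplete_of_module_finite (𝒪 := A) (T := AdjoinRoot f)

end Construction


open scoped Classical in
/-- Hensel: in a complete local domain `B`, if the reduction of a monic `g` splits with simple
roots then `g` has (at least) `natDegree g` distinct roots in `B`. -/
theorem natDegree_le_card_roots_of_residue_splits (B : Type*) [CommRing B] [IsDomain B]
    [IsLocalRing B] [IsAdicComplete (maximalIdeal B) B] {g : B[X]} (hg : g.Monic)
    (hsplit : (g.map (residue B)).Splits) (hsep : (g.map (residue B)).Separable) :
    g.natDegree ≤ g.roots.toFinset.card := by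
  classical
  have h1 : g.natDegree = (g.map (residue B)).roots.toFinset.card := by
    rw [Multiset.toFinset_card_of_nodup (nodup_roots hsep), ← hsplit.natDegree_eq_card_roots,
      hg.natDegree_map]
  rw [h1]
  have hsub : (g.map (residue B)).roots.toFinset ⊆ g.roots.toFinset.image (residue B) := by
    intro β hβ
    rw [Multiset.mem_toFinset, mem_roots (hg.map _).ne_zero, IsRoot.def] at hβ
    obtain ⟨b₀, rfl⟩ := residue_surjective β
    have h₁ : g.eval b₀ ∈ maximalIdeal B := by
      rw [← residue_eq_zero_iff, ← hβ, eval_map, eval₂_at_apply]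
    have h₂ : IsUnit (Ideal.Quotient.mk (maximalIdeal B) (g.derivative.eval b₀)) := by
      have h3 : (g.map (residue B)).derivative.eval (residue B b₀) ≠ 0 := by
        have := hsep.eval₂_derivative_ne_zero (RingHom.id _) (x := residue B b₀)
          (by rw [eval₂_id]; exact hβ)
        rwa [eval₂_id] at this
      rw [derivative_map, eval_map, eval₂_at_apply] at h3
      exact (isUnit_iff_ne_zero (G₀ := ResidueField B)).mpr h3
    obtain ⟨b, hb, hbb⟩ := HenselianRing.is_henselian (I := maximalIdeal B) g hg b₀ h₁ h₂
    rw [Finset.mem_image]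
    refine ⟨b, ?_, ?_⟩
    · rw [Multiset.mem_toFinset, mem_roots hg.ne_zero]; exact hb
    · rw [← sub_eq_zero, ← map_sub, residue_eq_zero_iff]; exact hbb
  exact (Finset.card_le_card hsub).trans Finset.card_image_le


/-- If `B` is a local `A`-algebra (local homomorphism), finite over `A`, `A` with finite residue
field, and `θ ∈ B` is a root of a monic `f ∈ A[X]` with irreducible reduction, then the reduction
of `f` to the residue field of `B` splits and is separable. -/
theorem residue_splits_separable_of_root (A B : Type*) [CommRing A] [IsLocalRing A]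
    [Finite (ResidueField A)] [CommRing B] [IsLocalRing B] [Algebra A B]
    [IsLocalHom (algebraMap A B)] [Module.Finite A B] {f : A[X]}
    (hf : f.Monic) (hirr : Irreducible (f.map (residue A))) {θ : B}
    (hθ : (f.map (algebraMap A B)).eval θ = 0) :
    ((f.map (algebraMap A B)).map (residue B)).Splits ∧
      ((f.map (algebraMap A B)).map (residue B)).Separable := by
  have hfin : Finite (ResidueField B) := ResidueField.finite_of_finite (R := A) (S := B) inferInstance
  have hmap : (f.map (algebraMap A B)).map (residue B) =
      (f.map (residue A)).map (algebraMap (ResidueField A) (ResidueField B)) := by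
    rw [Polynomial.map_map, Polynomial.map_map]
    congr 1
  have hroot : aeval (residue B θ) (f.map (residue A)) = 0 := by
    rw [aeval_def, ← eval_map, ← hmap, eval_map, eval₂_at_apply, hθ, map_zero]
  have hmin : f.map (residue A) = minpoly (ResidueField A) (residue B θ) :=
    minpoly.eq_of_irreducible_of_monic hirr hroot (hf.map _)
  have hnormal : Normal (ResidueField A) (ResidueField B) := inferInstance
  refine ⟨?_, ?_⟩
  · rw [hmap, hmin]
    exact hnormal.splits _
  · rw [hmap]
    exact (PerfectField.separable_of_irreducible hirr).map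


open scoped Classical in
/-- Field level: if the monic irreducible `f ∈ A[X]` of degree `n = rank_A B` has a root in `B`
and `n` distinct roots in `B`, then `L = Frac B` is Galois of degree `n` over `K = Frac A`. -/
theorem isGalois_of_card_roots (A K B L : Type*) [CommRing A] [IsDomain A] [IsIntegrallyClosed A]
    [Field K] [Algebra A K] [IsFractionRing A K] [CommRing B] [IsDomain B] [Algebra A B]
    [Field L] [Algebra B L] [IsFractionRing B L] [Algebra K L] [Algebra A L]
    [IsScalarTower A K L] [IsScalarTower A B L] {f : A[X]} (hf : f.Monic) (hirr : Irreducible f)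
    (hrank : Module.finrank A B = f.natDegree) (hpos : 0 < f.natDegree) {θ : B}
    (hθ : (f.map (algebraMap A B)).eval θ = 0)
    (hroots : f.natDegree ≤ (f.map (algebraMap A B)).roots.toFinset.card) :
    Module.finrank K L = f.natDegree ∧ FiniteDimensional K L ∧ IsGalois K L := by
  have hfin : Module.finrank K L = f.natDegree := by
    rw [IsFractionRing.finrank_eq A K B L, hrank]
  have hfd : FiniteDimensional K L := Module.finite_of_finrank_pos (by rw [hfin]; exact hpos)
  refine ⟨hfin, hfd, ?_⟩
  set fK := f.map (algebraMap A K) with hfK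
  have hfKirr : Irreducible fK :=
    (Polynomial.Monic.irreducible_iff_irreducible_map_fraction_map hf).mp hirr
  have hfKmonic : fK.Monic := hf.map _
  have hmapL : fK.map (algebraMap K L) = (f.map (algebraMap A B)).map (algebraMap B L) := by
    rw [hfK, Polynomial.map_map, Polynomial.map_map, ← IsScalarTower.algebraMap_eq,
      ← IsScalarTower.algebraMap_eq]
  have hinj : Function.Injective (algebraMap B L) := IsFractionRing.injective B L
  -- the root
  have hθL : aeval (algebraMap B L θ) fK = 0 := by
    rw [aeval_def, ← eval_map, hmapL, eval_map, eval₂_at_apply, hθ, map_zero]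
  have hmin : fK = minpoly K (algebraMap B L θ) :=
    minpoly.eq_of_irreducible_of_monic hfKirr hθL hfKmonic
  have hprim : K⟮algebraMap B L θ⟯ = ⊤ := by
    rw [Field.primitive_element_iff_minpoly_natDegree_eq, ← hmin, hfin, hfK, hf.natDegree_map]
  -- the roots
  have hnat : (fK.map (algebraMap K L)).natDegree = f.natDegree := by
    rw [hfKmonic.natDegree_map, hfK, hf.natDegree_map]
  have hne : fK.map (algebraMap K L) ≠ 0 := (hfKmonic.map _).ne_zero
  have hsub : ((f.map (algebraMap A B)).roots.toFinset.image (algebraMap B L)) ⊆
      (fK.map (algebraMap K L)).roots.toFinset := by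
    intro y hy
    rw [Finset.mem_image] at hy
    obtain ⟨b, hb, rfl⟩ := hy
    rw [Multiset.mem_toFinset, mem_roots (hf.map _).ne_zero, IsRoot.def] at hb
    rw [Multiset.mem_toFinset, mem_roots hne, IsRoot.def, hmapL, eval_map, eval₂_at_apply, hb,
      map_zero]
  have hcard1 : f.natDegree ≤ (fK.map (algebraMap K L)).roots.toFinset.card := by
    refine hroots.trans ?_
    rw [← Finset.card_image_of_injective _ hinj]
    exact Finset.card_le_card hsub
  have hcard2 : (fK.map (algebraMap K L)).roots.toFinset.card ≤
      (fK.map (algebraMap K L)).roots.card := Multiset.toFinset_card_le _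
  have hcard3 : (fK.map (algebraMap K L)).roots.card ≤ f.natDegree := by
    rw [← hnat]; exact card_roots' _
  have hsplits : (fK.map (algebraMap K L)).Splits := by
    rw [splits_iff_card_roots, hnat]
    exact le_antisymm hcard3 (hcard1.trans hcard2)
  have hnodup : (fK.map (algebraMap K L)).roots.Nodup := by
    rw [← Multiset.toFinset_card_eq_card_iff_nodup]
    exact le_antisymm hcard2 (hcard3.trans hcard1)
  have hsepL : (fK.map (algebraMap K L)).Separable :=
    (nodup_roots_iff_of_splits hne hsplits).mp hnodup
  have hsep : fK.Separable := (separable_map (algebraMap K L)).mp hsepL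
  haveI : fK.IsSplittingField K L := by
    refine ⟨hsplits, ?_⟩
    have h1 : Algebra.adjoin K {algebraMap B L θ} = ⊤ := by
      rw [← adjoin_simple_toSubalgebra_of_isAlgebraic (IsAlgebraic.of_finite K _), hprim]
      rfl
    rw [eq_top_iff, ← h1]
    apply Algebra.adjoin_mono
    rw [Set.singleton_subset_iff, mem_rootSet]
    exact ⟨hfKmonic.ne_zero, hθL⟩
  exact IsGalois.of_separable_splitting_field hsep


section Existence

variable (A : Type u) (K : Type v) [CommRing A] [IsDomain A] [IsDiscreteValuationRing A]
  [IsAdicComplete (maximalIdeal A) A] [Finite (ResidueField A)]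
  [Field K] [Algebra A K] [IsFractionRing A K]

/-- **Existence of the unramified extension of degree `n`** of a complete discretely valued
field with finite residue field, with the full instance block of `Local/Interface.lean`. -/
theorem exists_unramified_ext (n : ℕ) (hn : 0 < n) :
    ∃ (L : Type u) (B : Type u) (_ : Field L) (_ : Algebra K L) (_ : Algebra A L)
      (_ : IsScalarTower A K L) (_ : FiniteDimensional K L) (_ : IsGalois K L)
      (_ : CommRing B) (_ : IsDomain B) (_ : IsDiscreteValuationRing B) (_ : Algebra A B)
      (_ : Algebra B L) (_ : IsScalarTower A B L) (_ : IsIntegralClosure B A L),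
      Module.finrank K L = n ∧ IsUnramifiedExt A B := by
  classical
  obtain ⟨fbar, hfbar_monic, hfbar_irr, hfbar_deg⟩ :=
    exists_monic_irreducible_natDegree_eq (ResidueField A) n hn
  obtain ⟨f, hfmap, hfdeg, hf⟩ := lifts_and_natDegree_eq_and_monic
    ((mem_lifts fbar).mpr (map_surjective (residue A) residue_surjective fbar)) hfbar_monic
  have hirr : Irreducible (f.map (residue A)) := by rw [hfmap]; exact hfbar_irr
  have hdeg : f.natDegree = n := by rw [hfdeg, hfbar_deg]
  have hfirr : Irreducible f :=
    Polynomial.Monic.irreducible_of_irreducible_map (residue A) f hf hirr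
  haveI hdom : IsDomain (AdjoinRoot f) := adjoinRoot_isDomain_of_residue A hf hirr
  haveI hloc : IsLocalRing (AdjoinRoot f) := adjoinRoot_isLocalRing_of_residue A hf hirr
  haveI hdvr : IsDiscreteValuationRing (AdjoinRoot f) := adjoinRoot_isDiscreteValuationRing A hf hirr
  haveI hlh : IsLocalHom (algebraMap A (AdjoinRoot f)) := adjoinRoot_isLocalHom A hf hirr
  haveI hcomp : IsAdicComplete (maximalIdeal (AdjoinRoot f)) (AdjoinRoot f) :=
    adjoinRoot_isAdicComplete A hf hirr
  haveI hfinAB : Module.Finite A (AdjoinRoot f) := hf.finite_adjoinRoot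
  have hinjAB := adjoinRoot_algebraMap_injective A hf hirr
  have hinjAL : Function.Injective (algebraMap A (FractionRing (AdjoinRoot f))) := by
    rw [IsScalarTower.algebraMap_eq A (AdjoinRoot f) (FractionRing (AdjoinRoot f))]
    exact (IsFractionRing.injective (AdjoinRoot f) (FractionRing (AdjoinRoot f))).comp hinjAB
  letI algKL : Algebra K (FractionRing (AdjoinRoot f)) := (IsFractionRing.lift hinjAL).toAlgebra
  haveI towerAKL : IsScalarTower A K (FractionRing (AdjoinRoot f)) :=
    IsScalarTower.of_algebraMap_eq (fun x => (IsFractionRing.lift_algebraMap hinjAL x).symm)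
  have hθ : (f.map (algebraMap A (AdjoinRoot f))).eval (AdjoinRoot.root f) = 0 := by
    rw [eval_map]; exact AdjoinRoot.eval₂_root f
  have hrank : Module.finrank A (AdjoinRoot f) = f.natDegree := by
    rw [(AdjoinRoot.powerBasis' hf).finrank, AdjoinRoot.powerBasis'_dim]
  obtain ⟨hsplit, hsep⟩ := residue_splits_separable_of_root A (AdjoinRoot f) hf hirr hθ
  have hroots := natDegree_le_card_roots_of_residue_splits (AdjoinRoot f) (hf.map _) hsplit hsep
  rw [hf.natDegree_map] at hroots
  obtain ⟨hfinrank, hfd, hgal⟩ := isGalois_of_card_roots A K (AdjoinRoot f)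
    (FractionRing (AdjoinRoot f)) hf hfirr hrank (hdeg ▸ hn) hθ hroots
  have hic : IsIntegralClosure (AdjoinRoot f) A (FractionRing (AdjoinRoot f)) :=
    IsIntegralClosure.of_isIntegrallyClosed (AdjoinRoot f) A (FractionRing (AdjoinRoot f))
  exact ⟨FractionRing (AdjoinRoot f), AdjoinRoot f, inferInstance, algKL, inferInstance, towerAKL,
    hfd, hgal, inferInstance, hdom, hdvr, inferInstance, inferInstance, inferInstance, hic,
    hfinrank.trans hdeg, adjoinRoot_maximalIdeal_eq A hf hirr⟩

end Existence

end Fermat.Agent.CFT
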