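import Fermat.Agent.CFT.Local.InfiniteLevel
import Fermat.Agent.CFT.PT.FiniteLevel

set_option autoImplicit false
set_option linter.unusedSectionVars false

/-!
# CFT stream [B] Local, layer (LB1) : level families of Galois type and the transition square

`Ω / K` Galois (possibly infinite).  For a tower `K ≤ L ≤ L' ≤ Ω` with `L/K`, `L'/K` normal, the
comparison maps of `Local/InfiniteLevel.lean` intertwine the field inflation
`Hⁿ(Gal(L/K), Lˣ) ⟶ Hⁿ(Gal(L'/K), L'ˣ)` with the engine's transition map `inflUV`.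
-/

namespace Fermat.Agent.CFT

open CategoryTheory groupCohomology Rep Fermat.Agent.PT

section Square

variable (K L L' Ω : Type) [Field K] [Field L] [Field L'] [Field Ω]
  [Algebra K L] [Algebra K L'] [Algebra K Ω] [Algebra L L'] [Algebra L Ω] [Algebra L' Ω]
  [IsScalarTower K L L'] [IsScalarTower K L Ω] [IsScalarTower K L' Ω] [IsScalarTower L L' Ω]
  [Normal K L] [Normal K L'] [IsGalois K Ω]

theorem levelKer_le_levelKer : levelKer K L' Ω ≤ levelKer K L Ω := by
  intro σ hσ
  rw [mem_ker_galProj_iff] at hσ ⊢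
  intro x
  rw [IsScalarTower.algebraMap_apply L L' Ω]
  exact hσ _

/-- **Transition square**: field inflation corresponds to `inflUV` under the comparison maps. -/
theorem levelComparison_comp_inflUV (n : ℕ) :
    levelComparison K L Ω n ≫
        inflUV (Rep.ofAlgebraAutOnUnits K Ω) (levelKer_le_levelKer K L L' Ω) n =
      map (galProj K L L') (unitsInfHom K L L') n ≫ levelComparison K L' Ω n := by
  rw [← map_comp, ← map_comp]
  refine map_congr ?_ ?_ n
  · ext g x
    apply (algebraMap L Ω).injective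
    change algebraMap L Ω ((g.restrictNormal L) x) =
      algebraMap L Ω (((g.restrictNormal L').restrictNormal L) x)
    rw [AlgEquiv.restrictNormal_commutes, IsScalarTower.algebraMap_apply L L' Ω
      (((g.restrictNormal L').restrictNormal L) x),
      AlgEquiv.restrictNormal_commutes, AlgEquiv.restrictNormal_commutes,
      ← IsScalarTower.algebraMap_apply L L' Ω]
  · refine LinearMap.ext fun x => ?_
    apply Subtype.ext
    refine congrArg Additive.ofMul (Units.ext ?_)
    exact IsScalarTower.algebraMap_apply L L' Ω _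

end Square

section Family

variable (K Ω : Type) [Field K] [Field Ω] [Algebra K Ω] [IsGalois K Ω]

/-- A level family on `Gal(Ω/K)` all of whose members are fixing subgroups of finite normal
subextensions. -/
def IsGaloisFamily (𝔉 : LevelFamily (Ω ≃ₐ[K] Ω)) : Prop :=
  ∀ U ∈ 𝔉.sets, ∃ L : IntermediateField K Ω,
    FiniteDimensional K L ∧ Normal K L ∧ L.fixingSubgroup = U

variable {K Ω}

theorem levelKer_eq_fixingSubgroup (L : IntermediateField K Ω) [Normal K L] :
    levelKer K L Ω = L.fixingSubgroup :=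
  L.restrictNormalHom_ker

/-- `H¹` of every finite level vanishes (Hilbert 90). -/
theorem isZero_H1_level (L : IntermediateField K Ω) [FiniteDimensional K L] [Normal K L]
    (U : Subgroup (Ω ≃ₐ[K] Ω)) [U.Normal] (hU : L.fixingSubgroup = U) :
    Limits.IsZero (groupCohomology
      ((Rep.ofAlgebraAutOnUnits K Ω).quotientToInvariants U) 1) := by
  have e : levelKer K L Ω = U := (levelKer_eq_fixingSubgroup L).trans hU
  subst e
  rw [ModuleCat.isZero_iff_subsingleton]
  have hb := levelComparison_bijective K L Ω 1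
  refine ⟨fun x y => ?_⟩
  obtain ⟨x', rfl⟩ := hb.2 x
  obtain ⟨y', rfl⟩ := hb.2 y
  rw [Subsingleton.elim x' y']

/-- **Hilbert 90 in the limit**: `Hlc¹(Gal(Ω/K), Ωˣ) = 0`. -/
theorem isZero_Hlc_one_units (𝔉 : LevelFamily (Ω ≃ₐ[K] Ω)) (h𝔉 : IsGaloisFamily K Ω 𝔉) :
    Limits.IsZero (Hlc 𝔉 (Rep.ofAlgebraAutOnUnits K Ω) 1) := by
  refine isZero_Hlc_of_forall 𝔉 _ 1 ?_
  rintro ⟨U, hU⟩
  obtain ⟨L, hfd, hn, hL⟩ := h𝔉 U hU
  have : U.Normal := 𝔉.normal U hU
  exact isZero_H1_level L U hL

theorem isGalois_of_normal_intermediateField (L : IntermediateField K Ω) [Normal K L] :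
    IsGalois K L :=
  { to_isSeparable := Algebra.isSeparable_tower_bot_of_isSeparable K L Ω
    to_normal := inferInstance }

theorem le_of_fixingSubgroup_le {L L' : IntermediateField K Ω}
    (h : L'.fixingSubgroup ≤ L.fixingSubgroup) : L ≤ L' := by
  rw [← InfiniteGalois.fixedField_fixingSubgroup L']
  exact (IntermediateField.le_iff_le _ _).mpr h

/-- The transition maps between finite levels are injective in degree `2`. -/
theorem inflUV_two_injective_of_eq (L L' : IntermediateField K Ω) [FiniteDimensional K L]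
    [Normal K L] [FiniteDimensional K L'] [Normal K L'] (hle : L ≤ L')
    (U V : Subgroup (Ω ≃ₐ[K] Ω)) [U.Normal] [V.Normal] (hU : L.fixingSubgroup = U)
    (hV : L'.fixingSubgroup = V) (hVU : V ≤ U) :
    Function.Injective (inflUV (Rep.ofAlgebraAutOnUnits K Ω) hVU 2) := by
  let _ : Algebra L L' := (IntermediateField.inclusion hle).toRingHom.toAlgebra
  have t1 : IsScalarTower K L L' := IsScalarTower.of_algebraMap_eq (fun _ => rfl)
  have t2 : IsScalarTower L L' Ω := IsScalarTower.of_algebraMap_eq (fun _ => rfl)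
  have : IsGalois K L' := isGalois_of_normal_intermediateField L'
  have eU : levelKer K L Ω = U := (levelKer_eq_fixingSubgroup L).trans hU
  have eV : levelKer K L' Ω = V := (levelKer_eq_fixingSubgroup L').trans hV
  subst eU eV
  have hsq := levelComparison_comp_inflUV K L L' Ω 2
  intro y₁ y₂ h
  obtain ⟨z₁, rfl⟩ := (levelComparison_bijective K L Ω 2).2 y₁
  obtain ⟨z₂, rfl⟩ := (levelComparison_bijective K L Ω 2).2 y₂
  have h1 : ∀ z, (inflUV (Rep.ofAlgebraAutOnUnits K Ω) hVU 2) ((levelComparison K L Ω 2) z) =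
      (levelComparison K L' Ω 2) ((H2unitsInf K L L') z) := fun z => congr($hsq z)
  rw [h1, h1] at h
  have h2 := (levelComparison_bijective K L' Ω 2).1 h
  rw [H2unitsInf_injective K L L' h2]

/-- **Inflation from a finite level to `Hlc²(Gal(Ω/K), Ωˣ)` is injective.** -/
theorem HlcInfl_two_injective (𝔉 : LevelFamily (Ω ≃ₐ[K] Ω)) (h𝔉 : IsGaloisFamily K Ω 𝔉)
    (U : ↥𝔉.sets) :
    Function.Injective (HlcInfl 𝔉 (Rep.ofAlgebraAutOnUnits K Ω) U 2) := by
  rw [injective_iff_map_eq_zero]
  intro y hy
  obtain ⟨V, hVU, hV0⟩ := exists_inflUV_eq_zero 𝔉 _ U 1 y hy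
  obtain ⟨L, hfd, hn, hL⟩ := h𝔉 U U.2
  obtain ⟨L', hfd', hn', hL'⟩ := h𝔉 V V.2
  have hle : L ≤ L' := le_of_fixingSubgroup_le (by rw [hL, hL']; exact hVU)
  have hinj := inflUV_two_injective_of_eq L L' hle U V hL hL' hVU
  exact hinj (hV0.trans (map_zero _).symm)

end Family

end Fermat.Agent.CFT
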