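import Fermat.Agent.CFT.Local.BrauerLimit
import Fermat.Agent.CFT.Local.UnramifiedExists
import Fermat.Agent.CFT.Local.TateLocal
import Fermat.Agent.CFT.PT.GaloisFamilyIs

set_option autoImplicit false
set_option linter.unusedSectionVars false

/-!
# CFT stream [B] Local, layer (LB1-d) : the Brauer group of a local field, absolute form

`K` a local field (`IsLocalFieldNA K`), `Ω / K` Galois with `Ω` algebraically closed, and the
intrinsic family `famGal K Ω`.  Then all degrees occur among the finite levels (unramified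
extensions), hence, for `Br = Hlc (famGal K Ω) Ωˣ 2`:

* `natCard_brauerGal_torsion` : `|Br[n]| = n`, `isAddCyclic_brauerGal_torsion`;
* `brauerGal_divisible`;
* `isZero_Hlc_three_unitsGal` : `Hlc³(Gal(Ω/K), Ωˣ) = 0` (Tate's theorem at the finite levels).
-/

namespace Fermat.Agent.CFT

open CategoryTheory groupCohomology Rep Fermat.Agent.PT

variable {K Ω : Type} [Field K] [Field Ω] [Algebra K Ω] [IsGalois K Ω]

/-- Every degree occurs among the finite Galois subextensions of an algebraically closed `Ω`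
over a local field `K`. -/
theorem familyHasDegree_famGal (hK : IsLocalFieldNA K) [IsAlgClosed Ω] (n : ℕ) (hn : 0 < n) :
    FamilyHasDegree K Ω (famGal K Ω) n := by
  obtain ⟨A, _, _, _, _, hfr, hcomp, hfin⟩ := hK
  obtain ⟨L, B, _, _, _, _, hfd, hgal, _, _, _, _, _, _, _, hdeg, -⟩ :=
    exists_unramified_ext A K n hn
  let φ : L →ₐ[K] Ω := IsAlgClosed.lift
  let e : L ≃ₐ[K] φ.fieldRange := AlgEquiv.ofInjectiveField φ
  have hfdR : FiniteDimensional K φ.fieldRange := e.toLinearEquiv.finiteDimensional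
  have hnorR : Normal K φ.fieldRange := Normal.of_algEquiv e
  refine ⟨φ.fieldRange, hfdR, hnorR, mem_famGal_of_normal _, ?_⟩
  rw [← e.toLinearEquiv.finrank_eq, hdeg]

variable (hK : IsLocalFieldNA K) [IsAlgClosed Ω]
include hK

/-- **`|Br(K)[n]| = n`** for a local field `K`. -/
theorem natCard_brauerGal_torsion (n : ℕ) (hn : 0 < n) :
    Nat.card (nsmulAddMonoidHom n :
      Hlc (famGal K Ω) (Rep.ofAlgebraAutOnUnits K Ω) 2 →+ _).ker = n :=
  natCard_brauer_torsion hK _ (isGaloisFamily_famGal K Ω) n (familyHasDegree_famGal hK n hn)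

/-- **`Br(K)[n]` is cyclic** for a local field `K`. -/
theorem isAddCyclic_brauerGal_torsion (n : ℕ) (hn : 0 < n) :
    IsAddCyclic (nsmulAddMonoidHom n :
      Hlc (famGal K Ω) (Rep.ofAlgebraAutOnUnits K Ω) 2 →+ _).ker :=
  isAddCyclic_brauer_torsion hK _ (isGaloisFamily_famGal K Ω) n (familyHasDegree_famGal hK n hn)

/-- **`Br(K)` is divisible** for a local field `K`. -/
theorem brauerGal_divisible (n : ℕ) (hn : 0 < n)
    (x : Hlc (famGal K Ω) (Rep.ofAlgebraAutOnUnits K Ω) 2) :
    ∃ z : Hlc (famGal K Ω) (Rep.ofAlgebraAutOnUnits K Ω) 2, n • z = x :=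
  brauer_divisible hK _ (isGaloisFamily_famGal K Ω)
    (fun m hm => familyHasDegree_famGal hK m hm) n hn x

/-- **`Hlc³(Gal(Ω/K), Ωˣ) = 0`** for a local field `K`. -/
theorem isZero_Hlc_three_unitsGal :
    Limits.IsZero (Hlc (famGal K Ω) (Rep.ofAlgebraAutOnUnits K Ω) 3) := by
  refine isZero_Hlc_units_of_forall_level _ (isGaloisFamily_famGal K Ω) 3 ?_
  intro L hfd hnor
  have : IsGalois K L := isGalois_of_normal_intermediateField L
  exact hK.isZero_H3_units (L := L)

end Fermat.Agent.CFT
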