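import Fermat.Agent.CFT.Local.KummerSeq

/-!
# CFT, S55 local pool: `μ_p ≅ 𝔽_p` when `μ_p ⊂ K`

If every `p`-th root of unity of the algebraically closed field `Ω` is fixed by `Gal(Ω/K)` (i.e.
`μ_p ⊂ K`), the one-dimensional `𝔽_p`-representation `muRepFp K Ω p` is isomorphic to the trivial
representation `Rep.trivial (ZMod p) G (ZMod p)`.
-/

set_option autoImplicit false

namespace Fermat.Agent.CFT

open CategoryTheory

variable (K Ω : Type) [Field K] [Field Ω] [Algebra K Ω] (p : ℕ) [Fact p.Prime] [IsAlgClosed Ω]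

attribute [local instance] muMulDistribMulAction muZModModule

/-- a linear equivalence `𝔽_p ≃ μ_p` (any one will do). -/
noncomputable def muTrivLinearEquiv (hpΩ : (p : Ω) ≠ 0) : ZMod p ≃ₗ[ZMod p] muRepFp K Ω p :=
  haveI : Module.Finite (ZMod p) (muRepFp K Ω p) :=
    Module.finite_of_finrank_pos (by rw [finrank_muRepFp K Ω p hpΩ]; exact Nat.one_pos)
  LinearEquiv.ofFinrankEq (ZMod p) (muRepFp K Ω p)
    (by rw [finrank_muRepFp K Ω p hpΩ, Module.finrank_self])

/-- **`μ_p ≅ 𝔽_p`** as representations when the Galois group fixes `μ_p`. -/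
noncomputable def muRepFpIsoTrivial (hpΩ : (p : Ω) ≠ 0)
    (hfix : ∀ (g : Ω ≃ₐ[K] Ω) (z : rootsOfUnity p Ω), g • z = z) :
    Rep.trivial (ZMod p) (Ω ≃ₐ[K] Ω) (ZMod p) ≅ muRepFp K Ω p :=
  Rep.mkIso
    { toLinearEquiv := muTrivLinearEquiv K Ω p hpΩ
      isIntertwining' := fun g => by
        apply LinearMap.ext
        intro c
        change muTrivLinearEquiv K Ω p hpΩ c =
          (muRepFp K Ω p).ρ g (muTrivLinearEquiv K Ω p hpΩ c)
        refine ((muRepFp_ρ_apply K Ω p g _).trans ?_).symm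
        rw [hfix]
        rfl }

omit [Fact p.Prime] [IsAlgClosed Ω] in
/-- if `K` contains a primitive `p`-th root of unity, then `Gal(Ω/K)` fixes `μ_p(Ω)`. -/
theorem mu_smul_eq_of_isPrimitiveRoot [NeZero p] {ζ : K} (hζ : IsPrimitiveRoot ζ p)
    (g : Ω ≃ₐ[K] Ω) (z : rootsOfUnity p Ω) : g • z = z := by
  have hζ' : IsPrimitiveRoot (algebraMap K Ω ζ) p :=
    hζ.map_of_injective (algebraMap K Ω).injective
  have hz : ((z : Ωˣ) : Ω) ^ p = 1 := by
    have := (mem_rootsOfUnity _ _).mp z.2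
    rw [← Units.val_pow_eq_pow_val, this, Units.val_one]
  obtain ⟨i, -, hi⟩ := hζ'.eq_pow_of_pow_eq_one hz
  apply Subtype.ext
  apply Units.ext
  change g ((z : Ωˣ) : Ω) = ((z : Ωˣ) : Ω)
  rw [← hi, map_pow, g.commutes]

end Fermat.Agent.CFT
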