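import Fermat.Agent.CFT.Local.LocalField

set_option autoImplicit false

/-!
# `ℚ_[p]` is a local field in the sense of `IsLocalFieldNA`
-/

namespace Fermat.Agent.CFT

open IsLocalRing

/-- `ℚ_[p]` is the fraction field of the complete DVR `ℤ_[p]`, whose residue field is finite. -/
theorem isLocalFieldNA_padic (p : ℕ) [Fact p.Prime] : IsLocalFieldNA ℚ_[p] := by
  refine ⟨ℤ_[p], inferInstance, inferInstance, inferInstance, inferInstance, inferInstance,
    inferInstance, ?_⟩
  exact Finite.of_equiv (ZMod p) (PadicInt.residueField (p := p)).symm.toEquiv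

/-- Every finite extension of `ℚ_[p]` is a local field. -/
theorem isLocalFieldNA_of_finite_padic (p : ℕ) [Fact p.Prime] (K : Type) [Field K]
    [Algebra ℚ_[p] K] [FiniteDimensional ℚ_[p] K] : IsLocalFieldNA K := by
  have : Algebra.IsSeparable ℚ_[p] K := inferInstance
  exact (isLocalFieldNA_padic p).of_finite

end Fermat.Agent.CFT
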