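import Fermat.Agent.CFT.Local.PowIndex
import Fermat.Agent.CFT.Local.CompleteDVRExt
import Fermat.Agent.CFT.Local.PadicLocalField

/-!
# CFT, S55 local pool: the index of `p`-th powers in a finite extension of `ℚ_[q]`

For `K / ℚ_[q]` finite and `p` prime:
`[Kˣ : (Kˣ)^p] = p * #μ_p(K) * (if q = p then p ^ [K : ℚ_[q]] else 1)`.
-/

set_option autoImplicit false
set_option linter.style.haveILetI false

namespace Fermat.Agent.CFT

open IsLocalRing

section Card

/-- `|B / pB| = 1` if `p` is a unit. -/
theorem natCard_quot_span_of_isUnit {B : Type*} [CommRing B] {x : B} (hx : IsUnit x) :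
    Nat.card (B ⧸ Ideal.span {x}) = 1 := by
  rw [Ideal.span_singleton_eq_top.2 hx]
  haveI : Subsingleton (B ⧸ (⊤ : Ideal B)) := Ideal.Quotient.subsingleton_iff.2 rfl
  exact Nat.card_unique

attribute [local instance] Ideal.Quotient.field in
/-- `|S / 𝔪_R S| = |R / 𝔪_R| ^ rank_R S` for a finite free algebra over a local ring. -/
theorem natCard_quot_map_maximalIdeal (R S : Type*) [CommRing R] [CommRing S] [Algebra R S]
    [IsLocalRing R] [Module.Finite R S] [Module.Free R S] :
    Nat.card (S ⧸ Ideal.map (algebraMap R S) (maximalIdeal R)) =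
      Nat.card (R ⧸ maximalIdeal R) ^ Module.finrank R S := by
  have : Module.Finite (R ⧸ maximalIdeal R) (S ⧸ Ideal.map (algebraMap R S) (maximalIdeal R)) :=
    Module.Finite.of_restrictScalars_finite R _ _
  rw [Module.natCard_eq_pow_finrank (K := R ⧸ maximalIdeal R), IsLocalRing.finrank_quotient_map]

end Card

section Padic

variable (q p : ℕ) [Fact q.Prime] (K : Type) [Field K] [Algebra ℚ_[q] K]
  [FiniteDimensional ℚ_[q] K]

theorem natCard_padicInt_quot_maximalIdeal : Nat.card (ℤ_[q] ⧸ maximalIdeal ℤ_[q]) = q := by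
  have h : Nat.card (ResidueField ℤ_[q]) = q := by
    rw [Nat.card_congr (PadicInt.residueField (p := q)).toEquiv, Nat.card_zmod]
  exact h

/-- **the index of `p`-th powers** in a finite extension of `ℚ_[q]`. -/
theorem padic_index_range_powMonoidHom (hp : p.Prime) :
    (powMonoidHom p : Kˣ →* Kˣ).range.index =
      p * Nat.card (rootsOfUnity p K) *
        (if q = p then p ^ Module.finrank ℚ_[q] K else 1) := by
  letI : Algebra ℤ_[q] K := ((algebraMap ℚ_[q] K).comp (algebraMap ℤ_[q] ℚ_[q])).toAlgebra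
  haveI : IsScalarTower ℤ_[q] ℚ_[q] K := IsScalarTower.of_algebraMap_eq (fun _ => rfl)
  haveI : Algebra.IsSeparable ℚ_[q] K := inferInstance
  haveI : Finite (ResidueField ℤ_[q]) :=
    Finite.of_equiv (ZMod q) (PadicInt.residueField (p := q)).symm.toEquiv
  let B := integralClosure ℤ_[q] K
  haveI hdom : IsDomain B := intClosure_isDomain ℤ_[q] ℚ_[q] K B
  haveI hloc : IsLocalRing B := intClosure_isLocalRing ℤ_[q] ℚ_[q] K B
  haveI hdvr : IsDiscreteValuationRing B := intClosure_isDiscreteValuationRing ℤ_[q] ℚ_[q] K B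
  haveI hfr : IsFractionRing B K := intClosure_isFractionRing ℤ_[q] ℚ_[q] K B
  haveI hcomp : IsAdicComplete (maximalIdeal B) B := intClosure_isAdicComplete ℤ_[q] ℚ_[q] K B
  haveI hfin : Finite (ResidueField B) := intClosure_finite_residueField ℤ_[q] ℚ_[q] K B
  haveI hchar : CharZero K := charZero_of_injective_algebraMap (algebraMap ℚ_[q] K).injective
  rw [powIndex_holds B K p hp hchar]
  congr 1
  by_cases hqp : q = p
  · subst hqp
    rw [if_pos rfl]
    haveI : Module.Finite ℤ_[q] B := intClosure_finite ℤ_[q] ℚ_[q] K B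
    haveI : Module.Free ℤ_[q] B := intClosure_free ℤ_[q] ℚ_[q] K B
    have h1 := natCard_quot_map_maximalIdeal ℤ_[q] B
    rw [natCard_padicInt_quot_maximalIdeal, intClosure_finrank ℤ_[q] ℚ_[q] K B,
      PadicInt.maximalIdeal_eq_span_p, Ideal.map_span, Set.image_singleton, map_natCast] at h1
    exact h1
  · rw [if_neg hqp]
    have hu : IsUnit ((p : ℕ) : ℤ_[q]) := by
      rw [PadicInt.isUnit_iff, PadicInt.norm_natCast_eq_one_iff]
      exact (Nat.coprime_primes Fact.out hp).2 hqp
    have hu' : IsUnit ((p : ℕ) : B) := by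
      have := hu.map (algebraMap ℤ_[q] B)
      rwa [map_natCast] at this
    exact natCard_quot_span_of_isUnit hu'

end Padic

end Fermat.Agent.CFT
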