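import Fermat.Agent.CFT.Local.KummerH1
import Fermat.Agent.CFT.Local.MuTrivial
import Fermat.Agent.CFT.Local.PadicPowIndex
import Fermat.Agent.CFT.PT.ChangeOfRing
import Fermat.Agent.CFT.PT.SmoothFunctor

/-!
# CFT, S55 local pool: the count `dim H¹(K, μ_p) = 2 + [K : ℚ_p]·[q = p]`

`K / ℚ_[q]` finite, `Ω / K` Galois with `Ω` algebraically closed, `G = Gal(Ω/K)`, `p` prime.

* `natCard_Hlc_one_muRep_padic` : `# Hlc¹(μ_p) = p * #μ_p(K) * (if q = p then p ^ [K : ℚ_q] else 1)`;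
* `HlcMuFpEquiv` : `Hlc 𝔉 (muRep K Ω p) n ≃+ Hlc 𝔉 (muRepFp K Ω p) n` (change of ring `ℤ ↝ 𝔽_p`);
* `HlcIsoOfRepIso` : isomorphic representations have isomorphic `Hlc`;
* `finrank_Hlc_one_muRepFp_padic`, `finrank_Hlc_one_trivial_padic` : if `G` fixes `μ_p`, then
  `dim_{𝔽_p} Hlc¹ = 2 + (if q = p then [K : ℚ_q] else 0)` with coefficients `μ_p`, resp. `𝔽_p`.
-/

set_option autoImplicit false

namespace Fermat.Agent.PT

open CategoryTheory Fermat.Agent.CFT

section Generic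

universe u

variable {k G : Type u} [CommRing k] [Group G]

/-- isomorphic representations have isomorphic level-constant cohomology. -/
noncomputable def HlcIsoOfRepIso (𝔉 : LevelFamily G) {A B : Rep.{u} k G} (e : A ≅ B) (n : ℕ) :
    Hlc 𝔉 A n ≅ Hlc 𝔉 B n where
  hom := HlcMap (MonoidHom.id G) e.hom 𝔉.compat_id n
  inv := HlcMap (MonoidHom.id G) e.inv 𝔉.compat_id n
  hom_inv_id := by
    have h := HlcMap_comp (𝔉 := 𝔉) (𝔉H := 𝔉) (𝔉K := 𝔉) (A := A) (B := B) (C := A)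
      (MonoidHom.id G) (MonoidHom.id G) e.hom e.inv 𝔉.compat_id 𝔉.compat_id n
    rw [← h]
    have h2 : (Rep.resFunctor (MonoidHom.id G)).map e.hom ≫ e.inv = 𝟙 A := e.hom_inv_id
    simp only [h2]
    exact HlcMap_id 𝔉 A n
  inv_hom_id := by
    have h := HlcMap_comp (𝔉 := 𝔉) (𝔉H := 𝔉) (𝔉K := 𝔉) (A := B) (B := A) (C := B)
      (MonoidHom.id G) (MonoidHom.id G) e.inv e.hom 𝔉.compat_id 𝔉.compat_id n
    rw [← h]
    have h2 : (Rep.resFunctor (MonoidHom.id G)).map e.inv ≫ e.hom = 𝟙 B := e.inv_hom_id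
    simp only [h2]
    exact HlcMap_id 𝔉 B n

end Generic

section Mu

variable (K Ω : Type) [Field K] [Field Ω] [Algebra K Ω] (p : ℕ)

attribute [local instance] muMulDistribMulAction muZModModule

/-- change of ring `ℤ ↝ 𝔽_p` for `μ_p`. -/
noncomputable def HlcMuFpEquiv (𝔉 : LevelFamily (Ω ≃ₐ[K] Ω)) (n : ℕ) :
    Hlc 𝔉 (muRep K Ω p) n ≃+ Hlc 𝔉 (muRepFp K Ω p) n :=
  HlcEquivOfAddEquiv (muRep K Ω p).ρ (muRepFp K Ω p) 𝔉
    (AddEquiv.refl (Additive (rootsOfUnity p Ω))) (fun _ _ => rfl) n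

/-- if `Gal(Ω/K)` fixes `μ_p(Ω)` then `μ_p(K) = μ_p(Ω)`. -/
theorem natCard_rootsOfUnity_eq_of_fixed [IsGalois K Ω]
    (hfix : ∀ (g : Ω ≃ₐ[K] Ω) (z : rootsOfUnity p Ω), g • z = z) :
    Nat.card (rootsOfUnity p K) = Nat.card (rootsOfUnity p Ω) := by
  let f : rootsOfUnity p K → rootsOfUnity p Ω := fun z =>
    ⟨Units.map (algebraMap K Ω : K →* Ω) z, by
      rw [mem_rootsOfUnity, ← map_pow, (mem_rootsOfUnity _ _).mp z.2, map_one]⟩
  refine Nat.card_congr (Equiv.ofBijective f ⟨?_, ?_⟩)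
  · intro x y hxy
    have h1 : Units.map (algebraMap K Ω : K →* Ω) x = Units.map (algebraMap K Ω : K →* Ω) y :=
      congrArg Subtype.val hxy
    exact Subtype.ext
      (Units.map_injective (f := (algebraMap K Ω : K →* Ω)) (algebraMap K Ω).injective h1)
  · intro z
    have hz : ∀ g : Ω ≃ₐ[K] Ω, g ((z : Ωˣ) : Ω) = ((z : Ωˣ) : Ω) := fun g =>
      congrArg (fun w : rootsOfUnity p Ω => ((w : Ωˣ) : Ω)) (hfix g z)
    obtain ⟨x, hx⟩ := IntermediateField.mem_bot.1
      ((InfiniteGalois.mem_bot_iff_fixed ((z : Ωˣ) : Ω)).2 hz)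
    have hx0 : x ≠ 0 := by
      rintro rfl
      rw [map_zero] at hx
      exact (z : Ωˣ).ne_zero hx.symm
    have hxp : (Units.mk0 x hx0) ^ p = 1 := by
      apply Units.ext
      apply (algebraMap K Ω).injective
      rw [Units.val_pow_eq_pow_val, Units.val_mk0, map_pow, hx, Units.val_one, map_one,
        ← Units.val_pow_eq_pow_val, (mem_rootsOfUnity _ _).mp z.2, Units.val_one]
    refine ⟨⟨Units.mk0 x hx0, (mem_rootsOfUnity _ _).mpr hxp⟩, ?_⟩
    apply Subtype.ext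
    apply Units.ext
    exact hx

end Mu

section Card

/-- an `𝔽_p`-vector space of cardinality `p ^ d` has dimension `d`. -/
theorem finrank_zmod_of_natCard {p : ℕ} [Fact p.Prime] {V : Type*} [AddCommGroup V]
    [Module (ZMod p) V] {d : ℕ} (h : Nat.card V = p ^ d) : Module.finrank (ZMod p) V = d := by
  have hp : p.Prime := Fact.out
  have : Finite V := Nat.finite_of_card_ne_zero (by rw [h]; exact pow_ne_zero _ hp.ne_zero)
  have h1 := Module.natCard_eq_pow_finrank (K := ZMod p) (V := V)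
  rw [h, Nat.card_zmod] at h1
  exact (Nat.pow_right_injective hp.two_le h1).symm

end Card

section Padic

theorem padic_natCast_ne_zero (q p : ℕ) [Fact q.Prime] [Fact p.Prime] (K Ω : Type) [Field K]
    [Field Ω] [Algebra ℚ_[q] K] [Algebra K Ω] : (p : Ω) ≠ 0 := by
  have : CharZero K := charZero_of_injective_algebraMap (algebraMap ℚ_[q] K).injective
  have : CharZero Ω := charZero_of_injective_algebraMap (algebraMap K Ω).injective
  exact Nat.cast_ne_zero.2 (Fact.out : p.Prime).ne_zero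

variable (q p : ℕ) [Fact q.Prime] [Fact p.Prime] (K Ω : Type) [Field K] [Field Ω]
  [Algebra ℚ_[q] K] [FiniteDimensional ℚ_[q] K] [Algebra K Ω] [IsGalois K Ω] [IsAlgClosed Ω]

attribute [local instance] muMulDistribMulAction muZModModule

/-- **Kummer count** with `ℤ`-coefficients. -/
theorem natCard_Hlc_one_muRep_padic :
    Nat.card (Hlc (famGal K Ω) (muRep K Ω p) 1) =
      p * Nat.card (rootsOfUnity p K) *
        (if q = p then p ^ Module.finrank ℚ_[q] K else 1) := by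
  rw [natCard_Hlc_one_muRep K Ω p (Fact.out : p.Prime).ne_zero,
    padic_index_range_powMonoidHom q p K Fact.out]

variable (hfix : ∀ (g : Ω ≃ₐ[K] Ω) (z : rootsOfUnity p Ω), g • z = z)

include hfix

theorem natCard_Hlc_one_muRepFp_padic :
    Nat.card (Hlc (famGal K Ω) (muRepFp K Ω p) 1) =
      p ^ (2 + (if q = p then Module.finrank ℚ_[q] K else 0)) := by
  rw [← Nat.card_congr (HlcMuFpEquiv K Ω p (famGal K Ω) 1).toEquiv,
    natCard_Hlc_one_muRep_padic q p K Ω, natCard_rootsOfUnity_eq_of_fixed K Ω p hfix,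
    natCard_rootsOfUnity_of_isAlgClosed Ω p (padic_natCast_ne_zero q p K Ω)]
  split_ifs
  · ring
  · ring

/-- **(L3), Kummer form**: `dim H¹(K, μ_p) = 2 + [K : ℚ_p]·[q = p]` when `μ_p ⊂ K`. -/
theorem finrank_Hlc_one_muRepFp_padic :
    Module.finrank (ZMod p) (Hlc (famGal K Ω) (muRepFp K Ω p) 1) =
      2 + (if q = p then Module.finrank ℚ_[q] K else 0) :=
  finrank_zmod_of_natCard (natCard_Hlc_one_muRepFp_padic q p K Ω hfix)

/-- **(L3), trivial coefficients**: `dim H¹(K, 𝔽_p) = 2 + [K : ℚ_p]·[q = p]` when `μ_p ⊂ K`. -/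
theorem finrank_Hlc_one_trivial_padic :
    Module.finrank (ZMod p)
        (Hlc (famGal K Ω) (Rep.trivial (ZMod p) (Ω ≃ₐ[K] Ω) (ZMod p)) 1) =
      2 + (if q = p then Module.finrank ℚ_[q] K else 0) := by
  rw [← finrank_Hlc_one_muRepFp_padic q p K Ω hfix]
  exact LinearEquiv.finrank_eq (HlcIsoOfRepIso (famGal K Ω)
    (muRepFpIsoTrivial K Ω p (padic_natCast_ne_zero q p K Ω) hfix) 1).toLinearEquiv

end Padic

end Fermat.Agent.PT
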