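import Fermat.Agent.CFT.Local.KummerH1
import Fermat.Agent.CFT.Local.MuTrivial
import Fermat.Agent.CFT.Local.BrauerGal
import Fermat.Agent.CFT.PT.SmoothCor
import Fermat.Agent.CFT.PT.ChangeOfRing
import Fermat.Agent.CFT.PT.ConeFunct

/-!
# CFT, S55 local pool, (LA) : `Hlc²(μ_p) = Br[p]` and `Hlc³(μ_p) = 0` for a local field

`K` a local field, `Ω / K` Galois with `Ω` algebraically closed, `G = Ω ≃ₐ[K] Ω`, `p` a prime.
From the long exact sequence of the Kummer sequence `μ_p ⟶ Ωˣ ⟶ Ωˣ`, Hilbert 90 in the limit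
(`Hlc¹(Ωˣ) = 0`), `|Br(K)[p]| = p`, divisibility of `Br(K)` and `Hlc³(Ωˣ) = 0`:

* `natCard_Hlc_two_muRep` : `|Hlc²(G, μ_p)| = p`;
* `isZero_Hlc_three_muRep` : `Hlc³(G, μ_p) = 0`;
* `finrank_Hlc_two_muRepFp`, `isZero_Hlc_three_muRepFp` : the same over `ZMod p`;
* `finrank_Hlc_two_of_iso`, `isZero_Hlc_three_of_iso` : transport along an isomorphism
  `muRepFp ≅ A` (e.g. `A` the trivial representation when `μ_p ⊆ K`).
-/

set_option autoImplicit false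

namespace Fermat.Agent.PT

open CategoryTheory Fermat.Agent.CFT

variable (K Ω : Type) [Field K] [Field Ω] [Algebra K Ω] [IsGalois K Ω] [IsAlgClosed Ω] (p : ℕ)

section Pow

/-- a coefficient endomorphism equal to `m • 𝟙` induces multiplication by `m` on `Hlc`. -/
theorem HlcMap_nsmul_id_apply {k G : Type} [CommRing k] [Group G] (𝔉 : LevelFamily G)
    (A : Rep.{0} k G) (φ : A ⟶ A) (m : ℕ) (h : φ = m • 𝟙 A) (n : ℕ) (x : Hlc 𝔉 A n) :
    (HlcMap (MonoidHom.id G) φ 𝔉.compat_id n).hom x = m • x := by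
  subst h
  rw [HlcMap_id_nsmul, HlcMap_id_id]
  rfl

omit [IsGalois K Ω] [IsAlgClosed Ω] in
/-- the `p`-th power map of `Ωˣ` is `p • 𝟙`. -/
theorem unitsPowHom_eq_nsmul : unitsPowHom K Ω p = p • 𝟙 (Rep.ofAlgebraAutOnUnits K Ω) := by
  apply Rep.hom_ext
  apply Representation.IntertwiningMap.ext
  apply LinearMap.ext
  intro a
  rfl

omit [IsAlgClosed Ω] in
/-- `lcH₂₃` of the Kummer sequence is multiplication by `p`. -/
theorem lcH₂₃_kummerSeq_apply (n : ℕ) (x : Hlc (famGal K Ω) (Rep.ofAlgebraAutOnUnits K Ω) n) :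
    (lcH₂₃ (famGal K Ω) (kummerSeq K Ω p) n).hom x = p • x :=
  HlcMap_nsmul_id_apply (famGal K Ω) (Rep.ofAlgebraAutOnUnits K Ω) (unitsPowHom K Ω p) p
    (unitsPowHom_eq_nsmul K Ω p) n x

end Pow

section Main

variable {K Ω}
variable (hK : IsLocalFieldNA K) (hp : p ≠ 0)

include hp in
omit [IsAlgClosed Ω] in
/-- `Hlc²(μ_p) ⟶ Br(K)` is injective (Hilbert 90). -/
theorem lcH₁₂_two_kummerSeq_injective [IsAlgClosed Ω] :
    Function.Injective (lcH₁₂ (famGal K Ω) (kummerSeq K Ω p) 2).hom := by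
  rw [injective_iff_map_eq_zero]
  intro x hx
  obtain ⟨y, hy⟩ : ∃ y : Hlc (famGal K Ω) (Rep.ofAlgebraAutOnUnits K Ω) 1,
      (lcδ (famGal_finiteIndex (K := K) (Ω := Ω)) (kummerSeq_shortExact K Ω p hp)
        (isSmooth_unitsGal (K := K) (Ω := Ω)) 1 2 rfl).hom y = x :=
    exists_lcδ_eq (famGal_finiteIndex (K := K) (Ω := Ω)) (kummerSeq_shortExact K Ω p hp)
      (isSmooth_unitsGal (K := K) (Ω := Ω)) 1 2 rfl x hx
  have h0 : y = 0 := (subsingleton_Hlc_one_unitsGal K Ω).elim _ _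
  rw [← hy, h0]
  exact map_zero _

include hp in
/-- the image of `Hlc²(μ_p) ⟶ Br(K)` is the `p`-torsion. -/
theorem exists_lcH₁₂_two_kummerSeq_eq_iff
    (y : Hlc (famGal K Ω) (Rep.ofAlgebraAutOnUnits K Ω) 2) :
    (∃ x : Hlc (famGal K Ω) (muRep K Ω p) 2,
      (lcH₁₂ (famGal K Ω) (kummerSeq K Ω p) 2).hom x = y) ↔ p • y = 0 := by
  constructor
  · rintro ⟨x, rfl⟩
    exact (lcH₂₃_kummerSeq_apply K Ω p 2 _).symm.trans
      (lcH₁₂_lcH₂₃_apply (𝔉 := famGal K Ω) (X := kummerSeq K Ω p) 2 x)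
  · intro hy
    have hy' : (lcH₂₃ (famGal K Ω) (kummerSeq K Ω p) 2).hom y = 0 :=
      (lcH₂₃_kummerSeq_apply K Ω p 2 y).trans hy
    exact exists_lcH₁₂_eq (famGal_finiteIndex (K := K) (Ω := Ω)) (kummerSeq_shortExact K Ω p hp)
      (isSmooth_unitsGal (K := K) (Ω := Ω)) 2 y hy'

include hK hp in
/-- **`|Hlc²(Gal(Ω/K), μ_p)| = p`** for a local field `K`. -/
theorem natCard_Hlc_two_muRep : Nat.card (Hlc (famGal K Ω) (muRep K Ω p) 2) = p := by
  refine Eq.trans ?_ (natCard_brauerGal_torsion (Ω := Ω) hK p (Nat.pos_of_ne_zero hp))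
  let f : Hlc (famGal K Ω) (muRep K Ω p) 2 →
      (nsmulAddMonoidHom p : Hlc (famGal K Ω) (Rep.ofAlgebraAutOnUnits K Ω) 2 →+ _).ker :=
    fun x => ⟨(lcH₁₂ (famGal K Ω) (kummerSeq K Ω p) 2).hom x,
      (exists_lcH₁₂_two_kummerSeq_eq_iff p hp _).mp ⟨x, rfl⟩⟩
  refine Nat.card_congr (Equiv.ofBijective f ⟨fun x x' h => ?_, fun y => ?_⟩)
  · exact lcH₁₂_two_kummerSeq_injective p hp (congrArg Subtype.val h)
  · obtain ⟨x, hx⟩ := (exists_lcH₁₂_two_kummerSeq_eq_iff p hp y.1).mpr y.2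
    exact ⟨x, Subtype.ext hx⟩

include hK hp in
/-- **`Hlc³(Gal(Ω/K), μ_p) = 0`** for a local field `K`. -/
theorem subsingleton_Hlc_three_muRep : Subsingleton (Hlc (famGal K Ω) (muRep K Ω p) 3) := by
  refine ⟨fun a b => ?_⟩
  suffices h : ∀ x : Hlc (famGal K Ω) (muRep K Ω p) 3, x = 0 by rw [h a, h b]
  intro x
  have h3 : Subsingleton (Hlc (famGal K Ω) (Rep.ofAlgebraAutOnUnits K Ω) 3) :=
    ModuleCat.subsingleton_of_isZero (isZero_Hlc_three_unitsGal hK)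
  have hx : (lcH₁₂ (famGal K Ω) (kummerSeq K Ω p) 3).hom x = 0 := h3.elim _ _
  obtain ⟨y, hy⟩ : ∃ y : Hlc (famGal K Ω) (Rep.ofAlgebraAutOnUnits K Ω) 2,
      (lcδ (famGal_finiteIndex (K := K) (Ω := Ω)) (kummerSeq_shortExact K Ω p hp)
        (isSmooth_unitsGal (K := K) (Ω := Ω)) 2 3 rfl).hom y = x :=
    exists_lcδ_eq (famGal_finiteIndex (K := K) (Ω := Ω)) (kummerSeq_shortExact K Ω p hp)
      (isSmooth_unitsGal (K := K) (Ω := Ω)) 2 3 rfl x hx
  obtain ⟨z, hz⟩ := brauerGal_divisible (Ω := Ω) hK p (Nat.pos_of_ne_zero hp) y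
  have hz' : (lcH₂₃ (famGal K Ω) (kummerSeq K Ω p) 2).hom z = y :=
    (lcH₂₃_kummerSeq_apply K Ω p 2 z).trans hz
  rw [← hy, ← hz']
  exact lcH₂₃_lcδ_apply (famGal_finiteIndex (K := K) (Ω := Ω)) (kummerSeq_shortExact K Ω p hp)
    (isSmooth_unitsGal (K := K) (Ω := Ω)) 2 3 rfl z

include hK hp in
theorem isZero_Hlc_three_muRep : Limits.IsZero (Hlc (famGal K Ω) (muRep K Ω p) 3) :=
  @ModuleCat.isZero_of_subsingleton _ _ (Hlc (famGal K Ω) (muRep K Ω p) 3)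
    (subsingleton_Hlc_three_muRep p hK hp)

end Main

section Fp

variable {K Ω}

/-- change of coefficient ring `ℤ → ZMod p` for `μ_p`. -/
noncomputable def HlcMuEquiv (n : ℕ) :
    Hlc (famGal K Ω) (muRep K Ω p) n ≃+ Hlc (famGal K Ω) (muRepFp K Ω p) n :=
  HlcEquivOfAddEquiv (muRep K Ω p).ρ (muRepFp K Ω p) (famGal K Ω) (AddEquiv.refl _)
    (fun _ _ => rfl) n

/-- a `ZMod p`-vector space with `p` elements has dimension one. -/
theorem finrank_eq_one_of_natCard_eq {V : Type*} [AddCommGroup V] [Fact p.Prime]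
    [Module (ZMod p) V] (h : Nat.card V = p) : Module.finrank (ZMod p) V = 1 := by
  have : Finite V := Nat.finite_of_card_ne_zero (by
    rw [h]; exact (Fact.out : p.Prime).ne_zero)
  have h2 := Module.natCard_eq_pow_finrank (K := ZMod p) (V := V)
  rw [h, Nat.card_zmod] at h2
  have hp1 : 1 < p := (Fact.out : p.Prime).one_lt
  exact (Nat.pow_right_injective hp1 (by simpa using h2)).symm

variable [Fact p.Prime] (hK : IsLocalFieldNA K)

include hK in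
/-- **`dim Hlc²(Gal(Ω/K), μ_p) = 1`** over `ZMod p`, for a local field `K`. -/
theorem finrank_Hlc_two_muRepFp :
    Module.finrank (ZMod p) (Hlc (famGal K Ω) (muRepFp K Ω p) 2) = 1 := by
  apply finrank_eq_one_of_natCard_eq
  rw [← Nat.card_congr (HlcMuEquiv (K := K) (Ω := Ω) p 2).toEquiv]
  exact natCard_Hlc_two_muRep p hK (Fact.out : p.Prime).ne_zero

include hK in
theorem natCard_Hlc_two_muRepFp : Nat.card (Hlc (famGal K Ω) (muRepFp K Ω p) 2) = p := by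
  rw [← Nat.card_congr (HlcMuEquiv (K := K) (Ω := Ω) p 2).toEquiv]
  exact natCard_Hlc_two_muRep p hK (Fact.out : p.Prime).ne_zero

include hK in
theorem subsingleton_Hlc_three_muRepFp :
    Subsingleton (Hlc (famGal K Ω) (muRepFp K Ω p) 3) :=
  haveI := subsingleton_Hlc_three_muRep (Ω := Ω) p hK (Fact.out : p.Prime).ne_zero
  (HlcMuEquiv (K := K) (Ω := Ω) p 3).symm.toEquiv.subsingleton

include hK in
/-- **`Hlc³(Gal(Ω/K), μ_p) = 0`** over `ZMod p`, for a local field `K`. -/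
theorem isZero_Hlc_three_muRepFp : Limits.IsZero (Hlc (famGal K Ω) (muRepFp K Ω p) 3) :=
  @ModuleCat.isZero_of_subsingleton _ _ (Hlc (famGal K Ω) (muRepFp K Ω p) 3)
    (subsingleton_Hlc_three_muRepFp p hK)

end Fp

section Iso

/-- an isomorphism of coefficient modules induces a linear equivalence on `Hlc`. -/
noncomputable def HlcCoeffEquiv {k G : Type} [CommRing k] [Group G] (𝔉 : LevelFamily G)
    {A B : Rep.{0} k G} (e : A ≅ B) (n : ℕ) : Hlc 𝔉 A n ≃ₗ[k] Hlc 𝔉 B n :=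
  LinearEquiv.ofLinearMap (HlcCoeff e.hom 𝔉 n) (HlcCoeff e.inv 𝔉 n)
    (LinearMap.ext fun x => by
      rw [LinearMap.comp_apply, ← HlcCoeff_comp, e.inv_hom_id, HlcCoeff_id]; rfl)
    (LinearMap.ext fun x => by
      rw [LinearMap.comp_apply, ← HlcCoeff_comp, e.hom_inv_id, HlcCoeff_id]; rfl)

variable {K Ω} [Fact p.Prime] (hK : IsLocalFieldNA K) (A : Rep.{0} (ZMod p) (Ω ≃ₐ[K] Ω))
  (e : muRepFp K Ω p ≅ A)

include hK e in
/-- `dim Hlc²(Gal(Ω/K), A) = 1` for every `A ≅ μ_p` (e.g. `A = ZMod p` trivial if `μ_p ⊆ K`). -/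
theorem finrank_Hlc_two_of_iso : Module.finrank (ZMod p) (Hlc (famGal K Ω) A 2) = 1 := by
  rw [← (HlcCoeffEquiv (famGal K Ω) e 2).finrank_eq]
  exact finrank_Hlc_two_muRepFp p hK

include hK e in
theorem subsingleton_Hlc_three_of_iso : Subsingleton (Hlc (famGal K Ω) A 3) :=
  haveI := subsingleton_Hlc_three_muRepFp (Ω := Ω) p hK
  (HlcCoeffEquiv (famGal K Ω) e 3).symm.toEquiv.subsingleton

include hK e in
/-- `Hlc³(Gal(Ω/K), A) = 0` for every `A ≅ μ_p`. -/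
theorem isZero_Hlc_three_of_iso : Limits.IsZero (Hlc (famGal K Ω) A 3) :=
  @ModuleCat.isZero_of_subsingleton _ _ (Hlc (famGal K Ω) A 3)
    (subsingleton_Hlc_three_of_iso p hK A e)

end Iso

section Trivial

variable {K Ω} [Fact p.Prime] (hK : IsLocalFieldNA K)

attribute [local instance] muMulDistribMulAction

include hK in
/-- **`dim Hlc²(Gal(Ω/K), 𝔽_p) = 1`** for a local field `K ⊇ μ_p` (`p` invertible in `Ω`). -/
theorem finrank_Hlc_two_trivial (hpΩ : (p : Ω) ≠ 0)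
    (hfix : ∀ (g : Ω ≃ₐ[K] Ω) (z : rootsOfUnity p Ω), g • z = z) :
    Module.finrank (ZMod p)
      (Hlc (famGal K Ω) (Rep.trivial (ZMod p) (Ω ≃ₐ[K] Ω) (ZMod p)) 2) = 1 :=
  finrank_Hlc_two_of_iso p hK _ (muRepFpIsoTrivial K Ω p hpΩ hfix).symm

include hK in
/-- **`Hlc³(Gal(Ω/K), 𝔽_p) = 0`** for a local field `K ⊇ μ_p` (`p` invertible in `Ω`). -/
theorem isZero_Hlc_three_trivial (hpΩ : (p : Ω) ≠ 0)
    (hfix : ∀ (g : Ω ≃ₐ[K] Ω) (z : rootsOfUnity p Ω), g • z = z) :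
    Limits.IsZero (Hlc (famGal K Ω) (Rep.trivial (ZMod p) (Ω ≃ₐ[K] Ω) (ZMod p)) 3) :=
  isZero_Hlc_three_of_iso p hK _ (muRepFpIsoTrivial K Ω p hpΩ hfix).symm

include hK in
/-- the same, from a primitive `p`-th root of unity in `K`. -/
theorem finrank_Hlc_two_trivial_of_isPrimitiveRoot {ζ : K} (hζ : IsPrimitiveRoot ζ p) :
    Module.finrank (ZMod p)
      (Hlc (famGal K Ω) (Rep.trivial (ZMod p) (Ω ≃ₐ[K] Ω) (ZMod p)) 2) = 1 := by
  haveI : NeZero p := ⟨(Fact.out : p.Prime).ne_zero⟩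
  have hζ' : IsPrimitiveRoot (algebraMap K Ω ζ) p :=
    hζ.map_of_injective (algebraMap K Ω).injective
  have hpΩ : (p : Ω) ≠ 0 := hζ'.neZero'.out
  exact finrank_Hlc_two_trivial p hK hpΩ (mu_smul_eq_of_isPrimitiveRoot K Ω p hζ)

include hK in
theorem isZero_Hlc_three_trivial_of_isPrimitiveRoot {ζ : K} (hζ : IsPrimitiveRoot ζ p) :
    Limits.IsZero (Hlc (famGal K Ω) (Rep.trivial (ZMod p) (Ω ≃ₐ[K] Ω) (ZMod p)) 3) := by
  haveI : NeZero p := ⟨(Fact.out : p.Prime).ne_zero⟩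
  have hζ' : IsPrimitiveRoot (algebraMap K Ω ζ) p :=
    hζ.map_of_injective (algebraMap K Ω).injective
  have hpΩ : (p : Ω) ≠ 0 := hζ'.neZero'.out
  exact isZero_Hlc_three_trivial p hK hpΩ (mu_smul_eq_of_isPrimitiveRoot K Ω p hζ)

end Trivial

end Fermat.Agent.PT
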