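import Fermat.Agent.CFT.PT.GaloisFamily
import Fermat.Agent.CFT.PT.SmoothShapiro
import Fermat.Agent.CFT.Coh.H2Units
import Fermat.Agent.CFT.Local.KummerSeq

/-!
# S55 local pool, chunk (LC): transfer of level-constant cohomology to open subgroups

* `openSub_HlcMap_bijective` : for a group isomorphism `e : H ≃* G` which is compatible with the
  level families in both directions, `HlcMap e φ` is bijective for every bijective `φ`;
* for `K' : IntermediateField K Ω`, `U = K'.fixingSubgroup`, `j = galIncl K K' Ω`: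
  `openSub_HlcEquiv K' A n : Hlc ((famGal K Ω).restrict U) (res U.subtype A) n ≃ₗ[k]
  Hlc (famGal K' Ω) (res j A) n`;
* the open subgroups for `famGal K Ω` are the fixing subgroups of the finite subextensions.
-/

set_option autoImplicit false

namespace Fermat.Agent.CFT

open CategoryTheory groupCohomology Rep IntermediateField Fermat.Agent.PT

section General

universe u

variable {k : Type u} [CommRing k] {G H : Type u} [Group G] [Group H]

/-- the inverse of a bijective morphism over a group isomorphism -/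
noncomputable def openSub_invHom (e : H ≃* G) {A : Rep.{u} k G} {B : Rep.{u} k H}
    (φ : res e.toMonoidHom A ⟶ B) (hφ : Function.Bijective φ.hom) :
    res e.symm.toMonoidHom B ⟶ A :=
  Rep.ofHom (ρ := (res e.symm.toMonoidHom B).ρ) (σ := A.ρ)
    ⟨((LinearEquiv.ofBijective φ.hom.toLinearMap hφ).symm : B.V →ₗ[k] A.V), fun g => by
      apply LinearMap.ext
      intro b
      apply hφ.1
      have h1 : φ.hom ((LinearEquiv.ofBijective φ.hom.toLinearMap hφ).symm b) = b :=
        (LinearEquiv.ofBijective φ.hom.toLinearMap hφ).apply_symm_apply b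
      have h2 : φ.hom (A.ρ (e (e.symm g)) ((LinearEquiv.ofBijective φ.hom.toLinearMap hφ).symm b)) =
          B.ρ (e.symm g) (φ.hom ((LinearEquiv.ofBijective φ.hom.toLinearMap hφ).symm b)) :=
        Rep.hom_comm_apply φ (e.symm g) ((LinearEquiv.ofBijective φ.hom.toLinearMap hφ).symm b)
      rw [e.apply_symm_apply, h1] at h2
      change φ.hom ((LinearEquiv.ofBijective φ.hom.toLinearMap hφ).symm (B.ρ (e.symm g) b)) =
        φ.hom (A.ρ g ((LinearEquiv.ofBijective φ.hom.toLinearMap hφ).symm b))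
      rw [h2]
      exact (LinearEquiv.ofBijective φ.hom.toLinearMap hφ).apply_symm_apply _⟩

theorem openSub_invHom_apply (e : H ≃* G) {A : Rep.{u} k G} {B : Rep.{u} k H}
    (φ : res e.toMonoidHom A ⟶ B) (hφ : Function.Bijective φ.hom) (a : A.V) :
    (openSub_invHom e φ hφ).hom (φ.hom a) = a :=
  (LinearEquiv.ofBijective φ.hom.toLinearMap hφ).symm_apply_apply a

theorem openSub_hom_invHom_apply (e : H ≃* G) {A : Rep.{u} k G} {B : Rep.{u} k H}
    (φ : res e.toMonoidHom A ⟶ B) (hφ : Function.Bijective φ.hom) (b : B.V) :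
    φ.hom ((openSub_invHom e φ hφ).hom b) = b :=
  (LinearEquiv.ofBijective φ.hom.toLinearMap hφ).apply_symm_apply b

/-- **Transport along a group isomorphism**: if `e : H ≃* G` is compatible with the level
families in both directions and `φ` is bijective, then `HlcMap e φ` is bijective. -/
theorem openSub_HlcMap_bijective (e : H ≃* G) {𝔉H : LevelFamily H} {𝔉G : LevelFamily G}
    (h₁ : 𝔉H.Compat e.toMonoidHom 𝔉G) (h₂ : 𝔉G.Compat e.symm.toMonoidHom 𝔉H)
    {A : Rep.{u} k G} {B : Rep.{u} k H} (φ : res e.toMonoidHom A ⟶ B)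
    (hφ : Function.Bijective φ.hom) (n : ℕ) :
    Function.Bijective (HlcMap e.toMonoidHom φ h₁ n).hom := by
  refine Function.bijective_iff_has_inverse.2
    ⟨(HlcMap e.symm.toMonoidHom (openSub_invHom e φ hφ) h₂ n).hom, ?_, ?_⟩
  · intro x
    obtain ⟨c, rfl⟩ := lcπ_surjective 𝔉G A n x
    rw [HlcMap_lcπ, HlcMap_lcπ]
    congr 1
    apply Subtype.ext
    funext g
    change (openSub_invHom e φ hφ).hom (φ.hom (c.1 (e ∘ (e.symm ∘ g)))) = c.1 g
    rw [openSub_invHom_apply]
    exact congrArg c.1 (funext fun i => e.apply_symm_apply (g i))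
  · intro y
    obtain ⟨c, rfl⟩ := lcπ_surjective 𝔉H B n y
    rw [HlcMap_lcπ, HlcMap_lcπ]
    congr 1
    apply Subtype.ext
    funext g
    change φ.hom ((openSub_invHom e φ hφ).hom (c.1 (e.symm ∘ (e ∘ g)))) = c.1 g
    rw [openSub_hom_invHom_apply]
    exact congrArg c.1 (funext fun i => e.symm_apply_apply (g i))

end General

section Galois

variable {K Ω : Type} [Field K] [Field Ω] [Algebra K Ω] [IsGalois K Ω]
  (K' : IntermediateField K Ω)

/-- `Gal(Ω/K') ≃* K'.fixingSubgroup` -/
noncomputable def openSub_equiv : (Ω ≃ₐ[K'] Ω) ≃* ↥K'.fixingSubgroup :=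
  (IntermediateField.fixingSubgroupEquiv K').symm

omit [IsGalois K Ω] in
theorem openSub_equiv_coe (g : Ω ≃ₐ[K'] Ω) :
    ((openSub_equiv K' g : ↥K'.fixingSubgroup) : Ω ≃ₐ[K] Ω) = galIncl K K' Ω g := rfl

omit [IsGalois K Ω] in
theorem openSub_equiv_coe_apply (g : Ω ≃ₐ[K'] Ω) (x : Ω) :
    ((openSub_equiv K' g : ↥K'.fixingSubgroup) : Ω ≃ₐ[K] Ω) x = g x := rfl

omit [IsGalois K Ω] in
theorem openSub_equiv_symm_apply (u : ↥K'.fixingSubgroup) (x : Ω) :
    ((openSub_equiv K').symm u) x = (u : Ω ≃ₐ[K] Ω) x := rfl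

/-- the inclusion `Gal(Ω/K') →* Gal(Ω/K)` is compatible with the Galois families -/
theorem openSub_compat_galIncl :
    (famGal K' Ω).Compat (galIncl K K' Ω) (famGal K Ω) := by
  rintro V ⟨L, hL, -, rfl⟩
  have := hL
  have hfd : FiniteDimensional K' ↥(IntermediateField.adjoin K' (L : Set Ω)) := by
    have h1 := IntermediateField.adjoin_rank_le_of_isAlgebraic_right (F := K) K' L
    have h2 : Module.rank K ↥L < Cardinal.aleph0 := Module.rank_lt_aleph0 K ↥L
    exact Module.rank_lt_aleph0_iff.1 (lt_of_le_of_lt h1 h2)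
  obtain ⟨V', hV', hle⟩ := exists_mem_famGal_le (IntermediateField.adjoin K' (L : Set Ω))
  refine ⟨V', hV', fun σ hσ => ?_⟩
  change galIncl K K' Ω σ ∈ L.fixingSubgroup
  rw [IntermediateField.mem_fixingSubgroup_iff]
  intro x hx
  have h3 := (IntermediateField.mem_fixingSubgroup_iff _ _).1 (hle hσ) x
    (IntermediateField.subset_adjoin K' (L : Set Ω) hx)
  exact h3

/-- `Gal(Ω/K') ≃* K'.fixingSubgroup` is compatible with the Galois family of `Ω/K'` and the family
induced on `K'.fixingSubgroup` by the Galois family of `Ω/K`. -/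
theorem openSub_compat_equiv :
    (famGal K' Ω).Compat (openSub_equiv K').toMonoidHom
      ((famGal K Ω).restrict K'.fixingSubgroup) := by
  rintro W ⟨V, hV, rfl⟩
  obtain ⟨V', hV', hle⟩ := openSub_compat_galIncl K' V hV
  exact ⟨V', hV', fun σ hσ => hle hσ⟩

/-- the converse compatibility, for `K'/K` finite -/
theorem openSub_compat_equiv_symm [FiniteDimensional K K'] :
    ((famGal K Ω).restrict K'.fixingSubgroup).Compat (openSub_equiv K').symm.toMonoidHom
      (famGal K' Ω) := by
  rintro V' ⟨L', hL', -, rfl⟩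
  have := hL'
  have hfd : FiniteDimensional K ↥(L'.restrictScalars K) :=
    FiniteDimensional.trans K ↥K' ↥L'
  obtain ⟨V, hV, hle⟩ := exists_mem_famGal_le (L'.restrictScalars K)
  refine ⟨V.subgroupOf K'.fixingSubgroup, ⟨V, hV, rfl⟩, fun u hu => ?_⟩
  change (openSub_equiv K').symm u ∈ L'.fixingSubgroup
  rw [IntermediateField.mem_fixingSubgroup_iff]
  intro x hx
  have h3 := (IntermediateField.mem_fixingSubgroup_iff _ _).1 (hle hu) x hx
  exact h3

variable {k : Type} [CommRing k]

/-- the identity of `A`, as a morphism over `Gal(Ω/K') ≃* K'.fixingSubgroup` -/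
noncomputable def openSub_idHom (A : Rep.{0} k (Ω ≃ₐ[K] Ω)) :
    res (openSub_equiv K').toMonoidHom (res K'.fixingSubgroup.subtype A) ⟶
      res (galIncl K K' Ω) A :=
  Rep.ofHom (ρ := (res (openSub_equiv K').toMonoidHom (res K'.fixingSubgroup.subtype A)).ρ)
    (σ := (res (galIncl K K' Ω) A).ρ) ⟨LinearMap.id, fun _ => rfl⟩

omit [IsGalois K Ω] in
theorem openSub_idHom_apply (A : Rep.{0} k (Ω ≃ₐ[K] Ω)) (a : A.V) :
    (openSub_idHom K' A).hom a = a := rfl

/-- **(LC)(a)**: the level-constant cohomology of the open subgroup `K'.fixingSubgroup` of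
`Gal(Ω/K)` (with the induced family) is the level-constant cohomology of `Gal(Ω/K')`; version with
a bijective change of coefficients `φ : res j A ⟶ B`. -/
noncomputable def openSub_HlcEquivOf [FiniteDimensional K K'] (A : Rep.{0} k (Ω ≃ₐ[K] Ω))
    {B : Rep.{0} k (Ω ≃ₐ[K'] Ω)} (φ : res (galIncl K K' Ω) A ⟶ B)
    (hφ : Function.Bijective φ.hom) (n : ℕ) :
    Hlc ((famGal K Ω).restrict K'.fixingSubgroup) (res K'.fixingSubgroup.subtype A) n ≃ₗ[k]
      Hlc (famGal K' Ω) B n :=
  LinearEquiv.ofBijective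
    (HlcMap (openSub_equiv K').toMonoidHom (openSub_idHom K' A ≫ φ)
      (openSub_compat_equiv K') n).hom
    (openSub_HlcMap_bijective (openSub_equiv K') (openSub_compat_equiv K')
      (openSub_compat_equiv_symm K') (openSub_idHom K' A ≫ φ) hφ n)

theorem openSub_HlcEquivOf_apply [FiniteDimensional K K'] (A : Rep.{0} k (Ω ≃ₐ[K] Ω))
    {B : Rep.{0} k (Ω ≃ₐ[K'] Ω)} (φ : res (galIncl K K' Ω) A ⟶ B)
    (hφ : Function.Bijective φ.hom) (n : ℕ)
    (x : Hlc ((famGal K Ω).restrict K'.fixingSubgroup) (res K'.fixingSubgroup.subtype A) n) :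
    openSub_HlcEquivOf K' A φ hφ n x =
      (HlcMap (openSub_equiv K').toMonoidHom (openSub_idHom K' A ≫ φ)
        (openSub_compat_equiv K') n).hom x := rfl

/-- compatibility with restriction from `Gal(Ω/K)`: restricting to the open subgroup and
transporting is the map induced by `galIncl`. -/
theorem openSub_HlcEquivOf_HlcRes [FiniteDimensional K K'] (A : Rep.{0} k (Ω ≃ₐ[K] Ω))
    {B : Rep.{0} k (Ω ≃ₐ[K'] Ω)} (φ : res (galIncl K K' Ω) A ⟶ B)
    (hφ : Function.Bijective φ.hom) (n : ℕ) (x : Hlc (famGal K Ω) A n) :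
    openSub_HlcEquivOf K' A φ hφ n ((HlcRes (famGal K Ω) K'.fixingSubgroup A n).hom x) =
      (HlcMap (galIncl K K' Ω) φ (openSub_compat_galIncl K') n).hom x := by
  obtain ⟨c, rfl⟩ := lcπ_surjective (famGal K Ω) A n x
  rw [openSub_HlcEquivOf_apply, HlcRes_lcπ, HlcMap_lcπ, HlcMap_lcπ]
  rfl

/-- **(LC)(a)**, same coefficients. -/
noncomputable def openSub_HlcEquiv [FiniteDimensional K K'] (A : Rep.{0} k (Ω ≃ₐ[K] Ω)) (n : ℕ) :
    Hlc ((famGal K Ω).restrict K'.fixingSubgroup) (res K'.fixingSubgroup.subtype A) n ≃ₗ[k]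
      Hlc (famGal K' Ω) (res (galIncl K K' Ω) A) n :=
  openSub_HlcEquivOf K' A (𝟙 _) Function.bijective_id n

/-! ### the standard coefficient modules -/

section Coefficients

variable (V : Type) [AddCommGroup V] [Module k V]

/-- the identity `res j (trivial) ⟶ trivial` -/
noncomputable def openSub_trivialHom :
    res (galIncl K K' Ω) (Rep.trivial k (Ω ≃ₐ[K] Ω) V) ⟶ Rep.trivial k (Ω ≃ₐ[K'] Ω) V :=
  Rep.ofHom (ρ := (res (galIncl K K' Ω) (Rep.trivial k (Ω ≃ₐ[K] Ω) V)).ρ)
    (σ := (Rep.trivial k (Ω ≃ₐ[K'] Ω) V).ρ) ⟨LinearMap.id, fun _ => rfl⟩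

/-- **(LC)(b)**, trivial coefficients. -/
noncomputable def openSub_HlcEquiv_trivial [FiniteDimensional K K'] (n : ℕ) :
    Hlc ((famGal K Ω).restrict K'.fixingSubgroup) (Rep.trivial k ↥K'.fixingSubgroup V) n ≃ₗ[k]
      Hlc (famGal K' Ω) (Rep.trivial k (Ω ≃ₐ[K'] Ω) V) n :=
  openSub_HlcEquivOf K' (Rep.trivial k (Ω ≃ₐ[K] Ω) V) (openSub_trivialHom K' V)
    Function.bijective_id n

end Coefficients

section Mu

variable (p : ℕ)

/-- the identity `res j μ_p ⟶ μ_p` (`𝔽_p`-coefficients) -/
noncomputable def openSub_muFpHom :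
    res (galIncl K K' Ω) (muRepFp K Ω p) ⟶ muRepFp K' Ω p :=
  Rep.ofHom (ρ := (res (galIncl K K' Ω) (muRepFp K Ω p)).ρ) (σ := (muRepFp K' Ω p).ρ)
    ⟨LinearMap.id, fun _ => rfl⟩

/-- **(LC)(b)**, coefficients `μ_p` over `𝔽_p`. -/
noncomputable def openSub_HlcEquiv_muFp [FiniteDimensional K K'] (n : ℕ) :
    Hlc ((famGal K Ω).restrict K'.fixingSubgroup)
        (res K'.fixingSubgroup.subtype (muRepFp K Ω p)) n ≃ₗ[ZMod p]
      Hlc (famGal K' Ω) (muRepFp K' Ω p) n :=
  openSub_HlcEquivOf K' (muRepFp K Ω p) (openSub_muFpHom K' p) Function.bijective_id n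

/-- the identity `res j μ_p ⟶ μ_p` (`ℤ`-coefficients) -/
noncomputable def openSub_muHom :
    res (galIncl K K' Ω) (muRep K Ω p) ⟶ muRep K' Ω p :=
  Rep.ofHom (ρ := (res (galIncl K K' Ω) (muRep K Ω p)).ρ) (σ := (muRep K' Ω p).ρ)
    ⟨LinearMap.id, fun _ => rfl⟩

/-- **(LC)(b)**, coefficients `μ_p` over `ℤ`. -/
noncomputable def openSub_HlcEquiv_mu [FiniteDimensional K K'] (n : ℕ) :
    Hlc ((famGal K Ω).restrict K'.fixingSubgroup)
        (res K'.fixingSubgroup.subtype (muRep K Ω p)) n ≃ₗ[ℤ]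
      Hlc (famGal K' Ω) (muRep K' Ω p) n :=
  openSub_HlcEquivOf K' (muRep K Ω p) (openSub_muHom K' p) Function.bijective_id n

/-- **(LC)(b)**, coefficients `Ωˣ`. -/
noncomputable def openSub_HlcEquiv_units [FiniteDimensional K K'] (n : ℕ) :
    Hlc ((famGal K Ω).restrict K'.fixingSubgroup)
        (res K'.fixingSubgroup.subtype (Rep.ofAlgebraAutOnUnits K Ω)) n ≃ₗ[ℤ]
      Hlc (famGal K' Ω) (Rep.ofAlgebraAutOnUnits K' Ω) n :=
  openSub_HlcEquivOf K' (Rep.ofAlgebraAutOnUnits K Ω) (unitsResHom K K' Ω)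
    Function.bijective_id n

end Mu

/-! ### (LC)(c): the open subgroups are the fixing subgroups of the finite subextensions -/

/-- the fixing subgroup of a finite subextension is open for the Galois family -/
theorem openSub_isOpenFor_fixingSubgroup [FiniteDimensional K K'] :
    IsOpenFor (famGal K Ω) K'.fixingSubgroup :=
  exists_mem_famGal_le K'

/-- an open subgroup of `Gal(Ω/K)` is the fixing subgroup of its fixed field, which is finite over
`K` of degree the index of the subgroup. -/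
theorem openSub_of_isOpenFor {H : Subgroup (Ω ≃ₐ[K] Ω)} (hH : IsOpenFor (famGal K Ω) H) :
    FiniteDimensional K ↥(IntermediateField.fixedField H) ∧
      (IntermediateField.fixedField H).fixingSubgroup = H ∧
      Module.finrank K ↥(IntermediateField.fixedField H) = H.index := by
  obtain ⟨V, ⟨L, hL, -, rfl⟩, hle⟩ := hH
  have := hL
  have hopen : IsOpen (H : Set (Ω ≃ₐ[K] Ω)) :=
    Subgroup.isOpen_mono hle (IntermediateField.fixingSubgroup_isOpen L)
  have hclosed : IsClosed (H : Set (Ω ≃ₐ[K] Ω)) := Subgroup.isClosed_of_isOpen H hopen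
  have hfix : (IntermediateField.fixedField H).fixingSubgroup = H :=
    InfiniteGalois.fixingSubgroup_fixedField ⟨H, hclosed⟩
  have hleL : IntermediateField.fixedField H ≤ L := by
    have h1 := IntermediateField.fixedField_antitone hle
    rwa [InfiniteGalois.fixedField_fixingSubgroup] at h1
  have hfd : FiniteDimensional K ↥(IntermediateField.fixedField H) :=
    FiniteDimensional.of_injective (IntermediateField.inclusion hleL).toLinearMap
      (IntermediateField.inclusion_injective hleL)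
  refine ⟨hfd, hfix, ?_⟩
  rw [IntermediateField.finrank_eq_fixingSubgroup_index, hfix]

/-- existential form of `openSub_of_isOpenFor` (so that `H` can be substituted). -/
theorem openSub_exists_of_isOpenFor {H : Subgroup (Ω ≃ₐ[K] Ω)} (hH : IsOpenFor (famGal K Ω) H) :
    ∃ K' : IntermediateField K Ω, FiniteDimensional K ↥K' ∧ K'.fixingSubgroup = H ∧
      Module.finrank K ↥K' = H.index :=
  ⟨IntermediateField.fixedField H, openSub_of_isOpenFor hH⟩

/-- a statement about all `(K', Gal(Ω/K'), famGal K' Ω)` with trivial coefficients transfers to all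
open subgroups of `Gal(Ω/K)` with the induced families. -/
theorem openSub_forall_isOpenFor_trivial (V : Type) [AddCommGroup V] [Module k V] (n : ℕ)
    (P : ∀ (M : Type) [AddCommGroup M] [Module k M], Prop)
    (hP : ∀ (M N : Type) [AddCommGroup M] [Module k M] [AddCommGroup N] [Module k N],
      (M ≃ₗ[k] N) → P M → P N)
    (h : ∀ K' : IntermediateField K Ω, FiniteDimensional K ↥K' →
      P ↥(Hlc (famGal K' Ω) (Rep.trivial k (Ω ≃ₐ[K'] Ω) V) n))
    (H : Subgroup (Ω ≃ₐ[K] Ω)) (hH : IsOpenFor (famGal K Ω) H) :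
    P ↥(Hlc ((famGal K Ω).restrict H) (Rep.trivial k ↥H V) n) := by
  obtain ⟨K', hfd, rfl, -⟩ := openSub_exists_of_isOpenFor hH
  have := hfd
  exact hP _ _ (openSub_HlcEquiv_trivial K' V n).symm (h K' hfd)

end Galois

end Fermat.Agent.CFT
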