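import Fermat.Agent.CFT.PT.SmoothCor
import Fermat.Agent.CFT.PT.SmoothShapiro
import Fermat.Agent.CFT.PT.UnipotentVanishAll
import Fermat.Agent.CFT.PT.Finite
import Fermat.Agent.CFT.Local.OpenSubgroup
import Fermat.Agent.CFT.Local.LocalField
import Fermat.Agent.CFT.Local.KummerH2
import Fermat.Agent.CFT.Local.KummerH1Count
import Fermat.Agent.CFT.Local.PadicLocalField

set_option autoImplicit false

/-!
# S55 LOCAL (LD): `cd_p ≤ 2` and finiteness for local fields, without `μ_p ⊆ K`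

`K` a local field (`IsLocalFieldNA K`), `Ω / K` an algebraically closed Galois extension,
`G = Gal(Ω/K)` with the family `famGal K Ω`, `p` a prime invertible in `Ω`.

* `cdTwo_HlcRes_injective` : restriction to an open subgroup of index prime to `p` is injective on
  `Hlc` of `𝔽_p`-representations (Shapiro + trace);
* `cdTwo_exists_cyclo` : `K(ζ_p) ⊆ Ω` has degree prime to `p`; `cdTwo_exists_injective`;
* general transfer `cdTwo_subsingleton_trivial`, `cdTwo_finite_trivial`, `cdTwo_isZero_of_smooth`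
  and their open-subgroup forms (hypothesis: the statement for local fields containing `μ_p`);
* **unconditional**: `cdTwo_isZero_three_trivial`, `cdTwo_finite_two_trivial`,
  `cdTwo_isZero_three` (all finite smooth `M`), `cdTwo_subsingleton_three_open`,
  `cdTwo_finite_two_open`; and over finite extensions of `ℚ_q`: `cdTwo_finite_one_trivial_padic`,
  `cdTwo_finite_trivial_padic_open` (`n ≤ 2`, = the shape of (L0)).
-/

namespace Fermat.Agent.PT

open CategoryTheory groupCohomology Rep IntermediateField Polynomial Fermat.Agent.CFT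

section Abstract

variable {p : ℕ} [Fact p.Prime] {G : Type} [Group G]

/-- restriction to an open subgroup of index prime to `p` is injective on `Hlc` of an
`𝔽_p`-representation. -/
theorem cdTwo_HlcRes_injective (𝔉 : LevelFamily G) (hfin : 𝔉.FiniteIndex) (H : Subgroup G)
    (hH : IsOpenFor 𝔉 H) (hcop : Nat.Coprime p H.index) (M : Rep (ZMod p) G)
    (hM : IsSmooth 𝔉 M) (n : ℕ) : Function.Injective (HlcRes 𝔉 H M n).hom := by
  have hinj : Function.Injective (HlcShapiro 𝔉 H (res H.subtype M) n).hom :=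
    (shapMap_bijective hfin hH n (res H.subtype M) (hM.res_subtype H)).1
  obtain ⟨V, hV, hVH⟩ := hH
  have : V.FiniteIndex := hfin V hV
  have : H.FiniteIndex := Subgroup.finiteIndex_of_le hVH
  rw [injective_iff_map_eq_zero]
  intro x hx
  refine eq_zero_of_HlcRes_eq_zero_of_coprime 𝔉 H M n hinj hcop x ?_ hx
  have : (p : ZMod p) • x = 0 := by rw [ZMod.natCast_self, zero_smul]
  rw [← this, Nat.cast_smul_eq_nsmul]

theorem cdTwo_isSmooth_trivial (𝔉 : LevelFamily G) (V : Type) [AddCommGroup V]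
    [Module (ZMod p) V] : IsSmooth 𝔉 (Rep.trivial (ZMod p) G V) := by
  intro a
  obtain ⟨U, hU⟩ := 𝔉.nonempty
  exact ⟨U, hU, fun u _ => rfl⟩

end Abstract

section Cyclo

variable (K Ω : Type) [Field K] [Field Ω] [Algebra K Ω] [IsGalois K Ω] [IsAlgClosed Ω]
  (p : ℕ) [Fact p.Prime]

/-- The field `K(ζ_p) ⊆ Ω`: finite over `K`, of degree prime to `p`, containing a primitive
`p`-th root of unity. -/
theorem cdTwo_exists_cyclo (hpΩ : (p : Ω) ≠ 0) :
    ∃ (K' : IntermediateField K Ω) (ζ : Ω), FiniteDimensional K K' ∧ IsPrimitiveRoot ζ p ∧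
      ζ ∈ K' ∧ Nat.Coprime p K'.fixingSubgroup.index := by
  have hp : p.Prime := Fact.out
  haveI : NeZero (p : Ω) := ⟨hpΩ⟩
  obtain ⟨ζ, hr⟩ := IsAlgClosed.exists_root (cyclotomic p Ω)
    (degree_cyclotomic_pos p Ω hp.pos).ne'
  have hζ : IsPrimitiveRoot ζ p := isRoot_cyclotomic_iff.1 hr
  have hint : IsIntegral K ζ := Algebra.IsIntegral.isIntegral ζ
  refine ⟨K⟮ζ⟯, ζ, adjoin.finiteDimensional hint, hζ, mem_adjoin_simple_self K ζ, ?_⟩
  rw [← finrank_eq_fixingSubgroup_index, adjoin.finrank hint]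
  have hdvd : minpoly K ζ ∣ cyclotomic p K := by
    apply minpoly.dvd
    rw [aeval_def, ← Polynomial.eval_map, map_cyclotomic]
    exact hr
  have hle : (minpoly K ζ).natDegree ≤ p - 1 := by
    have := natDegree_le_of_dvd hdvd (cyclotomic_ne_zero p K)
    rwa [natDegree_cyclotomic, Nat.totient_prime hp] at this
  have hpos : 0 < (minpoly K ζ).natDegree := minpoly.natDegree_pos hint
  have hlt : (minpoly K ζ).natDegree < p := by
    have := hp.pos
    omega
  exact (Nat.Prime.coprime_iff_not_dvd hp).2 (Nat.not_dvd_of_pos_of_lt hpos hlt)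

variable {K Ω p}

/-- `Hlc^n(Gal(Ω/K), 𝔽_p)` embeds into `Hlc^n(Gal(Ω/K(ζ_p)), 𝔽_p)`. -/
theorem cdTwo_exists_injective (hpΩ : (p : Ω) ≠ 0) (n : ℕ) :
    ∃ (K' : IntermediateField K Ω) (ζ : Ω), FiniteDimensional K K' ∧ IsPrimitiveRoot ζ p ∧
      ζ ∈ K' ∧
      ∃ f : Hlc (famGal K Ω) (Rep.trivial (ZMod p) (Ω ≃ₐ[K] Ω) (ZMod p)) n →ₗ[ZMod p]
          Hlc (famGal K' Ω) (Rep.trivial (ZMod p) (Ω ≃ₐ[K'] Ω) (ZMod p)) n,
        Function.Injective f := by
  obtain ⟨K', ζ, hfd, hζ, hmem, hcop⟩ := cdTwo_exists_cyclo K Ω p hpΩ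
  have := hfd
  refine ⟨K', ζ, hfd, hζ, hmem,
    (HlcMap (galIncl K K' Ω) (openSub_trivialHom K' (ZMod p)) (openSub_compat_galIncl K') n).hom,
    ?_⟩
  intro x y hxy
  rw [← openSub_HlcEquivOf_HlcRes K' _ (openSub_trivialHom K' (ZMod p)) Function.bijective_id,
    ← openSub_HlcEquivOf_HlcRes K' _ (openSub_trivialHom K' (ZMod p)) Function.bijective_id] at hxy
  exact cdTwo_HlcRes_injective (famGal K Ω) famGal_finiteIndex K'.fixingSubgroup
    (openSub_isOpenFor_fixingSubgroup K') hcop _ (cdTwo_isSmooth_trivial _ _) n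
    ((openSub_HlcEquivOf K' _ (openSub_trivialHom K' (ZMod p)) Function.bijective_id n).injective
      hxy)

end Cyclo

section LocalFields

variable (Ω : Type) [Field Ω] [IsAlgClosed Ω] (p : ℕ) [Fact p.Prime]

omit [IsAlgClosed Ω] in
/-- a finite subextension of a local field is a local field -/
theorem cdTwo_isLocalFieldNA_intermediate {K : Type} [Field K] [Algebra K Ω] [IsGalois K Ω]
    (hK : IsLocalFieldNA K) (K' : IntermediateField K Ω) [FiniteDimensional K K'] :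
    IsLocalFieldNA ↥K' := by
  have : Algebra.IsSeparable K ↥K' := Algebra.isSeparable_tower_bot_of_isSeparable K ↥K' Ω
  exact hK.of_finite

variable {Ω p}

/-- **(LD)(a), general form**: a vanishing statement for `Hlc^n(-, 𝔽_p)` over all local fields
containing `μ_p` holds over all local fields. -/
theorem cdTwo_subsingleton_trivial (hpΩ : (p : Ω) ≠ 0) (n : ℕ)
    (h : ∀ (K' : Type) [Field K'] [Algebra K' Ω] [IsGalois K' Ω], IsLocalFieldNA K' →
      (∃ ζ : K', IsPrimitiveRoot ζ p) →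
      Subsingleton (Hlc (famGal K' Ω) (Rep.trivial (ZMod p) (Ω ≃ₐ[K'] Ω) (ZMod p)) n))
    (K : Type) [Field K] [Algebra K Ω] [IsGalois K Ω] (hK : IsLocalFieldNA K) :
    Subsingleton (Hlc (famGal K Ω) (Rep.trivial (ZMod p) (Ω ≃ₐ[K] Ω) (ZMod p)) n) := by
  obtain ⟨K', ζ, hfd, hζ, hmem, f, hf⟩ := cdTwo_exists_injective (K := K) hpΩ n
  have := hfd
  have hζ' : IsPrimitiveRoot (⟨ζ, hmem⟩ : ↥K') p :=
    IsPrimitiveRoot.of_map_of_injective (f := algebraMap ↥K' Ω) hζ (algebraMap ↥K' Ω).injective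
  have := h ↥K' (cdTwo_isLocalFieldNA_intermediate Ω hK K') ⟨_, hζ'⟩
  exact hf.subsingleton

/-- **(LD)(b), general form**: finiteness of `Hlc^n(-, 𝔽_p)` over all local fields containing `μ_p`
gives finiteness over all local fields. -/
theorem cdTwo_finite_trivial (hpΩ : (p : Ω) ≠ 0) (n : ℕ)
    (h : ∀ (K' : Type) [Field K'] [Algebra K' Ω] [IsGalois K' Ω], IsLocalFieldNA K' →
      (∃ ζ : K', IsPrimitiveRoot ζ p) →
      Module.Finite (ZMod p) (Hlc (famGal K' Ω) (Rep.trivial (ZMod p) (Ω ≃ₐ[K'] Ω) (ZMod p)) n))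
    (K : Type) [Field K] [Algebra K Ω] [IsGalois K Ω] (hK : IsLocalFieldNA K) :
    Module.Finite (ZMod p) (Hlc (famGal K Ω) (Rep.trivial (ZMod p) (Ω ≃ₐ[K] Ω) (ZMod p)) n) := by
  obtain ⟨K', ζ, hfd, hζ, hmem, f, hf⟩ := cdTwo_exists_injective (K := K) hpΩ n
  have := hfd
  have hζ' : IsPrimitiveRoot (⟨ζ, hmem⟩ : ↥K') p :=
    IsPrimitiveRoot.of_map_of_injective (f := algebraMap ↥K' Ω) hζ (algebraMap ↥K' Ω).injective
  have := h ↥K' (cdTwo_isLocalFieldNA_intermediate Ω hK K') ⟨_, hζ'⟩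
  exact Module.Finite.of_injective f hf

/-- (LD)(a) for all open subgroups of `Gal(Ω/K)` with the induced families [= shape of (L1)]. -/
theorem cdTwo_subsingleton_trivial_open (hpΩ : (p : Ω) ≠ 0) (n : ℕ)
    (h : ∀ (K' : Type) [Field K'] [Algebra K' Ω] [IsGalois K' Ω], IsLocalFieldNA K' →
      (∃ ζ : K', IsPrimitiveRoot ζ p) →
      Subsingleton (Hlc (famGal K' Ω) (Rep.trivial (ZMod p) (Ω ≃ₐ[K'] Ω) (ZMod p)) n))
    (K : Type) [Field K] [Algebra K Ω] [IsGalois K Ω] (hK : IsLocalFieldNA K)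
    (H : Subgroup (Ω ≃ₐ[K] Ω)) (hH : IsOpenFor (famGal K Ω) H) :
    Subsingleton (Hlc ((famGal K Ω).restrict H) (Rep.trivial (ZMod p) ↥H (ZMod p)) n) := by
  obtain ⟨K', hfd, rfl, -⟩ := openSub_exists_of_isOpenFor hH
  have := hfd
  have := cdTwo_subsingleton_trivial hpΩ n h ↥K' (cdTwo_isLocalFieldNA_intermediate Ω hK K')
  exact (openSub_HlcEquiv_trivial K' (ZMod p) n).injective.subsingleton

/-- (LD)(b) for all open subgroups of `Gal(Ω/K)` with the induced families [= shape of (L0)]. -/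
theorem cdTwo_finite_trivial_open (hpΩ : (p : Ω) ≠ 0) (n : ℕ)
    (h : ∀ (K' : Type) [Field K'] [Algebra K' Ω] [IsGalois K' Ω], IsLocalFieldNA K' →
      (∃ ζ : K', IsPrimitiveRoot ζ p) →
      Module.Finite (ZMod p) (Hlc (famGal K' Ω) (Rep.trivial (ZMod p) (Ω ≃ₐ[K'] Ω) (ZMod p)) n))
    (K : Type) [Field K] [Algebra K Ω] [IsGalois K Ω] (hK : IsLocalFieldNA K)
    (H : Subgroup (Ω ≃ₐ[K] Ω)) (hH : IsOpenFor (famGal K Ω) H) :
    Module.Finite (ZMod p)
      (Hlc ((famGal K Ω).restrict H) (Rep.trivial (ZMod p) ↥H (ZMod p)) n) := by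
  obtain ⟨K', hfd, rfl, -⟩ := openSub_exists_of_isOpenFor hH
  have := hfd
  have := cdTwo_finite_trivial hpΩ n h ↥K' (cdTwo_isLocalFieldNA_intermediate Ω hK K')
  exact Module.Finite.equiv (openSub_HlcEquiv_trivial K' (ZMod p) n).symm

/-- **(LD)(c)**: `Hlc^n(Gal(Ω/K), M) = 0` for every finite-dimensional smooth `𝔽_p`-representation
`M` of the absolute Galois group of a local field `K`, as soon as `Hlc^n(-, 𝔽_p) = 0` over all
local fields containing `μ_p` (applied with `n = 3`: `cd_p ≤ 2`). -/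
theorem cdTwo_isZero_of_smooth (hpΩ : (p : Ω) ≠ 0) (n : ℕ)
    (h : ∀ (K' : Type) [Field K'] [Algebra K' Ω] [IsGalois K' Ω], IsLocalFieldNA K' →
      (∃ ζ : K', IsPrimitiveRoot ζ p) →
      Subsingleton (Hlc (famGal K' Ω) (Rep.trivial (ZMod p) (Ω ≃ₐ[K'] Ω) (ZMod p)) n))
    (K : Type) [Field K] [Algebra K Ω] [IsGalois K Ω] (hK : IsLocalFieldNA K)
    (M : Rep (ZMod p) (Ω ≃ₐ[K] Ω)) [FiniteDimensional (ZMod p) M]
    (hM : IsSmooth (famGal K Ω) M) : Limits.IsZero (Hlc (famGal K Ω) M n) := by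
  refine isZero_Hlc_of_forall_open_trivial (famGal K Ω) famGal_finiteIndex n (fun H hH => ?_) M hM
  have := cdTwo_subsingleton_trivial_open hpΩ n h K hK H hH
  exact ModuleCat.isZero_of_subsingleton _

end LocalFields

section Unconditional

variable {Ω : Type} [Field Ω] [IsAlgClosed Ω] {p : ℕ} [Fact p.Prime]

theorem cdTwo_base_three :
    ∀ (K' : Type) [Field K'] [Algebra K' Ω] [IsGalois K' Ω], IsLocalFieldNA K' →
      (∃ ζ : K', IsPrimitiveRoot ζ p) →
      Subsingleton (Hlc (famGal K' Ω) (Rep.trivial (ZMod p) (Ω ≃ₐ[K'] Ω) (ZMod p)) 3) := by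
  intro K' _ _ _ hK' ⟨ζ, hζ⟩
  exact ModuleCat.subsingleton_of_isZero (isZero_Hlc_three_trivial_of_isPrimitiveRoot p hK' hζ)

theorem cdTwo_base_two :
    ∀ (K' : Type) [Field K'] [Algebra K' Ω] [IsGalois K' Ω], IsLocalFieldNA K' →
      (∃ ζ : K', IsPrimitiveRoot ζ p) →
      Module.Finite (ZMod p)
        (Hlc (famGal K' Ω) (Rep.trivial (ZMod p) (Ω ≃ₐ[K'] Ω) (ZMod p)) 2) := by
  intro K' _ _ _ hK' ⟨ζ, hζ⟩
  apply Module.finite_of_finrank_pos
  rw [finrank_Hlc_two_trivial_of_isPrimitiveRoot p hK' hζ]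
  exact one_pos

variable (K : Type) [Field K] [Algebra K Ω] [IsGalois K Ω] (hK : IsLocalFieldNA K)
  (hpΩ : (p : Ω) ≠ 0)

include hK hpΩ

/-- **(LD)(a)** `Hlc³(Gal(Ω/K), 𝔽_p) = 0` for every local field `K` (no `μ_p ⊆ K`). -/
theorem cdTwo_subsingleton_three_trivial :
    Subsingleton (Hlc (famGal K Ω) (Rep.trivial (ZMod p) (Ω ≃ₐ[K] Ω) (ZMod p)) 3) :=
  cdTwo_subsingleton_trivial hpΩ 3 cdTwo_base_three K hK

theorem cdTwo_isZero_three_trivial :
    Limits.IsZero (Hlc (famGal K Ω) (Rep.trivial (ZMod p) (Ω ≃ₐ[K] Ω) (ZMod p)) 3) := by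
  have := cdTwo_subsingleton_three_trivial K hK hpΩ
  exact ModuleCat.isZero_of_subsingleton _

/-- **(LD)(b)**, degree `2`. -/
theorem cdTwo_finite_two_trivial :
    Module.Finite (ZMod p) (Hlc (famGal K Ω) (Rep.trivial (ZMod p) (Ω ≃ₐ[K] Ω) (ZMod p)) 2) :=
  cdTwo_finite_trivial hpΩ 2 cdTwo_base_two K hK

/-- **(LD)(c)** `cd_p(K) ≤ 2`: `Hlc³(Gal(Ω/K), M) = 0` for every finite-dimensional smooth
`𝔽_p`-representation `M`. -/
theorem cdTwo_isZero_three (M : Rep (ZMod p) (Ω ≃ₐ[K] Ω)) [FiniteDimensional (ZMod p) M]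
    (hM : IsSmooth (famGal K Ω) M) : Limits.IsZero (Hlc (famGal K Ω) M 3) :=
  cdTwo_isZero_of_smooth hpΩ 3 cdTwo_base_three K hK M hM

/-- (L1)-shape: `Hlc³(H, 𝔽_p) = 0` for every open subgroup `H` of `Gal(Ω/K)`. -/
theorem cdTwo_subsingleton_three_open (H : Subgroup (Ω ≃ₐ[K] Ω))
    (hH : IsOpenFor (famGal K Ω) H) :
    Subsingleton (Hlc ((famGal K Ω).restrict H) (Rep.trivial (ZMod p) ↥H (ZMod p)) 3) :=
  cdTwo_subsingleton_trivial_open hpΩ 3 cdTwo_base_three K hK H hH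

/-- (L0)-shape, degree `2`. -/
theorem cdTwo_finite_two_open (H : Subgroup (Ω ≃ₐ[K] Ω)) (hH : IsOpenFor (famGal K Ω) H) :
    Module.Finite (ZMod p)
      (Hlc ((famGal K Ω).restrict H) (Rep.trivial (ZMod p) ↥H (ZMod p)) 2) :=
  cdTwo_finite_trivial_open hpΩ 2 cdTwo_base_two K hK H hH

end Unconditional

section Padic

variable (q p : ℕ) [Fact q.Prime] [Fact p.Prime] (K Ω : Type) [Field K] [Field Ω]
  [Algebra ℚ_[q] K] [FiniteDimensional ℚ_[q] K] [Algebra K Ω] [IsGalois K Ω] [IsAlgClosed Ω]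

attribute [local instance] muMulDistribMulAction

include q

/-- `Hlc¹(Gal(Ω/K), 𝔽_p)` is finite for a finite extension `K` of `ℚ_q` containing `μ_p`. -/
theorem cdTwo_finite_one_trivial_padic_of_isPrimitiveRoot {ζ : K} (hζ : IsPrimitiveRoot ζ p) :
    Module.Finite (ZMod p)
      (Hlc (famGal K Ω) (Rep.trivial (ZMod p) (Ω ≃ₐ[K] Ω) (ZMod p)) 1) := by
  haveI : NeZero p := ⟨(Fact.out : p.Prime).ne_zero⟩
  apply Module.finite_of_finrank_pos
  rw [finrank_Hlc_one_trivial_padic q p K Ω (mu_smul_eq_of_isPrimitiveRoot K Ω p hζ)]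
  omega

/-- **(LD)(b)**, degree `1`: `Hlc¹(Gal(Ω/K), 𝔽_p)` is finite for every finite extension `K` of
`ℚ_q`. -/
theorem cdTwo_finite_one_trivial_padic :
    Module.Finite (ZMod p)
      (Hlc (famGal K Ω) (Rep.trivial (ZMod p) (Ω ≃ₐ[K] Ω) (ZMod p)) 1) := by
  obtain ⟨K', ζ, hfd, hζ, hmem, f, hf⟩ :=
    cdTwo_exists_injective (K := K) (padic_natCast_ne_zero q p K Ω) 1
  have := hfd
  have hζ' : IsPrimitiveRoot (⟨ζ, hmem⟩ : ↥K') p :=
    IsPrimitiveRoot.of_map_of_injective (f := algebraMap ↥K' Ω) hζ (algebraMap ↥K' Ω).injective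
  letI : Algebra ℚ_[q] ↥K' := ((algebraMap K ↥K').comp (algebraMap ℚ_[q] K)).toAlgebra
  haveI : IsScalarTower ℚ_[q] K ↥K' := IsScalarTower.of_algebraMap_eq (fun _ => rfl)
  haveI : FiniteDimensional ℚ_[q] ↥K' := FiniteDimensional.trans ℚ_[q] K ↥K'
  have := cdTwo_finite_one_trivial_padic_of_isPrimitiveRoot q p ↥K' Ω hζ'
  exact Module.Finite.of_injective f hf

/-- `Hlcⁿ(Gal(Ω/K), 𝔽_p)`, `n ≤ 2`, is finite for every finite extension `K` of `ℚ_q`. -/
theorem cdTwo_finite_trivial_padic (n : ℕ) (hn : n ≤ 2) :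
    Module.Finite (ZMod p)
      (Hlc (famGal K Ω) (Rep.trivial (ZMod p) (Ω ≃ₐ[K] Ω) (ZMod p)) n) := by
  have hK : IsLocalFieldNA K := isLocalFieldNA_of_finite_padic q K
  interval_cases n
  · exact hlcFin_finite_zero _ _
  · exact cdTwo_finite_one_trivial_padic q p K Ω
  · exact cdTwo_finite_two_trivial K hK (padic_natCast_ne_zero q p K Ω)

/-- (L0)-shape: `Hlcⁿ(H, 𝔽_p)`, `n ≤ 2`, is finite for every open subgroup `H` of `Gal(Ω/K)`,
`K / ℚ_q` finite. -/
theorem cdTwo_finite_trivial_padic_open (H : Subgroup (Ω ≃ₐ[K] Ω))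
    (hH : IsOpenFor (famGal K Ω) H) (n : ℕ) (hn : n ≤ 2) :
    Module.Finite (ZMod p)
      (Hlc ((famGal K Ω).restrict H) (Rep.trivial (ZMod p) ↥H (ZMod p)) n) := by
  obtain ⟨K', hfd, rfl, -⟩ := openSub_exists_of_isOpenFor hH
  have := hfd
  letI : Algebra ℚ_[q] ↥K' := ((algebraMap K ↥K').comp (algebraMap ℚ_[q] K)).toAlgebra
  haveI : IsScalarTower ℚ_[q] K ↥K' := IsScalarTower.of_algebraMap_eq (fun _ => rfl)
  haveI : FiniteDimensional ℚ_[q] ↥K' := FiniteDimensional.trans ℚ_[q] K ↥K'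
  have := cdTwo_finite_trivial_padic q p ↥K' Ω n hn
  exact Module.Finite.equiv (openSub_HlcEquiv_trivial K' (ZMod p) n).symm

/-- (L1)-shape over `ℚ_q`. -/
theorem cdTwo_subsingleton_three_padic_open (H : Subgroup (Ω ≃ₐ[K] Ω))
    (hH : IsOpenFor (famGal K Ω) H) :
    Subsingleton (Hlc ((famGal K Ω).restrict H) (Rep.trivial (ZMod p) ↥H (ZMod p)) 3) :=
  cdTwo_subsingleton_three_open K (isLocalFieldNA_of_finite_padic q K)
    (padic_natCast_ne_zero q p K Ω) H hH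

/-- `cd_p ≤ 2` over `ℚ_q`. -/
theorem cdTwo_isZero_three_padic (M : Rep (ZMod p) (Ω ≃ₐ[K] Ω)) [FiniteDimensional (ZMod p) M]
    (hM : IsSmooth (famGal K Ω) M) : Limits.IsZero (Hlc (famGal K Ω) M 3) :=
  cdTwo_isZero_three K (isLocalFieldNA_of_finite_padic q K) (padic_natCast_ne_zero q p K Ω) M hM

end Padic

end Fermat.Agent.PT
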