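import Mathlib
import Fermat.Agent.CFT.Local.UnitsCoh

set_option autoImplicit false
set_option linter.unusedSectionVars false

/-!
# CFT stream [B] Local, Tier 2, (N-T3) : the explicit cyclic 2-cocycle

`G` finite cyclic of order `n` with generator `g`, `A` a `G`-module, `a ∈ A^G`.  The function
`cycCocycle g a : (g ^ i, g ^ j) ↦ a` if `i + j ≥ n`, `0` otherwise (`0 ≤ i, j < n`) is a
2-cocycle (`isCocycle₂_cycCocycle`, Mathlib's `groupCohomology.IsCocycle₂`) and it is a
2-coboundary iff `a` is a norm (`isCoboundary₂_cycCocycle_iff`).  Multiplicative versions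
(`mulCycCocycle`, `IsMulCocycle₂`, `IsMulCoboundary₂`) and the class `cycClass` in Mathlib's
`H² (Rep.ofMulDistribMulAction G M)` with `cycClass_eq_zero_iff`, `cycClass_mul`.
-/

open groupCohomology

namespace Fermat.Agent.CFT

section Idx

variable {G : Type*} [Group G]

/-- The least exponent `i` with `g ^ i = x` (`0` if there is none). -/
noncomputable def cycIdx (g x : G) : ℕ := sInf {i | g ^ i = x}

variable [Finite G] {g : G}

theorem cycIdx_pow (g : G) (i : ℕ) : cycIdx g (g ^ i) = i % orderOf g := by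
  have hn : 0 < orderOf g := orderOf_pos g
  have hmem : i % orderOf g ∈ {k | g ^ k = g ^ i} := pow_mod_orderOf g i
  have h1 : cycIdx g (g ^ i) ≤ i % orderOf g := Nat.sInf_le hmem
  have h2 : g ^ cycIdx g (g ^ i) = g ^ i := Nat.sInf_mem (s := {k | g ^ k = g ^ i}) ⟨_, hmem⟩
  rw [pow_eq_pow_iff_modEq] at h2
  have h3 : cycIdx g (g ^ i) < orderOf g := lt_of_le_of_lt h1 (Nat.mod_lt _ hn)
  rw [← h2, Nat.mod_eq_of_lt h3]

theorem cycIdx_exists_pow_eq (hg : ∀ x, x ∈ Subgroup.zpowers g) (x : G) :
    ∃ i : ℕ, g ^ i = x := by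
  have := hg x
  rw [← mem_powers_iff_mem_zpowers] at this
  exact this

theorem pow_cycIdx (hg : ∀ x, x ∈ Subgroup.zpowers g) (x : G) : g ^ cycIdx g x = x :=
  Nat.sInf_mem (s := {k | g ^ k = x}) (cycIdx_exists_pow_eq hg x)

theorem cycIdx_lt (hg : ∀ x, x ∈ Subgroup.zpowers g) (x : G) : cycIdx g x < orderOf g := by
  obtain ⟨i, rfl⟩ := cycIdx_exists_pow_eq hg x
  rw [cycIdx_pow]
  exact Nat.mod_lt _ (orderOf_pos g)

theorem cycIdx_mul (hg : ∀ x, x ∈ Subgroup.zpowers g) (x y : G) :
    cycIdx g (x * y) = (cycIdx g x + cycIdx g y) % orderOf g := by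
  conv_lhs => rw [← pow_cycIdx hg x, ← pow_cycIdx hg y, ← pow_add]
  rw [cycIdx_pow]

end Idx

section Additive

variable {G : Type*} [Group G] [Fintype G] {A : Type*} [AddCommGroup A] [DistribMulAction G A]
  {g : G}

/-- The cyclic 2-cocycle `(g ^ i, g ^ j) ↦ a` if `i + j ≥ n`, `0` otherwise (`0 ≤ i, j < n`). -/
noncomputable def cycCocycle (g : G) (a : A) : G × G → A :=
  fun p => ((cycIdx g p.1 + cycIdx g p.2) / orderOf g) • a

theorem cycCocycle_apply (g : G) (a : A) (x y : G) :
    cycCocycle g a (x, y) = ((cycIdx g x + cycIdx g y) / orderOf g) • a := rfl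

theorem nat_carry_identity (n m k : ℕ) : (m % n + k) / n + m / n = (m + k) / n := by
  rcases Nat.eq_zero_or_pos n with rfl | hn
  · simp
  · conv_rhs => rw [← Nat.mod_add_div m n, add_right_comm, Nat.add_mul_div_left _ _ hn]

theorem isCocycle₂_cycCocycle (hg : ∀ x, x ∈ Subgroup.zpowers g) {a : A}
    (ha : ∀ x : G, x • a = a) : IsCocycle₂ (cycCocycle g a) := by
  intro x y z
  simp only [cycCocycle_apply]
  rw [smul_comm, ha, cycIdx_mul hg x y, cycIdx_mul hg y z, ← add_smul, ← add_smul]
  congr 1
  rw [nat_carry_identity, add_comm ((cycIdx g y + cycIdx g z) / orderOf g),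
    add_comm (cycIdx g x) ((cycIdx g y + cycIdx g z) % orderOf g), nat_carry_identity]
  ring_nf

/-- partial norms `S m = ∑_{l < m} g ^ l • b`. -/
noncomputable def cycPartial (g : G) (b : A) (m : ℕ) : A := ∑ l ∈ Finset.range m, g ^ l • b

theorem cycPartial_add (g : G) (b : A) (i j : ℕ) :
    cycPartial g b (i + j) = cycPartial g b i + g ^ i • cycPartial g b j := by
  unfold cycPartial
  rw [Finset.sum_range_add, Finset.smul_sum]
  congr 1
  exact Finset.sum_congr rfl fun l _ => by rw [pow_add, mul_smul]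

theorem cycPartial_orderOf (hg : ∀ x, x ∈ Subgroup.zpowers g) (b : A) :
    cycPartial g b (orderOf g) = ∑ τ : G, τ • b := by
  classical
  unfold cycPartial
  rw [← IsCyclic.image_range_orderOf hg, Finset.sum_image]
  intro i hi j hj h
  exact pow_injOn_Iio_orderOf (by simpa using hi) (by simpa using hj) h

theorem smul_norm_eq (b : A) (x : G) : x • (∑ τ : G, τ • b) = ∑ τ : G, τ • b := by
  rw [Finset.smul_sum]
  exact Fintype.sum_bijective (fun τ => x * τ) (Group.mulLeft_bijective x) _ _
    (fun τ => by rw [mul_smul])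

theorem cycPartial_add_mul (hg : ∀ x, x ∈ Subgroup.zpowers g) (b : A) (r q : ℕ) :
    cycPartial g b (r + q * orderOf g) = cycPartial g b r + q • ∑ τ : G, τ • b := by
  induction q with
  | zero => simp
  | succ q ih =>
    rw [add_mul, one_mul, ← add_assoc, cycPartial_add, ih, cycPartial_orderOf hg, smul_norm_eq,
      add_smul, one_smul, add_assoc]

theorem cycPartial_eq_mod (hg : ∀ x, x ∈ Subgroup.zpowers g) (b : A) (m : ℕ) :
    cycPartial g b m =
      cycPartial g b (m % orderOf g) + (m / orderOf g) • ∑ τ : G, τ • b := by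
  conv_lhs => rw [← Nat.mod_add_div' m (orderOf g)]
  exact cycPartial_add_mul hg b _ _

/-- **The cyclic cocycle is a coboundary iff `a` is a norm.** -/
theorem isCoboundary₂_cycCocycle_iff (hg : ∀ x, x ∈ Subgroup.zpowers g) {a : A}
    (ha : ∀ x : G, x • a = a) :
    IsCoboundary₂ (cycCocycle g a) ↔ ∃ b : A, ∑ τ : G, τ • b = a := by
  have hn : 0 < orderOf g := orderOf_pos g
  constructor
  · rintro ⟨β, hβ⟩
    rcases Nat.lt_or_ge 1 (orderOf g) with h2 | h1
    · refine ⟨β g, ?_⟩
      have hidx : ∀ i, i < orderOf g → cycIdx g (g ^ i) = i := fun i hi => by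
        rw [cycIdx_pow, Nat.mod_eq_of_lt hi]
      have hidx1 : cycIdx g g = 1 := by
        have := hidx 1 h2
        rwa [pow_one] at this
      have hsum : ∑ i ∈ Finset.range (orderOf g),
          (g ^ i • β g - β (g ^ i * g) + β (g ^ i)) =
          ∑ i ∈ Finset.range (orderOf g), cycCocycle g a (g ^ i, g) :=
        Finset.sum_congr rfl fun i _ => hβ (g ^ i) g
      have hL : ∑ i ∈ Finset.range (orderOf g), (g ^ i • β g - β (g ^ i * g) + β (g ^ i)) =
          ∑ τ : G, τ • β g := by
        have h1 : ∀ i ∈ Finset.range (orderOf g),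
            g ^ i • β g - β (g ^ i * g) + β (g ^ i) =
              g ^ i • β g - (β (g ^ (i + 1)) - β (g ^ i)) := fun i _ => by
          rw [pow_succ]; abel
        rw [Finset.sum_congr rfl h1, Finset.sum_sub_distrib,
          Finset.sum_range_sub (fun i => β (g ^ i)), pow_orderOf_eq_one, pow_zero, sub_self,
          sub_zero]
        exact cycPartial_orderOf hg (β g)
      have hR : ∑ i ∈ Finset.range (orderOf g), cycCocycle g a (g ^ i, g) = a := by
        rw [Finset.sum_eq_single (orderOf g - 1)]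
        · rw [cycCocycle_apply, hidx _ (by omega), hidx1,
            Nat.sub_add_cancel hn, Nat.div_self hn, one_smul]
        · intro i hi hne
          rw [Finset.mem_range] at hi
          rw [cycCocycle_apply, hidx _ hi, hidx1, Nat.div_eq_of_lt (by omega), zero_smul]
        · intro h
          exact absurd (Finset.mem_range.mpr (by omega)) h
      rw [← hL, hsum, hR]
    · refine ⟨a, ?_⟩
      have hcard : Fintype.card G = 1 := by
        rw [← Nat.card_eq_fintype_card, ← orderOf_eq_card_of_forall_mem_zpowers hg]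
        omega
      rw [Finset.sum_congr rfl fun τ _ => ha τ, Finset.sum_const, Finset.card_univ, hcard,
        one_smul]
  · rintro ⟨b, rfl⟩
    refine ⟨fun x => cycPartial g b (cycIdx g x), fun x y => ?_⟩
    beta_reduce
    rw [cycCocycle_apply, cycIdx_mul hg x y]
    have h1 := cycPartial_add g b (cycIdx g x) (cycIdx g y)
    have h2 := cycPartial_eq_mod hg b (cycIdx g x + cycIdx g y)
    rw [pow_cycIdx hg x] at h1
    have h3 : x • cycPartial g b (cycIdx g y) =
        cycPartial g b ((cycIdx g x + cycIdx g y) % orderOf g) +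
          ((cycIdx g x + cycIdx g y) / orderOf g) • ∑ τ : G, τ • b -
            cycPartial g b (cycIdx g x) := by
      rw [← h2, h1]; abel
    rw [h3]; abel

end Additive

section Multiplicative

variable {G : Type*} [Group G] [Fintype G] {M : Type*} [CommGroup M] [MulDistribMulAction G M]
  {g : G}

attribute [local instance] additiveDistribMulAction

/-- The multiplicative cyclic 2-cocycle `(g ^ i, g ^ j) ↦ a` if `i + j ≥ n`, `1` otherwise. -/
noncomputable def mulCycCocycle (g : G) (a : M) : G × G → M :=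
  fun p => a ^ ((cycIdx g p.1 + cycIdx g p.2) / orderOf g)

theorem mulCycCocycle_apply (g : G) (a : M) (x y : G) :
    mulCycCocycle g a (x, y) = a ^ ((cycIdx g x + cycIdx g y) / orderOf g) := rfl

theorem isMulCocycle₂_mulCycCocycle (hg : ∀ x, x ∈ Subgroup.zpowers g) {a : M}
    (ha : ∀ x : G, x • a = a) : IsMulCocycle₂ (mulCycCocycle g a) :=
  isCocycle₂_cycCocycle (A := Additive M) hg (a := Additive.ofMul a)
    (fun x => congrArg Additive.ofMul (ha x))

/-- **The multiplicative cyclic cocycle is a coboundary iff `a` is a norm.** -/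
theorem isMulCoboundary₂_mulCycCocycle_iff (hg : ∀ x, x ∈ Subgroup.zpowers g) {a : M}
    (ha : ∀ x : G, x • a = a) :
    IsMulCoboundary₂ (mulCycCocycle g a) ↔ ∃ b : M, ∏ τ : G, τ • b = a := by
  have h := isCoboundary₂_cycCocycle_iff (A := Additive M) hg (a := Additive.ofMul a)
    (fun x => congrArg Additive.ofMul (ha x))
  constructor
  · intro hc
    obtain ⟨b, hb⟩ := h.mp hc
    refine ⟨Additive.toMul b, ?_⟩
    have := congrArg Additive.toMul hb
    rw [toMul_sum] at this
    exact this
  · rintro ⟨b, hb⟩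
    refine h.mpr ⟨Additive.ofMul b, ?_⟩
    rw [← hb, ofMul_prod]
    rfl

end Multiplicative

section H2

variable {G M : Type} [Group G] [Fintype G] [CommGroup M] [MulDistribMulAction G M] {g : G}

/-- The class of the cyclic cocycle attached to an invariant `a` in Mathlib's `H²(G, M)`. -/
noncomputable def cycClass (hg : ∀ x, x ∈ Subgroup.zpowers g) (a : M) (ha : ∀ x : G, x • a = a) :
    groupCohomology.H2 (Rep.ofMulDistribMulAction G M) :=
  H2π _ (cocyclesOfIsMulCocycle₂ (isMulCocycle₂_mulCycCocycle hg ha))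

/-- **The cyclic class of `a` vanishes iff `a` is a norm.** -/
theorem cycClass_eq_zero_iff (hg : ∀ x, x ∈ Subgroup.zpowers g) (a : M)
    (ha : ∀ x : G, x • a = a) :
    cycClass hg a ha = 0 ↔ ∃ b : M, ∏ τ : G, τ • b = a := by
  rw [← isMulCoboundary₂_mulCycCocycle_iff hg ha, cycClass, H2π_eq_zero_iff]
  constructor
  · intro h
    exact isMulCoboundary₂_of_mem_coboundaries₂ _ h
  · intro h
    exact (coboundariesOfIsMulCoboundary₂ h).2

theorem cycClass_mul (hg : ∀ x, x ∈ Subgroup.zpowers g) (a b : M)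
    (ha : ∀ x : G, x • a = a) (hb : ∀ x : G, x • b = b) :
    cycClass hg (a * b) (fun x => by rw [smul_mul', ha, hb]) =
      cycClass hg a ha + cycClass hg b hb := by
  unfold cycClass
  rw [← map_add]
  congr 1
  apply Subtype.ext
  funext p
  change Additive.ofMul ((a * b) ^ _) = Additive.ofMul (a ^ _) + Additive.ofMul (b ^ _)
  rw [mul_pow]
  rfl

end H2

end Fermat.Agent.CFT
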