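/-
CFT, S55 pool, GLOBAL-IDELIC layer (K3), local part (helper23), on helper20's
`Local/UnramUnitsCohGen.lean`.

`O` a complete DVR with finite residue field, `F = Frac O`, `E / F` a finite separable extension
whose ring of integers `B = integralClosure O E` is unramified over `O`, `D` ANY finite group acting
faithfully on `E` by `F`-automorphisms.  Then
* `ucgA_isCyclic` : `D` is cyclic (it is the Galois group of the unramified extension `E / E^D`);
* `ucgA_subsingleton` : `Hⁿ⁺¹(D, Bˣ) = 0` for all `n` (Mathlib group cohomology).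
-/
import Mathlib
import Fermat.Agent.CFT.Local.UnramUnitsCohGen
import Fermat.Agent.CFT.Local.UnramifiedH2
import Fermat.Agent.CFT.Coh.ProdVanish

set_option autoImplicit false
set_option linter.unusedSectionVars false
set_option linter.style.haveILetI false

namespace Fermat.Agent.CFT

open IsLocalRing

section

variable (O : Type) (F E : Type) [CommRing O] [IsDomain O] [IsDiscreteValuationRing O]
  [IsAdicComplete (maximalIdeal O) O] [Finite (ResidueField O)]
  [Field F] [Algebra O F] [IsFractionRing O F]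
  [Field E] [Algebra F E] [Algebra O E] [IsScalarTower O F E] [FiniteDimensional F E]
  [Algebra.IsSeparable F E]
  (D : Type) [Group D] [Fintype D] [MulSemiringAction D E] [SMulCommClass D F E] [FaithfulSMul D E]

attribute [local instance] ucg_isScalarTower_F' ucg_isScalarTower_A' ucg_algebra
  ucg_isScalarTower_B ucg_isScalarTower_OAB

/-- the decomposition group of an unramified extension is cyclic. -/
theorem ucgA_isCyclic
    (hB : letI := intClosure_isLocalRing O F E ↥(ucg_B O E); IsUnramifiedExt O ↥(ucg_B O E)) :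
    IsCyclic D := by
  haveI := ucg_isGaloisGroup F E D
  haveI : FiniteDimensional ↥(ucg_F' F E D) E := IsGaloisGroup.finiteDimensional D _ E
  haveI : IsGalois ↥(ucg_F' F E D) E := IsGaloisGroup.isGalois D _ E
  haveI := intClosure_isLocalRing O F ↥(ucg_F' F E D) ↥(ucg_A' O F E D)
  haveI := intClosure_isDiscreteValuationRing O F ↥(ucg_F' F E D) ↥(ucg_A' O F E D)
  haveI := intClosure_isAdicComplete O F ↥(ucg_F' F E D) ↥(ucg_A' O F E D)
  haveI := intClosure_finite_residueField O F ↥(ucg_F' F E D) ↥(ucg_A' O F E D)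
  haveI := intClosure_isFractionRing O F ↥(ucg_F' F E D) ↥(ucg_A' O F E D)
  haveI := intClosure_isLocalHom O F ↥(ucg_F' F E D) ↥(ucg_A' O F E D)
  haveI := intClosure_isLocalRing O F E ↥(ucg_B O E)
  haveI := intClosure_isDiscreteValuationRing O F E ↥(ucg_B O E)
  haveI := ucg_isIntegralClosure O F E D
  haveI : IsLocalHom (algebraMap ↥(ucg_A' O F E D) ↥(ucg_B O E)) :=
    intClosure_isLocalHom ↥(ucg_A' O F E D) ↥(ucg_F' F E D) E ↥(ucg_B O E)
  have hunr : IsUnramifiedExt ↥(ucg_A' O F E D) ↥(ucg_B O E) := by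
    have hB' : Ideal.map (algebraMap O ↥(ucg_B O E)) (maximalIdeal O) =
        maximalIdeal ↥(ucg_B O E) := hB
    show Ideal.map (algebraMap ↥(ucg_A' O F E D) ↥(ucg_B O E)) (maximalIdeal ↥(ucg_A' O F E D)) =
      maximalIdeal ↥(ucg_B O E)
    apply le_antisymm
    · rw [Ideal.map_le_iff_le_comap]
      intro x hx
      rw [Ideal.mem_comap]
      exact (map_mem_nonunits_iff (algebraMap ↥(ucg_A' O F E D) ↥(ucg_B O E)) x).mpr hx
    · rw [← hB', IsScalarTower.algebraMap_eq O ↥(ucg_A' O F E D) ↥(ucg_B O E), ← Ideal.map_map]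
      apply Ideal.map_mono
      rw [Ideal.map_le_iff_le_comap]
      intro x hx
      rw [Ideal.mem_comap]
      exact (map_mem_nonunits_iff (algebraMap O ↥(ucg_A' O F E D)) x).mpr hx
  let e : D ≃* (E ≃ₐ[↥(ucg_F' F E D)] E) :=
    IsGaloisGroup.mulEquivCongr D (E ≃ₐ[↥(ucg_F' F E D)] E) ↥(ucg_F' F E D) E
  have hcyc : IsCyclic (E ≃ₐ[↥(ucg_F' F E D)] E) :=
    isCyclic_of_isUnramifiedExt ↥(ucg_A' O F E D) ↥(ucg_F' F E D) E ↥(ucg_B O E) hunr
  exact isCyclic_of_surjective e.symm e.symm.surjective

attribute [local instance] additiveDistribMulAction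

/-- **(K3), local part**: the units of the ring of integers of an unramified extension are
cohomologically trivial for ANY finite group `D` acting faithfully by `F`-automorphisms:
`Hⁿ⁺¹(D, Bˣ) = 0`. -/
theorem ucgA_subsingleton
    (hB : letI := intClosure_isLocalRing O F E ↥(ucg_B O E); IsUnramifiedExt O ↥(ucg_B O E))
    (n : ℕ) :
    letI := ucg_actB O F E D
    letI : MulDistribMulAction D (↥(ucg_B O E))ˣ := Units.mulDistribMulActionRight
    Subsingleton (groupCohomology
      (Rep.of (Representation.ofDistribMulAction ℤ D (Additive (↥(ucg_B O E))ˣ))) (n + 1)) := by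
  letI := ucg_actB O F E D
  letI : MulDistribMulAction D (↥(ucg_B O E))ˣ := Units.mulDistribMulActionRight
  obtain ⟨τ, hτ⟩ := (ucgA_isCyclic O F E D hB).exists_generator
  obtain ⟨h0, h1⟩ := ucg_tateCard_units O F E D hB hτ
  exact prodV_subsingleton_of_tateCard (Additive (↥(ucg_B O E))ˣ) hτ h0 h1 n

end

end Fermat.Agent.CFT
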