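import Fermat.Agent.CFT.Local.GaloisFamily
import Fermat.Agent.CFT.Local.UnramifiedOver

set_option autoImplicit false
set_option linter.unusedSectionVars false

/-!
# CFT stream [B] Local, layer (LB1-c) : the Brauer group `Hlc²(Gal(Ω/K), Ωˣ)` of a local field

`K` a local field, `Ω / K` Galois (possibly infinite), `𝔉` a level family of Galois type on
`Gal(Ω/K)`.  From the finite-level class formation (`IsLocalFieldNA.natCard_H2_units`,
`isAddCyclic_H2_units`) and injectivity of inflation we get, writing `Br = Hlc 𝔉 Ωˣ 2`: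

* `nonempty_level_addEquiv` : `Hⁿ(Gal(L/K), Lˣ) ≃+ Hⁿ(G ⧸ U, (Ωˣ)^U)` for `U = Gal(Ω/L)`;
* `level_two_natCard`, `level_two_isAddCyclic`, `level_two_finite`;
* `exists_HlcInfl_eq_of_nsmul_eq_zero` : if `n ∣ [L₀ : K]`, the `n`-torsion of `Br` is the image of the
  `n`-torsion of the level `L₀`;
* `natCard_brauer_torsion` : `|Br[n]| = n`;  `isAddCyclic_brauer_torsion`;
* `brauer_divisible` : `Br` is divisible (if all degrees occur cofinally);
* `isZero_Hlc_three_units` : `Hlc³(Gal(Ω/K), Ωˣ) = 0` from the vanishing of all finite-level `H³`.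
-/

namespace Fermat.Agent.CFT

open CategoryTheory groupCohomology Rep Fermat.Agent.PT

section CyclicLemmas

variable {A : Type*} [AddCommGroup A]

/-- In a finite cyclic group of order `N`, an element killed by `m` is divisible by `n` as soon as
`n * m ∣ N`. -/
theorem exists_nsmul_eq_of_isAddCyclic [IsAddCyclic A] [Finite A] {n m : ℕ} (hm : 0 < m)
    (hN : n * m ∣ Nat.card A) (y : A) (hy : m • y = 0) : ∃ z : A, n • z = y := by
  obtain ⟨g, hg⟩ := IsAddCyclic.exists_ofOrder_eq_natCard (α := A)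
  obtain ⟨g', hg'⟩ := IsAddCyclic.exists_generator (α := A)
  have htop : AddSubgroup.zmultiples g = ⊤ := by
    rw [← AddSubgroup.card_eq_iff_eq_top, Nat.card_zmultiples, hg]
  have hy' : y ∈ AddSubgroup.zmultiples g := htop ▸ AddSubgroup.mem_top y
  obtain ⟨j, rfl⟩ := AddSubgroup.mem_zmultiples_iff.1 hy'
  have h1 : ((m : ℤ) * j) • g = 0 := by
    rw [mul_smul, natCast_zsmul]; exact hy
  have h2 : (addOrderOf g : ℤ) ∣ (m : ℤ) * j := (addOrderOf_dvd_iff_zsmul_eq_zero).2 h1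
  rw [hg] at h2
  obtain ⟨t, ht⟩ := hN
  have h3 : ((n : ℤ) * (m : ℤ)) ∣ (m : ℤ) * j := by
    refine Dvd.dvd.trans ?_ h2
    rw [ht]; push_cast; exact Dvd.intro _ rfl
  have h4 : (n : ℤ) ∣ j := by
    rw [mul_comm (n : ℤ)] at h3
    exact (mul_dvd_mul_iff_left (by exact_mod_cast hm.ne')).1 h3
  obtain ⟨j', rfl⟩ := h4
  exact ⟨j' • g, by rw [mul_smul, natCast_zsmul]⟩

end CyclicLemmas

section Levels

variable {K Ω : Type} [Field K] [Field Ω] [Algebra K Ω] [IsGalois K Ω]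

/-- The finite level `Hⁿ(G ⧸ U, (Ωˣ)^U)` for `U = Gal(Ω/L)` is `Hⁿ(Gal(L/K), Lˣ)`. -/
theorem nonempty_level_addEquiv (L : IntermediateField K Ω) [FiniteDimensional K L] [Normal K L]
    (U : Subgroup (Ω ≃ₐ[K] Ω)) [U.Normal] (hU : L.fixingSubgroup = U) (n : ℕ) :
    Nonempty (groupCohomology (Rep.ofAlgebraAutOnUnits K L) n ≃+
      groupCohomology ((Rep.ofAlgebraAutOnUnits K Ω).quotientToInvariants U) n) := by
  have e : levelKer K L Ω = U := (levelKer_eq_fixingSubgroup L).trans hU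
  subst e
  exact ⟨AddEquiv.ofBijective (levelComparison K L Ω n).hom.toAddMonoidHom
    (levelComparison_bijective K L Ω n)⟩

variable (hK : IsLocalFieldNA K)
include hK

theorem level_two_natCard (L : IntermediateField K Ω) [FiniteDimensional K L] [Normal K L]
    (U : Subgroup (Ω ≃ₐ[K] Ω)) [U.Normal] (hU : L.fixingSubgroup = U) :
    Nat.card (groupCohomology ((Rep.ofAlgebraAutOnUnits K Ω).quotientToInvariants U) 2) =
      Module.finrank K L := by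
  obtain ⟨e⟩ := nonempty_level_addEquiv L U hU 2
  have : IsGalois K L := isGalois_of_normal_intermediateField L
  rw [← Nat.card_congr e.toEquiv]
  exact hK.natCard_H2_units (L := L)

theorem level_two_isAddCyclic (L : IntermediateField K Ω) [FiniteDimensional K L] [Normal K L]
    (U : Subgroup (Ω ≃ₐ[K] Ω)) [U.Normal] (hU : L.fixingSubgroup = U) :
    IsAddCyclic (groupCohomology ((Rep.ofAlgebraAutOnUnits K Ω).quotientToInvariants U) 2) := by
  obtain ⟨e⟩ := nonempty_level_addEquiv L U hU 2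
  have : IsGalois K L := isGalois_of_normal_intermediateField L
  have := hK.isAddCyclic_H2_units (L := L)
  exact isAddCyclic_of_surjective e.toAddMonoidHom e.surjective

theorem level_two_finite (L : IntermediateField K Ω) [FiniteDimensional K L] [Normal K L]
    (U : Subgroup (Ω ≃ₐ[K] Ω)) [U.Normal] (hU : L.fixingSubgroup = U) :
    Finite (groupCohomology ((Rep.ofAlgebraAutOnUnits K Ω).quotientToInvariants U) 2) := by
  refine Nat.finite_of_card_ne_zero ?_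
  rw [level_two_natCard hK L U hU]
  exact Module.finrank_pos.ne'

end Levels

section Brauer

variable {K Ω : Type} [Field K] [Field Ω] [Algebra K Ω] [IsGalois K Ω]
variable (hK : IsLocalFieldNA K) (𝔉 : LevelFamily (Ω ≃ₐ[K] Ω)) (h𝔉 : IsGaloisFamily K Ω 𝔉)
include hK h𝔉

/-- If `n ∣ [L₀ : K]` then every `n`-torsion class of `Br` comes from an `n`-torsion class of the
level `L₀`. -/
theorem exists_HlcInfl_eq_of_nsmul_eq_zero (U₀ : ↥𝔉.sets) (L₀ : IntermediateField K Ω)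
    [FiniteDimensional K L₀] [Normal K L₀] (hL₀ : L₀.fixingSubgroup = U₀) (n : ℕ)
    (hn : n ∣ Module.finrank K L₀) (x : Hlc 𝔉 (Rep.ofAlgebraAutOnUnits K Ω) 2) (hx : n • x = 0) :
    ∃ y : groupCohomology ((Rep.ofAlgebraAutOnUnits K Ω).quotientToInvariants
        (U₀ : Subgroup (Ω ≃ₐ[K] Ω))) 2,
      n • y = 0 ∧ (HlcInfl 𝔉 (Rep.ofAlgebraAutOnUnits K Ω) U₀ 2).hom y = x := by
  obtain ⟨U, y₁, rfl⟩ := exists_HlcInfl_eq 𝔉 _ 2 x
  obtain ⟨V, hV, hVle⟩ := 𝔉.directed U U.2 U₀ U₀.2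
  have hVU : V ≤ (U : Subgroup (Ω ≃ₐ[K] Ω)) := hVle.trans inf_le_left
  have hVU₀ : V ≤ (U₀ : Subgroup (Ω ≃ₐ[K] Ω)) := hVle.trans inf_le_right
  obtain ⟨L', hfd', hn', hL'⟩ := h𝔉 V hV
  have hVn : V.Normal := 𝔉.normal V hV
  let V' : ↥𝔉.sets := ⟨V, hV⟩
  have hle : L₀ ≤ L' := le_of_fixingSubgroup_le (by rw [hL₀, hL']; exact hVU₀)
  -- the class at level `V`
  set y₂ := (inflUV (Rep.ofAlgebraAutOnUnits K Ω) (U := (U : Subgroup (Ω ≃ₐ[K] Ω))) (V := V)
    hVU 2).hom y₁ with hy₂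
  have hy₂x : (HlcInfl 𝔉 (Rep.ofAlgebraAutOnUnits K Ω) V' 2).hom y₂ =
      (HlcInfl 𝔉 (Rep.ofAlgebraAutOnUnits K Ω) U 2).hom y₁ :=
    HlcInfl_inflUV_apply 𝔉 _ (U := U) (V := V') hVU 2 y₁
  have hny₂ : n • y₂ = 0 := by
    apply HlcInfl_two_injective 𝔉 h𝔉 V'
    rw [map_nsmul, hy₂x, hx, map_zero]
  -- count the `n`-torsion at the two levels
  have hfin₀ := level_two_finite hK L₀ U₀ hL₀
  have hfinV := level_two_finite hK L' V hL'
  have hcyc₀ := level_two_isAddCyclic hK L₀ U₀ hL₀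
  have hcycV := level_two_isAddCyclic hK L' V hL'
  let f : groupCohomology ((Rep.ofAlgebraAutOnUnits K Ω).quotientToInvariants
        (U₀ : Subgroup (Ω ≃ₐ[K] Ω))) 2 →+
      groupCohomology ((Rep.ofAlgebraAutOnUnits K Ω).quotientToInvariants V) 2 :=
    (inflUV (Rep.ofAlgebraAutOnUnits K Ω) hVU₀ 2).hom.toAddMonoidHom
  have hf : Function.Injective f := inflUV_two_injective_of_eq L₀ L' hle U₀ V hL₀ hL' hVU₀
  have hc₀ : Nat.card (nsmulAddMonoidHom n : groupCohomology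
      ((Rep.ofAlgebraAutOnUnits K Ω).quotientToInvariants (U₀ : Subgroup (Ω ≃ₐ[K] Ω))) 2 →+ _).ker
      = n := by
    rw [IsAddCyclic.card_nsmulAddMonoidHom_ker, level_two_natCard hK L₀ U₀ hL₀]
    exact Nat.gcd_eq_right hn
  have hcV : Nat.card (nsmulAddMonoidHom n : groupCohomology
      ((Rep.ofAlgebraAutOnUnits K Ω).quotientToInvariants V) 2 →+ _).ker = n := by
    rw [IsAddCyclic.card_nsmulAddMonoidHom_ker, level_two_natCard hK L' V hL']
    exact Nat.gcd_eq_right (hn.trans (IntermediateField.finrank_dvd_of_le_right hle))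
  have hmap : (nsmulAddMonoidHom n : groupCohomology
      ((Rep.ofAlgebraAutOnUnits K Ω).quotientToInvariants (U₀ : Subgroup (Ω ≃ₐ[K] Ω))) 2 →+ _).ker.map f
      = (nsmulAddMonoidHom n : groupCohomology
      ((Rep.ofAlgebraAutOnUnits K Ω).quotientToInvariants V) 2 →+ _).ker := by
    refine AddSubgroup.eq_of_le_of_card_ge ?_ ?_
    · rintro _ ⟨z, hz, rfl⟩
      rw [SetLike.mem_coe, AddMonoidHom.mem_ker, nsmulAddMonoidHom_apply] at hz
      rw [AddMonoidHom.mem_ker, nsmulAddMonoidHom_apply, ← map_nsmul, hz, map_zero]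
    · rw [AddSubgroup.card_map_of_injective hf, hc₀, hcV]
  have hy₂mem : y₂ ∈ (nsmulAddMonoidHom n : groupCohomology
      ((Rep.ofAlgebraAutOnUnits K Ω).quotientToInvariants V) 2 →+ _).ker := by
    rw [AddMonoidHom.mem_ker, nsmulAddMonoidHom_apply]; exact hny₂
  rw [← hmap] at hy₂mem
  obtain ⟨y₀, hy₀, hy₀₂⟩ := hy₂mem
  rw [SetLike.mem_coe, AddMonoidHom.mem_ker, nsmulAddMonoidHom_apply] at hy₀
  refine ⟨y₀, hy₀, ?_⟩
  rw [← hy₂x, ← hy₀₂]
  exact (HlcInfl_inflUV_apply 𝔉 _ (U := U₀) (V := V') hVU₀ 2 y₀).symm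

omit hK in
/-- `Hlcᵐ(Gal(Ω/K), Ωˣ) = 0` as soon as all finite levels `Hᵐ(Gal(L/K), Lˣ)` vanish. -/
theorem isZero_Hlc_units_of_forall_level (m : ℕ)
    (h : ∀ L : IntermediateField K Ω, FiniteDimensional K L → Normal K L →
      Limits.IsZero (groupCohomology (Rep.ofAlgebraAutOnUnits K L) m)) :
    Limits.IsZero (Hlc 𝔉 (Rep.ofAlgebraAutOnUnits K Ω) m) := by
  refine isZero_Hlc_of_forall 𝔉 _ m ?_
  rintro ⟨U, hU⟩
  obtain ⟨L, hfd, hn, hL⟩ := h𝔉 U hU
  have : U.Normal := 𝔉.normal U hU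
  obtain ⟨e⟩ := nonempty_level_addEquiv L U hL m
  have h0 := (ModuleCat.isZero_iff_subsingleton).1 (h L hfd hn)
  rw [ModuleCat.isZero_iff_subsingleton]
  exact e.symm.toEquiv.subsingleton

/-- The family contains a level of degree divisible by `n`. -/
def FamilyHasDegree (K Ω : Type) [Field K] [Field Ω] [Algebra K Ω]
    (𝔉 : LevelFamily (Ω ≃ₐ[K] Ω)) (n : ℕ) : Prop :=
  ∃ L : IntermediateField K Ω, FiniteDimensional K L ∧ Normal K L ∧
    L.fixingSubgroup ∈ 𝔉.sets ∧ n ∣ Module.finrank K L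

/-- The `n`-torsion of `Br` is the image of the `n`-torsion of a level of degree divisible by `n`. -/
theorem map_HlcInfl_torsion_eq (U₀ : ↥𝔉.sets) (L₀ : IntermediateField K Ω)
    [FiniteDimensional K L₀] [Normal K L₀] (hL₀ : L₀.fixingSubgroup = U₀) (n : ℕ)
    (hn : n ∣ Module.finrank K L₀) :
    (nsmulAddMonoidHom n : groupCohomology ((Rep.ofAlgebraAutOnUnits K Ω).quotientToInvariants
        (U₀ : Subgroup (Ω ≃ₐ[K] Ω))) 2 →+ _).ker.map
      (HlcInfl 𝔉 (Rep.ofAlgebraAutOnUnits K Ω) U₀ 2).hom.toAddMonoidHom =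
    (nsmulAddMonoidHom n : Hlc 𝔉 (Rep.ofAlgebraAutOnUnits K Ω) 2 →+ _).ker := by
  apply le_antisymm
  · rintro _ ⟨z, hz, rfl⟩
    rw [SetLike.mem_coe, AddMonoidHom.mem_ker, nsmulAddMonoidHom_apply] at hz
    rw [AddMonoidHom.mem_ker, nsmulAddMonoidHom_apply, ← map_nsmul, hz, map_zero]
  · intro x hx
    rw [AddMonoidHom.mem_ker, nsmulAddMonoidHom_apply] at hx
    obtain ⟨y, hy, rfl⟩ := exists_HlcInfl_eq_of_nsmul_eq_zero hK 𝔉 h𝔉 U₀ L₀ hL₀ n hn x hx
    exact ⟨y, by rw [SetLike.mem_coe, AddMonoidHom.mem_ker, nsmulAddMonoidHom_apply]; exact hy, rfl⟩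

/-- **`|Br(K)[n]| = n`.** -/
theorem natCard_brauer_torsion (n : ℕ) (hdeg : FamilyHasDegree K Ω 𝔉 n) :
    Nat.card (nsmulAddMonoidHom n : Hlc 𝔉 (Rep.ofAlgebraAutOnUnits K Ω) 2 →+ _).ker = n := by
  obtain ⟨L₀, hfd, hnor, hmem, hn⟩ := hdeg
  rw [← map_HlcInfl_torsion_eq hK 𝔉 h𝔉 ⟨_, hmem⟩ L₀ rfl n hn,
    AddSubgroup.card_map_of_injective (HlcInfl_two_injective 𝔉 h𝔉 ⟨_, hmem⟩)]
  have := 𝔉.normal _ hmem
  have hfin₀ := level_two_finite hK L₀ _ rfl
  have hcyc₀ := level_two_isAddCyclic hK L₀ _ rfl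
  rw [IsAddCyclic.card_nsmulAddMonoidHom_ker, level_two_natCard hK L₀ _ rfl]
  exact Nat.gcd_eq_right hn

/-- **`Br(K)[n]` is cyclic.** -/
theorem isAddCyclic_brauer_torsion (n : ℕ) (hdeg : FamilyHasDegree K Ω 𝔉 n) :
    IsAddCyclic (nsmulAddMonoidHom n : Hlc 𝔉 (Rep.ofAlgebraAutOnUnits K Ω) 2 →+ _).ker := by
  obtain ⟨L₀, hfd, hnor, hmem, hn⟩ := hdeg
  rw [← map_HlcInfl_torsion_eq hK 𝔉 h𝔉 ⟨_, hmem⟩ L₀ rfl n hn]
  have := 𝔉.normal _ hmem
  have hcyc₀ := level_two_isAddCyclic hK L₀ _ rfl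
  exact isAddCyclic_of_surjective _
    ((HlcInfl 𝔉 (Rep.ofAlgebraAutOnUnits K Ω) ⟨_, hmem⟩ 2).hom.toAddMonoidHom.addSubgroupMap_surjective
      _)

/-- **`Br(K)` is divisible.** -/
theorem brauer_divisible (hdeg : ∀ m : ℕ, 0 < m → FamilyHasDegree K Ω 𝔉 m) (n : ℕ) (hn : 0 < n)
    (x : Hlc 𝔉 (Rep.ofAlgebraAutOnUnits K Ω) 2) : ∃ z : Hlc 𝔉 (Rep.ofAlgebraAutOnUnits K Ω) 2,
      n • z = x := by
  obtain ⟨U, y₁, rfl⟩ := exists_HlcInfl_eq 𝔉 _ 2 x
  obtain ⟨L, hfd, hnor, hL⟩ := h𝔉 U U.2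
  have hNpos : 0 < Module.finrank K L := Module.finrank_pos
  obtain ⟨L₁, hfd₁, hnor₁, hmem₁, hdvd₁⟩ := hdeg (n * Module.finrank K L) (Nat.mul_pos hn hNpos)
  obtain ⟨V, hV, hVle⟩ := 𝔉.directed U U.2 _ hmem₁
  have hVU : V ≤ (U : Subgroup (Ω ≃ₐ[K] Ω)) := hVle.trans inf_le_left
  have hVU₁ : V ≤ L₁.fixingSubgroup := hVle.trans inf_le_right
  obtain ⟨L', hfd', hn', hL'⟩ := h𝔉 V hV
  have hVn : V.Normal := 𝔉.normal V hV
  let V' : ↥𝔉.sets := ⟨V, hV⟩
  have hle : L₁ ≤ L' := le_of_fixingSubgroup_le (by rw [hL']; exact hVU₁)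
  have hfinU := level_two_finite hK L U hL
  have hfinV := level_two_finite hK L' V hL'
  have hcycV := level_two_isAddCyclic hK L' V hL'
  have hy₁ : Module.finrank K L • y₁ = 0 := by
    rw [← level_two_natCard hK L U hL]; exact card_nsmul_eq_zero'
  set y₂ := (inflUV (Rep.ofAlgebraAutOnUnits K Ω) (U := (U : Subgroup (Ω ≃ₐ[K] Ω))) (V := V)
    hVU 2).hom y₁ with hy₂
  have hy₂0 : Module.finrank K L • y₂ = 0 := by rw [hy₂, ← map_nsmul, hy₁, map_zero]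
  have hcard : n * Module.finrank K L ∣ Nat.card (groupCohomology
      ((Rep.ofAlgebraAutOnUnits K Ω).quotientToInvariants V) 2) := by
    rw [level_two_natCard hK L' V hL']
    exact hdvd₁.trans (IntermediateField.finrank_dvd_of_le_right hle)
  obtain ⟨z₂, hz₂⟩ := exists_nsmul_eq_of_isAddCyclic hNpos hcard y₂ hy₂0
  refine ⟨(HlcInfl 𝔉 (Rep.ofAlgebraAutOnUnits K Ω) V' 2).hom z₂, ?_⟩
  rw [← map_nsmul, hz₂]
  exact HlcInfl_inflUV_apply 𝔉 _ (U := U) (V := V') hVU 2 y₁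

end Brauer

end Fermat.Agent.CFT
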