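import Fermat.Agent.CFT.Local.CycloIndex
import Fermat.Agent.CFT.Local.OpenSubgroup
import Fermat.Agent.CFT.Local.KummerH1Count
import Fermat.Agent.CFT.PT.SmoothCor

/-!
# CFT, S55 local pool, (LD)(b): finiteness of `Hlcⁿ(K, 𝔽_p)`, `n ≤ 2`

`Ω / K` Galois, `Ω` algebraically closed, `p` prime and nonzero in `Ω`, `G = Gal(Ω/K)`.

* `cdFin_finite_of_res` : for an open subgroup `H ≤ G` of index prime to `p` and `M : Rep 𝔽_p G`
  smooth, finiteness of `Hlcⁿ(H, M)` implies finiteness of `Hlcⁿ(G, M)` (restriction is injective);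
* `cdFin_finite_trivial_of_forall` : finiteness of `Hlcⁿ(K, 𝔽_p)` follows from finiteness of
  `Hlcⁿ(K', 𝔽_p)` for the finite extensions `K' / K` containing `μ_p`;
* `cdFin_finite_zero`, `cdFin_finite_one_padic` (`K / ℚ_[q]` finite), `cdFin_finite_two` (from the
  hypothesis `dim Hlc²(K', 𝔽_p) = 1` for `K' ⊇ μ_p`).
-/

set_option autoImplicit false
set_option linter.style.haveILetI false

namespace Fermat.Agent.CFT

open CategoryTheory Rep Fermat.Agent.PT

section Abstract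

variable {G : Type} [Group G] {p : ℕ} [Fact p.Prime]

/-- restriction to an open subgroup of index prime to `p` is injective on `Hlc` of an
`𝔽_p`-representation. -/
theorem cdFin_HlcRes_injective (𝔉 : LevelFamily G) (hfin : 𝔉.FiniteIndex) (H : Subgroup G)
    (hH : IsOpenFor 𝔉 H) (hcop : Nat.Coprime p H.index) (M : Rep.{0} (ZMod p) G)
    (hM : IsSmooth 𝔉 M) (n : ℕ) : Function.Injective (HlcRes 𝔉 H M n).hom := by
  haveI : H.FiniteIndex := by
    obtain ⟨U, hU, hUH⟩ := hH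
    haveI := hfin U hU
    exact Subgroup.finiteIndex_of_le hUH
  rw [injective_iff_map_eq_zero]
  intro x hx
  refine eq_zero_of_HlcRes_eq_zero_of_coprime 𝔉 H M n
    (HlcShapiro_bijective hfin hH n _ (hM.res_subtype H)).1 hcop x ?_ hx
  rw [← Nat.cast_smul_eq_nsmul (ZMod p), ZMod.natCast_self, zero_smul]

theorem cdFin_finite_of_res (𝔉 : LevelFamily G) (hfin : 𝔉.FiniteIndex) (H : Subgroup G)
    (hH : IsOpenFor 𝔉 H) (hcop : Nat.Coprime p H.index) (M : Rep.{0} (ZMod p) G)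
    (hM : IsSmooth 𝔉 M) (n : ℕ)
    (h : Module.Finite (ZMod p) (Hlc (𝔉.restrict H) (res H.subtype M) n)) :
    Module.Finite (ZMod p) (Hlc 𝔉 M n) :=
  Module.Finite.of_injective (HlcRes 𝔉 H M n).hom
    (cdFin_HlcRes_injective 𝔉 hfin H hH hcop M hM n)

theorem cdFin_isSmooth_trivial (𝔉 : LevelFamily G) (k V : Type) [CommRing k] [AddCommGroup V]
    [Module k V] : IsSmooth 𝔉 (Rep.trivial k G V) := by
  intro a
  obtain ⟨U, hU⟩ := 𝔉.nonempty
  exact ⟨U, hU, fun _ _ => rfl⟩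

end Abstract

section Galois

variable (K Ω : Type) [Field K] [Field Ω] [Algebra K Ω] [IsGalois K Ω] [IsAlgClosed Ω]
  (p : ℕ) [Fact p.Prime] (hpΩ : (p : Ω) ≠ 0)

attribute [local instance] muMulDistribMulAction

include hpΩ in
/-- finiteness of `Hlcⁿ(K, 𝔽_p)` from finiteness for the finite extensions containing `μ_p`. -/
theorem cdFin_finite_trivial_of_forall (n : ℕ)
    (h : ∀ K' : IntermediateField K Ω, FiniteDimensional K ↥K' →
      (∀ (g : Ω ≃ₐ[K'] Ω) (z : rootsOfUnity p Ω), g • z = z) →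
      Module.Finite (ZMod p)
        (Hlc (famGal K' Ω) (Rep.trivial (ZMod p) (Ω ≃ₐ[K'] Ω) (ZMod p)) n)) :
    Module.Finite (ZMod p)
      (Hlc (famGal K Ω) (Rep.trivial (ZMod p) (Ω ≃ₐ[K] Ω) (ZMod p)) n) := by
  haveI : NeZero p := ⟨(Fact.out : p.Prime).ne_zero⟩
  have hopen := cycIdx_isOpenFor K Ω p
  have hcop := cycIdx_coprime K Ω p hpΩ
  obtain ⟨K', hfd, hK', -⟩ := openSub_exists_of_isOpenFor hopen
  rw [← hK'] at hopen hcop
  haveI := hfd
  have hfix : ∀ (g : Ω ≃ₐ[K'] Ω) (z : rootsOfUnity p Ω), g • z = z := by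
    intro g z
    have hg : galIncl K K' Ω g ∈ cycIdxSubgroup K Ω p := by
      rw [← hK']
      exact (openSub_equiv K' g).2
    have h1 := (mem_cycIdxSubgroup_iff K Ω p _).1 hg z
    apply Subtype.ext
    apply Units.ext
    exact congrArg (fun w : rootsOfUnity p Ω => ((w : Ωˣ) : Ω)) h1
  have hfinK' := h K' hfd hfix
  have h2 : Module.Finite (ZMod p) (Hlc ((famGal K Ω).restrict K'.fixingSubgroup)
      (Rep.trivial (ZMod p) ↥K'.fixingSubgroup (ZMod p)) n) :=
    Module.Finite.equiv (openSub_HlcEquiv_trivial (k := ZMod p) K' (ZMod p) n).symm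
  exact cdFin_finite_of_res (famGal K Ω) famGal_finiteIndex K'.fixingSubgroup hopen hcop
    (Rep.trivial (ZMod p) (Ω ≃ₐ[K] Ω) (ZMod p)) (cdFin_isSmooth_trivial _ _ _) n h2

include hpΩ in
/-- vanishing of `Hlcⁿ(K, 𝔽_p)` from vanishing for the finite extensions containing `μ_p`
(the same restriction argument; this is the reduction step of (LD)(a)). -/
theorem cdFin_subsingleton_trivial_of_forall (n : ℕ)
    (h : ∀ K' : IntermediateField K Ω, FiniteDimensional K ↥K' →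
      (∀ (g : Ω ≃ₐ[K'] Ω) (z : rootsOfUnity p Ω), g • z = z) →
      Subsingleton (Hlc (famGal K' Ω) (Rep.trivial (ZMod p) (Ω ≃ₐ[K'] Ω) (ZMod p)) n)) :
    Subsingleton (Hlc (famGal K Ω) (Rep.trivial (ZMod p) (Ω ≃ₐ[K] Ω) (ZMod p)) n) := by
  haveI : NeZero p := ⟨(Fact.out : p.Prime).ne_zero⟩
  have hopen := cycIdx_isOpenFor K Ω p
  have hcop := cycIdx_coprime K Ω p hpΩ
  obtain ⟨K', hfd, hK', -⟩ := openSub_exists_of_isOpenFor hopen
  rw [← hK'] at hopen hcop
  haveI := hfd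
  have hfix : ∀ (g : Ω ≃ₐ[K'] Ω) (z : rootsOfUnity p Ω), g • z = z := by
    intro g z
    have hg : galIncl K K' Ω g ∈ cycIdxSubgroup K Ω p := by
      rw [← hK']
      exact (openSub_equiv K' g).2
    have h1 := (mem_cycIdxSubgroup_iff K Ω p _).1 hg z
    apply Subtype.ext
    apply Units.ext
    exact congrArg (fun w : rootsOfUnity p Ω => ((w : Ωˣ) : Ω)) h1
  haveI := h K' hfd hfix
  haveI h2 : Subsingleton (Hlc ((famGal K Ω).restrict K'.fixingSubgroup)
      (Rep.trivial (ZMod p) ↥K'.fixingSubgroup (ZMod p)) n) :=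
    (openSub_HlcEquiv_trivial (k := ZMod p) K' (ZMod p) n).toEquiv.subsingleton
  have hinj := cdFin_HlcRes_injective (famGal K Ω) famGal_finiteIndex K'.fixingSubgroup hopen hcop
    (Rep.trivial (ZMod p) (Ω ≃ₐ[K] Ω) (ZMod p)) (cdFin_isSmooth_trivial _ _ _) n
  exact ⟨fun x y => hinj (h2.elim _ _)⟩

include hpΩ in
/-- **(LD)(b), `n = 2`**, from `dim Hlc²(K', 𝔽_p) = 1` for the finite extensions `K' ⊇ μ_p`
(= (LA)(d)). -/
theorem cdFin_finite_two
    (h2 : ∀ K' : IntermediateField K Ω, FiniteDimensional K ↥K' →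
      (∀ (g : Ω ≃ₐ[K'] Ω) (z : rootsOfUnity p Ω), g • z = z) →
      Module.finrank (ZMod p)
        (Hlc (famGal K' Ω) (Rep.trivial (ZMod p) (Ω ≃ₐ[K'] Ω) (ZMod p)) 2) = 1) :
    Module.Finite (ZMod p)
      (Hlc (famGal K Ω) (Rep.trivial (ZMod p) (Ω ≃ₐ[K] Ω) (ZMod p)) 2) := by
  refine cdFin_finite_trivial_of_forall K Ω p hpΩ 2 ?_
  intro K' hfd hfix
  apply Module.finite_of_finrank_pos
  rw [h2 K' hfd hfix]
  exact Nat.one_pos

end Galois

section Zero

/-- `Hlc⁰` of a finite-dimensional representation is finite-dimensional. -/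
theorem cdFin_finite_zero {G : Type} [Group G] {k : Type} [Field k] (𝔉 : LevelFamily G)
    (M : Rep.{0} k G) [Module.Finite k M] : Module.Finite k (Hlc 𝔉 M 0) :=
  Module.Finite.equiv (Hlc0Equiv 𝔉 M).symm

end Zero

section Padic

variable (q p : ℕ) [Fact q.Prime] [Fact p.Prime] (K Ω : Type) [Field K] [Field Ω]
  [Algebra ℚ_[q] K] [FiniteDimensional ℚ_[q] K] [Algebra K Ω] [IsGalois K Ω] [IsAlgClosed Ω]

attribute [local instance] muMulDistribMulAction

include q in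
/-- **(LD)(b), `n = 1`**: `Hlc¹(K, 𝔽_p)` is finite for `K / ℚ_[q]` finite. -/
theorem cdFin_finite_one_padic :
    Module.Finite (ZMod p)
      (Hlc (famGal K Ω) (Rep.trivial (ZMod p) (Ω ≃ₐ[K] Ω) (ZMod p)) 1) := by
  refine cdFin_finite_trivial_of_forall K Ω p (padic_natCast_ne_zero q p K Ω) 1 ?_
  intro K' hfd hfix
  haveI := hfd
  letI : Algebra ℚ_[q] ↥K' := ((algebraMap K ↥K').comp (algebraMap ℚ_[q] K)).toAlgebra
  haveI : IsScalarTower ℚ_[q] K ↥K' := IsScalarTower.of_algebraMap_eq (fun _ => rfl)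
  haveI : FiniteDimensional ℚ_[q] ↥K' := FiniteDimensional.trans ℚ_[q] K ↥K'
  apply Module.finite_of_finrank_pos
  rw [finrank_Hlc_one_trivial_padic q p ↥K' Ω hfix]
  omega

end Padic

end Fermat.Agent.CFT
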