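import Mathlib

/-!
# Galois theory of a compositum `E = L · K'` (S55 local pool)

Fields `K ⊆ L ⊆ E`, `K ⊆ K' ⊆ E` with `E = L(K')`.  If `L/K` and `K'/K` are Galois then `E/K` and
`E/L` are Galois, the restriction `Gal(E/L) → Gal(K'/K)` is injective, and `[E : L] ∣ [K' : K]`.
-/

set_option autoImplicit false
set_option linter.style.haveILetI false

namespace Fermat.Agent.CFT

section

variable {K L K' E : Type*} [Field K] [Field L] [Field K'] [Field E] [Algebra K L] [Algebra K K']
  [Algebra K E] [Algebra L E] [Algebra K' E] [IsScalarTower K L E] [IsScalarTower K K' E]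

/-- `E = L(K')` is the compositum of the images of `L` and `K'` as intermediate fields of `E/K`. -/
theorem compGal_sup_eq_top
    (h : IntermediateField.adjoin L (Set.range (algebraMap K' E)) = ⊤) :
    (IsScalarTower.toAlgHom K L E).fieldRange ⊔ (IsScalarTower.toAlgHom K K' E).fieldRange = ⊤ := by
  set F1 := (IsScalarTower.toAlgHom K L E).fieldRange
  set F2 := (IsScalarTower.toAlgHom K K' E).fieldRange
  rw [eq_top_iff]
  intro x _
  let M : IntermediateField L E :=
    { (F1 ⊔ F2).toSubfield with
      algebraMap_mem' := fun l => (le_sup_left : F1 ≤ F1 ⊔ F2) ⟨l, rfl⟩ }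
  have hle : IntermediateField.adjoin L (Set.range (algebraMap K' E)) ≤ M := by
    rw [IntermediateField.adjoin_le_iff]
    rintro _ ⟨y, rfl⟩
    exact (le_sup_right : F2 ≤ F1 ⊔ F2) ⟨y, rfl⟩
  have hx : x ∈ M := hle (h ▸ IntermediateField.mem_top)
  exact hx

/-- the compositum of two Galois extensions is Galois. -/
theorem compGal_isGalois [IsGalois K L] [IsGalois K K']
    (h : IntermediateField.adjoin L (Set.range (algebraMap K' E)) = ⊤) : IsGalois K E := by
  set F1 := (IsScalarTower.toAlgHom K L E).fieldRange
  set F2 := (IsScalarTower.toAlgHom K K' E).fieldRange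
  haveI : IsGalois K F1 :=
    IsGalois.of_algEquiv (AlgHom.equivFieldRange (IsScalarTower.toAlgHom K L E))
  haveI : IsGalois K F2 :=
    IsGalois.of_algEquiv (AlgHom.equivFieldRange (IsScalarTower.toAlgHom K K' E))
  haveI : IsGalois K ↥(F1 ⊔ F2) := inferInstance
  have htop : F1 ⊔ F2 = ⊤ := compGal_sup_eq_top h
  haveI : IsGalois K ↥(⊤ : IntermediateField K E) := htop ▸ (inferInstance : IsGalois K ↥(F1 ⊔ F2))
  exact IsGalois.of_algEquiv (IntermediateField.topEquiv (F := K) (E := E))

/-- `E/L` is Galois. -/
theorem compGal_isGalois_top [IsGalois K L] [IsGalois K K']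
    (h : IntermediateField.adjoin L (Set.range (algebraMap K' E)) = ⊤) : IsGalois L E := by
  haveI := compGal_isGalois (K := K) h
  exact IsGalois.tower_top_of_isGalois K L E

/-- finite-dimensionality of the compositum. -/
theorem compGal_finiteDimensional [FiniteDimensional K L] [FiniteDimensional K K']
    (h : IntermediateField.adjoin L (Set.range (algebraMap K' E)) = ⊤) :
    FiniteDimensional K E := by
  set F1 := (IsScalarTower.toAlgHom K L E).fieldRange
  set F2 := (IsScalarTower.toAlgHom K K' E).fieldRange
  haveI : FiniteDimensional K F1 :=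
    LinearEquiv.finiteDimensional
      (AlgHom.equivFieldRange (IsScalarTower.toAlgHom K L E)).toLinearEquiv
  haveI : FiniteDimensional K F2 :=
    LinearEquiv.finiteDimensional
      (AlgHom.equivFieldRange (IsScalarTower.toAlgHom K K' E)).toLinearEquiv
  haveI : FiniteDimensional K ↥(F1 ⊔ F2) := IntermediateField.finiteDimensional_sup F1 F2
  have htop : F1 ⊔ F2 = ⊤ := compGal_sup_eq_top h
  haveI : FiniteDimensional K ↥(⊤ : IntermediateField K E) :=
    htop ▸ (inferInstance : FiniteDimensional K ↥(F1 ⊔ F2))
  exact LinearEquiv.finiteDimensional (IntermediateField.topEquiv (F := K) (E := E)).toLinearEquiv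

/-- The restriction `Gal(E/L) → Gal(E/K) → Gal(K'/K)`. -/
noncomputable def compGalRestrict [Normal K K'] : (E ≃ₐ[L] E) →* (K' ≃ₐ[K] K') :=
  (AlgEquiv.restrictNormalHom K').comp (AlgEquiv.restrictScalarsHom K)

theorem compGalRestrict_commutes [Normal K K'] (σ : E ≃ₐ[L] E) (y : K') :
    algebraMap K' E (compGalRestrict (K := K) (L := L) (K' := K') (E := E) σ y) =
      σ (algebraMap K' E y) :=
  AlgEquiv.restrictNormal_commutes (σ.restrictScalars K) K' y

/-- the restriction `Gal(E/L) → Gal(K'/K)` is injective when `E = L(K')`. -/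
theorem compGalRestrict_injective [Normal K K']
    (h : IntermediateField.adjoin L (Set.range (algebraMap K' E)) = ⊤) :
    Function.Injective (compGalRestrict (K := K) (L := L) (K' := K') (E := E)) := by
  rw [injective_iff_map_eq_one]
  intro σ hσ
  have hfix : ∀ y : K', σ (algebraMap K' E y) = algebraMap K' E y := by
    intro y
    rw [← compGalRestrict_commutes (K := K), hσ]
    rfl
  ext x
  have hx : x ∈ IntermediateField.adjoin L (Set.range (algebraMap K' E)) :=
    h ▸ IntermediateField.mem_top
  show σ x = x
  induction hx using IntermediateField.adjoin_induction with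
  | mem y hy =>
    obtain ⟨z, rfl⟩ := hy
    exact hfix z
  | algebraMap y => exact σ.commutes y
  | add y z _ _ hy hz => rw [map_add, hy, hz]
  | inv y _ hy => rw [map_inv₀, hy]
  | mul y z _ _ hy hz => rw [map_mul, hy, hz]

/-- `[E : L]` divides `[K' : K]` when `E = L(K')` and `K'/K`, `L/K` are finite Galois. -/
theorem compGal_finrank_dvd [IsGalois K L] [IsGalois K K'] [FiniteDimensional K L]
    [FiniteDimensional K K']
    (h : IntermediateField.adjoin L (Set.range (algebraMap K' E)) = ⊤) :
    Module.finrank L E ∣ Module.finrank K K' := by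
  haveI := compGal_isGalois_top (K := K) h
  haveI : FiniteDimensional K E := compGal_finiteDimensional h
  haveI : FiniteDimensional L E := FiniteDimensional.right K L E
  rw [← IsGalois.card_aut_eq_finrank L E, ← IsGalois.card_aut_eq_finrank K K']
  exact Subgroup.card_dvd_of_injective _ (compGalRestrict_injective (K := K) h)

end

end Fermat.Agent.CFT
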