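import Fermat.Agent.CFT.Local.CyclicCocycle

set_option autoImplicit false
set_option linter.unusedSectionVars false

/-!
# CFT stream [B] Local, (LH1) : the cochain identity `χ ∪ δ(a) = cyclic class of a`

`G` a group acting on a commutative group `A` (multiplicatively), `π : G →* Q` a homomorphism to
a finite cyclic group `Q = ⟨σ⟩` of order `N`, `n g := cycIdx σ (π g)` (so `g ↦ (n g : ZMod N)` is
the character `χ` of `G` with `χ (σ-lift) = 1`), `α : A` with `a := α ^ N` fixed by `G`,
`b g := g • α / α` the Kummer cocycle of `a`.  Then, as 2-cochains `G × G → A`,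

* `(χ ∪ b) (g, h) = (g • b h) ^ n g` differs from the inflation of the cyclic cocycle
  `(g, h) ↦ a ^ ((n g + n h) / N)` by the coboundary of `c g := (g • α) ^ n g`
  (`cup_kummer_mul_eq`);
* `(b ∪ χ) (g, h) = b g ^ n h` times the cyclic cocycle is the coboundary of `c' g := α ^ n g`
  (`kummer_cup_mul_eq`).

So `χ ∪ δ_Kummer(a) = inf [a]_σ` and `δ_Kummer(a) ∪ χ = - inf [a]_σ` in `H²(G, A)`.
-/

namespace Fermat.Agent.CFT

section CupCyclic

variable {G Q : Type*} [Group G] [Group Q] [Finite Q] {σ : Q}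
  (hσ : ∀ x, x ∈ Subgroup.zpowers σ) (π : G →* Q) {A : Type*} [CommGroup A]
  [MulDistribMulAction G A]

/-- The index character `g ↦ cycIdx σ (π g)` of `G` attached to `π : G →* Q = ⟨σ⟩`. -/
noncomputable def cupIdx (σ : Q) (π : G →* Q) (g : G) : ℕ := cycIdx σ (π g)

include hσ in
theorem cupIdx_lt (g : G) : cupIdx σ π g < orderOf σ := cycIdx_lt hσ _

include hσ in
theorem cupIdx_mul (g h : G) :
    cupIdx σ π (g * h) = (cupIdx σ π g + cupIdx σ π h) % orderOf σ := by
  unfold cupIdx
  rw [map_mul, cycIdx_mul hσ]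

include hσ in
/-- `n (g h) + N ⌊(n g + n h) / N⌋ = n g + n h`. -/
theorem cupIdx_mul_add (g h : G) :
    cupIdx σ π (g * h) + orderOf σ * ((cupIdx σ π g + cupIdx σ π h) / orderOf σ) =
      cupIdx σ π g + cupIdx σ π h := by
  rw [cupIdx_mul hσ]
  exact Nat.mod_add_div _ _

include hσ in
theorem cupIdx_one : cupIdx σ π 1 = 0 := by
  unfold cupIdx
  rw [map_one]
  have h := cycIdx_pow σ 0
  rw [pow_zero, Nat.zero_mod] at h
  exact h

include hσ in
theorem pow_cupIdx (g : G) : σ ^ cupIdx σ π g = π g := pow_cycIdx hσ _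

/-- `cupIdx` only depends on the image in `Q`. -/
theorem cupIdx_congr {g h : G} (hgh : π g = π h) : cupIdx σ π g = cupIdx σ π h := by
  unfold cupIdx; rw [hgh]

/-- The Kummer cochain `g ↦ g • α / α` of `α`. -/
def kummerCochain (α : A) (g : G) : A := g • α / α

theorem kummerCochain_mul (α : A) (g h : G) :
    kummerCochain α (g * h) = g • kummerCochain α h * kummerCochain α g := by
  unfold kummerCochain
  rw [smul_div', mul_smul, div_mul_div_cancel]

theorem kummerCochain_pow {N : ℕ} (α : A) (hα : ∀ g : G, g • (α ^ N) = α ^ N) (g : G) :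
    kummerCochain α g ^ N = 1 := by
  unfold kummerCochain
  rw [div_pow, ← smul_pow', hα, div_self']

/-- The 1-cochain `c g = (g • α) ^ n g` whose coboundary compares `χ ∪ b` and the cyclic
cocycle. -/
noncomputable def cupCycCochain (σ : Q) (π : G →* Q) (α : A) (g : G) : A :=
  (g • α) ^ cupIdx σ π g

/-- The 1-cochain `c' g = α ^ n g` whose coboundary compares `b ∪ χ` and the cyclic cocycle. -/
noncomputable def cupCycCochain' (σ : Q) (π : G →* Q) (α : A) (g : G) : A :=
  α ^ cupIdx σ π g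

include hσ in
/-- **`χ ∪ δ(a) = [a]_σ`** on cochains: `(g • b h) ^ n g · (g • c h · c g) = a ^ ⌊(n g + n h)/N⌋ ·
c (g h)` with `c g = (g • α) ^ n g`, `b = ` Kummer cochain of `α`, `a = α ^ N`. -/
theorem cup_kummer_mul_eq (α : A) (hα : ∀ g : G, g • (α ^ orderOf σ) = α ^ orderOf σ) (g h : G) :
    (g • kummerCochain α h) ^ cupIdx σ π g *
        (g • cupCycCochain σ π α h * cupCycCochain σ π α g) =
      (α ^ orderOf σ) ^ ((cupIdx σ π g + cupIdx σ π h) / orderOf σ) *
        cupCycCochain σ π α (g * h) := by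
  unfold kummerCochain cupCycCochain
  rw [smul_div', ← mul_smul, smul_pow', ← mul_smul]
  set β : A := (g * h) • α with hβ
  set γ : A := g • α with hγ
  have hβN : β ^ orderOf σ = α ^ orderOf σ := by rw [hβ, ← smul_pow', hα]
  rw [← hβN, ← pow_mul, ← pow_add, add_comm (orderOf σ * _), cupIdx_mul_add hσ, div_pow,
    pow_add]
  rw [mul_comm (β ^ cupIdx σ π h), ← mul_assoc, div_mul_cancel, mul_comm]

include hσ in
/-- **`δ(a) ∪ χ = -[a]_σ`** on cochains: `b g ^ n h · a ^ ⌊(n g + n h)/N⌋ · c' (g h) =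
g • c' h · c' g` with `c' g = α ^ n g`. -/
theorem kummer_cup_mul_eq (α : A) (g h : G) :
    kummerCochain α g ^ cupIdx σ π h *
        (α ^ orderOf σ) ^ ((cupIdx σ π g + cupIdx σ π h) / orderOf σ) *
        cupCycCochain' σ π α (g * h) =
      g • cupCycCochain' σ π α h * cupCycCochain' σ π α g := by
  unfold kummerCochain cupCycCochain'
  rw [smul_pow', mul_assoc, ← pow_mul, ← pow_add, add_comm (orderOf σ * _), cupIdx_mul_add hσ,
    div_pow, pow_add, mul_comm (α ^ cupIdx σ π g), ← mul_assoc, div_mul_cancel]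

/-- The cyclic 2-cochain on `G` is the inflation of `mulCycCocycle σ a` along `π`. -/
theorem mulCycCocycle_map_eq [Fintype Q] [MulDistribMulAction Q A] (a : A) (g h : G) :
    mulCycCocycle σ a (π g, π h) = a ^ ((cupIdx σ π g + cupIdx σ π h) / orderOf σ) := by
  rw [mulCycCocycle_apply]; rfl

/-- A surjection `π : G →* Q` with the same kernel as a nontrivial character
`χ : G → ZMod p`: there is a generator `σ` of `Q`, of order `p`, with `χ g = cycIdx σ (π g)`. -/
theorem exists_generator_cupIdx_eq {p : ℕ} [Fact p.Prime] (χ : G →* Multiplicative (ZMod p))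
    (hπ : Function.Surjective π) (hker : π.ker = χ.ker) (hχ : ∃ g, χ g ≠ 1) :
    ∃ σ : Q, (∀ x, x ∈ Subgroup.zpowers σ) ∧ orderOf σ = p ∧
      ∀ g, cupIdx σ π g = (Multiplicative.toAdd (χ g)).val := by
  have hp : p.Prime := Fact.out
  obtain ⟨g₀, hg₀⟩ := hχ
  set c : ZMod p := Multiplicative.toAdd (χ g₀) with hc
  have hc0 : c ≠ 0 := fun h => hg₀ (by
    have : χ g₀ = Multiplicative.ofAdd c := rfl
    rw [this, h]; rfl)
  -- an element with `χ g₁ = 1`
  obtain ⟨g₁, hg₁⟩ : ∃ g₁, Multiplicative.toAdd (χ g₁) = 1 := by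
    refine ⟨g₀ ^ (c⁻¹).val, ?_⟩
    rw [map_pow, toAdd_pow, ← hc, nsmul_eq_mul, ZMod.natCast_zmod_val, inv_mul_cancel₀ hc0]
  have hpow : ∀ k : ℕ, Multiplicative.toAdd (χ (g₁ ^ k)) = (k : ZMod p) := fun k => by
    rw [map_pow, toAdd_pow, hg₁, nsmul_eq_mul, mul_one]
  have hkey : ∀ g, π g = π g₁ ^ (Multiplicative.toAdd (χ g)).val := by
    intro g
    have hmem : g * (g₁ ^ (Multiplicative.toAdd (χ g)).val)⁻¹ ∈ π.ker := by
      rw [hker, MonoidHom.mem_ker, map_mul, map_inv]
      apply Multiplicative.toAdd.injective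
      rw [toAdd_mul, toAdd_inv, hpow, ZMod.natCast_zmod_val, add_neg_cancel]
      rfl
    rw [MonoidHom.mem_ker, map_mul, map_inv, mul_inv_eq_one, map_pow] at hmem
    exact hmem
  have hgen : ∀ x, x ∈ Subgroup.zpowers (π g₁) := by
    intro x
    obtain ⟨g, rfl⟩ := hπ x
    rw [hkey g]
    exact Subgroup.pow_mem _ (Subgroup.mem_zpowers _) _
  have hord : orderOf (π g₁) = p := by
    have h1 : π g₁ ^ p = 1 := by
      rw [← map_pow, ← MonoidHom.mem_ker, hker, MonoidHom.mem_ker]
      apply Multiplicative.toAdd.injective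
      rw [hpow, ZMod.natCast_self]; rfl
    have h2 : π g₁ ≠ 1 := by
      intro h
      have : g₁ ∈ χ.ker := by rw [← hker]; exact h
      rw [MonoidHom.mem_ker] at this
      rw [this] at hg₁
      exact zero_ne_one hg₁
    exact orderOf_eq_prime h1 h2
  refine ⟨π g₁, hgen, hord, fun g => ?_⟩
  unfold cupIdx
  rw [hkey g, cycIdx_pow, hord, Nat.mod_eq_of_lt (ZMod.val_lt _)]

end CupCyclic

end Fermat.Agent.CFT
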