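import Fermat.Agent.CFT.Local.CyclicCocycle
import Fermat.Agent.CFT.Local.H2Cyclic

set_option autoImplicit false
set_option linter.unusedSectionVars false

/-!
# CFT stream [B] Local, Tier 2, (CM5) : the cyclic class map `Kˣ → H²(Gal(L/K), Lˣ)`

`L / K` finite cyclic Galois (universe `0`), `σ` a generator of the Galois group.
`cycClassHom K L hσ : Kˣ →* Multiplicative (H² (Rep.ofAlgebraAutOnUnits K L))` sends `a` to the
class of the cyclic cocycle `(σ^i, σ^j) ↦ a` if `i + j ≥ n`, `1` otherwise.  Its kernel is the norm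
subgroup (`cycClassHom_ker`), and it is onto as soon as `[Kˣ : N Lˣ]` is finite
(`cycClassHom_surjective`), e.g. for local fields (`IsLocalFieldNA.cycClassHom_surjective`), so
`Kˣ / N Lˣ ≃ H²(Gal(L/K), Lˣ)`.
-/

open groupCohomology

namespace Fermat.Agent.CFT

section Field

variable (K L : Type) [Field K] [Field L] [Algebra K L] [FiniteDimensional K L] [IsGalois K L]

theorem smul_units_map_algebraMap (τ : L ≃ₐ[K] L) (a : Kˣ) :
    τ • Units.map (algebraMap K L : K →* L) a = Units.map (algebraMap K L : K →* L) a := by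
  ext
  exact τ.commutes (a : K)

variable {σ : L ≃ₐ[K] L} (hσ : ∀ τ, τ ∈ Subgroup.zpowers σ)

/-- The class of the cyclic cocycle of `a ∈ Kˣ` in `H²(Gal(L/K), Lˣ)`. -/
noncomputable def cycClassField (a : Kˣ) : groupCohomology.H2 (Rep.ofAlgebraAutOnUnits K L) :=
  cycClass hσ (Units.map (algebraMap K L : K →* L) a) (fun τ => smul_units_map_algebraMap K L τ a)

theorem cycClassField_eq_zero_iff (a : Kˣ) :
    cycClassField K L hσ a = 0 ↔
      ∃ b : Lˣ, ∏ τ : L ≃ₐ[K] L, τ • b = Units.map (algebraMap K L : K →* L) a :=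
  cycClass_eq_zero_iff hσ _ _

theorem cycClassField_mul (a b : Kˣ) :
    cycClassField K L hσ (a * b) = cycClassField K L hσ a + cycClassField K L hσ b := by
  have h := cycClass_mul hσ (Units.map (algebraMap K L : K →* L) a)
    (Units.map (algebraMap K L : K →* L) b) (fun τ => smul_units_map_algebraMap K L τ a)
    (fun τ => smul_units_map_algebraMap K L τ b)
  refine Eq.trans ?_ h
  unfold cycClassField
  congr 1
  rw [map_mul]

theorem cycClassField_one : cycClassField K L hσ 1 = 0 := by
  rw [cycClassField_eq_zero_iff]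
  exact ⟨1, by simp⟩

/-- **The cyclic class of `a ∈ Kˣ` vanishes iff `a` is a norm from `L`.** -/
theorem cycClassField_eq_zero_iff_mem (a : Kˣ) :
    cycClassField K L hσ a = 0 ↔ a ∈ normSubgroup K L := by
  rw [cycClassField_eq_zero_iff]
  have h1 : (∃ b : Lˣ, ∏ τ : L ≃ₐ[K] L, τ • b = Units.map (algebraMap K L : K →* L) a) ↔
      Units.map (algebraMap K L : K →* L) a ∈ (mulNormHom (L ≃ₐ[K] L) Lˣ).range := by
    simp only [MonoidHom.mem_range, mulNormHom_apply]
  rw [h1, range_mulNormHom_field, Subgroup.mem_map_iff_mem (units_map_algebraMap_injective K L)]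

/-- `a ↦` the class of the cyclic cocycle of `a`, as a homomorphism. -/
noncomputable def cycClassHom :
    Kˣ →* Multiplicative (groupCohomology.H2 (Rep.ofAlgebraAutOnUnits K L)) where
  toFun a := Multiplicative.ofAdd (cycClassField K L hσ a)
  map_one' := by rw [cycClassField_one]; rfl
  map_mul' a b := by rw [cycClassField_mul]; rfl

theorem cycClassHom_apply (a : Kˣ) :
    cycClassHom K L hσ a = Multiplicative.ofAdd (cycClassField K L hσ a) := rfl

/-- The kernel of the cyclic class map is the norm subgroup. -/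
theorem cycClassHom_ker : (cycClassHom K L hσ).ker = normSubgroup K L := by
  ext a
  rw [MonoidHom.mem_ker, cycClassHom_apply, ← cycClassField_eq_zero_iff_mem K L hσ]
  exact Iff.rfl

/-- `Kˣ / N Lˣ → H²(Gal(L/K), Lˣ)` is onto when the norm index is finite. -/
theorem cycClassHom_surjective [IsCyclic (L ≃ₐ[K] L)] (hfin : (normSubgroup K L).index ≠ 0) :
    Function.Surjective (cycClassHom K L hσ) := by
  have hcard := natCard_H2_units_eq_index K L
  have hfinH : Finite (groupCohomology.H2 (Rep.ofAlgebraAutOnUnits K L)) :=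
    Nat.finite_of_card_ne_zero (by rw [hcard]; exact hfin)
  have hfinM : Finite (Multiplicative (groupCohomology.H2 (Rep.ofAlgebraAutOnUnits K L))) := hfinH
  have hinj := QuotientGroup.kerLift_injective (cycClassHom K L hσ)
  have hle : Nat.card (Multiplicative (groupCohomology.H2 (Rep.ofAlgebraAutOnUnits K L))) ≤
      Nat.card (Kˣ ⧸ (cycClassHom K L hσ).ker) := by
    rw [cycClassHom_ker]
    change Nat.card (groupCohomology.H2 (Rep.ofAlgebraAutOnUnits K L)) ≤ _
    rw [hcard]
    exact le_of_eq rfl
  have hbij := Function.Injective.bijective_of_nat_card_le hinj hle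
  intro y
  obtain ⟨x, hx⟩ := hbij.2 y
  obtain ⟨a, rfl⟩ := QuotientGroup.mk_surjective x
  exact ⟨a, hx⟩

/-- `Kˣ / N Lˣ ≃ H²(Gal(L/K), Lˣ)` for a cyclic extension with finite norm index. -/
noncomputable def cycClassEquiv [IsCyclic (L ≃ₐ[K] L)] (hfin : (normSubgroup K L).index ≠ 0) :
    Kˣ ⧸ normSubgroup K L ≃* Multiplicative (groupCohomology.H2 (Rep.ofAlgebraAutOnUnits K L)) :=
  (QuotientGroup.quotientMulEquivOfEq (cycClassHom_ker K L hσ).symm).trans
    (QuotientGroup.quotientKerEquivOfSurjective (cycClassHom K L hσ)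
      (cycClassHom_surjective K L hσ hfin))

variable {K L}

/-- For local fields the cyclic class map is onto. -/
theorem IsLocalFieldNA.cycClassHom_surjective (hK : IsLocalFieldNA K) [IsCyclic (L ≃ₐ[K] L)] :
    Function.Surjective (cycClassHom K L hσ) := by
  apply Fermat.Agent.CFT.cycClassHom_surjective K L hσ
  rw [hK.normSubgroup_index]
  exact Module.finrank_pos.ne'

end Field

end Fermat.Agent.CFT
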