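/-
CFT stream [B] Local (owner: helper13): coefficient functions on a finite cyclic group.
The augmentation ideal of `R[G]`, `G = ⟨σ⟩`, is `(σ - 1) R[G]`, and the `σ`-invariants are the
constant functions.
-/
import Mathlib

set_option autoImplicit false

namespace Fermat.Agent.CFT

open scoped BigOperators

section

variable {G : Type*} [Group G] {R : Type*}

/-- (C1) a function on a cyclic group invariant under translation by the generator is constant -/
theorem cyclicCoeff_const {σ : G} (hσ : ∀ τ : G, τ ∈ Subgroup.zpowers σ) (c : G → R)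
    (hc : ∀ τ, c (σ⁻¹ * τ) = c τ) (τ : G) : c τ = c 1 := by
  have h1 : ∀ (k : ℤ) (ρ : G), c (σ ^ k * ρ) = c ρ := by
    intro k
    induction k using Int.induction_on with
    | zero => intro ρ; simp
    | succ k ih =>
      intro ρ
      have := hc (σ ^ ((k : ℤ) + 1) * ρ)
      rw [← mul_assoc, ← zpow_neg_one, ← zpow_add, show (-1 : ℤ) + (k + 1) = k by ring] at this
      rw [← this, ih]
    | pred k ih =>
      intro ρ
      have := hc (σ ^ (-(k : ℤ)) * ρ)
      rw [← mul_assoc, ← zpow_neg_one, ← zpow_add, show (-1 : ℤ) + -(k : ℤ) = -k - 1 by ring]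
        at this
      rw [this, ih]
  obtain ⟨k, hk⟩ := Subgroup.mem_zpowers_iff.mp (hσ τ)
  have := h1 k 1
  rwa [mul_one, hk] at this

end

section Aug

variable {G : Type*} [Group G] [Fintype G] {R : Type*} [AddCommGroup R]

/-- the discrete logarithm bijection `Fin (orderOf σ) ≃ G` for a generator `σ`. -/
noncomputable def cyclicCoeffEquiv {σ : G} (hσ : ∀ τ : G, τ ∈ Subgroup.zpowers σ) :
    Fin (orderOf σ) ≃ G :=
  Equiv.ofBijective (fun k => σ ^ (k : ℕ)) ⟨fun a b hab =>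
    Fin.ext (pow_injOn_Iio_orderOf a.2 b.2 hab), fun τ => by
    obtain ⟨k, hk⟩ := Subgroup.mem_zpowers_iff.mp (hσ τ)
    have hpos : 0 < orderOf σ := orderOf_pos σ
    refine ⟨⟨(k % (orderOf σ : ℤ)).toNat, ?_⟩, ?_⟩
    · have h1 : 0 ≤ k % (orderOf σ : ℤ) := Int.emod_nonneg _ (by exact_mod_cast hpos.ne')
      have h2 : k % (orderOf σ : ℤ) < orderOf σ := Int.emod_lt_of_pos _ (by exact_mod_cast hpos)
      omega
    · have h1 : 0 ≤ k % (orderOf σ : ℤ) := Int.emod_nonneg _ (by exact_mod_cast hpos.ne')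
      show σ ^ (k % (orderOf σ : ℤ)).toNat = τ
      rw [← zpow_natCast, Int.toNat_of_nonneg h1, zpow_mod_orderOf, hk]⟩

@[simp] theorem cyclicCoeffEquiv_apply {σ : G} (hσ : ∀ τ : G, τ ∈ Subgroup.zpowers σ)
    (k : Fin (orderOf σ)) : cyclicCoeffEquiv hσ k = σ ^ (k : ℕ) := rfl

theorem cyclicCoeffEquiv_symm_pow {σ : G} (hσ : ∀ τ : G, τ ∈ Subgroup.zpowers σ) {m : ℕ}
    (hm : m < orderOf σ) : ((cyclicCoeffEquiv hσ).symm (σ ^ m) : ℕ) = m := by
  have : (cyclicCoeffEquiv hσ).symm (σ ^ m) = ⟨m, hm⟩ := by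
    rw [Equiv.symm_apply_eq]; rfl
  rw [this]

/-- (C2) the augmentation ideal of the group ring of a cyclic group is generated by `σ - 1`:
a coefficient function of total sum zero is of the form `τ ↦ d (σ⁻¹ τ) - d τ`. -/
theorem cyclicCoeff_exists_sub {σ : G} (hσ : ∀ τ : G, τ ∈ Subgroup.zpowers σ) (c : G → R)
    (hc : ∑ τ, c τ = 0) : ∃ d : G → R, ∀ τ, c τ = d (σ⁻¹ * τ) - d τ := by
  classical
  set n := orderOf σ with hn
  have hpos : 0 < n := orderOf_pos σ
  let e := cyclicCoeffEquiv hσ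
  let S : ℕ → R := fun k => ∑ j ∈ Finset.range k, c (σ ^ (j + 1))
  refine ⟨fun τ => -S (e.symm τ : ℕ), fun τ => ?_⟩
  -- total sum in terms of powers
  have htot : c 1 + S (n - 1) = 0 := by
    have h1 : ∑ τ, c τ = ∑ k : Fin n, c (σ ^ (k : ℕ)) :=
      (Fintype.sum_equiv e _ _ (fun k => rfl)).symm
    rw [h1, Fin.sum_univ_eq_sum_range (fun k => c (σ ^ k)) n] at hc
    obtain ⟨m, hm⟩ : ∃ m, n = m + 1 := ⟨n - 1, by omega⟩
    rw [hm, Finset.sum_range_succ', pow_zero] at hc
    have : n - 1 = m := by omega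
    rw [this, add_comm]
    exact hc
  obtain ⟨k, hk⟩ : ∃ k : Fin n, τ = σ ^ (k : ℕ) := ⟨e.symm τ, (e.apply_symm_apply τ).symm⟩
  have hkτ : (e.symm τ : ℕ) = k := by
    rw [hk]; exact cyclicCoeffEquiv_symm_pow hσ k.2
  simp only
  rw [hkτ]
  rcases Nat.eq_zero_or_pos (k : ℕ) with h0 | h0
  · -- `τ = 1`
    have hτ : τ = 1 := by rw [hk, h0, pow_zero]
    have h2 : σ⁻¹ * τ = σ ^ (n - 1) := by
      rw [hτ, mul_one, eq_comm, ← mul_eq_one_iff_eq_inv, ← pow_succ]
      have : n - 1 + 1 = n := by omega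
      rw [this, hn, pow_orderOf_eq_one]
    have h3 : (e.symm (σ⁻¹ * τ) : ℕ) = n - 1 := by
      rw [h2]; exact cyclicCoeffEquiv_symm_pow hσ (by omega)
    rw [h3, h0]
    have hS0 : S 0 = 0 := by simp [S]
    rw [hS0, neg_zero, sub_zero, hτ]
    exact (neg_eq_of_add_eq_zero_left htot).symm
  · -- `τ = σ ^ k`, `k ≥ 1`
    obtain ⟨m, hm⟩ : ∃ m, (k : ℕ) = m + 1 := ⟨k - 1, by omega⟩
    have h2 : σ⁻¹ * τ = σ ^ m := by
      rw [hk, hm, pow_succ', ← mul_assoc, inv_mul_cancel, one_mul]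
    have h3 : (e.symm (σ⁻¹ * τ) : ℕ) = m := by
      rw [h2]; exact cyclicCoeffEquiv_symm_pow hσ (by have := k.2; omega)
    rw [h3, hm]
    have hS : S (m + 1) = S m + c (σ ^ (m + 1)) := Finset.sum_range_succ _ _
    rw [hS, hk, hm]
    abel

end Aug

section Module

variable {G : Type*} [Group G] [Fintype G] {R : Type*} [CommRing R] {M : Type*} [AddCommGroup M]
  [Module R M] [DistribMulAction G M] [SMulCommClass G R M]
  (w : G → M) (hw : ∀ g τ : G, g • w τ = w (g * τ))

include hw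

/-- the action on a combination of a permuted family: coefficients are translated. -/
theorem cyclicCoeff_smul_sum (g : G) (c : G → R) :
    g • ∑ τ, c τ • w τ = ∑ τ, c (g⁻¹ * τ) • w τ := by
  rw [Finset.smul_sum]
  rw [← Equiv.sum_comp (Equiv.mulLeft g) (fun τ => c (g⁻¹ * τ) • w τ)]
  refine Finset.sum_congr rfl fun τ _ => ?_
  rw [smul_comm, hw, Equiv.coe_mulLeft, inv_mul_cancel_left]

/-- the trace of a combination. -/
theorem cyclicCoeff_trace (c : G → R) :
    ∑ g : G, g • ∑ τ, c τ • w τ = (∑ τ, c τ) • ∑ ρ, w ρ := by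
  have h1 : ∀ g : G, g • ∑ τ, c τ • w τ = ∑ τ, c τ • w (g * τ) := fun g => by
    rw [Finset.smul_sum]
    refine Finset.sum_congr rfl fun τ _ => ?_
    rw [smul_comm, hw]
  simp_rw [h1]
  rw [Finset.sum_comm, Finset.sum_smul]
  refine Finset.sum_congr rfl fun τ _ => ?_
  rw [← Finset.smul_sum]
  congr 1
  exact Equiv.sum_comp (Equiv.mulRight τ) w

variable (hli : LinearIndependent R w) {σ : G} (hσ : ∀ τ : G, τ ∈ Subgroup.zpowers σ)

include hli hσ

/-- (M1) a `σ`-fixed combination of a linearly independent permuted family has constant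
coefficients. -/
theorem cyclicCoeff_fixed (c : G → R) (hfix : σ • ∑ τ, c τ • w τ = ∑ τ, c τ • w τ) (τ : G) :
    c τ = c 1 := by
  rw [cyclicCoeff_smul_sum w hw] at hfix
  have h := (Fintype.linearIndependent_iff.mp hli) (fun τ => c (σ⁻¹ * τ) - c τ) (by
    rw [← sub_eq_zero] at hfix
    rw [← hfix, ← Finset.sum_sub_distrib]
    refine Finset.sum_congr rfl fun τ _ => ?_
    rw [sub_smul])
  exact cyclicCoeff_const hσ c (fun τ => sub_eq_zero.mp (h τ)) τ

/-- (hT) the graded `Ĥ⁰`-condition on the lattice spanned by a permuted basis: a `σ`-fixed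
element of `a • span w` is the trace of an element of `a • span w`. -/
theorem cyclicCoeff_hT (a : R) (c : G → R)
    (hfix : σ • (a • ∑ τ, c τ • w τ) = a • ∑ τ, c τ • w τ) :
    ∃ c' : G → R, a • ∑ τ, c τ • w τ = ∑ g : G, g • (a • ∑ τ, c' τ • w τ) := by
  classical
  have e : a • ∑ τ, c τ • w τ = ∑ τ, (a * c τ) • w τ := by
    rw [Finset.smul_sum]
    exact Finset.sum_congr rfl fun τ _ => by rw [smul_smul]
  rw [e] at hfix
  have hconst := cyclicCoeff_fixed w hw hli hσ (fun τ => a * c τ) hfix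
  refine ⟨Pi.single 1 (c 1), ?_⟩
  have e2 : a • ∑ τ, (Pi.single (1 : G) (c 1) : G → R) τ • w τ = ∑ τ, (Pi.single (1 : G) (a * c 1) : G → R) τ • w τ := by
    rw [Finset.smul_sum]
    refine Finset.sum_congr rfl fun τ _ => ?_
    rw [smul_smul]
    congr 1
    by_cases h : τ = 1
    · subst h; simp
    · simp [h]
  rw [e2, cyclicCoeff_trace w hw, e]
  have h3 : ∑ τ, (Pi.single (1 : G) (a * c 1) : G → R) τ = a * c 1 := by
    rw [Finset.sum_pi_single']
    simp
  rw [h3, Finset.smul_sum]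
  exact Finset.sum_congr rfl fun τ _ => by rw [hconst τ]

/-- (hK) the graded `Ĥ⁻¹`-condition on the lattice spanned by a permuted basis: an element of
`a • span w` whose trace lies in `(a * ϖ) • span w` is, modulo `(a * ϖ) • span w`, of the form
`σ y - y` with `y ∈ a • span w`. -/
theorem cyclicCoeff_hK (a ϖ : R) (c c2 : G → R)
    (hTr : ∑ g : G, g • (a • ∑ τ, c τ • w τ) = (a * ϖ) • ∑ τ, c2 τ • w τ) :
    ∃ d c3 : G → R,
      a • ∑ τ, c τ • w τ - (σ • (a • ∑ τ, d τ • w τ) - a • ∑ τ, d τ • w τ) =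
        (a * ϖ) • ∑ τ, c3 τ • w τ := by
  classical
  -- the sum of the coefficients is divisible
  have hsum : a * ∑ τ, c τ = a * ϖ * c2 1 := by
    have e : a • ∑ τ, c τ • w τ = ∑ τ, (a * c τ) • w τ := by
      rw [Finset.smul_sum]
      exact Finset.sum_congr rfl fun τ _ => by rw [smul_smul]
    rw [e, cyclicCoeff_trace w hw, Finset.smul_sum, Finset.smul_sum] at hTr
    have h := (Fintype.linearIndependent_iff.mp hli)
      (fun ρ => (∑ τ, a * c τ) - a * ϖ * c2 ρ) (by
        rw [← sub_eq_zero] at hTr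
        rw [← hTr, ← Finset.sum_sub_distrib]
        refine Finset.sum_congr rfl fun ρ _ => ?_
        rw [sub_smul, smul_smul])
    have h1 := sub_eq_zero.mp (h 1)
    rw [← Finset.mul_sum] at h1
    exact h1
  -- coefficients of total sum zero
  set s : R := ∑ τ, c τ with hs
  let c' : G → R := fun τ => c τ - (Pi.single (1 : G) s : G → R) τ
  have hc' : ∑ τ, c' τ = 0 := by
    simp only [c']
    rw [Finset.sum_sub_distrib, Finset.sum_pi_single']
    simp [hs]
  obtain ⟨d, hd⟩ := cyclicCoeff_exists_sub hσ c' hc'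
  refine ⟨d, Pi.single 1 (c2 1), ?_⟩
  have h2 : σ • (a • ∑ τ, d τ • w τ) - a • ∑ τ, d τ • w τ = a • ∑ τ, c' τ • w τ := by
    rw [smul_comm σ a, cyclicCoeff_smul_sum w hw, ← smul_sub, ← Finset.sum_sub_distrib]
    congr 1
    refine Finset.sum_congr rfl fun τ _ => ?_
    rw [← sub_smul, hd τ]
  rw [h2, ← smul_sub, ← Finset.sum_sub_distrib]
  have h3 : ∀ τ, c τ • w τ - c' τ • w τ = (Pi.single (1 : G) s : G → R) τ • w τ := fun τ => by
    rw [← sub_smul]
    congr 1
    simp only [c']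
    ring
  simp_rw [h3]
  have h4 : ∀ (r : R), ∑ τ, (Pi.single (1 : G) r : G → R) τ • w τ = r • w 1 := fun r => by
    rw [Finset.sum_eq_single (1 : G)]
    · simp
    · intro τ _ hτ
      simp [hτ]
    · intro h; exact absurd (Finset.mem_univ _) h
  rw [h4, h4, smul_smul, smul_smul, hsum]

end Module

end Fermat.Agent.CFT
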