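import Fermat.Agent.CFT.Local.KummerSeq
import Fermat.Agent.CFT.PT.GaloisFamily
import Fermat.Agent.CFT.PT.SmoothShapiro

/-!
# CFT, S55 local pool: the subgroup fixing `μ_p` has index prime to `p`

`Ω / K` a field extension, `G = Ω ≃ₐ[K] Ω`.  `cycIdxSubgroup K Ω p ≤ G` is the subgroup of the
automorphisms fixing every `p`-th root of unity of `Ω` (the kernel of the mod `p` cyclotomic
character, `= Gal(Ω / K(ζ_p))`).

* `cycIdx_index_dvd` : its index divides `p - 1` (`Ω` algebraically closed, `p` prime, `p ≠ 0` in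
  `Ω`), hence `cycIdx_coprime : Nat.Coprime p index`;
* `cycIdx_isOpenFor` : it is open for `famGal K Ω` (`Ω / K` Galois).
-/

set_option autoImplicit false
set_option linter.style.haveILetI false

namespace Fermat.Agent.CFT

open Fermat.Agent.PT

variable (K Ω : Type) [Field K] [Field Ω] [Algebra K Ω] (p : ℕ)

attribute [local instance] muMulDistribMulAction

/-- the subgroup of `Gal(Ω/K)` fixing `μ_p(Ω)` pointwise. -/
def cycIdxSubgroup : Subgroup (Ω ≃ₐ[K] Ω) :=
  (MulDistribMulAction.toMulAut (Ω ≃ₐ[K] Ω) (rootsOfUnity p Ω)).ker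

instance cycIdxSubgroup_normal : (cycIdxSubgroup K Ω p).Normal :=
  MonoidHom.normal_ker _

theorem mem_cycIdxSubgroup_iff (g : Ω ≃ₐ[K] Ω) :
    g ∈ cycIdxSubgroup K Ω p ↔ ∀ z : rootsOfUnity p Ω, g • z = z := by
  unfold cycIdxSubgroup
  rw [MonoidHom.mem_ker]
  constructor
  · intro h z
    have := congrArg (fun f : MulAut (rootsOfUnity p Ω) => f z) h
    exact this
  · intro h
    ext z
    exact congrArg (fun w : rootsOfUnity p Ω => ((w : Ωˣ) : Ω)) (h z)

section Index

variable [Fact p.Prime] [IsAlgClosed Ω] (hpΩ : (p : Ω) ≠ 0)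

include hpΩ

theorem cycIdx_index_dvd : (cycIdxSubgroup K Ω p).index ∣ p - 1 := by
  have hcard : Nat.card (rootsOfUnity p Ω) = p := natCard_rootsOfUnity_of_isAlgClosed Ω p hpΩ
  haveI : NeZero p := ⟨(Fact.out : p.Prime).ne_zero⟩
  haveI : Finite (rootsOfUnity p Ω) := Nat.finite_of_card_ne_zero (by
    rw [hcard]; exact (Fact.out : p.Prime).ne_zero)
  haveI : IsCyclic (rootsOfUnity p Ω) := rootsOfUnity.isCyclic Ω p
  have h1 : Nat.card (MulAut (rootsOfUnity p Ω)) = p - 1 := by
    rw [IsCyclic.card_mulAut, hcard, Nat.totient_prime Fact.out]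
  unfold cycIdxSubgroup
  rw [Subgroup.index_ker, ← h1]
  exact Subgroup.card_subgroup_dvd_card _

theorem cycIdx_coprime : Nat.Coprime p (cycIdxSubgroup K Ω p).index := by
  have hp : p.Prime := Fact.out
  have h1 := cycIdx_index_dvd K Ω p hpΩ
  rw [Nat.Prime.coprime_iff_not_dvd hp]
  intro h2
  have h3 : p ∣ p - 1 := h2.trans h1
  have h4 : p ≤ p - 1 := Nat.le_of_dvd (by have := hp.two_le; omega) h3
  have := hp.two_le
  omega

end Index

section Open

variable [IsGalois K Ω] [NeZero p]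

/-- the field `K(μ_p) ⊆ Ω`. -/
noncomputable def cycIdxField : IntermediateField K Ω :=
  IntermediateField.adjoin K (Set.range fun z : rootsOfUnity p Ω => ((z : Ωˣ) : Ω))

instance cycIdxField_finiteDimensional : FiniteDimensional K (cycIdxField K Ω p) := by
  unfold cycIdxField
  haveI : Finite (Set.range fun z : rootsOfUnity p Ω => ((z : Ωˣ) : Ω)) := Set.finite_range _
  exact IntermediateField.finiteDimensional_adjoin fun x _ => Algebra.IsIntegral.isIntegral x

omit [IsGalois K Ω] [NeZero p] in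
theorem cycIdxField_fixingSubgroup_le :
    (cycIdxField K Ω p).fixingSubgroup ≤ cycIdxSubgroup K Ω p := by
  intro g hg
  rw [mem_cycIdxSubgroup_iff]
  intro z
  apply Subtype.ext
  apply Units.ext
  exact hg ⟨((z : Ωˣ) : Ω), IntermediateField.subset_adjoin K _ ⟨z, rfl⟩⟩

theorem cycIdx_isOpenFor : IsOpenFor (famGal K Ω) (cycIdxSubgroup K Ω p) := by
  obtain ⟨U, hU, hUL⟩ := exists_mem_famGal_le (cycIdxField K Ω p)
  exact ⟨U, hU, hUL.trans (cycIdxField_fixingSubgroup_le K Ω p)⟩

end Open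

end Fermat.Agent.CFT
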