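import Fermat.Agent.CFT.Local.KummerSeq
import Fermat.Prelude.Def_GroupCohomology_ContinuousUnramified

set_option autoImplicit false

/-!
# CFT stream [B] Local, glue (LF1) : the global cyclotomic character on the local Galois groups

* `ofCharIsoOfSmul` : a representation on which `G` acts through a character `χ` and which is
  generated freely by one vector is isomorphic to `groupCohomology.ofChar χ`;
* `cycloChar_localGaloisToGlobal` : the prelude's mod `p` cyclotomic character of `G_ℚ`, restricted
  to `Gal(PadicAlgCl q / ℚ_q)`, is Mathlib's `modularCyclotomicCharacter` of `PadicAlgCl q`;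
* `cycloRepLocalIso` : `res (localGaloisToGlobal q) (ofChar (cycloChar p)) ≅ muRepFp ℚ_[q] (PadicAlgCl q) p`.
-/

namespace Fermat.Agent.CFT

open CategoryTheory groupCohomology Rep ExtCitation

section Generic

variable {k : Type} [Field k] {G : Type} [Group G] (χ : G →* kˣ)

/-- Two representations on which `G` acts through the same character `χ`, the first on `k` itself
and the second free of rank one on the vector `a₀`, are isomorphic. -/
noncomputable def isoOfSmul (ρ₁ : Representation k G k) (h₁ : ∀ g x, ρ₁ g x = (χ g : k) • x)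
    {V : Type} [AddCommGroup V] [Module k V]
    (ρ : Representation k G V) (hρ : ∀ g a, ρ g a = (χ g : k) • a) (a₀ : V)
    (hsurj : ∀ a : V, ∃ x : k, x • a₀ = a) (ha₀ : a₀ ≠ 0) :
    Rep.of ρ₁ ≅ Rep.of ρ :=
  Rep.mkIso (Representation.Equiv.mk
    (LinearEquiv.ofBijective (LinearMap.toSpanSingleton k V a₀)
      ⟨by
        rw [← LinearMap.ker_eq_bot, LinearMap.ker_eq_bot']
        intro x hx
        rw [LinearMap.toSpanSingleton_apply] at hx
        exact (smul_eq_zero.1 hx).resolve_right ha₀,
       fun a => by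
        obtain ⟨x, hx⟩ := hsurj a
        exact ⟨x, by rw [LinearMap.toSpanSingleton_apply, hx]⟩⟩)
    (fun g => by
      apply LinearMap.ext
      intro x
      change (LinearMap.toSpanSingleton k V a₀) (ρ₁ g x) =
        ρ g ((LinearMap.toSpanSingleton k V a₀) x)
      rw [h₁, LinearMap.toSpanSingleton_apply,
        LinearMap.toSpanSingleton_apply, hρ, smul_eq_mul, mul_smul]))

/-- A representation on which `G` acts through the character `χ`, free of rank one on the vector
`a₀`, is isomorphic to `ofChar χ`. -/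
noncomputable def ofCharIsoOfSmul {V : Type} [AddCommGroup V] [Module k V]
    (ρ : Representation k G V) (hρ : ∀ g a, ρ g a = (χ g : k) • a) (a₀ : V)
    (hsurj : ∀ a : V, ∃ x : k, x • a₀ = a) (ha₀ : a₀ ≠ 0) :
    groupCohomology.ofChar χ ≅ Rep.of ρ :=
  isoOfSmul χ _ (fun g x => by
    rw [Representation.twist_apply_apply, Representation.trivial_apply]) ρ hρ a₀ hsurj ha₀

end Generic

section Padic

variable (p : ℕ) [Fact p.Prime] (q : ℕ) [Fact q.Prime]

theorem natCast_ne_zero_padicAlgCl : ((p : ℕ) : PadicAlgCl q) ≠ 0 :=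
  Nat.cast_ne_zero.2 (Fact.out : p.Prime).ne_zero

/-- every `p`-th root of unity of `PadicAlgCl q` is the image of one of `AlgebraicClosure ℚ`. -/
theorem exists_padicEmbedding_eq_of_mem_rootsOfUnity (t : (PadicAlgCl q)ˣ)
    (ht : t ∈ rootsOfUnity p (PadicAlgCl q)) :
    ∃ s : (AlgebraicClosure ℚ)ˣ, s ∈ rootsOfUnity p (AlgebraicClosure ℚ) ∧
      Units.map (padicEmbedding q : AlgebraicClosure ℚ →* PadicAlgCl q) s = t := by
  have : NeZero p := ⟨(Fact.out : p.Prime).ne_zero⟩
  let f : rootsOfUnity p (AlgebraicClosure ℚ) →* rootsOfUnity p (PadicAlgCl q) :=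
    restrictRootsOfUnity (padicEmbedding q).toRingHom p
  have hinj : Function.Injective f := by
    intro a b hab
    apply Subtype.ext
    apply Units.ext
    have h1 := congrArg (fun x : rootsOfUnity p (PadicAlgCl q) => ((x : (PadicAlgCl q)ˣ) : PadicAlgCl q))
      hab
    exact (padicEmbedding q).toRingHom.injective h1
  have hc1 : Nat.card (rootsOfUnity p (AlgebraicClosure ℚ)) = p := card_rootsOfUnity_eq_self p
  have hc2 : Nat.card (rootsOfUnity p (PadicAlgCl q)) = p :=
    natCard_rootsOfUnity_of_isAlgClosed (PadicAlgCl q) p (natCast_ne_zero_padicAlgCl p q)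
  have hfin : Finite (rootsOfUnity p (PadicAlgCl q)) :=
    Nat.finite_of_card_ne_zero (by rw [hc2]; exact (Fact.out : p.Prime).ne_zero)
  have hbij : Function.Bijective f :=
    hinj.bijective_of_nat_card_le (by rw [hc1, hc2])
  obtain ⟨s, hs⟩ := hbij.2 ⟨t, ht⟩
  refine ⟨s.1, s.2, ?_⟩
  have := congrArg (fun x : rootsOfUnity p (PadicAlgCl q) => (x : (PadicAlgCl q)ˣ)) hs
  exact this

/-- **The cyclotomic character is local**: `χ_p ∘ (G_{ℚ_q} → G_ℚ)` is the mod `p` cyclotomic
character of `PadicAlgCl q`. -/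
theorem cycloChar_localGaloisToGlobal (τ : PadicAlgCl q ≃ₐ[ℚ_[q]] PadicAlgCl q) :
    haveI : NeZero p := ⟨(Fact.out : p.Prime).ne_zero⟩
    cycloChar p (localGaloisToGlobal q τ) =
      modularCyclotomicCharacter (PadicAlgCl q)
        (natCard_rootsOfUnity_of_isAlgClosed (PadicAlgCl q) p (natCast_ne_zero_padicAlgCl p q))
        (τ : PadicAlgCl q ≃+* PadicAlgCl q) := by
  have : NeZero p := ⟨(Fact.out : p.Prime).ne_zero⟩
  apply Units.ext
  apply modularCyclotomicCharacter.unique
  intro t ht
  obtain ⟨s, hs, rfl⟩ := exists_padicEmbedding_eq_of_mem_rootsOfUnity p q t ht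
  have h1 : (localGaloisToGlobal q τ : AlgebraicClosure ℚ ≃+* AlgebraicClosure ℚ) (s : AlgebraicClosure ℚ) =
      (s : AlgebraicClosure ℚ) ^ ((cycloChar p (localGaloisToGlobal q τ) : (ZMod p)ˣ) : ZMod p).val :=
    modularCyclotomicCharacter.spec (L := AlgebraicClosure ℚ) (card_rootsOfUnity_eq_self p)
      (localGaloisToGlobal q τ : AlgebraicClosure ℚ ≃+* AlgebraicClosure ℚ) hs
  have h2 := padicEmbedding_localGaloisToGlobal q τ (s : AlgebraicClosure ℚ)
  change τ (padicEmbedding q (s : AlgebraicClosure ℚ)) = (padicEmbedding q (s : AlgebraicClosure ℚ)) ^ _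
  rw [← h2, ← map_pow]
  exact congrArg (padicEmbedding q) h1

/-- a generator of `μ_p(PadicAlgCl q)` -/
theorem exists_generator_muRepFp :
    ∃ a₀ : Additive (rootsOfUnity p (PadicAlgCl q)), a₀ ≠ 0 ∧
      ∀ a : Additive (rootsOfUnity p (PadicAlgCl q)), ∃ x : ZMod p,
        (letI := muZModModule (PadicAlgCl q) p; x • a₀) = a := by
  let _ := muZModModule (PadicAlgCl q) p
  have h1 := finrank_muRepFp ℚ_[q] (PadicAlgCl q) p (natCast_ne_zero_padicAlgCl p q)
  change Module.finrank (ZMod p) (Additive (rootsOfUnity p (PadicAlgCl q))) = 1 at h1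
  have key := @finrank_eq_one_iff' (ZMod p) (Additive (rootsOfUnity p (PadicAlgCl q))) _ _ _
    (muZModModule (PadicAlgCl q) p) (Module.Free.of_divisionRing _ _)
  obtain ⟨a₀, ha₀, hgen⟩ := key.1 h1
  exact ⟨a₀, ha₀, fun a => hgen a⟩

/-- **`μ_p` on the local Galois group**: the restriction of the global cyclotomic representation
to `Gal(PadicAlgCl q / ℚ_q)` is `μ_p(PadicAlgCl q)`. -/
noncomputable def cycloRepLocalIso :
    Rep.res (localGaloisToGlobal q) (groupCohomology.ofChar (k := ZMod p) (cycloChar p)) ≅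
      muRepFp ℚ_[q] (PadicAlgCl q) p :=
  letI := muZModModule (PadicAlgCl q) p
  isoOfSmul ((cycloChar p).comp (localGaloisToGlobal q)) _
    (fun g x => by
      change ((Representation.trivial (ZMod p) _ (ZMod p)).twist (cycloChar p))
        (localGaloisToGlobal q g) x = _
      rw [Representation.twist_apply_apply, Representation.trivial_apply]
      rfl)
    (muRepresentationFp ℚ_[q] (PadicAlgCl q) p)
    (fun g a => by
      have h := muRepFp_ρ_eq_cyclotomic_smul ℚ_[q] (PadicAlgCl q) p
        (natCast_ne_zero_padicAlgCl p q) g a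
      rw [← cycloChar_localGaloisToGlobal p q g] at h
      exact h)
    (exists_generator_muRepFp p q).choose
    (exists_generator_muRepFp p q).choose_spec.2
    (exists_generator_muRepFp p q).choose_spec.1

end Padic

end Fermat.Agent.CFT
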