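import Mathlib

/-!
# Degrees of irreducible factors over an extension of finite fields (S55 local pool)

`k ⊆ k'` finite fields, `f ∈ k[X]` irreducible of degree `n`, `m = [k' : k]`: every irreducible
factor of `f` over `k'` has degree `n / gcd n m`.
-/

set_option autoImplicit false

open Polynomial

namespace Fermat.Agent.CFT

section

variable {k k' : Type*} [Field k] [Finite k] [Field k'] [Finite k'] [Algebra k k']

omit [Finite k] in
/-- over `k'` the polynomial `X ^ (#k') ^ N - X` is `X ^ (#k) ^ (m N) - X`, `m = [k' : k]`. -/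
theorem finFieldFactor_card_pow (N : ℕ) :
    Nat.card k' ^ N = Nat.card k ^ (Module.finrank k k' * N) := by
  rw [Module.natCard_eq_pow_finrank (K := k) (V := k'), ← pow_mul]

omit [Finite k] [Finite k'] in
/-- an irreducible `f ∈ k[X]` divides `X ^ (#k) ^ N - X` as soon as one irreducible factor `q` of
`f` over `k'` divides it. -/
theorem finFieldFactor_dvd_of_factor_dvd {f : k[X]} (hf : Irreducible f) {q : k'[X]}
    (hq : Irreducible q) (hqf : q ∣ f.map (algebraMap k k')) (N : ℕ)
    (h : q ∣ X ^ (Nat.card k) ^ N - X) : f ∣ X ^ (Nat.card k) ^ N - X := by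
  have : Fact (Irreducible q) := ⟨hq⟩
  have hroot : aeval (AdjoinRoot.root q) f = 0 := by
    obtain ⟨c, hc⟩ := hqf
    rw [← aeval_map_algebraMap k' (AdjoinRoot.root q) f, hc, map_mul, AdjoinRoot.aeval_eq,
      AdjoinRoot.mk_self, zero_mul]
  rw [← hf.dvd_iff_aeval_eq_zero hroot]
  obtain ⟨c, hc⟩ := h
  have h2 : aeval (AdjoinRoot.root q) (X ^ (Nat.card k) ^ N - X : k'[X]) = 0 := by
    rw [hc, map_mul, AdjoinRoot.aeval_eq, AdjoinRoot.mk_self, zero_mul]
  simpa using h2

/-- **Degrees of the irreducible factors over an extension of finite fields.** -/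
theorem finFieldFactor_natDegree_mul_gcd {f : k[X]} (hf : Irreducible f) {q : k'[X]}
    (hq : Irreducible q) (hqf : q ∣ f.map (algebraMap k k')) :
    q.natDegree * Nat.gcd f.natDegree (Module.finrank k k') = f.natDegree := by
  set n := f.natDegree with hn
  set m := Module.finrank k k' with hm
  set d := q.natDegree with hd
  have hm0 : 0 < m := Module.finrank_pos
  have hn0 : 0 < n := hf.natDegree_pos
  have hg0 : 0 < Nat.gcd n m := Nat.gcd_pos_of_pos_left _ hn0
  -- (ii) `n ∣ m * d`
  have h2 : n ∣ m * d := by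
    have h := (hq.natDegree_dvd_iff_dvd_X_pow_card_pow_sub_X (n := d)).mp dvd_rfl
    rw [finFieldFactor_card_pow (k := k)] at h
    exact (hf.natDegree_dvd_iff_dvd_X_pow_card_pow_sub_X).mpr
      (finFieldFactor_dvd_of_factor_dvd hf hq hqf _ h)
  -- (i) `d ∣ n / gcd n m`
  have h1 : d ∣ n / Nat.gcd n m := by
    rw [hq.natDegree_dvd_iff_dvd_X_pow_card_pow_sub_X, finFieldFactor_card_pow (k := k)]
    have h3 : f ∣ X ^ (Nat.card k) ^ (m * (n / Nat.gcd n m)) - X := by
      rw [← hf.natDegree_dvd_iff_dvd_X_pow_card_pow_sub_X]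
      refine ⟨m / Nat.gcd n m, ?_⟩
      rw [← hn]
      have e1 : n = Nat.gcd n m * (n / Nat.gcd n m) := (Nat.mul_div_cancel' (Nat.gcd_dvd_left n m)).symm
      have e2 : m = Nat.gcd n m * (m / Nat.gcd n m) := (Nat.mul_div_cancel' (Nat.gcd_dvd_right n m)).symm
      calc m * (n / Nat.gcd n m) = (Nat.gcd n m * (m / Nat.gcd n m)) * (n / Nat.gcd n m) := by
            rw [← e2]
        _ = (Nat.gcd n m * (n / Nat.gcd n m)) * (m / Nat.gcd n m) := by ring
        _ = n * (m / Nat.gcd n m) := by rw [← e1]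
    have h4 := (map_dvd (mapRingHom (algebraMap k k')) h3)
    have h5 : q ∣ (X ^ (Nat.card k) ^ (m * (n / Nat.gcd n m)) - X : k[X]).map (algebraMap k k') :=
      hqf.trans h4
    simpa using h5
  -- combine
  have key : ∀ g a b : ℕ, 0 < g → n = g * a → m = g * b → Nat.Coprime a b → d ∣ a →
      d * g = n := by
    intro g a b hg e1 e2 hcop hda
    have h6 : a ∣ d := by
      have : a ∣ b * d := by
        have h2' : g * a ∣ g * (b * d) := by
          rw [← mul_assoc, ← e1, ← e2]; exact h2
        exact (Nat.mul_dvd_mul_iff_left hg).mp h2'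
      exact hcop.dvd_of_dvd_mul_left this
    rw [Nat.dvd_antisymm hda h6, e1, mul_comm]
  exact key (Nat.gcd n m) (n / Nat.gcd n m) (m / Nat.gcd n m) hg0
    (Nat.mul_div_cancel' (Nat.gcd_dvd_left n m)).symm
    (Nat.mul_div_cancel' (Nat.gcd_dvd_right n m)).symm
    (Nat.coprime_div_gcd_div_gcd hg0) h1

/-- the special case `[k' : k] ∣ deg f`. -/
theorem finFieldFactor_natDegree_of_dvd {f : k[X]} (hf : Irreducible f) {q : k'[X]}
    (hq : Irreducible q) (hqf : q ∣ f.map (algebraMap k k'))
    (hdvd : Module.finrank k k' ∣ f.natDegree) :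
    q.natDegree * Module.finrank k k' = f.natDegree := by
  have := finFieldFactor_natDegree_mul_gcd hf hq hqf
  rwa [Nat.gcd_eq_right hdvd] at this

end

end Fermat.Agent.CFT
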