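import Fermat.Agent.CFT.Local.UnramifiedFrob
import Fermat.Agent.CFT.Coh.H2Units

set_option autoImplicit false
set_option linter.unusedSectionVars false
set_option linter.style.haveILetI false

/-!
# CFT stream [B] Local, Tier 2 : compatibility of Frobenius elements in the unramified square

`K ≤ K'` unramified with Frobenius `σK`, `L ≤ E` with Frobenius `σL`, `K ≤ L`, `K' ≤ E`,
`|k_L| = |k_K| ^ f`: then `σL` restricted to `K'` is `σK ^ f`.
-/

namespace Fermat.Agent.CFT

open IsLocalRing

section

variable (A K K' A' : Type) [CommRing A] [IsDomain A] [IsDiscreteValuationRing A]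
  [Finite (ResidueField A)]
  [Field K] [Algebra A K] [IsFractionRing A K]
  [Field K'] [Algebra K K'] [Algebra A K'] [IsScalarTower A K K'] [FiniteDimensional K K']
  [IsGalois K K']
  [CommRing A'] [IsDomain A'] [IsDiscreteValuationRing A'] [Algebra A A'] [Algebra A' K']
  [IsScalarTower A A' K'] [IsIntegralClosure A' A K']

/-- Two elements of `Gal(K'/K)`, `K'/K` unramified, which agree modulo `𝔪_{A'}` on `A'` are
equal. -/
theorem galois_eq_of_forall_sub_mem_maximalIdeal (hunr : IsUnramifiedExt A A')
    (τ τ' : K' ≃ₐ[K] K')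
    (h : ∀ b : A', ∃ c ∈ maximalIdeal A', τ (algebraMap A' K' b) = τ' (algebraMap A' K' b) +
      algebraMap A' K' c) : τ = τ' := by
  classical
  have : Module.Finite A A' := aklb_finite A K K' A'
  have : FaithfulSMul A A' := aklb_faithfulSMul A K K' A'
  have : IsFractionRing A' K' := IsIntegralClosure.isFractionRing_of_finite_extension A K K' A'
  have : Algebra.IsIntegral A A' := IsIntegralClosure.isIntegral_algebra A K'
  let : MulSemiringAction (K' ≃ₐ[K] K') A' := IsIntegralClosure.MulSemiringAction A K K' A'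
  have : IsGaloisGroup (K' ≃ₐ[K] K') A A' := IsGaloisGroup.of_isFractionRing (K' ≃ₐ[K] K') A A' K K'
  have : Finite (A ⧸ maximalIdeal A) := inferInstanceAs (Finite (ResidueField A))
  have hbij := residueHom_bijective (K' ≃ₐ[K] K') A A' hunr
  apply hbij.1
  ext x
  obtain ⟨b, rfl⟩ := Ideal.Quotient.mk_surjective x
  rw [residueHom_mk, residueHom_mk, Ideal.Quotient.eq]
  obtain ⟨c, hc, hcb⟩ := h b
  have h1 : algebraMap A' K' (τ • b) = τ (algebraMap A' K' b) :=
    algebraMap_galRestrict_apply A τ b
  have h2 : algebraMap A' K' (τ' • b) = τ' (algebraMap A' K' b) :=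
    algebraMap_galRestrict_apply A τ' b
  have h3 : τ • b - τ' • b = c := by
    apply IsFractionRing.injective A' K'
    rw [map_sub, h1, h2, hcb]
    ring
  rw [h3]
  exact hc

end

section

variable {K K' A' : Type} [Field K] [Field K'] [Algebra K K'] [CommRing A'] [IsLocalRing A']
  [Algebra A' K']

/-- Iterating the Frobenius congruence. -/
theorem frobenius_pow_congr {q : ℕ} {σ : K' ≃ₐ[K] K'}
    (hσ : ∀ b : A', ∃ c ∈ maximalIdeal A',
      σ (algebraMap A' K' b) = algebraMap A' K' (b ^ q + c)) (f : ℕ) :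
    ∀ b : A', ∃ c ∈ maximalIdeal A',
      (σ ^ f) (algebraMap A' K' b) = algebraMap A' K' (b ^ q ^ f + c) := by
  induction f with
  | zero =>
    intro b
    exact ⟨0, Ideal.zero_mem _, by simp⟩
  | succ f ih =>
    intro b
    obtain ⟨c₁, hc₁, h₁⟩ := hσ b
    obtain ⟨c₂, hc₂, h₂⟩ := ih (b ^ q + c₁)
    refine ⟨((b ^ q + c₁) ^ q ^ f - (b ^ q) ^ q ^ f) + c₂, ?_, ?_⟩
    · refine Ideal.add_mem _ ?_ hc₂
      obtain ⟨d, hd⟩ := sub_dvd_pow_sub_pow (b ^ q + c₁) (b ^ q) (q ^ f)
      rw [hd, add_sub_cancel_left]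
      exact Ideal.mul_mem_right _ _ hc₁
    · rw [pow_succ, AlgEquiv.mul_apply, h₁, h₂]
      congr 1
      rw [pow_succ, pow_mul]
      ring

end

section Main

variable (A K L B : Type) [CommRing A] [IsDomain A] [IsDiscreteValuationRing A]
  [Finite (ResidueField A)]
  [Field K] [Algebra A K] [IsFractionRing A K]
  [Field L] [Algebra K L] [Algebra A L] [IsScalarTower A K L]
  [CommRing B] [IsDomain B] [IsDiscreteValuationRing B] [Algebra A B] [Algebra B L]
  [IsScalarTower A B L] [IsIntegralClosure B A L]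
  (A' K' : Type) [Field K'] [Algebra K K'] [Algebra A K'] [IsScalarTower A K K']
  [FiniteDimensional K K'] [IsGalois K K']
  [CommRing A'] [IsDomain A'] [IsDiscreteValuationRing A'] [Algebra A A'] [Algebra A' K']
  [IsScalarTower A A' K'] [IsIntegralClosure A' A K']
  (C E : Type) [Field E] [Algebra L E] [Algebra B E] [IsScalarTower B L E]
  [CommRing C] [IsDomain C] [IsDiscreteValuationRing C] [Algebra B C] [Algebra C E]
  [IsScalarTower B C E] [IsIntegralClosure C B E]
  [Algebra K E] [Algebra K' E] [IsScalarTower K K' E] [IsScalarTower K L E]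

include A K L B in
/-- The ring of integers `A'` of `K'` maps into the ring of integers `C` of `E`. -/
theorem exists_algebraMap_eq_of_square (a' : A') :
    ∃ c : C, algebraMap C E c = algebraMap K' E (algebraMap A' K' a') := by
  letI : Algebra A E := ((algebraMap K E).comp (algebraMap A K)).toAlgebra
  have t1 : IsScalarTower A K E := IsScalarTower.of_algebraMap_eq (fun _ => rfl)
  have t2 : IsScalarTower A K' E := IsScalarTower.of_algebraMap_eq (fun x => by
    change algebraMap K E (algebraMap A K x) = algebraMap K' E (algebraMap A K' x)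
    rw [IsScalarTower.algebraMap_apply A K K', ← IsScalarTower.algebraMap_apply K K' E])
  have t3 : IsScalarTower A B E := IsScalarTower.of_algebraMap_eq (fun x => by
    change algebraMap K E (algebraMap A K x) = algebraMap B E (algebraMap A B x)
    rw [IsScalarTower.algebraMap_apply B L E, ← IsScalarTower.algebraMap_apply A B L,
      IsScalarTower.algebraMap_apply A K L, ← IsScalarTower.algebraMap_apply K L E])
  have h1 : IsIntegral A (algebraMap A' K' a') :=
    (IsIntegralClosure.isIntegral_iff (A := A')).mpr ⟨a', rfl⟩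
  have h2 : IsIntegral A (algebraMap K' E (algebraMap A' K' a')) :=
    h1.map (IsScalarTower.toAlgHom A K' E)
  have h3 : IsIntegral B (algebraMap K' E (algebraMap A' K' a')) := h2.tower_top
  exact (IsIntegralClosure.isIntegral_iff (A := C)).mp h3

include A K L B in
/-- An element of `A'` whose image in `E` lies in `𝔪_C` lies in `𝔪_{A'}`. -/
theorem mem_maximalIdeal_of_square (δ : A') (c : C) (hc : c ∈ maximalIdeal C)
    (h : algebraMap C E c = algebraMap K' E (algebraMap A' K' δ)) : δ ∈ maximalIdeal A' := by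
  by_contra hδ
  have hu : IsUnit δ := by
    rw [mem_maximalIdeal, mem_nonunits_iff, not_not] at hδ
    exact hδ
  obtain ⟨u, rfl⟩ := hu
  obtain ⟨c₁, hc₁⟩ := exists_algebraMap_eq_of_square A K L B A' K' C E ((u⁻¹ : A'ˣ) : A')
  have h1 : algebraMap C E (c * c₁) = algebraMap C E 1 := by
    rw [map_mul, h, hc₁, ← map_mul, ← map_mul, Units.mul_inv, map_one, map_one, map_one]
  have hinj : Function.Injective (algebraMap C E) :=
    IsIntegralClosure.algebraMap_injective C B E
  have h2 : c * c₁ = 1 := hinj h1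
  have hcu : IsUnit c := IsUnit.of_mul_eq_one _ h2
  exact (mem_maximalIdeal c).mp hc hcu

include A K L B in
/-- **Frobenius compatibility in the unramified square.** -/
theorem restrictNormal_frobenius_eq_pow (hunr : IsUnramifiedExt A A')
    {σK : K' ≃ₐ[K] K'} {σL : E ≃ₐ[L] E} {q qL f : ℕ}
    (hσK : ∀ b : A', ∃ c ∈ maximalIdeal A',
      σK (algebraMap A' K' b) = algebraMap A' K' (b ^ q + c))
    (hσL : ∀ b : C, ∃ c ∈ maximalIdeal C, σL (algebraMap C E b) = algebraMap C E (b ^ qL + c))
    (hq : qL = q ^ f) :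
    AlgEquiv.restrictNormalHom K' (σL.restrictScalars K) = σK ^ f := by
  apply galois_eq_of_forall_sub_mem_maximalIdeal A K K' A' hunr
  intro b
  set τ : K' ≃ₐ[K] K' := AlgEquiv.restrictNormalHom K' (σL.restrictScalars K) with hτ
  obtain ⟨c₂, hc₂, h₂⟩ := frobenius_pow_congr hσK f b
  obtain ⟨cb, hcb⟩ := exists_algebraMap_eq_of_square A K L B A' K' C E b
  obtain ⟨c', hc', h'⟩ := hσL cb
  set t : A' := galRestrict A K K' A' τ b with ht
  have h1 : algebraMap A' K' t = τ (algebraMap A' K' b) := algebraMap_galRestrict_apply A τ b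
  have h3 : algebraMap K' E (τ (algebraMap A' K' b)) =
      σL (algebraMap K' E (algebraMap A' K' b)) :=
    AlgEquiv.restrictNormal_commutes (σL.restrictScalars K) K' (algebraMap A' K' b)
  have h4 : algebraMap C E c' = algebraMap K' E (algebraMap A' K' (t - b ^ q ^ f)) := by
    rw [map_sub, map_sub, h1, h3, ← hcb, h', map_pow, map_pow, ← hcb, hq, map_add, map_pow]
    ring
  have h5 : t - b ^ q ^ f ∈ maximalIdeal A' :=
    mem_maximalIdeal_of_square A K L B A' K' C E _ c' hc' h4
  refine ⟨t - b ^ q ^ f - c₂, Ideal.sub_mem _ h5 hc₂, ?_⟩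
  rw [← h1, h₂, ← map_add]
  congr 1
  ring

end Main

end Fermat.Agent.CFT
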