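import Mathlib

/-!
# Hensel embedding (S55 local pool, second engine for `Local/UnramifiedOver`)

* `henselEmbed_exists_root` : Hensel lifting of a simple residual root along a local homomorphism
  `A → C` into a complete local ring `C`.
* `henselEmbed_exists_algHom` : a field generated by a root `α` of an irreducible polynomial `g`
  embeds into any field containing a root `θ` of `g`, with `α ↦ θ`.
* `henselEmbed_exists_algHom_of_residue_root` : the combination in a tower `A ⊆ K`, `C ⊆ E`.
-/

set_option autoImplicit false

open Polynomial IsLocalRing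

namespace Fermat.Agent.CFT

/-- **Hensel lifting along a local homomorphism.**  `C` complete local, `A → C` a local
homomorphism, `g ∈ A[X]` monic with separable reduction; every root `rbar` of the image of the
reduction of `g` in the residue field of `C` lifts to a root `θ ∈ C` of `g`. -/
theorem henselEmbed_exists_root {A C : Type*} [CommRing A] [IsLocalRing A] [CommRing C]
    [IsLocalRing C] [Algebra A C] [IsLocalHom (algebraMap A C)]
    [IsAdicComplete (maximalIdeal C) C] (g : A[X]) (hg : g.Monic)
    (hsep : (g.map (residue A)).Separable) (rbar : ResidueField C)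
    (hr : ((g.map (residue A)).map (ResidueField.map (algebraMap A C))).IsRoot rbar) :
    ∃ θ : C, (g.map (algebraMap A C)).IsRoot θ ∧ residue C θ = rbar := by
  obtain ⟨f, hf⟩ : ∃ f : C[X], f = g.map (algebraMap A C) := ⟨_, rfl⟩
  rw [← hf]
  have hfm : f.Monic := hf ▸ hg.map _
  have hmap : f.map (residue C) =
      (g.map (residue A)).map (ResidueField.map (algebraMap A C)) := by
    rw [hf, Polynomial.map_map, Polynomial.map_map]
    congr 1
  have hsep' : (f.map (residue C)).Separable := by
    rw [hmap]; exact hsep.map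
  obtain ⟨c₀, rfl⟩ := residue_surjective rbar
  have hβ : (f.map (residue C)).eval (residue C c₀) = 0 := by
    rw [hmap]; exact hr
  have h₁ : f.eval c₀ ∈ maximalIdeal C := by
    rw [← residue_eq_zero_iff, ← hβ, eval_map, eval₂_at_apply]
  have h₂ : IsUnit (Ideal.Quotient.mk (maximalIdeal C) (f.derivative.eval c₀)) := by
    have h3 : (f.map (residue C)).derivative.eval (residue C c₀) ≠ 0 := by
      have := hsep'.eval₂_derivative_ne_zero (RingHom.id _) (x := residue C c₀)
        (by rw [eval₂_id]; exact hβ)
      rwa [eval₂_id] at this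
    rw [derivative_map, eval_map, eval₂_at_apply] at h3
    exact (isUnit_iff_ne_zero (G₀ := ResidueField C)).mpr h3
  obtain ⟨c, hc, hcc⟩ := HenselianRing.is_henselian (I := maximalIdeal C) f hfm c₀ h₁ h₂
  refine ⟨c, hc, ?_⟩
  rw [← sub_eq_zero, ← map_sub, residue_eq_zero_iff]
  exact hcc

/-- A field `K'` generated over `K` by a root `α` of an irreducible `g` embeds over `K` into any
field containing a root `θ` of `g`, sending `α` to `θ`. -/
theorem henselEmbed_exists_algHom {K K' E : Type*} [Field K] [Field K'] [Field E] [Algebra K K']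
    [Algebra K E] (g : K[X]) (hirr : Irreducible g) (α : K') (hα : aeval α g = 0)
    (htop : IntermediateField.adjoin K {α} = ⊤) (θ : E) (hθ : aeval θ g = 0) :
    ∃ φ : K' →ₐ[K] E, φ α = θ := by
  have hg0 : g ≠ 0 := hirr.ne_zero
  have hint : IsIntegral K α := ⟨g * C g.leadingCoeff⁻¹, monic_mul_leadingCoeff_inv hg0, by
    rw [← aeval_def, map_mul, hα, zero_mul]⟩
  have hdvd : minpoly K α ∣ g := minpoly.dvd K α hα
  have hdvd' : g ∣ minpoly K α := (minpoly.irreducible hint).dvd_symm hirr hdvd
  have hθ' : aeval θ (minpoly K α) = 0 := by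
    obtain ⟨q, hq⟩ := hdvd'
    rw [hq, map_mul, hθ, zero_mul]
  have hmem : θ ∈ (minpoly K α).aroots E := by
    rw [mem_aroots]
    exact ⟨minpoly.ne_zero hint, hθ'⟩
  let φ₀ : IntermediateField.adjoin K {α} →ₐ[K] E :=
    (IntermediateField.algHomAdjoinIntegralEquiv K hint).symm ⟨θ, hmem⟩
  have hφ₀ : φ₀ (IntermediateField.AdjoinSimple.gen K α) = θ :=
    IntermediateField.algHomAdjoinIntegralEquiv_symm_apply_gen K hint ⟨θ, hmem⟩
  let e : K' ≃ₐ[K] IntermediateField.adjoin K {α} :=
    (IntermediateField.topEquiv (F := K) (E := K')).symm.trans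
      (IntermediateField.equivOfEq htop.symm)
  refine ⟨φ₀.comp e.toAlgHom, ?_⟩
  have he : e α = IntermediateField.AdjoinSimple.gen K α := Subtype.ext rfl
  rw [AlgHom.comp_apply]
  show φ₀ (e α) = θ
  rw [he, hφ₀]

/-- **Hensel embedding.**  Tower `A ⊆ K`, `C ⊆ E` with `C` complete local and `A → C` local.  If
`g ∈ A[X]` is monic with separable reduction, irreducible over `K`, and `K'` is generated over `K`
by a root `α` of `g`, then every root `rbar` of the reduction of `g` in the residue field of `C`
gives a `K`-embedding `K' → E` sending `α` to (the image of) a lift `θ ∈ C` of `rbar`. -/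
theorem henselEmbed_exists_algHom_of_residue_root {A C K K' E : Type*} [CommRing A]
    [IsLocalRing A] [CommRing C] [IsLocalRing C] [Algebra A C] [IsLocalHom (algebraMap A C)]
    [IsAdicComplete (maximalIdeal C) C] [Field K] [Field K'] [Field E] [Algebra A K]
    [Algebra K K'] [Algebra K E] [Algebra C E] [Algebra A E] [IsScalarTower A C E]
    [IsScalarTower A K E] (g : A[X]) (hg : g.Monic)
    (hsep : (g.map (residue A)).Separable) (hirr : Irreducible (g.map (algebraMap A K)))
    (α : K') (hα : aeval α (g.map (algebraMap A K)) = 0)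
    (htop : IntermediateField.adjoin K {α} = ⊤) (rbar : ResidueField C)
    (hr : ((g.map (residue A)).map (ResidueField.map (algebraMap A C))).IsRoot rbar) :
    ∃ (φ : K' →ₐ[K] E) (θ : C), φ α = algebraMap C E θ ∧ residue C θ = rbar ∧
      (g.map (algebraMap A C)).IsRoot θ := by
  obtain ⟨θ, hθ, hθr⟩ := henselEmbed_exists_root g hg hsep rbar hr
  have hθE : aeval (algebraMap C E θ) (g.map (algebraMap A K)) = 0 := by
    rw [aeval_map_algebraMap, aeval_algebraMap_apply]
    rw [IsRoot.def, eval_map, ← aeval_def] at hθ
    rw [hθ, map_zero]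
  obtain ⟨φ, hφ⟩ := henselEmbed_exists_algHom _ hirr α hα htop _ hθE
  exact ⟨φ, θ, hφ, hθr, hθ⟩

end Fermat.Agent.CFT
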