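import Fermat.Agent.CFT.Local.CupCyclic
import Fermat.Agent.CFT.Local.CyclicCocycleField
import Fermat.Agent.CFT.Local.LocalField
import Fermat.Agent.CFT.Coh.H2Units

set_option autoImplicit false
set_option linter.unusedSectionVars false
set_option linter.style.haveILetI false

/-!
# CFT stream [B] Local, (LH2) : the local Hilbert pairing is nondegenerate (cochain form)

`K` a local field (`IsLocalFieldNA K`), `Ω / K` a Galois extension (possibly infinite),
`G = Gal(Ω/K)`, `p` a prime.

* `mem_normSubgroup_of_inflation_eq` : finite level, `K ⊆ E ⊆ L`: if the inflation to `L / K` of the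
  cyclic cocycle of `a ∈ Kˣ` for the cyclic extension `E / K` is a coboundary then `a ∈ N(Eˣ)`
  (injectivity of inflation, `Coh/H2Units`).
* `exists_not_coboundary_cup_kummer` : finite level left nondegeneracy.
* `mem_normSubgroup_of_lc_coboundary` : the same at the level of `G` for level-constant cochains
  (descent to a finite Galois level, `exists_descent_cochain`).
* `exists_forall_not_lc_coboundary_cup_kummer` : for a nontrivial level-constant character
  `χ : G → ZMod p` there is `a ∈ Kˣ` such that `χ ∪ δ_Kummer(a)` is not a level-constant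
  coboundary (`a` is any non-norm from the cyclic extension cut out by `χ`, which exists because
  the norm index is `p`; `Local/CupCyclic` identifies the cup product with the cyclic class).
* `exists_character_not_lc_coboundary` : if `μ_p ⊆ K`, the pairing `(χ, ψ) ↦ [ζ ^ (χ g · ψ h)]`
  on level-constant characters is nondegenerate on both sides (skew-symmetry `zmodPair_skew`).
-/

namespace Fermat.Agent.CFT

open groupCohomology IntermediateField

section Tower

variable (K E L : Type) [Field K] [Field E] [Field L] [Algebra K E] [Algebra K L] [Algebra E L]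
  [IsScalarTower K E L] [FiniteDimensional K L] [IsGalois K L] [FiniteDimensional K E]
  [IsGalois K E] {σ : E ≃ₐ[K] E} (hσ : ∀ τ, τ ∈ Subgroup.zpowers σ)

include hσ in
/-- If the inflation to `L / K` of the cyclic cocycle of `a ∈ Kˣ` for the cyclic extension `E / K`
is a coboundary, then `a` is a norm from `E`. -/
theorem mem_normSubgroup_of_inflation_eq (a : Kˣ) (f : (L ≃ₐ[K] L) → Lˣ)
    (hf : ∀ g h : L ≃ₐ[K] L,
      (Units.map (algebraMap K L : K →* L) a) ^
          ((cupIdx σ (galProj K E L) g + cupIdx σ (galProj K E L) h) / orderOf σ) =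
        g • f h * f g / f (g * h)) :
    a ∈ normSubgroup K E := by
  rw [← cycClassField_eq_zero_iff_mem K E hσ]
  apply H2unitsInf_injective K E L
  rw [map_zero]
  let cE : cocycles₂ (Rep.ofAlgebraAutOnUnits K E) :=
    cocyclesOfIsMulCocycle₂ (isMulCocycle₂_mulCycCocycle hσ
      (fun τ => smul_units_map_algebraMap K E τ a))
  have e1 : cycClassField K E hσ a = H2π (Rep.ofAlgebraAutOnUnits K E) cE := rfl
  rw [e1, H2π_comp_map_apply (galProj K E L), H2π_eq_zero_iff]
  have hcob : IsMulCoboundary₂ (G := L ≃ₐ[K] L) (M := Lˣ) (fun gh =>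
      (Units.map (algebraMap K L : K →* L) a) ^
          ((cupIdx σ (galProj K E L) gh.1 + cupIdx σ (galProj K E L) gh.2) / orderOf σ)) := by
    refine ⟨f, fun g h => ?_⟩
    change g • f h / f (g * h) * f g = (Units.map (algebraMap K L : K →* L) a) ^
          ((cupIdx σ (galProj K E L) g + cupIdx σ (galProj K E L) h) / orderOf σ)
    rw [hf g h, div_mul_eq_mul_div]
  have h3 := (coboundariesOfIsMulCoboundary₂ hcob).2
  have h4 : (mapCocycles₂ (galProj K E L) (unitsInfHom K E L) cE :
      (L ≃ₐ[K] L) × (L ≃ₐ[K] L) → (Rep.ofAlgebraAutOnUnits K L)) =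
      ((coboundariesOfIsMulCoboundary₂ hcob).1) := by
    funext ⟨x, y⟩
    change Additive.ofMul (Units.map (algebraMap E L : E →* L)
      (mulCycCocycle σ (Units.map (algebraMap K E : K →* E) a)
        ((galProj K E L) x, (galProj K E L) y))) = Additive.ofMul _
    rw [mulCycCocycle_apply, map_pow]
    congr 2
    ext
    change algebraMap E L (algebraMap K E (a : K)) = algebraMap K L (a : K)
    rw [← IsScalarTower.algebraMap_apply K E L]
  rw [h4]
  exact h3

end Tower

section FiniteLevel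

variable {K L : Type} [Field K] [Field L] [Algebra K L] [FiniteDimensional K L] [IsGalois K L]
  {p : ℕ} [Fact p.Prime]

/-- **Left nondegeneracy of the Hilbert pairing, finite level.**  For a nontrivial character `χ`
of `Gal(L/K)` (`K` a local field) there is `a ∈ Kˣ` such that for every `p`-th root `α ∈ Lˣ` of
`a` the 2-cochain `χ ∪ b_α`, `b_α g = g α / α`, is not the coboundary of any `e : Gal(L/K) → Lˣ`. -/
theorem exists_not_coboundary_cup_kummer (hK : IsLocalFieldNA K)
    (χ : (L ≃ₐ[K] L) →* Multiplicative (ZMod p)) (hχ : ∃ g, χ g ≠ 1) :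
    ∃ a : Kˣ, ∀ α : Lˣ, α ^ p = Units.map (algebraMap K L : K →* L) a →
      ¬ ∃ e : (L ≃ₐ[K] L) → Lˣ, ∀ g h : L ≃ₐ[K] L,
        (g • kummerCochain α h) ^ (Multiplicative.toAdd (χ g)).val = g • e h * e g / e (g * h) := by
  classical
  have hp : p.Prime := Fact.out
  let E : IntermediateField K L := IntermediateField.fixedField χ.ker
  haveI : χ.ker.Normal := MonoidHom.normal_ker χ
  haveI hgalE : IsGalois K E := IsGalois.of_fixedField_normal_subgroup χ.ker
  have hsurj : Function.Surjective (galProj K E L) := AlgEquiv.restrictNormalHom_surjective L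
  have hker : (galProj K E L).ker = χ.ker := by
    rw [IntermediateField.restrictNormalHom_ker E, IntermediateField.fixingSubgroup_fixedField]
  obtain ⟨σ, hσ, hord, hidx⟩ := exists_generator_cupIdx_eq (galProj K E L) χ hsurj hker hχ
  haveI : IsCyclic (E ≃ₐ[K] E) := ⟨σ, hσ⟩
  have hindex : (normSubgroup K E).index = p := by
    rw [hK.normSubgroup_index, ← IsGalois.card_aut_eq_finrank,
      ← orderOf_eq_card_of_forall_mem_zpowers hσ, hord]
  obtain ⟨a, ha⟩ : ∃ a : Kˣ, a ∉ normSubgroup K E := by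
    by_contra hall
    push Not at hall
    have : normSubgroup K E = ⊤ := (Subgroup.eq_top_iff' _).mpr hall
    rw [this, Subgroup.index_top] at hindex
    exact hp.one_lt.ne hindex
  refine ⟨a, fun α hα => ?_⟩
  rintro ⟨e, he⟩
  apply ha
  have hαinv : ∀ g : L ≃ₐ[K] L, g • (α ^ orderOf σ) = α ^ orderOf σ := fun g => by
    rw [hord, hα]; exact smul_units_map_algebraMap K L g a
  refine mem_normSubgroup_of_inflation_eq K E L hσ a
    (fun g => e g * cupCycCochain σ (galProj K E L) α g) (fun g h => ?_)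
  have h1 := cup_kummer_mul_eq hσ (galProj K E L) α hαinv g h
  have he' : (g • kummerCochain α h) ^ cupIdx σ (galProj K E L) g =
      g • e h * e g / e (g * h) := by rw [hidx]; exact he g h
  have hαp : α ^ orderOf σ = Units.map (algebraMap K L : K →* L) a := by rw [hord, hα]
  rw [he', hαp] at h1
  have h2 : (Units.map (algebraMap K L : K →* L) a) ^
      ((cupIdx σ (galProj K E L) g + cupIdx σ (galProj K E L) h) / orderOf σ) =
      g • e h * e g / e (g * h) * (g • cupCycCochain σ (galProj K E L) α h *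
        cupCycCochain σ (galProj K E L) α g) / cupCycCochain σ (galProj K E L) α (g * h) := by
    rw [h1, mul_div_cancel_right]
  rw [h2, smul_mul', div_mul_eq_mul_div, div_div, mul_mul_mul_comm]

end FiniteLevel

section Descent

variable {K Ω : Type} [Field K] [Field Ω] [Algebra K Ω] [IsGalois K Ω]

/-- A unit of `Ω` fixed by `Gal(Ω/L)` is a unit of `L`. -/
theorem exists_units_eq_of_fixed (L : IntermediateField K Ω) (x : Ωˣ)
    (hx : ∀ u ∈ L.fixingSubgroup, u • x = x) :
    ∃ y : (↥L)ˣ, Units.map (algebraMap L Ω : L →* Ω) y = x := by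
  have hmem : ∀ z : Ωˣ, (∀ u ∈ L.fixingSubgroup, u • z = z) → (z : Ω) ∈ L := by
    intro z hz
    rw [← InfiniteGalois.fixedField_fixingSubgroup L, IntermediateField.mem_fixedField_iff]
    intro u hu
    exact congrArg Units.val (hz u hu)
  have h1 : (x : Ω) ∈ L := hmem x hx
  have h2 : ((x⁻¹ : Ωˣ) : Ω) ∈ L := hmem x⁻¹ (fun u hu => by rw [smul_inv', hx u hu])
  refine ⟨⟨⟨x, h1⟩, ⟨(x⁻¹ : Ωˣ), h2⟩, ?_, ?_⟩, ?_⟩
  · apply Subtype.ext; simp
  · apply Subtype.ext; simp
  · ext; rfl

/-- Descent of a level-`L` 1-cochain on `Gal(Ω/K)` to `Gal(L/K)`. -/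
theorem exists_descent_cochain (L : IntermediateField K Ω) [FiniteDimensional K L] [IsGalois K L]
    (f : (Ω ≃ₐ[K] Ω) → Ωˣ)
    (h1 : ∀ g h : Ω ≃ₐ[K] Ω, g⁻¹ * h ∈ L.fixingSubgroup → f g = f h)
    (h2 : ∀ g : Ω ≃ₐ[K] Ω, ∀ u ∈ L.fixingSubgroup, u • f g = f g) :
    ∃ fL : (L ≃ₐ[K] L) → (↥L)ˣ, ∀ g : Ω ≃ₐ[K] Ω,
      Units.map (algebraMap L Ω : L →* Ω) (fL (AlgEquiv.restrictNormalHom L g)) = f g := by
  classical
  have hsurj : Function.Surjective (AlgEquiv.restrictNormalHom (F := K) (K₁ := Ω) L) :=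
    AlgEquiv.restrictNormalHom_surjective Ω
  choose s hs using hsurj
  choose y hy using fun g => exists_units_eq_of_fixed L (f g) (h2 g)
  refine ⟨fun τ => y (s τ), fun g => ?_⟩
  rw [hy]
  apply h1
  rw [← IntermediateField.restrictNormalHom_ker, MonoidHom.mem_ker, map_mul, map_inv, hs,
    inv_mul_cancel]

/-- Restriction in a tower of intermediate fields `E ≤ L` of `Ω / K`. -/
theorem restrictNormalHom_tower (E L : IntermediateField K Ω) [Normal K E] [Normal K L]
    (hEL : E ≤ L) (g : Ω ≃ₐ[K] Ω) :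
    letI : Algebra E L := (IntermediateField.inclusion hEL).toRingHom.toAlgebra
    haveI : IsScalarTower K E L := IsScalarTower.of_algebraMap_eq (fun _ => rfl)
    AlgEquiv.restrictNormalHom (F := K) (K₁ := L) E (AlgEquiv.restrictNormalHom L g) =
      AlgEquiv.restrictNormalHom E g := by
  letI : Algebra E L := (IntermediateField.inclusion hEL).toRingHom.toAlgebra
  haveI : IsScalarTower K E L := IsScalarTower.of_algebraMap_eq (fun _ => rfl)
  haveI : IsScalarTower E L Ω := IsScalarTower.of_algebraMap_eq (fun _ => rfl)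
  apply AlgEquiv.ext
  intro x
  apply (algebraMap E Ω).injective
  change algebraMap E Ω ((AlgEquiv.restrictNormal (AlgEquiv.restrictNormal g L) E) x) =
    algebraMap E Ω ((AlgEquiv.restrictNormal g E) x)
  rw [AlgEquiv.restrictNormal_commutes g E x, IsScalarTower.algebraMap_apply E L Ω,
    AlgEquiv.restrictNormal_commutes (AlgEquiv.restrictNormal g L) E x,
    AlgEquiv.restrictNormal_commutes g L, ← IsScalarTower.algebraMap_apply E L Ω]


set_option synthInstance.maxHeartbeats 400000 in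
/-- **Descent.**  `E ≤ L` finite Galois subextensions of `Ω / K`, `σ` a generator of `Gal(E/K)`.
If the inflation to `Gal(Ω/K)` of the cyclic cocycle of `a ∈ Kˣ` is the coboundary of a 1-cochain
`f` of level `L`, then `a` is a norm from `E`. -/
theorem mem_normSubgroup_of_lc_coboundary (E L : IntermediateField K Ω) [FiniteDimensional K E]
    [IsGalois K E] [FiniteDimensional K L] [IsGalois K L] (hEL : E ≤ L) {σ : E ≃ₐ[K] E}
    (hσ : ∀ τ, τ ∈ Subgroup.zpowers σ) (a : Kˣ) (f : (Ω ≃ₐ[K] Ω) → Ωˣ)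
    (h1 : ∀ g h : Ω ≃ₐ[K] Ω, g⁻¹ * h ∈ L.fixingSubgroup → f g = f h)
    (h2 : ∀ g : Ω ≃ₐ[K] Ω, ∀ u ∈ L.fixingSubgroup, u • f g = f g)
    (hf : ∀ g h : Ω ≃ₐ[K] Ω, (Units.map (algebraMap K Ω : K →* Ω) a) ^
        ((cupIdx σ (AlgEquiv.restrictNormalHom E) g + cupIdx σ (AlgEquiv.restrictNormalHom E) h) /
          orderOf σ) = g • f h * f g / f (g * h)) :
    a ∈ normSubgroup K E := by
  letI : Algebra E L := (IntermediateField.inclusion hEL).toRingHom.toAlgebra
  haveI : IsScalarTower K E L := IsScalarTower.of_algebraMap_eq (fun _ => rfl)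
  haveI : IsScalarTower E L Ω := IsScalarTower.of_algebraMap_eq (fun _ => rfl)
  obtain ⟨fL, hfL⟩ := exists_descent_cochain L f h1 h2
  have hsurj : Function.Surjective (AlgEquiv.restrictNormalHom (F := K) (K₁ := Ω) L) :=
    AlgEquiv.restrictNormalHom_surjective Ω
  have hinj : Function.Injective (Units.map (algebraMap L Ω : L →* Ω)) :=
    Units.map_injective (algebraMap L Ω).injective
  have hact : ∀ (g : Ω ≃ₐ[K] Ω) (y : (↥L)ˣ), Units.map (algebraMap L Ω : L →* Ω)
      ((AlgEquiv.restrictNormalHom L g) • y) = g • Units.map (algebraMap L Ω : L →* Ω) y := by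
    intro g y
    ext
    exact AlgEquiv.restrictNormal_commutes g L (y : L)
  refine mem_normSubgroup_of_inflation_eq K E L hσ a fL (fun τ τ' => ?_)
  obtain ⟨g, rfl⟩ := hsurj τ
  obtain ⟨h, rfl⟩ := hsurj τ'
  apply hinj
  rw [map_pow, map_div, map_mul, hact, ← map_mul, hfL, hfL, hfL]
  have e1 : Units.map (algebraMap L Ω : L →* Ω) (Units.map (algebraMap K L : K →* L) a) =
      Units.map (algebraMap K Ω : K →* Ω) a := by
    ext; rfl
  have e2 : ∀ g : Ω ≃ₐ[K] Ω, cupIdx σ (galProj K E L) (AlgEquiv.restrictNormalHom L g) =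
      cupIdx σ (AlgEquiv.restrictNormalHom E) g := by
    intro g
    unfold cupIdx
    congr 1
    exact restrictNormalHom_tower E L hEL g
  rw [e1, e2, e2]
  exact hf g h


/-- The fixed field of the kernel of a character of `Gal(Ω/K)` which is trivial on `Gal(Ω/L₀)`,
`L₀ / K` finite Galois. -/
theorem exists_field_of_character {X : Type*} [Group X] (χ : (Ω ≃ₐ[K] Ω) →* X)
    (L₀ : IntermediateField K Ω) [FiniteDimensional K L₀] [IsGalois K L₀]
    (h₀ : L₀.fixingSubgroup ≤ χ.ker) :
    ∃ E : IntermediateField K Ω, E ≤ L₀ ∧ FiniteDimensional K E ∧ IsGalois K E ∧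
      E.fixingSubgroup = χ.ker := by
  classical
  let E : IntermediateField K Ω := IntermediateField.fixedField χ.ker
  have hle : E ≤ L₀ := by
    intro x hx
    rw [← InfiniteGalois.fixedField_fixingSubgroup L₀, IntermediateField.mem_fixedField_iff]
    intro u hu
    exact (IntermediateField.mem_fixedField_iff _ _).mp hx u (h₀ hu)
  have hfd : FiniteDimensional K E :=
    FiniteDimensional.of_injective (IntermediateField.inclusion hle).toLinearMap
      (IntermediateField.inclusion hle).injective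
  have hfix : E.fixingSubgroup = χ.ker := by
    apply le_antisymm
    · intro g hg
      -- finite level
      let π₀ := AlgEquiv.restrictNormalHom (F := K) (K₁ := Ω) L₀
      let H₀ : Subgroup (L₀ ≃ₐ[K] L₀) := χ.ker.map π₀
      have hτ : π₀ g ∈ (IntermediateField.fixedField H₀).fixingSubgroup := by
        rw [IntermediateField.mem_fixingSubgroup_iff]
        intro x hx
        have hxE : (x : Ω) ∈ E := by
          rw [IntermediateField.mem_fixedField_iff]
          intro u hu
          have h3 := (IntermediateField.mem_fixedField_iff _ _).mp hx (π₀ u)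
            (Subgroup.mem_map_of_mem _ hu)
          have h4 := AlgEquiv.restrictNormal_commutes u L₀ x
          change algebraMap L₀ Ω (π₀ u x) = u (algebraMap L₀ Ω x) at h4
          rw [h3] at h4
          exact h4.symm
        have h5 : g (x : Ω) = x := (IntermediateField.mem_fixingSubgroup_iff _ _).mp hg _ hxE
        apply Subtype.ext
        have h6 := AlgEquiv.restrictNormal_commutes g L₀ x
        change algebraMap L₀ Ω (π₀ g x) = g (algebraMap L₀ Ω x) at h6
        rw [show ((π₀ g x : L₀) : Ω) = algebraMap L₀ Ω (π₀ g x) from rfl, h6]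
        exact h5
      rw [IntermediateField.fixingSubgroup_fixedField] at hτ
      obtain ⟨u, hu, huτ⟩ := hτ
      have h7 : u⁻¹ * g ∈ π₀.ker := by
        rw [MonoidHom.mem_ker, map_mul, map_inv, huτ, inv_mul_cancel]
      rw [IntermediateField.restrictNormalHom_ker] at h7
      have h8 := χ.ker.mul_mem hu (h₀ h7)
      rwa [mul_inv_cancel_left] at h8
    · exact (IntermediateField.le_iff_le _ _).mp le_rfl
  refine ⟨E, hle, hfd, ?_, hfix⟩
  rw [← InfiniteGalois.normal_iff_isGalois, hfix]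
  exact MonoidHom.normal_ker χ

/-- **Left nondegeneracy of the local Hilbert pairing** (cochain form).  `K` a local field,
`Ω / K` Galois, `χ` a nontrivial character `Gal(Ω/K) → ZMod p` trivial on `Gal(Ω/L₀)` for a finite
`L₀ / K`.  There is `a ∈ Kˣ` such that for every `p`-th root `α ∈ Ωˣ` of `a`, the 2-cochain
`χ ∪ b_α`, `(g, h) ↦ (g • b_α h) ^ χ g`, `b_α g = g α / α`, is not the coboundary of any
level-constant 1-cochain `e : Gal(Ω/K) → Ωˣ`. -/
theorem exists_forall_not_lc_coboundary_cup_kummer (hK : IsLocalFieldNA K) {p : ℕ} [Fact p.Prime]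
    (χ : (Ω ≃ₐ[K] Ω) →* Multiplicative (ZMod p)) (hχ : ∃ g, χ g ≠ 1)
    (L₀ : IntermediateField K Ω) [FiniteDimensional K L₀] (h₀ : L₀.fixingSubgroup ≤ χ.ker) :
    ∃ a : Kˣ, ∀ α : Ωˣ, α ^ p = Units.map (algebraMap K Ω : K →* Ω) a →
      ¬ ∃ (e : (Ω ≃ₐ[K] Ω) → Ωˣ) (L₁ : IntermediateField K Ω), FiniteDimensional K L₁ ∧
        (∀ g h : Ω ≃ₐ[K] Ω, g⁻¹ * h ∈ L₁.fixingSubgroup → e g = e h) ∧
        (∀ g : Ω ≃ₐ[K] Ω, ∀ u ∈ L₁.fixingSubgroup, u • e g = e g) ∧
        ∀ g h : Ω ≃ₐ[K] Ω, (g • kummerCochain α h) ^ (Multiplicative.toAdd (χ g)).val =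
          g • e h * e g / e (g * h) := by
  classical
  have hp : p.Prime := Fact.out
  -- pass to the normal closure of `L₀`
  let L₀' : IntermediateField K Ω := IntermediateField.normalClosure K L₀ Ω
  haveI : FiniteDimensional K L₀' := normalClosure.is_finiteDimensional K L₀ Ω
  haveI : IsGalois K L₀' := IsGalois.normalClosure K L₀ Ω
  have h₀' : L₀'.fixingSubgroup ≤ χ.ker :=
    le_trans (IntermediateField.fixingSubgroup_antitone (IntermediateField.le_normalClosure L₀)) h₀
  obtain ⟨E, hEL₀, hEfd, hEgal, hEfix⟩ := exists_field_of_character χ L₀' h₀'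
  have hsurj : Function.Surjective (AlgEquiv.restrictNormalHom (F := K) (K₁ := Ω) E) :=
    AlgEquiv.restrictNormalHom_surjective Ω
  have hker : (AlgEquiv.restrictNormalHom (F := K) (K₁ := Ω) E).ker = χ.ker := by
    rw [IntermediateField.restrictNormalHom_ker, hEfix]
  obtain ⟨σ, hσ, hord, hidx⟩ :=
    exists_generator_cupIdx_eq (AlgEquiv.restrictNormalHom (F := K) (K₁ := Ω) E) χ hsurj hker hχ
  haveI : IsCyclic (E ≃ₐ[K] E) := ⟨σ, hσ⟩
  have hindex : (normSubgroup K E).index = p := by
    rw [hK.normSubgroup_index, ← IsGalois.card_aut_eq_finrank,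
      ← orderOf_eq_card_of_forall_mem_zpowers hσ, hord]
  obtain ⟨a, ha⟩ : ∃ a : Kˣ, a ∉ normSubgroup K E := by
    by_contra hall
    push Not at hall
    have : normSubgroup K E = ⊤ := (Subgroup.eq_top_iff' _).mpr hall
    rw [this, Subgroup.index_top] at hindex
    exact hp.one_lt.ne hindex
  refine ⟨a, fun α hα => ?_⟩
  rintro ⟨e, L₁, hL₁fd, he1, he2, he⟩
  apply ha
  set π := AlgEquiv.restrictNormalHom (F := K) (K₁ := Ω) E with hπ
  -- the big field
  let M : IntermediateField K Ω := E ⊔ L₁ ⊔ K⟮(α : Ω)⟯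
  have hαalg : IsIntegral K (α : Ω) := Algebra.IsIntegral.isIntegral _
  haveI : FiniteDimensional K K⟮(α : Ω)⟯ := IntermediateField.adjoin.finiteDimensional hαalg
  haveI : FiniteDimensional K M := by
    haveI : FiniteDimensional K (E ⊔ L₁ : IntermediateField K Ω) :=
      IntermediateField.finiteDimensional_sup E L₁
    exact IntermediateField.finiteDimensional_sup _ _
  let L : IntermediateField K Ω := IntermediateField.normalClosure K M Ω
  haveI : FiniteDimensional K L := normalClosure.is_finiteDimensional K M Ω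
  haveI : IsGalois K L := IsGalois.normalClosure K M Ω
  have hML : M ≤ L := IntermediateField.le_normalClosure M
  have hEL : E ≤ L := le_trans (le_trans le_sup_left le_sup_left) hML
  have hL₁L : L₁ ≤ L := le_trans (le_trans le_sup_right le_sup_left) hML
  have hαL : (α : Ω) ∈ L := hML (le_sup_right (a := E ⊔ L₁)
    (IntermediateField.mem_adjoin_simple_self K (α : Ω)))
  have hUL₁ : L.fixingSubgroup ≤ L₁.fixingSubgroup := IntermediateField.fixingSubgroup_antitone hL₁L
  have hUE : L.fixingSubgroup ≤ π.ker := by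
    rw [IntermediateField.restrictNormalHom_ker]
    exact IntermediateField.fixingSubgroup_antitone hEL
  haveI hnormal : L.fixingSubgroup.Normal := by
    rw [← IntermediateField.restrictNormalHom_ker]; exact MonoidHom.normal_ker _
  have hfixα : ∀ u ∈ L.fixingSubgroup, u • α = α := fun u hu =>
    Units.ext ((IntermediateField.mem_fixingSubgroup_iff _ _).mp hu _ hαL)
  have hαinv : ∀ g : Ω ≃ₐ[K] Ω, g • (α ^ orderOf σ) = α ^ orderOf σ := fun g => by
    rw [hord, hα]; exact Units.ext (g.commutes (a : K))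
  -- level of `c`
  have hc1 : ∀ g h : Ω ≃ₐ[K] Ω, g⁻¹ * h ∈ L.fixingSubgroup →
      cupCycCochain σ π α g = cupCycCochain σ π α h := by
    intro g h hgh
    unfold cupCycCochain
    have h3 : h = g * (g⁻¹ * h) := by group
    have h4 : π h = π g := by
      rw [h3, map_mul, (MonoidHom.mem_ker).mp (hUE hgh), mul_one]
    rw [cupIdx_congr π h4, h3, mul_smul, hfixα _ hgh]
  have hc2 : ∀ g : Ω ≃ₐ[K] Ω, ∀ u ∈ L.fixingSubgroup,
      u • cupCycCochain σ π α g = cupCycCochain σ π α g := by
    intro g u hu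
    unfold cupCycCochain
    rw [smul_pow', ← mul_smul]
    have h3 : u * g = g * (g⁻¹ * u * g) := by group
    have h4 : g⁻¹ * u * g ∈ L.fixingSubgroup := by
      have := hnormal.conj_mem u hu g⁻¹
      rwa [inv_inv] at this
    rw [h3, mul_smul, hfixα _ h4]
  refine mem_normSubgroup_of_lc_coboundary E L hEL hσ a
    (fun g => e g * cupCycCochain σ π α g) ?_ ?_ ?_
  · intro g h hgh
    rw [he1 g h (hUL₁ hgh), hc1 g h hgh]
  · intro g u hu
    rw [smul_mul', he2 g u (hUL₁ hu), hc2 g u hu]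
  · intro g h
    have h1 := cup_kummer_mul_eq hσ π α hαinv g h
    have he' : (g • kummerCochain α h) ^ cupIdx σ π g = g • e h * e g / e (g * h) := by
      rw [hidx]; exact he g h
    have hαp : α ^ orderOf σ = Units.map (algebraMap K Ω : K →* Ω) a := by rw [hord, hα]
    rw [he', hαp] at h1
    have h2 : (Units.map (algebraMap K Ω : K →* Ω) a) ^
        ((cupIdx σ π g + cupIdx σ π h) / orderOf σ) =
        g • e h * e g / e (g * h) * (g • cupCycCochain σ π α h * cupCycCochain σ π α g) /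
          cupCycCochain σ π α (g * h) := by
      rw [h1, mul_div_cancel_right]
    rw [h2, smul_mul', div_mul_eq_mul_div, div_div, mul_mul_mul_comm]

end Descent

section ZetaPow

variable {M : Type*} [CommGroup M] (p : ℕ) [NeZero p]

/-- `k ↦ ζ ^ k` as a homomorphism `Multiplicative (ZMod p) →* M`, for `ζ ^ p = 1`. -/
noncomputable def zetaPow (ζ : M) (hζ : ζ ^ p = 1) : Multiplicative (ZMod p) →* M where
  toFun x := ζ ^ (Multiplicative.toAdd x).val
  map_one' := by simp
  map_mul' x y := by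
    rw [toAdd_mul, ZMod.val_add, ← pow_eq_pow_mod _ hζ, pow_add]

theorem zetaPow_apply (ζ : M) (hζ : ζ ^ p = 1) (x : Multiplicative (ZMod p)) :
    zetaPow p ζ hζ x = ζ ^ (Multiplicative.toAdd x).val := rfl

/-- The pairing `(x, y) ↦ x y` on `Multiplicative (ZMod p)`. -/
def zmodPair (x y : Multiplicative (ZMod p)) : Multiplicative (ZMod p) :=
  Multiplicative.ofAdd (Multiplicative.toAdd x * Multiplicative.toAdd y)

theorem pow_val_toAdd (x y : Multiplicative (ZMod p)) :
    x ^ (Multiplicative.toAdd y).val = zmodPair p x y := by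
  unfold zmodPair
  apply Multiplicative.toAdd.injective
  rw [toAdd_pow, toAdd_ofAdd, nsmul_eq_mul, ZMod.natCast_zmod_val, mul_comm]

theorem zetaPow_pow (ζ : M) (hζ : ζ ^ p = 1) (x y : Multiplicative (ZMod p)) :
    zetaPow p ζ hζ x ^ (Multiplicative.toAdd y).val = zetaPow p ζ hζ (zmodPair p x y) := by
  rw [← map_pow, pow_val_toAdd]

theorem zetaPow_injective {ζ : M} (h : IsPrimitiveRoot ζ p) :
    Function.Injective (zetaPow p ζ h.pow_eq_one) := by
  intro x y hxy
  rw [zetaPow_apply, zetaPow_apply] at hxy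
  have := h.pow_inj (ZMod.val_lt _) (ZMod.val_lt _) hxy
  exact Multiplicative.toAdd.injective (ZMod.val_injective p this)

omit [NeZero p] in
/-- The key identity of skew-symmetry: with `u = ⟨x, x'⟩`-type products. -/
theorem zmodPair_skew (x x' y y' : Multiplicative (ZMod p)) :
    zmodPair p y x' * zmodPair p y' x *
      (zmodPair p y y' * zmodPair p x x' / zmodPair p (x * y) (x' * y')) = 1 := by
  apply Multiplicative.toAdd.injective
  unfold zmodPair
  simp only [toAdd_mul, toAdd_div, toAdd_ofAdd, toAdd_one]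
  ring

end ZetaPow

section Symbol

variable {K Ω : Type} [Field K] [Field Ω] [Algebra K Ω] [IsGalois K Ω]

variable (K Ω) in
/-- A 1-cochain `Gal(Ω/K) → Ωˣ` is level-constant: it is constant on the cosets of `Gal(Ω/L)` and
has values in `L`, for some finite `L / K`. -/
def IsLcUnitsCochain (e : (Ω ≃ₐ[K] Ω) → Ωˣ) : Prop :=
  ∃ L : IntermediateField K Ω, FiniteDimensional K L ∧
    (∀ g h : Ω ≃ₐ[K] Ω, g⁻¹ * h ∈ L.fixingSubgroup → e g = e h) ∧
    (∀ g : Ω ≃ₐ[K] Ω, ∀ u ∈ L.fixingSubgroup, u • e g = e g)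

variable (K Ω) in
/-- A character of `Gal(Ω/K)` is level-constant: trivial on `Gal(Ω/L)` for some finite `L / K`. -/
def IsLcCharacter {X : Type*} [Group X] (χ : (Ω ≃ₐ[K] Ω) →* X) : Prop :=
  ∃ L : IntermediateField K Ω, FiniteDimensional K L ∧ L.fixingSubgroup ≤ χ.ker

theorem IsLcUnitsCochain.mul {e e' : (Ω ≃ₐ[K] Ω) → Ωˣ} (he : IsLcUnitsCochain K Ω e)
    (he' : IsLcUnitsCochain K Ω e') : IsLcUnitsCochain K Ω (fun g => e g * e' g) := by
  obtain ⟨L, hL, h1, h2⟩ := he
  obtain ⟨L', hL', h1', h2'⟩ := he'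
  have hle : (L ⊔ L').fixingSubgroup ≤ L.fixingSubgroup :=
    IntermediateField.fixingSubgroup_antitone le_sup_left
  have hle' : (L ⊔ L').fixingSubgroup ≤ L'.fixingSubgroup :=
    IntermediateField.fixingSubgroup_antitone le_sup_right
  refine ⟨L ⊔ L', IntermediateField.finiteDimensional_sup L L', fun g h hgh => ?_,
    fun g u hu => ?_⟩
  · simp only []
    rw [h1 g h (hle hgh), h1' g h (hle' hgh)]
  · simp only []
    rw [smul_mul', h2 g u (hle hu), h2' g u (hle' hu)]

theorem IsLcUnitsCochain.inv {e : (Ω ≃ₐ[K] Ω) → Ωˣ} (he : IsLcUnitsCochain K Ω e) :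
    IsLcUnitsCochain K Ω (fun g => (e g)⁻¹) := by
  obtain ⟨L, hL, h1, h2⟩ := he
  refine ⟨L, hL, fun g h hgh => ?_, fun g u hu => ?_⟩
  · simp only []
    rw [h1 g h hgh]
  · simp only []
    rw [smul_inv', h2 g u hu]

end Symbol

/-- **Discrete logarithm** of a `μ_p`-valued 1-cocycle: if `ζ` is a primitive `p`-th root of unity
fixed by `G`, a 1-cocycle `b` with `b g ^ p = 1` is `g ↦ ζ ^ ψ g` for a character `ψ`. -/
theorem exists_character_of_cochain {G : Type*} [Group G] {F : Type*} [Field F]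
    [MulDistribMulAction G Fˣ] {p : ℕ} [NeZero p] {ζ : Fˣ} (hζ : IsPrimitiveRoot ζ p)
    (hfix : ∀ g : G, g • ζ = ζ) (b : G → Fˣ) (hb : ∀ g h, b (g * h) = g • b h * b g)
    (hbp : ∀ g, b g ^ p = 1) :
    ∃ ψ : G →* Multiplicative (ZMod p), ∀ g, zetaPow p ζ hζ.pow_eq_one (ψ g) = b g := by
  classical
  have hζ' : IsPrimitiveRoot (ζ : F) p := IsPrimitiveRoot.coe_units_iff.mpr hζ
  have hrange : ∀ g, b g ∈ (zetaPow p ζ hζ.pow_eq_one).range := by
    intro g
    have h1 : ((b g : Fˣ) : F) ^ p = 1 := by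
      rw [← Units.val_pow_eq_pow_val, hbp, Units.val_one]
    obtain ⟨i, hi, hpow⟩ := hζ'.eq_pow_of_pow_eq_one h1
    refine ⟨Multiplicative.ofAdd (i : ZMod p), ?_⟩
    rw [zetaPow_apply, toAdd_ofAdd, ZMod.val_natCast_of_lt hi]
    exact Units.ext (by rw [Units.val_pow_eq_pow_val, hpow])
  have hfixE : ∀ (g : G) (x : Multiplicative (ZMod p)),
      g • zetaPow p ζ hζ.pow_eq_one x = zetaPow p ζ hζ.pow_eq_one x := by
    intro g x
    rw [zetaPow_apply, smul_pow', hfix]
  have hmul : ∀ g h, b (g * h) = b g * b h := by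
    intro g h
    obtain ⟨x, hx⟩ := hrange h
    rw [hb, ← hx, hfixE, mul_comm]
  have hone : b 1 = 1 := by
    have := hmul 1 1
    rw [mul_one] at this
    exact (mul_eq_left.mp this.symm)
  let bhom : G →* Fˣ := ⟨⟨b, hone⟩, hmul⟩
  let e := MonoidHom.ofInjective (zetaPow_injective p hζ)
  let b' : G →* (zetaPow p ζ hζ.pow_eq_one).range := bhom.codRestrict _ hrange
  refine ⟨e.symm.toMonoidHom.comp b', fun g => ?_⟩
  have h2 : e (e.symm (b' g)) = b' g := e.apply_symm_apply _
  have h3 := congrArg Subtype.val h2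
  rw [MonoidHom.ofInjective_apply] at h3
  exact h3

/-- Bookkeeping in a commutative group. -/
theorem comm_group_cob_aux {M : Type*} [CommGroup M] (X Y Z B C D F : M)
    (h : X * Y / Z * B * (C * D / F) = 1) :
    B = (X * C)⁻¹ * (Y * D)⁻¹ / (Z * F)⁻¹ := by
  have key : ∀ a b : M, Additive.ofMul a = Additive.ofMul b → a = b := fun a b h => h
  apply key
  have h0 := congrArg Additive.ofMul h
  simp only [ofMul_mul, ofMul_div, ofMul_inv, ofMul_one] at h0 ⊢
  have h1 : Additive.ofMul B = -(Additive.ofMul X + Additive.ofMul Y - Additive.ofMul Z +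
      (Additive.ofMul C + Additive.ofMul D - Additive.ofMul F)) := by
    rw [eq_neg_iff_add_eq_zero, ← h0]; abel
  rw [h1]; abel

section Symbol2

variable {K Ω : Type} [Field K] [Field Ω] [Algebra K Ω] [IsGalois K Ω]

/-- **The local Hilbert pairing on characters is nondegenerate** (cochain form).  `K` a local field
containing a primitive `p`-th root of unity `ζ`, `Ω / K` Galois and closed under `p`-th roots of
elements of `K`.  For every nontrivial level-constant character `χ : Gal(Ω/K) → ZMod p` there is a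
level-constant character `ψ` such that neither `(g, h) ↦ ζ ^ (χ g · ψ h)` nor
`(g, h) ↦ ζ ^ (ψ g · χ h)` is the coboundary of a level-constant 1-cochain
`Gal(Ω/K) → Ωˣ`. -/
theorem exists_character_not_lc_coboundary (hK : IsLocalFieldNA K) {p : ℕ} [Fact p.Prime]
    {ζ : Kˣ} (hζ : IsPrimitiveRoot ζ p)
    (hroot : ∀ a : Kˣ, ∃ α : Ωˣ, α ^ p = Units.map (algebraMap K Ω : K →* Ω) a)
    (χ : (Ω ≃ₐ[K] Ω) →* Multiplicative (ZMod p)) (hχ : ∃ g, χ g ≠ 1)
    (hχlc : IsLcCharacter K Ω χ) :
    ∃ ψ : (Ω ≃ₐ[K] Ω) →* Multiplicative (ZMod p), IsLcCharacter K Ω ψ ∧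
      (¬ ∃ e : (Ω ≃ₐ[K] Ω) → Ωˣ, IsLcUnitsCochain K Ω e ∧ ∀ g h : Ω ≃ₐ[K] Ω,
        zetaPow p (Units.map (algebraMap K Ω : K →* Ω) ζ)
          (by rw [← map_pow, hζ.pow_eq_one, map_one]) (ψ h) ^ (Multiplicative.toAdd (χ g)).val =
          g • e h * e g / e (g * h)) ∧
      (¬ ∃ e : (Ω ≃ₐ[K] Ω) → Ωˣ, IsLcUnitsCochain K Ω e ∧ ∀ g h : Ω ≃ₐ[K] Ω,
        zetaPow p (Units.map (algebraMap K Ω : K →* Ω) ζ)
          (by rw [← map_pow, hζ.pow_eq_one, map_one]) (χ h) ^ (Multiplicative.toAdd (ψ g)).val =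
          g • e h * e g / e (g * h)) := by
  classical
  have hp : p.Prime := Fact.out
  set ζΩ : Ωˣ := Units.map (algebraMap K Ω : K →* Ω) ζ with hζΩ
  have hζΩprim : IsPrimitiveRoot ζΩ p :=
    hζ.map_of_injective (Units.map_injective (f := (algebraMap K Ω : K →* Ω))
      (algebraMap K Ω).injective)
  have hζΩpow : ζΩ ^ p = 1 := hζΩprim.pow_eq_one
  have hfixζ : ∀ g : Ω ≃ₐ[K] Ω, g • ζΩ = ζΩ := fun g => Units.ext (g.commutes (ζ : K))
  have hfixE : ∀ (g : Ω ≃ₐ[K] Ω) (x : Multiplicative (ZMod p)),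
      g • zetaPow p ζΩ hζΩpow x = zetaPow p ζΩ hζΩpow x := by
    intro g x
    rw [zetaPow_apply, smul_pow', hfixζ]
  obtain ⟨L₀, hL₀fd, hL₀⟩ := hχlc
  obtain ⟨a, ha⟩ := exists_forall_not_lc_coboundary_cup_kummer hK χ hχ L₀ hL₀
  obtain ⟨α, hα⟩ := hroot a
  have hαinv : ∀ g : Ω ≃ₐ[K] Ω, g • (α ^ p) = α ^ p := fun g => by
    rw [hα]; exact Units.ext (g.commutes (a : K))
  obtain ⟨ψ, hψ⟩ := exists_character_of_cochain hζΩprim hfixζ (kummerCochain α)
    (fun g h => kummerCochain_mul α g h) (fun g => kummerCochain_pow α hαinv g)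
  -- `ψ` is level-constant
  have hαalg : IsIntegral K (α : Ω) := Algebra.IsIntegral.isIntegral _
  have hψlc : IsLcCharacter K Ω ψ := by
    refine ⟨K⟮(α : Ω)⟯, IntermediateField.adjoin.finiteDimensional hαalg, fun u hu => ?_⟩
    rw [MonoidHom.mem_ker]
    apply zetaPow_injective p hζΩprim
    rw [hψ, map_one]
    unfold kummerCochain
    have : u • α = α := Units.ext ((IntermediateField.mem_fixingSubgroup_iff _ _).mp hu _
      (IntermediateField.mem_adjoin_simple_self K (α : Ω)))
    rw [this, div_self']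
  have hfirst : ¬ ∃ e : (Ω ≃ₐ[K] Ω) → Ωˣ, IsLcUnitsCochain K Ω e ∧ ∀ g h : Ω ≃ₐ[K] Ω,
      zetaPow p ζΩ hζΩpow (ψ h) ^ (Multiplicative.toAdd (χ g)).val =
        g • e h * e g / e (g * h) := by
    rintro ⟨e, ⟨L₁, hL₁, he1, he2⟩, he⟩
    refine ha α hα ⟨e, L₁, hL₁, he1, he2, fun g h => ?_⟩
    rw [← hψ, hfixE]
    exact he g h
  refine ⟨ψ, hψlc, hfirst, ?_⟩
  rintro ⟨e, helc, he⟩
  apply hfirst
  -- the correcting cochain `u g = ζ ^ (χ g · ψ g)`
  let u : (Ω ≃ₐ[K] Ω) → Ωˣ := fun g => zetaPow p ζΩ hζΩpow (zmodPair p (χ g) (ψ g))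
  have hulc : IsLcUnitsCochain K Ω u := by
    obtain ⟨L₂, hL₂fd, hL₂⟩ := hψlc
    refine ⟨L₀ ⊔ L₂, IntermediateField.finiteDimensional_sup L₀ L₂, fun g h hgh => ?_,
      fun g v hv => hfixE v _⟩
    have h1 : g⁻¹ * h ∈ χ.ker :=
      hL₀ (IntermediateField.fixingSubgroup_antitone le_sup_left hgh)
    have h2 : g⁻¹ * h ∈ ψ.ker :=
      hL₂ (IntermediateField.fixingSubgroup_antitone le_sup_right hgh)
    rw [MonoidHom.mem_ker, map_mul, map_inv, inv_mul_eq_one] at h1 h2
    simp only [u]
    rw [h1, h2]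
  refine ⟨fun g => (e g * u g)⁻¹, (helc.mul hulc).inv, fun g h => ?_⟩
  have h1 := he g h
  rw [zetaPow_pow] at h1 ⊢
  have hskew := zmodPair_skew p (χ g) (ψ g) (χ h) (ψ h)
  have h2 := congrArg (zetaPow p ζΩ hζΩpow) hskew
  rw [map_mul, map_mul, map_div, map_mul, map_one, ← map_mul χ, ← map_mul ψ, h1] at h2
  -- `h2 : d e (g,h) * first (g,h) * d u (g,h) = 1`
  rw [smul_inv', smul_mul', hfixE]
  exact comm_group_cob_aux _ _ _ _ _ _ _ h2

end Symbol2

end Fermat.Agent.CFT
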