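import Fermat.Agent.CFT.Coh.H2Units
import Mathlib.FieldTheory.Galois.Infinite

set_option autoImplicit false

/-!
# CFT stream [B] Local, layer (LB0) : finite levels of `H^n(Gal(Ω/K), Ωˣ)`, `Ω / K` Galois
(possibly infinite)

For a tower `K ≤ L ≤ Ω` with `Ω / K` Galois and `L / K` normal, `U := ker (Gal(Ω/K) → Gal(L/K))`:
the comparison map `Hⁿ(Gal(L/K), Lˣ) ⟶ Hⁿ(Gal(Ω/K) ⧸ U, (Ωˣ)^U)` is bijective, and the inflation
`Hⁿ(Gal(L/K), Lˣ) ⟶ Hⁿ(Gal(Ω/K), Ωˣ)` factors through it.
-/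

namespace Fermat.Agent.CFT

open CategoryTheory groupCohomology Rep

section

variable (K L Ω : Type) [Field K] [Field L] [Field Ω] [Algebra K L] [Algebra L Ω] [Algebra K Ω]
  [IsScalarTower K L Ω] [Normal K L] [IsGalois K Ω]

/-- Galois descent (infinite version): a unit of `Ω` fixed by `ker(Gal(Ω/K) → Gal(L/K))` comes
from `Lˣ`. -/
lemma exists_unitsInfHom_eq_of_isGalois (a : (Rep.ofAlgebraAutOnUnits K Ω).V)
    (ha : ∀ s ∈ (galProj K L Ω).ker, (Rep.ofAlgebraAutOnUnits K Ω).ρ s a = a) :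
    ∃ a' : (Rep.ofAlgebraAutOnUnits K L).V, (unitsInfHom K L Ω).hom a' = a := by
  set F' : IntermediateField K Ω := (IsScalarTower.toAlgHom K L Ω).fieldRange with hF'
  have hfix : ((Additive.toMul a : Ωˣ) : Ω) ∈ IntermediateField.fixedField F'.fixingSubgroup := by
    intro s
    have hs : (s : Ω ≃ₐ[K] Ω) ∈ (galProj K L Ω).ker := by
      rw [mem_ker_galProj_iff]
      intro x
      exact s.2 ⟨algebraMap L Ω x, ⟨x, rfl⟩⟩
    have := congrArg (fun u : Additive Ωˣ => ((Additive.toMul u : Ωˣ) : Ω)) (ha s hs)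
    exact this
  rw [InfiniteGalois.fixedField_fixingSubgroup] at hfix
  obtain ⟨y, hy⟩ := hfix
  have hy0 : y ≠ 0 := by
    rintro rfl
    have h0 : ((Additive.toMul a : Ωˣ) : Ω) = 0 := by rw [← hy]; exact map_zero _
    exact (Additive.toMul a : Ωˣ).ne_zero h0
  refine ⟨Additive.ofMul (Units.mk0 y hy0), ?_⟩
  refine congrArg Additive.ofMul (Units.ext ?_)
  exact hy

/-- The normal subgroup `ker (Gal(Ω/K) → Gal(L/K))`. -/
noncomputable abbrev levelKer : Subgroup (Ω ≃ₐ[K] Ω) := (galProj K L Ω).ker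

/-- The comparison map `Hⁿ(Gal(L/K), Lˣ) ⟶ Hⁿ(Gal(Ω/K) ⧸ U, (Ωˣ)^U)`. -/
noncomputable abbrev levelComparison (n : ℕ) :
    groupCohomology (Rep.ofAlgebraAutOnUnits K L) n ⟶
      groupCohomology ((Rep.ofAlgebraAutOnUnits K Ω).quotientToInvariants (levelKer K L Ω)) n :=
  map (quotEquiv (galProj K L Ω) (AlgEquiv.restrictNormalHom_surjective Ω)).toMonoidHom
    (toInvHom (galProj K L Ω) (unitsInfHom K L Ω) (AlgEquiv.restrictNormalHom_surjective Ω)) n

/-- The comparison map is bijective. -/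
theorem levelComparison_bijective (n : ℕ) : Function.Bijective (levelComparison K L Ω n) :=
  map_toInvHom_bijective (galProj K L Ω) (unitsInfHom K L Ω)
    (AlgEquiv.restrictNormalHom_surjective Ω) (unitsInfHom_injective K L Ω)
    (exists_unitsInfHom_eq_of_isGalois K L Ω) n

/-- Inflation from `Gal(L/K)` to `Gal(Ω/K)` factors through the comparison map and the standard
inflation from the quotient. -/
theorem map_galProj_eq_levelComparison_comp (n : ℕ) :
    map (galProj K L Ω) (unitsInfHom K L Ω) n = levelComparison K L Ω n ≫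
      map (QuotientGroup.mk' (levelKer K L Ω))
        (ofHom <| (Rep.ofAlgebraAutOnUnits K Ω).ρ.quotientToInvariants_lift (levelKer K L Ω)) n :=
  map_eq_toInvHom_comp (galProj K L Ω) (unitsInfHom K L Ω)
    (AlgEquiv.restrictNormalHom_surjective Ω) n

end

end Fermat.Agent.CFT
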