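import Fermat.Agent.CFT.Local.ResBrauer
import Fermat.Agent.CFT.Local.BrauerLimit

set_option autoImplicit false

/-!
# CFT stream [B] Local : inflation on the relative Brauer groups of a local field

Tower `K ⊆ F ⊆ L` of local fields, `F / K` and `L / K` finite Galois.

* `IsLocalFieldNA.exists_H2unitsInf_eq_iff` : the image of the inflation
  `H²(Gal(F/K), Fˣ) ⟶ H²(Gal(L/K), Lˣ)` is exactly the `[F : K]`-torsion.
* `IsLocalFieldNA.exists_nsmul_eq_H2unitsInf` : if `n * [F : K] ∣ [L : K]` then every inflated class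
  is divisible by `n` in `H²(Gal(L/K), Lˣ)`.  (This is the finite-level input of the divisibility
  of the Brauer group / of `H²` of the idèles in the limit.)
-/

namespace Fermat.Agent.CFT

open CategoryTheory groupCohomology Rep

variable {K L : Type} [Field K] [Field L] [Algebra K L] [FiniteDimensional K L] [IsGalois K L]
variable (F : Type) [Field F] [Algebra K F] [Algebra F L] [IsScalarTower K F L] [Normal K F]

/-- The image of inflation `Br(F/K) ⟶ Br(L/K)` is the `[F : K]`-torsion. -/
theorem IsLocalFieldNA.exists_H2unitsInf_eq_iff (hK : IsLocalFieldNA K)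
    (x : groupCohomology (Rep.ofAlgebraAutOnUnits K L) 2) :
    (∃ y, H2unitsInf K F L y = x) ↔ Module.finrank K F • x = 0 := by
  obtain ⟨-, hk⟩ := hK.H2unitsRes_surjective_and_eq_zero_iff (L := L) F
  constructor
  · rintro ⟨y, rfl⟩
    exact (hk _).1 (H2unitsRes_H2unitsInf K F L y)
  · intro h
    exact H2units_exact K F L x ((hk x).2 h)

/-- If `n * [F : K] ∣ [L : K]`, every class inflated from `Br(F/K)` is divisible by `n` in
`Br(L/K)`. -/
theorem IsLocalFieldNA.exists_nsmul_eq_H2unitsInf (hK : IsLocalFieldNA K) {n : ℕ}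
    (hn : n * Module.finrank K F ∣ Module.finrank K L)
    (y : groupCohomology (Rep.ofAlgebraAutOnUnits K F) 2) :
    ∃ z : groupCohomology (Rep.ofAlgebraAutOnUnits K L) 2, n • z = H2unitsInf K F L y := by
  have hfdF : FiniteDimensional K F := FiniteDimensional.left K F L
  have hfinA : Finite (groupCohomology (Rep.ofAlgebraAutOnUnits K L) 2) := hK.finite_H2_units
  have hcycA : IsAddCyclic (groupCohomology (Rep.ofAlgebraAutOnUnits K L) 2) :=
    hK.isAddCyclic_H2_units
  have hcard : Nat.card (groupCohomology (Rep.ofAlgebraAutOnUnits K L) 2) = Module.finrank K L :=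
    hK.natCard_H2_units
  exact exists_nsmul_eq_of_isAddCyclic (Module.finrank_pos (R := K) (M := F)) (hcard ▸ hn) _
    ((hK.exists_H2unitsInf_eq_iff F _).1 ⟨y, rfl⟩)

end Fermat.Agent.CFT
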