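import Fermat.Agent.CFT.Local.KummerSeq
import Fermat.Agent.CFT.PT.GaloisFamilyIs
import Fermat.Agent.CFT.PT.SmoothZero

/-!
# CFT, S55 local pool: Kummer theory for `Hlc¹(μ_p)`

`Ω / K` Galois with `Ω` algebraically closed (so `Ω` is a separable closure of `K`),
`G = Ω ≃ₐ[K] Ω`, `p ≠ 0`.  From the long exact sequence of level-constant cohomology of the Kummer
sequence `μ_p ⟶ Ωˣ ⟶ Ωˣ` and Hilbert 90 in the limit:

* `kummerH1 K Ω p hp : Additive Kˣ →+ Hlc (famGal K Ω) (muRep K Ω p) 1` (the Kummer map);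
* `kummerH1_surjective`;
* `kummerH1_eq_zero_iff` : the kernel is the group of `p`-th powers;
* `natCard_Hlc_one_muRep` : `Nat.card (Hlc¹(μ_p)) = [Kˣ : (Kˣ)^p]`.
-/

set_option autoImplicit false

namespace Fermat.Agent.PT

open CategoryTheory Fermat.Agent.CFT

variable (K Ω : Type) [Field K] [Field Ω] [Algebra K Ω]

section Invariants

/-- the image of `Kˣ` in the invariants of `Ωˣ`. -/
noncomputable def kumUnitsInv : Additive Kˣ →+ (Rep.ofAlgebraAutOnUnits K Ω).ρ.invariants where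
  toFun x := ⟨Additive.ofMul (Units.map (algebraMap K Ω : K →* Ω) x.toMul), fun g => by
    apply congrArg Additive.ofMul
    apply Units.ext
    exact g.commutes _⟩
  map_zero' := by
    apply Subtype.ext
    change Additive.ofMul (Units.map (algebraMap K Ω : K →* Ω) 1) = 0
    rw [map_one]
    rfl
  map_add' x y := by
    apply Subtype.ext
    change Additive.ofMul (Units.map (algebraMap K Ω : K →* Ω) (x.toMul * y.toMul)) = _
    rw [map_mul]
    rfl

theorem coe_kumUnitsInv (x : Additive Kˣ) :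
    ((kumUnitsInv K Ω x : (Rep.ofAlgebraAutOnUnits K Ω).ρ.invariants) :
      Rep.ofAlgebraAutOnUnits K Ω) =
      Additive.ofMul (Units.map (algebraMap K Ω : K →* Ω) x.toMul) := rfl

theorem kumUnitsInv_injective : Function.Injective (kumUnitsInv K Ω) := by
  intro x y hxy
  have h1 := congrArg Subtype.val hxy
  rw [coe_kumUnitsInv, coe_kumUnitsInv] at h1
  have h2 : Units.map (algebraMap K Ω : K →* Ω) x.toMul =
      Units.map (algebraMap K Ω : K →* Ω) y.toMul := congrArg Additive.toMul h1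
  have h3 : x.toMul = y.toMul :=
    Units.map_injective (f := (algebraMap K Ω : K →* Ω)) (algebraMap K Ω).injective h2
  exact congrArg Additive.ofMul h3

theorem kumUnitsInv_surjective [IsGalois K Ω] : Function.Surjective (kumUnitsInv K Ω) := by
  rintro ⟨a, ha⟩
  change Additive Ωˣ at a
  have hfix : ∀ g : Ω ≃ₐ[K] Ω, g ((a.toMul : Ωˣ) : Ω) = ((a.toMul : Ωˣ) : Ω) := by
    intro g
    have h1 : (Rep.ofAlgebraAutOnUnits K Ω).ρ g a = a := ha g
    have h2 : (g • (a.toMul : Ωˣ) : Ωˣ) = a.toMul := congrArg Additive.toMul h1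
    exact congrArg Units.val h2
  obtain ⟨x, hx⟩ := IntermediateField.mem_bot.1
    ((InfiniteGalois.mem_bot_iff_fixed ((a.toMul : Ωˣ) : Ω)).2 hfix)
  have hx0 : x ≠ 0 := by
    rintro rfl
    rw [map_zero] at hx
    exact (a.toMul : Ωˣ).ne_zero hx.symm
  refine ⟨Additive.ofMul (Units.mk0 x hx0), ?_⟩
  apply Subtype.ext
  rw [coe_kumUnitsInv]
  change Additive.ofMul _ = Additive.ofMul (a.toMul)
  apply congrArg Additive.ofMul
  apply Units.ext
  exact hx

end Invariants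

section Kummer

variable [IsGalois K Ω] [IsAlgClosed Ω] (p : ℕ) (hp : p ≠ 0)

/-- the Kummer map `Kˣ ⟶ Hlc¹(Gal(Ω/K), μ_p)`: the connecting homomorphism of the Kummer
sequence. -/
noncomputable def kummerH1 : Additive Kˣ →+ Hlc (famGal K Ω) (muRep K Ω p) 1 :=
  ((lcδ (famGal_finiteIndex (K := K) (Ω := Ω)) (kummerSeq_shortExact K Ω p hp)
      (isSmooth_unitsGal (K := K) (Ω := Ω)) 0 1 rfl).hom.toAddMonoidHom.comp
    ((Hlc0Equiv (famGal K Ω) (Rep.ofAlgebraAutOnUnits K Ω)).symm.toLinearMap.toAddMonoidHom)).comp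
    (kumUnitsInv K Ω)

theorem kummerH1_apply (x : Additive Kˣ) :
    kummerH1 K Ω p hp x =
      (lcδ (famGal_finiteIndex (K := K) (Ω := Ω)) (kummerSeq_shortExact K Ω p hp)
        (isSmooth_unitsGal (K := K) (Ω := Ω)) 0 1 rfl).hom
        ((Hlc0Equiv (famGal K Ω) (Rep.ofAlgebraAutOnUnits K Ω)).symm (kumUnitsInv K Ω x)) := rfl

omit [IsAlgClosed Ω] in
theorem subsingleton_Hlc_one_unitsGal :
    Subsingleton (Hlc (famGal K Ω) (Rep.ofAlgebraAutOnUnits K Ω) 1) :=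
  ModuleCat.subsingleton_of_isZero (isZero_Hlc_one_unitsGal K Ω)

theorem kummerH1_surjective : Function.Surjective (kummerH1 K Ω p hp) := by
  intro y
  have hz : (lcH₁₂ (famGal K Ω) (kummerSeq K Ω p) 1).hom y = 0 :=
    (subsingleton_Hlc_one_unitsGal K Ω).elim _ _
  obtain ⟨z, hz⟩ : ∃ z : Hlc (famGal K Ω) (Rep.ofAlgebraAutOnUnits K Ω) 0,
      (lcδ (famGal_finiteIndex (K := K) (Ω := Ω)) (kummerSeq_shortExact K Ω p hp)
        (isSmooth_unitsGal (K := K) (Ω := Ω)) 0 1 rfl).hom z = y :=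
    exists_lcδ_eq (famGal_finiteIndex (K := K) (Ω := Ω))
      (kummerSeq_shortExact K Ω p hp) (isSmooth_unitsGal (K := K) (Ω := Ω)) 0 1 rfl y hz
  obtain ⟨x, hx⟩ := kumUnitsInv_surjective K Ω
    (Hlc0Equiv (famGal K Ω) (Rep.ofAlgebraAutOnUnits K Ω) z)
  refine ⟨x, ?_⟩
  rw [kummerH1_apply, hx, LinearEquiv.symm_apply_apply]
  exact hz

omit [IsAlgClosed Ω] in
/-- the `p`-th power map on `Kˣ` in additive notation corresponds to `lcH₂₃` of the Kummer
sequence in degree `0`. -/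
theorem lcH₂₃_kumUnitsInv (y : Additive Kˣ) :
    (lcH₂₃ (famGal K Ω) (kummerSeq K Ω p) 0).hom
      ((Hlc0Equiv (famGal K Ω) (Rep.ofAlgebraAutOnUnits K Ω)).symm (kumUnitsInv K Ω y)) =
    (Hlc0Equiv (famGal K Ω) (Rep.ofAlgebraAutOnUnits K Ω)).symm (kumUnitsInv K Ω (p • y)) := by
  apply (Hlc0Equiv (famGal K Ω) (Rep.ofAlgebraAutOnUnits K Ω)).injective
  apply Subtype.ext
  rw [LinearEquiv.apply_symm_apply]
  have h := coe_Hlc0Equiv_HlcMap (MonoidHom.id (Ω ≃ₐ[K] Ω)) (kummerSeq K Ω p).g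
    (famGal K Ω).compat_id
    ((Hlc0Equiv (famGal K Ω) (Rep.ofAlgebraAutOnUnits K Ω)).symm (kumUnitsInv K Ω y))
  refine h.trans ?_
  rw [LinearEquiv.apply_symm_apply, coe_kumUnitsInv, coe_kumUnitsInv]
  change Additive.ofMul ((Units.map (algebraMap K Ω : K →* Ω) y.toMul) ^ p) = _
  rw [← map_pow]
  rfl

theorem kummerH1_eq_zero_iff (x : Additive Kˣ) :
    kummerH1 K Ω p hp x = 0 ↔ ∃ y : Additive Kˣ, p • y = x := by
  constructor
  · intro h
    rw [kummerH1_apply] at h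
    obtain ⟨w, hw⟩ : ∃ w : Hlc (famGal K Ω) (Rep.ofAlgebraAutOnUnits K Ω) 0,
        (lcH₂₃ (famGal K Ω) (kummerSeq K Ω p) 0).hom w =
          (Hlc0Equiv (famGal K Ω) (Rep.ofAlgebraAutOnUnits K Ω)).symm (kumUnitsInv K Ω x) :=
      exists_lcH₂₃_eq (famGal_finiteIndex (K := K) (Ω := Ω))
        (kummerSeq_shortExact K Ω p hp) (isSmooth_unitsGal (K := K) (Ω := Ω)) 0 1 rfl _ h
    obtain ⟨y, hy⟩ := kumUnitsInv_surjective K Ω
      (Hlc0Equiv (famGal K Ω) (Rep.ofAlgebraAutOnUnits K Ω) w)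
    refine ⟨y, ?_⟩
    have hw' : w = (Hlc0Equiv (famGal K Ω) (Rep.ofAlgebraAutOnUnits K Ω)).symm
        (kumUnitsInv K Ω y) := by
      rw [hy, LinearEquiv.symm_apply_apply]
    rw [hw', lcH₂₃_kumUnitsInv] at hw
    exact kumUnitsInv_injective K Ω
      ((Hlc0Equiv (famGal K Ω) (Rep.ofAlgebraAutOnUnits K Ω)).symm.injective hw)
  · rintro ⟨y, rfl⟩
    rw [kummerH1_apply, ← lcH₂₃_kumUnitsInv]
    exact lcH₂₃_lcδ_apply (famGal_finiteIndex (K := K) (Ω := Ω))
      (kummerSeq_shortExact K Ω p hp) (isSmooth_unitsGal (K := K) (Ω := Ω)) 0 1 rfl _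

/-- the Kummer map in multiplicative notation. -/
noncomputable def kummerH1Mul : Kˣ →* Multiplicative (Hlc (famGal K Ω) (muRep K Ω p) 1) :=
  AddMonoidHom.toMultiplicativeRight (kummerH1 K Ω p hp)

theorem kummerH1Mul_apply (x : Kˣ) :
    kummerH1Mul K Ω p hp x = Multiplicative.ofAdd (kummerH1 K Ω p hp (Additive.ofMul x)) := rfl

theorem kummerH1Mul_surjective : Function.Surjective (kummerH1Mul K Ω p hp) := by
  intro y
  obtain ⟨x, hx⟩ := kummerH1_surjective K Ω p hp y.toAdd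
  exact ⟨x.toMul, congrArg Multiplicative.ofAdd hx⟩

theorem kummerH1Mul_ker : (kummerH1Mul K Ω p hp).ker = (powMonoidHom p : Kˣ →* Kˣ).range := by
  ext x
  rw [MonoidHom.mem_ker, MonoidHom.mem_range]
  constructor
  · intro h
    have h0 : kummerH1 K Ω p hp (Additive.ofMul x) = 0 := congrArg Multiplicative.toAdd h
    obtain ⟨y, hy⟩ := (kummerH1_eq_zero_iff K Ω p hp _).1 h0
    exact ⟨y.toMul, congrArg Additive.toMul hy⟩
  · rintro ⟨y, rfl⟩
    have h0 : kummerH1 K Ω p hp (Additive.ofMul (y ^ p)) = 0 :=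
      (kummerH1_eq_zero_iff K Ω p hp _).2 ⟨Additive.ofMul y, rfl⟩
    exact congrArg Multiplicative.ofAdd h0

include hp in
/-- **Kummer theory**: `# Hlc¹(Gal(Ω/K), μ_p) = [Kˣ : (Kˣ)^p]`. -/
theorem natCard_Hlc_one_muRep :
    Nat.card (Hlc (famGal K Ω) (muRep K Ω p) 1) = (powMonoidHom p : Kˣ →* Kˣ).range.index := by
  rw [← kummerH1Mul_ker K Ω p hp, Subgroup.index_ker,
    MonoidHom.range_eq_top.2 (kummerH1Mul_surjective K Ω p hp)]
  exact (Nat.card_congr (Subgroup.topEquiv.toEquiv.trans Multiplicative.toAdd)).symm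

/-- the Kummer isomorphism `Kˣ / (Kˣ)^p ≃ Hlc¹(Gal(Ω/K), μ_p)`. -/
noncomputable def kummerH1Equiv :
    (Kˣ ⧸ (powMonoidHom p : Kˣ →* Kˣ).range) ≃* Multiplicative (Hlc (famGal K Ω) (muRep K Ω p) 1) :=
  (QuotientGroup.quotientMulEquivOfEq (kummerH1Mul_ker K Ω p hp).symm).trans
    (QuotientGroup.quotientKerEquivOfSurjective _ (kummerH1Mul_surjective K Ω p hp))

end Kummer

end Fermat.Agent.PT
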