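import Fermat.Agent.CFT.Local.LocalOutInst
import Fermat.Agent.CFT.Local.CdTwo

/-!
# S55 local pool: the four LOCAL contracts of `PT/Contracts.lean` hold

`localOut0_holds … localOut3_holds : LocalOutN p S`, with no hypothesis.
-/

set_option autoImplicit false

namespace Fermat.Agent.PT

open CategoryTheory groupCohomology Rep ExtCitation Fermat.Agent.CFT

variable (p : ℕ) [Fact p.Prime] (S : Finset Nat.Primes)

/-- **the contract (L1) holds**: `H³(U, 𝔽_p) = 0` for the open subgroups of the local Galois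
groups. -/
theorem localOut1_holds : LocalOut1 p S := by
  intro q _ U hU
  letI : Fact (q : ℕ).Prime := ⟨q.2⟩
  exact cdTwo_subsingleton_three_padic_open (q : ℕ) p ℚ_[(q : ℕ)] (PadicAlgCl (q : ℕ)) U hU

/-- **the contract (L0) holds**: `Hⁿ(U, 𝔽_p)`, `n ≤ 2`, is finite for the open subgroups of the
local Galois groups. -/
theorem localOut0_holds : LocalOut0 p S := by
  intro q _ U hU n hn
  letI : Fact (q : ℕ).Prime := ⟨q.2⟩
  exact cdTwo_finite_trivial_padic_open (q : ℕ) p ℚ_[(q : ℕ)] (PadicAlgCl (q : ℕ)) U hU n hn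

/-- all four LOCAL contracts. -/
theorem localOut_holds :
    LocalOut0 p S ∧ LocalOut1 p S ∧ LocalOut2 p S ∧ LocalOut3 p S :=
  ⟨localOut0_holds p S, localOut1_holds p S, localOut2_holds p S, localOut3_holds p S⟩

end Fermat.Agent.PT
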