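import Fermat.Agent.CFT.Local.OpenSubgroup
import Fermat.Agent.CFT.Local.CycloLocal
import Fermat.Agent.CFT.Local.KummerH1Count
import Fermat.Agent.CFT.Local.KummerH2
import Fermat.Agent.CFT.Local.PadicLocalField
import Fermat.Agent.CFT.PT.Contracts

/-!
# S55 local pool, final glue (LF): the contracts `LocalOut0 … LocalOut3` of `PT/Contracts.lean`

For `q` prime, `Ω = PadicAlgCl q`, `G = Gal(Ω/ℚ_q)` with the intrinsic family `famGal ℚ_[q] Ω`,
and an open subgroup `U = Gal(Ω/K')`: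

* `localOut3_padic` : `dim H¹(U, 𝔽_p) = 2 + [K':ℚ_q]·[q = p]` if the cyclotomic character is
  trivial on `U`;
* `localOut2_padic` : `dim H²(U, μ_p) = 1`;
* `localOut3_holds`, `localOut2_holds` : the contracts `LocalOut3 p S`, `LocalOut2 p S`;
* `localOut1_of`, `localOut0_of` : the contracts `LocalOut1`, `LocalOut0` from the one-field
  statements.
-/

set_option autoImplicit false

namespace Fermat.Agent.PT

open CategoryTheory groupCohomology Rep ExtCitation Fermat.Agent.CFT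

attribute [local instance] muMulDistribMulAction

section Padic

variable (p q : ℕ) [Fact p.Prime] [Fact q.Prime]

/-- if the global cyclotomic character is trivial on `Gal(Ω/K')`, the latter fixes `μ_p` -/
theorem localOut_hfix (K' : IntermediateField ℚ_[q] (PadicAlgCl q))
    (hχ : ∀ u ∈ K'.fixingSubgroup, cycloChar p (localGaloisToGlobal q u) = 1)
    (g : PadicAlgCl q ≃ₐ[K'] PadicAlgCl q) (z : rootsOfUnity p (PadicAlgCl q)) : g • z = z := by
  haveI : NeZero p := ⟨(Fact.out : p.Prime).ne_zero⟩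
  haveI : Fact (1 < p) := ⟨(Fact.out : p.Prime).one_lt⟩
  have h1 := hχ _ (openSub_equiv K' g).2
  rw [openSub_equiv_coe, cycloChar_localGaloisToGlobal p q] at h1
  have h2 := modularCyclotomicCharacter.spec (L := PadicAlgCl q)
    (natCard_rootsOfUnity_of_isAlgClosed (PadicAlgCl q) p (natCast_ne_zero_padicAlgCl p q))
    ((galIncl ℚ_[q] K' (PadicAlgCl q) g : PadicAlgCl q ≃ₐ[ℚ_[q]] PadicAlgCl q) :
      PadicAlgCl q ≃+* PadicAlgCl q) z.2
  rw [h1, Units.val_one, ZMod.val_one, pow_one] at h2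
  apply Subtype.ext
  apply Units.ext
  exact h2

/-- **(L3)** for `Gal(PadicAlgCl q / ℚ_q)`. -/
theorem localOut3_padic (U : Subgroup (PadicAlgCl q ≃ₐ[ℚ_[q]] PadicAlgCl q))
    (hU : IsOpenFor (famGal ℚ_[q] (PadicAlgCl q)) U)
    (hχ : ∀ u ∈ U, cycloChar p (localGaloisToGlobal q u) = 1) :
    Module.finrank (ZMod p)
        (Hlc ((famGal ℚ_[q] (PadicAlgCl q)).restrict U) (Rep.trivial (ZMod p) ↥U (ZMod p)) 1) =
      2 + (if q = p then U.index else 0) := by
  obtain ⟨K', hfd, rfl, hidx⟩ := openSub_exists_of_isOpenFor hU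
  have := hfd
  rw [(openSub_HlcEquiv_trivial K' (ZMod p) 1).finrank_eq,
    finrank_Hlc_one_trivial_padic q p K' (PadicAlgCl q) (localOut_hfix p q K' hχ), hidx]

/-- **(L2)** for `Gal(PadicAlgCl q / ℚ_q)`. -/
theorem localOut2_padic (U : Subgroup (PadicAlgCl q ≃ₐ[ℚ_[q]] PadicAlgCl q))
    (hU : IsOpenFor (famGal ℚ_[q] (PadicAlgCl q)) U) :
    Module.finrank (ZMod p)
        (Hlc ((famGal ℚ_[q] (PadicAlgCl q)).restrict U)
          (Rep.res U.subtype (Rep.res (localGaloisToGlobal q)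
            (groupCohomology.ofChar (k := ZMod p) (cycloChar p)))) 2) = 1 := by
  obtain ⟨K', hfd, rfl, -⟩ := openSub_exists_of_isOpenFor hU
  have := hfd
  rw [(HlcCoeffEquiv ((famGal ℚ_[q] (PadicAlgCl q)).restrict K'.fixingSubgroup)
      ((Rep.resFunctor K'.fixingSubgroup.subtype).mapIso (cycloRepLocalIso p q)) 2).finrank_eq]
  change Module.finrank (ZMod p)
    (Hlc ((famGal ℚ_[q] (PadicAlgCl q)).restrict K'.fixingSubgroup)
      (Rep.res K'.fixingSubgroup.subtype (muRepFp ℚ_[q] (PadicAlgCl q) p)) 2) = 1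
  rw [(openSub_HlcEquiv_muFp K' p 2).finrank_eq]
  exact finrank_Hlc_two_muRepFp p (isLocalFieldNA_of_finite_padic q K')

/-- **(L1)** for `Gal(PadicAlgCl q / ℚ_q)`, from the one-field statement. -/
theorem localOut1_padic_of
    (h : ∀ K' : IntermediateField ℚ_[q] (PadicAlgCl q), FiniteDimensional ℚ_[q] ↥K' →
      Subsingleton (Hlc (famGal K' (PadicAlgCl q))
        (Rep.trivial (ZMod p) (PadicAlgCl q ≃ₐ[K'] PadicAlgCl q) (ZMod p)) 3))
    (U : Subgroup (PadicAlgCl q ≃ₐ[ℚ_[q]] PadicAlgCl q))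
    (hU : IsOpenFor (famGal ℚ_[q] (PadicAlgCl q)) U) :
    Subsingleton (Hlc ((famGal ℚ_[q] (PadicAlgCl q)).restrict U)
      (Rep.trivial (ZMod p) ↥U (ZMod p)) 3) := by
  obtain ⟨K', hfd, rfl, -⟩ := openSub_exists_of_isOpenFor hU
  have := hfd
  have := h K' hfd
  exact (openSub_HlcEquiv_trivial K' (ZMod p) 3).toEquiv.subsingleton

/-- **(L0)** for `Gal(PadicAlgCl q / ℚ_q)`, from the one-field statement. -/
theorem localOut0_padic_of
    (h : ∀ K' : IntermediateField ℚ_[q] (PadicAlgCl q), FiniteDimensional ℚ_[q] ↥K' →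
      ∀ n : ℕ, n ≤ 2 → Module.Finite (ZMod p) (Hlc (famGal K' (PadicAlgCl q))
        (Rep.trivial (ZMod p) (PadicAlgCl q ≃ₐ[K'] PadicAlgCl q) (ZMod p)) n))
    (U : Subgroup (PadicAlgCl q ≃ₐ[ℚ_[q]] PadicAlgCl q))
    (hU : IsOpenFor (famGal ℚ_[q] (PadicAlgCl q)) U) (n : ℕ) (hn : n ≤ 2) :
    Module.Finite (ZMod p) (Hlc ((famGal ℚ_[q] (PadicAlgCl q)).restrict U)
      (Rep.trivial (ZMod p) ↥U (ZMod p)) n) := by
  obtain ⟨K', hfd, rfl, -⟩ := openSub_exists_of_isOpenFor hU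
  have := hfd
  have := h K' hfd n hn
  exact Module.Finite.equiv (openSub_HlcEquiv_trivial K' (ZMod p) n).symm

end Padic

section Contracts

variable (p : ℕ) [Fact p.Prime] (S : Finset Nat.Primes)

/-- **the contract (L3) holds.** -/
theorem localOut3_holds : LocalOut3 p S := by
  intro q _ U hU hχ
  letI : Fact (q : ℕ).Prime := ⟨q.2⟩
  exact localOut3_padic p (q : ℕ) U hU hχ

/-- **the contract (L2) holds.** -/
theorem localOut2_holds : LocalOut2 p S := by
  intro q _ U hU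
  letI : Fact (q : ℕ).Prime := ⟨q.2⟩
  exact localOut2_padic p (q : ℕ) U hU

/-- the contract (L1) from the one-field vanishing `H³(K', 𝔽_p) = 0`, `K'/ℚ_q` finite. -/
theorem localOut1_of
    (h : ∀ (q : ℕ) [Fact q.Prime] (K' : IntermediateField ℚ_[q] (PadicAlgCl q)),
      FiniteDimensional ℚ_[q] ↥K' →
      Subsingleton (Hlc (famGal K' (PadicAlgCl q))
        (Rep.trivial (ZMod p) (PadicAlgCl q ≃ₐ[K'] PadicAlgCl q) (ZMod p)) 3)) :
    LocalOut1 p S := by
  intro q _ U hU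
  letI : Fact (q : ℕ).Prime := ⟨q.2⟩
  exact localOut1_padic_of p (q : ℕ) (h (q : ℕ)) U hU

/-- the contract (L0) from the one-field finiteness of `Hⁿ(K', 𝔽_p)`, `n ≤ 2`, `K'/ℚ_q` finite. -/
theorem localOut0_of
    (h : ∀ (q : ℕ) [Fact q.Prime] (K' : IntermediateField ℚ_[q] (PadicAlgCl q)),
      FiniteDimensional ℚ_[q] ↥K' → ∀ n : ℕ, n ≤ 2 →
      Module.Finite (ZMod p) (Hlc (famGal K' (PadicAlgCl q))
        (Rep.trivial (ZMod p) (PadicAlgCl q ≃ₐ[K'] PadicAlgCl q) (ZMod p)) n)) :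
    LocalOut0 p S := by
  intro q _ U hU n hn
  letI : Fact (q : ℕ).Prime := ⟨q.2⟩
  exact localOut0_padic_of p (q : ℕ) (h (q : ℕ)) U hU n hn

end Contracts

end Fermat.Agent.PT
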