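import Fermat.Agent.CFT.Coh.ResIndex
import Fermat.Agent.CFT.Local.TateLocal

set_option autoImplicit false

/-!
# CFT stream [B] Local : restriction on the relative Brauer group of a local field

`L / K` a finite Galois extension of local fields, `P ≤ Gal(L/K)` (so `P = Gal(L/L^P)`).  The
restriction `res : H²(Gal(L/K), Lˣ) ⟶ H²(P, Lˣ)` is **surjective** and its kernel is exactly the
`[G : P]`-torsion: a class of `Br(L/K)` is split by the intermediate field `L^P` iff it is killed by
`[L^P : K]`.  (Counting: both groups are cyclic of orders `|G|`, `|P|`, and the kernel of restriction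
is killed by the index.)
-/

namespace Fermat.Agent.CFT

open CategoryTheory groupCohomology Rep

section Counting

variable {A B : Type*} [AddCommGroup A] [AddCommGroup B]

/-- Counting lemma: `f : A → B` between finite groups, `A` cyclic of order `i * m`, `|B| = m`,
`ker f` killed by `i`.  Then `f` is surjective and `ker f = A[i]`. -/
theorem surjective_and_ker_eq_of_card [IsAddCyclic A] [Finite A] [Finite B] (f : A →+ B)
    {i m : ℕ} (hm : 0 < m) (hi : 0 < i) (hA : Nat.card A = i * m) (hB : Nat.card B = m)
    (hker : ∀ x, f x = 0 → i • x = 0) :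
    Function.Surjective f ∧ f.ker = (nsmulAddMonoidHom i : A →+ A).ker := by
  have hle : f.ker ≤ (nsmulAddMonoidHom i : A →+ A).ker := by
    intro x hx
    rw [AddMonoidHom.mem_ker] at hx
    rw [AddMonoidHom.mem_ker, nsmulAddMonoidHom_apply]
    exact hker x hx
  have hT : Nat.card (nsmulAddMonoidHom i : A →+ A).ker = i := by
    rw [IsAddCyclic.card_nsmulAddMonoidHom_ker, hA]
    exact Nat.gcd_eq_right (Dvd.intro _ rfl)
  have h1 : Nat.card f.ker ≤ i := hT ▸ AddSubgroup.card_le_of_le hle
  have h2 : Nat.card f.range ≤ m := by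
    rw [← hB]
    exact Nat.card_le_card_of_injective _ Subtype.val_injective
  have h3 : Nat.card f.ker * Nat.card f.range = i * m := by
    rw [← hA, ← AddSubgroup.index_ker, AddSubgroup.card_mul_index]
  have h4 : Nat.card f.ker = i ∧ Nat.card f.range = m := by
    have hk : 0 < Nat.card f.ker := Nat.card_pos
    have hr : 0 < Nat.card f.range := Nat.card_pos
    constructor
    · by_contra hne
      have hlt : Nat.card f.ker < i := lt_of_le_of_ne h1 hne
      have : Nat.card f.ker * Nat.card f.range < i * m :=
        Nat.mul_lt_mul_of_lt_of_le hlt h2 hm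
      omega
    · by_contra hne
      have hlt : Nat.card f.range < m := lt_of_le_of_ne h2 hne
      have : Nat.card f.ker * Nat.card f.range < i * m :=
        Nat.mul_lt_mul_of_le_of_lt h1 hlt hi
      omega
  refine ⟨?_, ?_⟩
  · rw [← AddMonoidHom.range_eq_top, ← AddSubgroup.card_eq_iff_eq_top, h4.2, hB]
  · exact AddSubgroup.eq_of_le_of_card_ge hle (by rw [hT, h4.1])

end Counting

variable {K L : Type} [Field K] [Field L] [Algebra K L] [FiniteDimensional K L] [IsGalois K L]

/-- **Restriction on `Br(L/K)`** is surjective with kernel the `[G : P]`-torsion. -/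
theorem IsLocalFieldNA.resH_two_units (hK : IsLocalFieldNA K) (P : Subgroup (L ≃ₐ[K] L)) :
    Function.Surjective (resH P (Rep.ofAlgebraAutOnUnits K L) 2) ∧
      ∀ x : groupCohomology (Rep.ofAlgebraAutOnUnits K L) 2,
        resH P (Rep.ofAlgebraAutOnUnits K L) 2 x = 0 ↔ P.index • x = 0 := by
  have hfinA : Finite (groupCohomology (Rep.ofAlgebraAutOnUnits K L) 2) := hK.finite_H2_units
  have hcycA : IsAddCyclic (groupCohomology (Rep.ofAlgebraAutOnUnits K L) 2) :=
    hK.isAddCyclic_H2_units
  have hcardB := hK.natCard_H2_res_units_eq P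
  have hfinB : Finite (groupCohomology (res P.subtype (Rep.ofAlgebraAutOnUnits K L)) 2) :=
    Nat.finite_of_card_ne_zero (by rw [hcardB]; exact Nat.card_pos.ne')
  have hcardA : Nat.card (groupCohomology (Rep.ofAlgebraAutOnUnits K L) 2) =
      P.index * Nat.card P := by
    rw [show Nat.card (groupCohomology (Rep.ofAlgebraAutOnUnits K L) 2) = Module.finrank K L from
      hK.natCard_H2_units, ← IsGalois.card_aut_eq_finrank, mul_comm, Subgroup.card_mul_index]
  have hidx : 0 < P.index := Nat.pos_of_ne_zero Subgroup.index_ne_zero_of_finite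
  obtain ⟨hsurj, hker⟩ := surjective_and_ker_eq_of_card
    (resH P (Rep.ofAlgebraAutOnUnits K L) 2).hom.toAddMonoidHom Nat.card_pos hidx hcardA hcardB
    (fun x hx => index_nsmul_eq_zero_of_resH_eq_zero P _ 2 (by norm_num) x hx)
  refine ⟨hsurj, fun x => ?_⟩
  have := congrArg (fun S : AddSubgroup _ => x ∈ S) hker
  simp only [AddMonoidHom.mem_ker, nsmulAddMonoidHom_apply] at this
  exact Iff.of_eq this

section Tower

variable (F : Type) [Field F] [Algebra K F] [Algebra F L] [IsScalarTower K F L]

/-- **Field form**: in a tower `K ⊆ F ⊆ L` of local fields with `L / K` finite Galois, restriction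
`H²(Gal(L/K), Lˣ) ⟶ H²(Gal(L/F), Lˣ)` is surjective, and a class is split by `F` (restricts to `0`)
iff it is killed by `[F : K]`. -/
theorem IsLocalFieldNA.H2unitsRes_surjective_and_eq_zero_iff (hK : IsLocalFieldNA K) :
    Function.Surjective (H2unitsRes K F L) ∧
      ∀ x : groupCohomology (Rep.ofAlgebraAutOnUnits K L) 2,
        H2unitsRes K F L x = 0 ↔ Module.finrank K F • x = 0 := by
  have hfdF : FiniteDimensional K F := FiniteDimensional.left K F L
  have hfdL : FiniteDimensional F L := FiniteDimensional.right K F L
  have hgal : IsGalois F L := IsGalois.tower_top_of_isGalois K F L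
  set P : Subgroup (L ≃ₐ[K] L) := (galIncl K F L).range with hP
  obtain ⟨hs, hk⟩ := hK.resH_two_units P
  have hβ := map_resHom_bijective P (galIncl K F L) (unitsResHom K F L)
    (galIncl_injective K F L) rfl ⟨fun _ _ h => h, fun b => ⟨b, rfl⟩⟩ 2
  have hfac : ∀ x, H2unitsRes K F L x =
      (map (toSubEquiv P (galIncl K F L) (galIncl_injective K F L) rfl).toMonoidHom
        (resHom P (galIncl K F L) (unitsResHom K F L) (galIncl_injective K F L) rfl) 2)
        (resH P (Rep.ofAlgebraAutOnUnits K L) 2 x) := fun x =>
    congr($(map_eq_res_comp P (galIncl K F L) (unitsResHom K F L)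
      (galIncl_injective K F L) rfl 2) x)
  have hidx : P.index = Module.finrank K F := by
    have hcardP : Nat.card P = Module.finrank F L := by
      rw [← IsGalois.card_aut_eq_finrank F L]
      exact (Nat.card_congr (toSubEquiv P (galIncl K F L) (galIncl_injective K F L)
        rfl).toEquiv).symm
    have h1 : Nat.card P * P.index = Module.finrank K F * Module.finrank F L := by
      rw [Subgroup.card_mul_index, IsGalois.card_aut_eq_finrank, Module.finrank_mul_finrank]
    rw [hcardP, mul_comm] at h1
    exact Nat.eq_of_mul_eq_mul_right Module.finrank_pos h1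
  refine ⟨fun y => ?_, fun x => ?_⟩
  · obtain ⟨z, hz⟩ := hβ.2 y
    obtain ⟨x, hx⟩ := hs z
    exact ⟨x, by rw [hfac, hx, hz]⟩
  · rw [hfac, ← hidx, ← hk x]
    constructor
    · intro h
      exact hβ.1 (h.trans (map_zero _).symm)
    · intro h
      rw [h, map_zero]

end Tower

end Fermat.Agent.CFT
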