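import Mathlib
import Fermat.Agent.CFT.Local.FiltrationNorm

set_option autoImplicit false

/-!
# CFT, local stream: the multiplicative filtration engine

`B` a commutative ring with an action of a finite cyclic group `G = ⟨σ⟩` by ring automorphisms and
a decreasing chain `I 0 ≥ I 1 ≥ …` of `G`-stable additive subgroups with
`I i * I i * B ≤ I (i+1)`, `I i * I 0 ≤ I i`, `1 + I 0 ⊆ Bˣ`, separated and complete.
Put `W i = {u ∈ Bˣ | u - 1 ∈ I i}`.  If on the graded pieces the trace is onto the invariants and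
the kernel of the trace is the image of `σ - 1`, then on `V = W 0`

* every `σ`-fixed element of `V` is the norm of an element of `V`;
* every element of `V` of norm `1` is of the form `σ v / v` with `v ∈ V`.
-/

namespace Fermat.Agent.CFT

open scoped BigOperators

attribute [local instance] Units.mulDistribMulActionRight

section Engine

variable {B : Type*} [CommRing B] {G : Type*} [Group G] [MulSemiringAction G B]

/-- A multiplicative filtration of (a subgroup of) `Bˣ` given additively. -/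
structure IsUnitFiltration (G : Type*) [Group G] [MulSemiringAction G B]
    (I : ℕ → AddSubgroup B) : Prop where
  anti : ∀ i, I (i + 1) ≤ I i
  mul_mem : ∀ i, ∀ x ∈ I i, ∀ y ∈ I i, ∀ b : B, x * y * b ∈ I (i + 1)
  mul_mem_zero : ∀ i, ∀ x ∈ I i, ∀ y ∈ I 0, x * y ∈ I i
  smul_mem : ∀ i (g : G), ∀ x ∈ I i, g • x ∈ I i
  isUnit : ∀ x ∈ I 0, IsUnit (1 + x)
  sep : ∀ x, (∀ i, x ∈ I i) → x = 0
  complete : ∀ s : ℕ → B, (∀ i, s (i + 1) - s i ∈ I i) → ∃ z, ∀ i, z - s i ∈ I i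

namespace IsUnitFiltration

variable {I : ℕ → AddSubgroup B} (hI : IsUnitFiltration G I)
include hI

theorem le_zero (i : ℕ) : I i ≤ I 0 := by
  induction i with
  | zero => exact le_rfl
  | succ i ih => exact (hI.anti i).trans ih

theorem mul_mem' (i : ℕ) {x y : B} (hx : x ∈ I i) (hy : y ∈ I i) : x * y ∈ I (i + 1) := by
  simpa using hI.mul_mem i x hx y hy 1

/-- The subgroup `W i = {u | u - 1 ∈ I i}` of `Bˣ`. -/
def W (i : ℕ) : Subgroup Bˣ where
  carrier := {u | (u : B) - 1 ∈ I i}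
  one_mem' := by simp
  mul_mem' := by
    intro u v hu hv
    simp only [Set.mem_ofPred_eq] at hu hv ⊢
    have h : ((u * v : Bˣ) : B) - 1 =
        ((u : B) - 1) + ((v : B) - 1) + ((u : B) - 1) * ((v : B) - 1) := by
      push_cast; ring
    rw [h]
    exact add_mem (add_mem hu hv) (hI.anti i (hI.mul_mem' i hu hv))
  inv_mem' := by
    intro u hu
    simp only [Set.mem_ofPred_eq] at hu ⊢
    have h1 : (u : B) * ((u⁻¹ : Bˣ) : B) = 1 := by simp
    have h : ((u⁻¹ : Bˣ) : B) - 1 =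
        -((u : B) - 1) + ((u : B) - 1) * ((u : B) - 1) * ((u⁻¹ : Bˣ) : B) := by
      linear_combination (2 - (u : B)) * h1
    rw [h]
    exact add_mem (neg_mem hu) (hI.anti i (hI.mul_mem i _ hu _ hu _))

theorem mem_W {i : ℕ} {u : Bˣ} : u ∈ hI.W i ↔ (u : B) - 1 ∈ I i := Iff.rfl

theorem W_anti (i : ℕ) : hI.W (i + 1) ≤ hI.W i := fun _ hu => hI.anti i hu

theorem W_le_zero (i : ℕ) : hI.W i ≤ hI.W 0 := fun _ hu => hI.le_zero i hu

/-- `I (i+1)` is stable under multiplication by `W i`. -/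
theorem mul_unit_mem {i : ℕ} {z : B} (hz : z ∈ I (i + 1)) {u : Bˣ} (hu : u ∈ hI.W i) :
    z * (u : B) ∈ I (i + 1) := by
  have h : z * (u : B) = z + z * ((u : B) - 1) := by ring
  rw [h]
  exact add_mem hz (hI.mul_mem' i (hI.anti i hz) hu)

/-- `I i` is stable under multiplication by `W 0`. -/
theorem mul_unit_mem_zero {i : ℕ} {z : B} (hz : z ∈ I i) {u : Bˣ} (hu : u ∈ hI.W 0) :
    z * (u : B) ∈ I i := by
  have h : z * (u : B) = z + z * ((u : B) - 1) := by ring
  rw [h]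
  exact add_mem hz (hI.mul_mem_zero i z hz _ hu)

theorem smul_mem_W {i : ℕ} (g : G) {u : Bˣ} (hu : u ∈ hI.W i) : g • u ∈ hI.W i := by
  rw [mem_W] at hu ⊢
  have : ((g • u : Bˣ) : B) - 1 = g • ((u : B) - 1) := by
    rw [smul_sub, smul_one]; rfl
  rw [this]
  exact hI.smul_mem i g _ hu

/-- `1 + x` as a unit for `x ∈ I 0`. -/
noncomputable def oneAdd {x : B} (hx : x ∈ I 0) : Bˣ := (hI.isUnit x hx).unit

@[simp] theorem coe_oneAdd {x : B} (hx : x ∈ I 0) : ((hI.oneAdd hx : Bˣ) : B) = 1 + x := rfl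

theorem oneAdd_mem_W {i : ℕ} {x : B} (hx : x ∈ I i) : hI.oneAdd (hI.le_zero i hx) ∈ hI.W i := by
  rw [mem_W, coe_oneAdd]; simpa using hx

/-- Division criterion: `u / v ∈ W (i+1)` as soon as `u - v ∈ I (i+1)` and `v ∈ W i`. -/
theorem div_mem_W_succ {i : ℕ} {u v : Bˣ} (hv : v ∈ hI.W i) (h : (u : B) - v ∈ I (i + 1)) :
    u / v ∈ hI.W (i + 1) := by
  rw [mem_W]
  have h1 : ((u / v : Bˣ) : B) - 1 = ((u : B) - v) * ((v⁻¹ : Bˣ) : B) := by
    rw [div_eq_mul_inv, Units.val_mul, sub_mul, Units.mul_inv]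
  rw [h1]
  exact hI.mul_unit_mem h ((hI.W i).inv_mem hv)

/-- Division criterion at a fixed level: `u / v ∈ W i` as soon as `u - v ∈ I i` and `v ∈ W 0`. -/
theorem div_mem_W {i : ℕ} {u v : Bˣ} (hv : v ∈ hI.W 0) (h : (u : B) - v ∈ I i) :
    u / v ∈ hI.W i := by
  rw [mem_W]
  have h1 : ((u / v : Bˣ) : B) - 1 = ((u : B) - v) * ((v⁻¹ : Bˣ) : B) := by
    rw [div_eq_mul_inv, Units.val_mul, sub_mul, Units.mul_inv]
  rw [h1]
  exact hI.mul_unit_mem_zero h ((hI.W 0).inv_mem hv)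

/-- `∏ (1 + a j) ≡ 1 + ∑ a j` modulo `I (i+1)` for `a j ∈ I i`. -/
theorem prod_one_add_sub_mem {ι : Type*} (s : Finset ι) (a : ι → B) {i : ℕ}
    (ha : ∀ j ∈ s, a j ∈ I i) :
    (∏ j ∈ s, (1 + a j)) - 1 - ∑ j ∈ s, a j ∈ I (i + 1) := by
  classical
  induction s using Finset.induction_on with
  | empty => simp
  | insert k s hk ih =>
    have hak : a k ∈ I i := ha k (Finset.mem_insert_self k s)
    have has : ∀ j ∈ s, a j ∈ I i := fun j hj => ha j (Finset.mem_insert_of_mem hj)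
    have hsum : ∑ j ∈ s, a j ∈ I i := sum_mem has
    have ih' := ih has
    rw [Finset.prod_insert hk, Finset.sum_insert hk]
    have h : (1 + a k) * (∏ j ∈ s, (1 + a j)) - 1 - (a k + ∑ j ∈ s, a j) =
        ((∏ j ∈ s, (1 + a j)) - 1 - ∑ j ∈ s, a j) + a k * (∑ j ∈ s, a j) +
          a k * ((∏ j ∈ s, (1 + a j)) - 1 - ∑ j ∈ s, a j) := by ring
    rw [h]
    exact add_mem (add_mem ih' (hI.mul_mem' i hak hsum)) (hI.mul_mem' i hak (hI.anti i ih'))

end IsUnitFiltration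

end Engine

section Maps

variable {B : Type*} [CommRing B] {G : Type*} [Group G] [Fintype G] [MulSemiringAction G B]

/-- The norm `u ↦ ∏ g, g • u` on units. -/
def galUnitsNorm (G : Type*) [Group G] [Fintype G] [MulSemiringAction G B] : Bˣ →* Bˣ where
  toFun u := ∏ g : G, g • u
  map_one' := by simp
  map_mul' u v := by simp [smul_mul', Finset.prod_mul_distrib]

@[simp] theorem galUnitsNorm_apply (u : Bˣ) : galUnitsNorm G u = ∏ g : G, g • u := rfl

theorem coe_galUnitsNorm (u : Bˣ) : ((galUnitsNorm G u : Bˣ) : B) = ∏ g : G, g • (u : B) := by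
  rw [galUnitsNorm_apply, Units.coe_prod]; rfl

theorem smul_galUnitsNorm (h : G) (u : Bˣ) : h • galUnitsNorm G u = galUnitsNorm G u := by
  rw [galUnitsNorm_apply, Finset.smul_prod']
  simp_rw [← mul_smul]
  exact Fintype.prod_equiv (Equiv.mulLeft h) _ _ fun g => rfl

theorem galUnitsNorm_smul (h : G) (u : Bˣ) : galUnitsNorm G (h • u) = galUnitsNorm G u := by
  rw [galUnitsNorm_apply, galUnitsNorm_apply]
  simp_rw [← mul_smul]
  exact Fintype.prod_equiv (Equiv.mulRight h) _ _ fun g => rfl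

omit [Fintype G] in
/-- `u ↦ σ • u / u` on units. -/
def galUnitsSubOne (σ : G) : Bˣ →* Bˣ where
  toFun u := σ • u / u
  map_one' := by simp
  map_mul' u v := by rw [smul_mul', mul_div_mul_comm]

omit [Fintype G] in
@[simp] theorem galUnitsSubOne_apply (σ : G) (u : Bˣ) : galUnitsSubOne σ u = σ • u / u := rfl

theorem galUnitsNorm_galUnitsSubOne (σ : G) (u : Bˣ) : galUnitsNorm G (galUnitsSubOne σ u) = 1 := by
  rw [galUnitsSubOne_apply, map_div, galUnitsNorm_smul, div_self']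

end Maps

theorem units_coe_sub_coe_eq {B : Type*} [CommRing B] (u v : Bˣ) :
    (u : B) - v = (((u / v : Bˣ) : B) - 1) * v := by
  rw [div_eq_mul_inv, Units.val_mul, sub_mul, one_mul, mul_assoc, Units.inv_mul, mul_one]

section Main

variable {B : Type*} [CommRing B] {G : Type*} [Group G] [Fintype G] [MulSemiringAction G B]
  {I : ℕ → AddSubgroup B} (hI : IsUnitFiltration G I)

include hI

omit [Fintype G] in
/-- Completeness of `W 0` with respect to the filtration `W i`. -/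
theorem IsUnitFiltration.complete_W (P : ℕ → hI.W 0)
    (hP : ∀ i, P (i + 1) / P i ∈ (hI.W i).subgroupOf (hI.W 0)) :
    ∃ z : hI.W 0, ∀ i, z / P i ∈ (hI.W i).subgroupOf (hI.W 0) := by
  have hs : ∀ i, ((P (i + 1) : Bˣ) : B) - ((P i : Bˣ) : B) ∈ I i := by
    intro i
    have h1 : ((P (i + 1) : Bˣ) / (P i : Bˣ)) ∈ hI.W i := by
      have := hP i
      rwa [Subgroup.mem_subgroupOf, Subgroup.coe_div] at this
    rw [units_coe_sub_coe_eq]
    exact hI.mul_unit_mem_zero h1 (P i).2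
  obtain ⟨z₀, hz₀⟩ := hI.complete (fun i => ((P i : Bˣ) : B)) hs
  have hz1 : z₀ - 1 ∈ I 0 := by
    have h0 : ((P 0 : Bˣ) : B) - 1 ∈ I 0 := (P 0).2
    have h : z₀ - 1 = (z₀ - ((P 0 : Bˣ) : B)) + (((P 0 : Bˣ) : B) - 1) := by ring
    rw [h]
    exact add_mem (hz₀ 0) h0
  have hzu : ((hI.oneAdd hz1 : Bˣ) : B) = z₀ := by rw [hI.coe_oneAdd]; ring
  have hzuW : hI.oneAdd hz1 ∈ hI.W 0 := by rw [hI.mem_W, hzu]; exact hz1
  refine ⟨⟨hI.oneAdd hz1, hzuW⟩, fun i => ?_⟩
  rw [Subgroup.mem_subgroupOf, Subgroup.coe_div]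
  exact hI.div_mem_W (P i).2 (by rw [hzu]; exact hz₀ i)

omit [Fintype G] in
theorem IsUnitFiltration.eq_one_of_forall_mem_W {y : Bˣ} (hy : ∀ i, y ∈ hI.W i) : y = 1 := by
  have : (y : B) - 1 = 0 := hI.sep _ hy
  exact Units.ext (by simpa [sub_eq_zero] using this)

theorem IsUnitFiltration.galUnitsNorm_mem_W {i : ℕ} {u : Bˣ} (hu : u ∈ hI.W i) :
    galUnitsNorm G u ∈ hI.W i := by
  rw [galUnitsNorm_apply]
  exact prod_mem fun g _ => hI.smul_mem_W g hu

/-- `N(1 + y) ≡ 1 + Tr y` modulo `I (i+1)`. -/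
theorem IsUnitFiltration.coe_galUnitsNorm_oneAdd_sub_mem {i : ℕ} {y : B} (hy : y ∈ I i) :
    ((galUnitsNorm G (hI.oneAdd (hI.le_zero i hy)) : Bˣ) : B) - 1 - ∑ g : G, g • y ∈ I (i + 1) := by
  rw [coe_galUnitsNorm, hI.coe_oneAdd]
  have h : ∀ g : G, g • (1 + y) = 1 + g • y := fun g => by rw [smul_add, smul_one]
  simp_rw [h]
  exact hI.prod_one_add_sub_mem Finset.univ (fun g => g • y) fun g _ => hI.smul_mem i g y hy

/-- `N u ≡ 1 + Tr (u - 1)` modulo `I (i+1)` for `u ∈ W i`. -/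
theorem IsUnitFiltration.coe_galUnitsNorm_sub_mem {i : ℕ} {u : Bˣ} (hu : u ∈ hI.W i) :
    ((galUnitsNorm G u : Bˣ) : B) - 1 - ∑ g : G, g • ((u : B) - 1) ∈ I (i + 1) := by
  rw [coe_galUnitsNorm]
  have h : ∀ g : G, g • (u : B) = 1 + g • ((u : B) - 1) := fun g => by
    rw [smul_sub, smul_one]; ring
  simp_rw [h]
  exact hI.prod_one_add_sub_mem Finset.univ (fun g => g • ((u : B) - 1))
    fun g _ => hI.smul_mem i g _ hu

/-- **Ĥ⁰ = 0 on `W 0`**: every `σ`-fixed element of `W 0` is a norm from `W 0`. -/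
theorem IsUnitFiltration.exists_galUnitsNorm_eq (σ : G)
    (hT : ∀ i, ∀ x ∈ I i, σ • x = x → ∃ y ∈ I i, x - ∑ g : G, g • y ∈ I (i + 1))
    {u : Bˣ} (hu : u ∈ hI.W 0) (hfix : σ • u = u) : ∃ v ∈ hI.W 0, galUnitsNorm G v = u := by
  let f : hI.W 0 →* Bˣ := (galUnitsNorm G).comp (hI.W 0).subtype
  let S : Subgroup Bˣ :=
    { carrier := {w | σ • w = w}
      one_mem' := smul_one σ
      mul_mem' := fun {a b} ha hb => by
        simp only [Set.mem_ofPred_eq] at ha hb ⊢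
        rw [smul_mul', ha, hb]
      inv_mem' := fun {a} ha => by
        simp only [Set.mem_ofPred_eq] at ha ⊢
        rw [smul_inv', ha] }
  obtain ⟨z, hz⟩ := exists_preimage_of_filtration f
    (fun i => (hI.W i).subgroupOf (hI.W 0)) (fun i => hI.W i) S
    (fun x => smul_galUnitsNorm σ _)
    (fun i x hx => hI.galUnitsNorm_mem_W (Subgroup.mem_subgroupOf.mp hx))
    (fun i y hy hyS => by
      have hyS' : σ • y = y := hyS
      have hx₀ : (y : B) - 1 ∈ I i := hy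
      have hσx₀ : σ • ((y : B) - 1) = (y : B) - 1 := by
        rw [smul_sub, smul_one]
        congr 1
        exact congrArg Units.val hyS'
      obtain ⟨y₀, hy₀, hy₀'⟩ := hT i _ hx₀ hσx₀
      have hxW : hI.oneAdd (hI.le_zero i hy₀) ∈ hI.W i := hI.oneAdd_mem_W hy₀
      refine ⟨⟨hI.oneAdd (hI.le_zero i hy₀), hI.W_le_zero i hxW⟩,
        Subgroup.mem_subgroupOf.mpr hxW, ?_⟩
      refine hI.div_mem_W_succ (hI.galUnitsNorm_mem_W hxW) ?_
      have h := hI.coe_galUnitsNorm_oneAdd_sub_mem hy₀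
      have e : (y : B) - ((f ⟨hI.oneAdd (hI.le_zero i hy₀), hI.W_le_zero i hxW⟩ : Bˣ) : B) =
          ((y : B) - 1 - ∑ g : G, g • y₀) -
            (((galUnitsNorm G (hI.oneAdd (hI.le_zero i hy₀)) : Bˣ) : B) - 1 - ∑ g : G, g • y₀) := by
        simp only [f, MonoidHom.comp_apply, Subgroup.subtype_apply]
        ring
      rw [e]
      exact sub_mem hy₀' h)
    hI.complete_W (fun y hy => hI.eq_one_of_forall_mem_W hy) hu hfix
  exact ⟨z, z.2, hz⟩

/-- **Ĥ⁻¹ = 0 on `W 0`**: every element of `W 0` of norm one is `σ v / v` with `v ∈ W 0`. -/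
theorem IsUnitFiltration.exists_galUnitsSubOne_eq (σ : G)
    (hK : ∀ i, ∀ x ∈ I i, (∑ g : G, g • x) ∈ I (i + 1) →
      ∃ y ∈ I i, x - (σ • y - y) ∈ I (i + 1))
    {u : Bˣ} (hu : u ∈ hI.W 0) (hN : galUnitsNorm G u = 1) :
    ∃ v ∈ hI.W 0, galUnitsSubOne σ v = u := by
  let f : hI.W 0 →* Bˣ := (galUnitsSubOne σ).comp (hI.W 0).subtype
  have hsub : ∀ {i : ℕ} {x : Bˣ}, x ∈ hI.W i → galUnitsSubOne σ x ∈ hI.W i := fun {i x} hx => by
    rw [galUnitsSubOne_apply]
    exact (hI.W i).div_mem (hI.smul_mem_W σ hx) hx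
  obtain ⟨z, hz⟩ := exists_preimage_of_filtration f
    (fun i => (hI.W i).subgroupOf (hI.W 0)) (fun i => hI.W i) (galUnitsNorm G).ker
    (fun x => MonoidHom.mem_ker.mpr (galUnitsNorm_galUnitsSubOne σ _))
    (fun i x hx => hsub (Subgroup.mem_subgroupOf.mp hx))
    (fun i y hy hyS => by
      have hNy : galUnitsNorm G y = 1 := MonoidHom.mem_ker.mp hyS
      have hx₀ : (y : B) - 1 ∈ I i := hy
      have hTr : (∑ g : G, g • ((y : B) - 1)) ∈ I (i + 1) := by
        have h := hI.coe_galUnitsNorm_sub_mem hy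
        rw [hNy, Units.val_one, sub_self, zero_sub] at h
        simpa using neg_mem h
      obtain ⟨y₀, hy₀, hy₀'⟩ := hK i _ hx₀ hTr
      have hxW : hI.oneAdd (hI.le_zero i hy₀) ∈ hI.W i := hI.oneAdd_mem_W hy₀
      refine ⟨⟨hI.oneAdd (hI.le_zero i hy₀), hI.W_le_zero i hxW⟩,
        Subgroup.mem_subgroupOf.mpr hxW, ?_⟩
      refine hI.div_mem_W_succ (hsub hxW) ?_
      set x : Bˣ := hI.oneAdd (hI.le_zero i hy₀) with hx
      have hxv : (x : B) = 1 + y₀ := hI.coe_oneAdd _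
      have hσx : ((σ • x : Bˣ) : B) = 1 + σ • y₀ := by
        show σ • (x : B) = _
        rw [hxv, smul_add, smul_one]
      have e : (y : B) - ((f ⟨x, hI.W_le_zero i hxW⟩ : Bˣ) : B) =
          (((y : B) - 1 - (σ • y₀ - y₀)) + ((y : B) - 1) * y₀) * ((x⁻¹ : Bˣ) : B) := by
        simp only [f, MonoidHom.comp_apply, Subgroup.subtype_apply, galUnitsSubOne_apply]
        rw [div_eq_mul_inv, Units.val_mul, hσx]
        have h1 : (x : B) * ((x⁻¹ : Bˣ) : B) = 1 := by simp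
        rw [hxv] at h1
        linear_combination (-(y : B)) * h1
      rw [e]
      exact hI.mul_unit_mem (add_mem hy₀' (hI.mul_mem' i hx₀ hy₀)) ((hI.W i).inv_mem hxW))
    hI.complete_W (fun y hy => hI.eq_one_of_forall_mem_W hy) hu (MonoidHom.mem_ker.mpr hN)
  exact ⟨z, z.2, hz⟩

end Main

end Fermat.Agent.CFT
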