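import Mathlib
import Fermat.Agent.CFT.Coh.HerbrandAbs
import Fermat.Agent.CFT.Local.Interface
import Fermat.Agent.CFT.Local.UnitsFiltration
import Fermat.Agent.CFT.Local.UnramifiedNorm

set_option autoImplicit false

/-!
# CFT stream [B] Local, layer (B6): `h(U_L) = 1` for a cyclic extension (contract [B-C5])

* `Coord`: the group ring `G → A` of a finite cyclic group `G = ⟨σ⟩`: invariants are the constant
  functions, the augmentation ideal is the image of `σ - 1`.
* `Lattice`: `A` a complete DVR with uniformiser `ϖ`, `B` a local `A`-algebra with `G`-action,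
  `θ : B` a normal lattice generator (`(g • θ)_g` linearly independent over `A`,
  `ϖ ^ N0 • B ⊆ M := ⊕ A • g • θ`).  Then `I i := ϖ ^ (N0 + 1 + i) • M` is a unit filtration
  (`IsUnitFiltration`) satisfying the graded conditions of `Local/UnitsFiltration.lean`.
* `Contract`: `unitsHerbrandOne_of_lattice` : the contract `UnitsHerbrandOne A K L B` from the
  normal lattice data and the finite index statement (both provided by `Local/UnitsLattice.lean`).
-/

namespace Fermat.Agent.CFT

open scoped BigOperators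

section Coord

variable {G : Type*} [Group G] [Fintype G] {A : Type*} [CommRing A]

/-- Left translation on the group ring `G → A`: `(g • c) h = c (g⁻¹ h)`. -/
def lshift (g : G) (c : G → A) : G → A := fun h => c (g⁻¹ * h)

omit [Fintype G] [CommRing A] in
@[simp] theorem lshift_apply (g : G) (c : G → A) (h : G) : lshift g c h = c (g⁻¹ * h) := rfl

omit [Fintype G] [CommRing A] in
/-- Invariants of a cyclic group in the group ring are the constant functions. -/
theorem eq_apply_one_of_lshift_eq {σ : G} (hσ : ∀ g : G, g ∈ Subgroup.zpowers σ) {c : G → A}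
    (hc : ∀ h, c (σ⁻¹ * h) = c h) (h : G) : c h = c 1 := by
  obtain ⟨z, rfl⟩ := Subgroup.mem_zpowers_iff.mp (hσ h)
  induction z using Int.induction_on with
  | zero => simp
  | succ n ih =>
    have := hc (σ ^ ((n : ℤ) + 1))
    rw [add_comm, zpow_one_add, inv_mul_cancel_left] at this
    rw [add_comm (n : ℤ) 1, zpow_one_add, ← this]
    exact ih
  | pred n ih =>
    have := hc (σ ^ (-(n : ℤ)))
    have e : σ⁻¹ * σ ^ (-(n : ℤ)) = σ ^ (-(n : ℤ) - 1) := by
      rw [sub_eq_add_neg, add_comm, zpow_add, zpow_neg_one]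
    rw [e] at this
    rw [this]
    exact ih

/-- The augmentation ideal of a cyclic group `⟨σ⟩` is `(σ - 1)` times the group ring. -/
theorem exists_sub_single_eq_lshift_sub [DecidableEq G] {σ : G}
    (hσ : ∀ g : G, g ∈ Subgroup.zpowers σ) (c : G → A) :
    ∃ d : G → A, ∀ h, c h - (Pi.single (1 : G) (∑ g, c g) : G → A) h = d (σ⁻¹ * h) - d h := by
  -- the statement is additive in `c`
  have hadd : ∀ c c' : G → A,
      (∃ d : G → A, ∀ h, c h - (Pi.single (1 : G) (∑ g, c g) : G → A) h = d (σ⁻¹ * h) - d h) →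
      (∃ d : G → A, ∀ h, c' h - (Pi.single (1 : G) (∑ g, c' g) : G → A) h = d (σ⁻¹ * h) - d h) →
      ∃ d : G → A, ∀ h, (c + c') h - (Pi.single (1 : G) (∑ g, (c + c') g) : G → A) h =
        d (σ⁻¹ * h) - d h := by
    rintro c c' ⟨d, hd⟩ ⟨d', hd'⟩
    refine ⟨d + d', fun h => ?_⟩
    have e : (Pi.single (1 : G) (∑ g, (c + c') g) : G → A) h =
        (Pi.single (1 : G) (∑ g, c g) : G → A) h + (Pi.single (1 : G) (∑ g, c' g) : G → A) h := by
      simp only [Pi.add_apply, Finset.sum_add_distrib]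
      by_cases h1 : h = 1
      · subst h1; simp
      · simp [Pi.single_eq_of_ne h1]
    rw [e, Pi.add_apply, Pi.add_apply, Pi.add_apply]
    linear_combination hd h + hd' h
  -- basis vectors
  have hpow : ∀ (z : ℤ) (a : A),
      ∃ d : G → A, ∀ h, (Pi.single (σ ^ z) a : G → A) h - (Pi.single (1 : G) a : G → A) h =
        d (σ⁻¹ * h) - d h := by
    intro z a
    induction z using Int.induction_on with
    | zero => exact ⟨0, fun h => by simp⟩
    | succ n ih =>
      obtain ⟨d, hd⟩ := ih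
      refine ⟨Pi.single (σ ^ (n : ℤ)) a + d, fun h => ?_⟩
      have e : (Pi.single (σ ^ ((n : ℤ) + 1)) a : G → A) h =
          (Pi.single (σ ^ (n : ℤ)) a : G → A) (σ⁻¹ * h) := by
        by_cases hh : h = σ ^ ((n : ℤ) + 1)
        · subst hh
          rw [add_comm, zpow_one_add, inv_mul_cancel_left]; simp
        · have hh' : σ⁻¹ * h ≠ σ ^ (n : ℤ) := fun hc => hh (by
            rw [add_comm, zpow_one_add, ← hc, mul_inv_cancel_left])
          rw [Pi.single_eq_of_ne hh, Pi.single_eq_of_ne hh']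
      rw [e, Pi.add_apply, Pi.add_apply]
      linear_combination hd h
    | pred n ih =>
      obtain ⟨d, hd⟩ := ih
      refine ⟨d - Pi.single (σ ^ (-(n : ℤ) - 1)) a, fun h => ?_⟩
      have e0 : σ⁻¹ * σ ^ (-(n : ℤ)) = σ ^ (-(n : ℤ) - 1) := by
        rw [sub_eq_add_neg, add_comm, zpow_add, zpow_neg_one]
      have e : (Pi.single (σ ^ (-(n : ℤ))) a : G → A) h =
          (Pi.single (σ ^ (-(n : ℤ) - 1)) a : G → A) (σ⁻¹ * h) := by
        by_cases hh : h = σ ^ (-(n : ℤ))
        · subst hh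
          rw [e0]; simp
        · have hh' : σ⁻¹ * h ≠ σ ^ (-(n : ℤ) - 1) := fun hc => hh (by
            rw [← e0] at hc
            exact mul_left_cancel hc)
          rw [Pi.single_eq_of_ne hh, Pi.single_eq_of_ne hh']
      rw [Pi.sub_apply, Pi.sub_apply]
      linear_combination hd h - e
  have hsingle : ∀ (g : G) (a : A),
      ∃ d : G → A, ∀ h, (Pi.single g a : G → A) h -
        (Pi.single (1 : G) (∑ g', (Pi.single g a : G → A) g') : G → A) h = d (σ⁻¹ * h) - d h := by
    intro g a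
    have hsum : ∑ g', (Pi.single g a : G → A) g' = a := by simp
    rw [hsum]
    obtain ⟨z, rfl⟩ := Subgroup.mem_zpowers_iff.mp (hσ g)
    exact hpow z a
  -- general case
  have hgen : ∀ s : Finset G, ∃ d : G → A, ∀ h,
      (∑ g ∈ s, (Pi.single g (c g) : G → A)) h -
        (Pi.single (1 : G) (∑ g', (∑ g ∈ s, (Pi.single g (c g) : G → A)) g') : G → A) h =
        d (σ⁻¹ * h) - d h := by
    intro s
    induction s using Finset.induction_on with
    | empty => exact ⟨0, fun h => by simp⟩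
    | insert g s hg ih =>
      rw [Finset.sum_insert hg]
      exact hadd _ _ (hsingle g (c g)) ih
  have hc : ∑ g : G, (Pi.single g (c g) : G → A) = c := Finset.univ_sum_single c
  have := hgen Finset.univ
  rwa [hc] at this

end Coord

section Lattice

variable {A : Type*} [CommRing A] {B : Type*} [CommRing B] [Algebra A B]
  {G : Type*} [Group G] [Fintype G] [MulSemiringAction G B] [SMulCommClass G A B]

/-- `Φ c = ∑ g, c g • g • θ`, the coordinate map of the normal lattice. -/
noncomputable def latMap (A : Type*) [CommRing A] {B : Type*} [CommRing B] [Algebra A B]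
    {G : Type*} [Group G] [Fintype G] [MulSemiringAction G B] (θ : B) : (G → A) →ₗ[A] B :=
  Fintype.linearCombination A (fun g : G => g • θ)

omit [SMulCommClass G A B] in
theorem latMap_apply (θ : B) (c : G → A) : latMap A θ c = ∑ g, c g • g • θ :=
  Fintype.linearCombination_apply ..

theorem smul_latMap (θ : B) (τ : G) (c : G → A) :
    τ • latMap A θ c = latMap A θ (lshift τ c) := by
  rw [latMap_apply, latMap_apply, Finset.smul_sum]
  simp_rw [smul_comm τ (c _) (_ : B), ← mul_smul]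
  exact Fintype.sum_equiv (Equiv.mulLeft τ) _ _ (fun g => by simp [lshift])

theorem sum_smul_latMap (θ : B) (c : G → A) :
    ∑ τ : G, τ • latMap A θ c = latMap A θ (fun _ : G => ∑ g, c g) := by
  have hτ : ∀ τ : G, τ • latMap A θ c = latMap A θ (lshift τ c) := fun τ => smul_latMap θ τ c
  simp_rw [hτ]
  rw [← map_sum]
  congr 1
  funext h
  rw [Finset.sum_apply]
  exact Fintype.sum_equiv ((Equiv.inv G).trans (Equiv.mulRight h)) _ _ (fun τ => by simp [lshift])

/-- The additive subgroup `ϖ ^ k • M`, `M = ⊕ A • g • θ`. -/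
def latI (G : Type*) [Group G] [Fintype G] [MulSemiringAction G B] (ϖ : A) (θ : B) (k : ℕ) :
    AddSubgroup B where
  carrier := {x | ∃ c : G → A, x = ϖ ^ k • latMap A θ c}
  zero_mem' := ⟨0, by simp⟩
  add_mem' := by
    rintro _ _ ⟨c, rfl⟩ ⟨c', rfl⟩
    exact ⟨c + c', by rw [map_add, smul_add]⟩
  neg_mem' := by
    rintro _ ⟨c, rfl⟩
    exact ⟨-c, by rw [map_neg, smul_neg]⟩

omit [SMulCommClass G A B] in
theorem mem_latI {ϖ : A} {θ : B} {k : ℕ} {x : B} :
    x ∈ latI G ϖ θ k ↔ ∃ c : G → A, x = ϖ ^ k • latMap A θ c := Iff.rfl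

variable [IsDomain A] [IsDiscreteValuationRing A] [IsAdicComplete (IsLocalRing.maximalIdeal A) A]
  [IsLocalRing B]

omit [SMulCommClass G A B] [IsDiscreteValuationRing A]
  [IsAdicComplete (IsLocalRing.maximalIdeal A) A] [IsLocalRing B] in
theorem latMap_cancel {ϖ : A} (hϖ0 : ϖ ≠ 0) {θ : B}
    (hinj : Function.Injective (latMap A (G := G) θ)) {k : ℕ} {c c' : G → A}
    (h : ϖ ^ k • latMap A θ c = ϖ ^ k • latMap A θ c') : c = c' := by
  rw [← map_smul, ← map_smul] at h
  have h2 := hinj h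
  funext g
  have h3 := congrFun h2 g
  simp only [Pi.smul_apply, smul_eq_mul] at h3
  exact mul_left_cancel₀ (pow_ne_zero k hϖ0) h3

theorem isUnitFiltration_latI {ϖ : A} (hϖ : Irreducible ϖ)
    (hϖB : algebraMap A B ϖ ∈ IsLocalRing.maximalIdeal B) (θ : B)
    (hlin : LinearIndependent A (fun g : G => g • θ)) (N0 : ℕ)
    (hN0 : ∀ b : B, ∃ c : G → A, ϖ ^ N0 • b = latMap A θ c) :
    IsUnitFiltration G (fun i => latI G ϖ θ (N0 + 1 + i)) := by
  have hinj : Function.Injective (latMap A (G := G) θ) :=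
    hlin.fintypeLinearCombination_injective
  have hϖ0 : ϖ ≠ 0 := hϖ.ne_zero
  have hϖm : ϖ ∈ IsLocalRing.maximalIdeal A :=
    (IsLocalRing.mem_maximalIdeal ϖ).mpr hϖ.not_isUnit
  refine ⟨?_, ?_, ?_, ?_, ?_, ?_, ?_⟩
  · -- anti
    rintro i _ ⟨c, rfl⟩
    exact ⟨ϖ • c, by rw [map_smul, smul_smul, ← pow_succ]; rfl⟩
  · -- mul_mem
    rintro i _ ⟨c, rfl⟩ _ ⟨c', rfl⟩ b
    obtain ⟨c'', hc''⟩ := hN0 (latMap A θ c * latMap A θ c' * b)
    refine ⟨ϖ ^ i • c'', ?_⟩
    rw [map_smul, ← hc'', smul_smul, smul_smul, smul_mul_smul_comm, smul_mul_assoc]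
    congr 1
    ring
  · -- mul_mem_zero
    rintro i _ ⟨c, rfl⟩ _ ⟨c', rfl⟩
    obtain ⟨c'', hc''⟩ := hN0 (latMap A θ c * latMap A θ c')
    refine ⟨ϖ • c'', ?_⟩
    rw [map_smul, ← hc'', smul_smul, smul_smul, smul_mul_smul_comm]
    congr 1
    ring
  · -- smul_mem
    rintro i g _ ⟨c, rfl⟩
    exact ⟨lshift g c, by rw [smul_comm, smul_latMap]⟩
  · -- isUnit
    rintro _ ⟨c, rfl⟩
    have hx : ϖ ^ (N0 + 1 + 0) • latMap A θ c ∈ IsLocalRing.maximalIdeal B := by
      rw [add_zero, pow_succ', mul_smul, Algebra.smul_def]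
      exact Ideal.mul_mem_right _ _ hϖB
    by_contra hu
    have h1 : (1 : B) + ϖ ^ (N0 + 1 + 0) • latMap A θ c ∈ IsLocalRing.maximalIdeal B :=
      (IsLocalRing.mem_maximalIdeal _).mpr hu
    have h2 : (1 : B) ∈ IsLocalRing.maximalIdeal B := by
      have := sub_mem h1 hx
      simp at this
    exact (IsLocalRing.maximalIdeal.isMaximal B).ne_top ((Ideal.eq_top_iff_one _).mpr h2)
  · -- sep
    intro x hx
    obtain ⟨c0, rfl⟩ := hx 0
    have hc0 : c0 = 0 := by
      funext g
      refine IsHausdorff.haus (IsAdicComplete.toIsHausdorff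
        (I := IsLocalRing.maximalIdeal A) (M := A)) (c0 g) fun n => ?_
      rw [SModEq.zero, smul_eq_mul, Ideal.mul_top]
      obtain ⟨cn, hcn⟩ := hx n
      have e : c0 = ϖ ^ n • cn := by
        apply latMap_cancel hϖ0 hinj (k := N0 + 1 + 0)
        rw [hcn, map_smul, smul_smul, ← pow_add, add_zero]
      rw [e, Pi.smul_apply, smul_eq_mul]
      exact Ideal.mul_mem_right _ _ (Ideal.pow_mem_pow hϖm n)
    rw [hc0, map_zero, smul_zero]
  · -- complete
    intro s hs
    choose d hd using hs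
    -- partial sums
    let t : ℕ → (G → A) := fun n => ∑ i ∈ Finset.range n, ϖ ^ i • d i
    have hsn : ∀ n, s n = s 0 + ϖ ^ (N0 + 1) • latMap A θ (t n) := by
      intro n
      induction n with
      | zero => simp [t]
      | succ n ih =>
        have h1 : s (n + 1) = s n + (s (n + 1) - s n) := by ring
        rw [h1, hd n, ih, add_assoc]
        congr 1
        simp only [t, Finset.sum_range_succ, map_add, smul_add, map_smul, smul_smul, pow_add]
    have hm : IsLocalRing.maximalIdeal A = Ideal.span {ϖ} := hϖ.maximalIdeal_eq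
    have hcauchy : ∀ g : G, ∀ {m n : ℕ}, m ≤ n →
        t m g ≡ t n g [SMOD (IsLocalRing.maximalIdeal A ^ m • ⊤ : Submodule A A)] := by
      intro g m n hmn
      rw [SModEq.sub_mem, smul_eq_mul, Ideal.mul_top]
      have : t m g - t n g = -∑ i ∈ Finset.Ico m n, ϖ ^ i * d i g := by
        simp only [t, Finset.sum_apply, Pi.smul_apply, smul_eq_mul]
        rw [Finset.sum_Ico_eq_sub _ hmn]; ring
      rw [this]
      refine neg_mem (sum_mem fun i hi => ?_)
      exact Ideal.mul_mem_right _ _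
        (Ideal.pow_le_pow_right (Finset.mem_Ico.mp hi).1 (Ideal.pow_mem_pow hϖm i))
    have hlim : ∀ g : G, ∃ T : A, ∀ n,
        t n g ≡ T [SMOD (IsLocalRing.maximalIdeal A ^ n • ⊤ : Submodule A A)] := fun g =>
      IsPrecomplete.prec (IsAdicComplete.toIsPrecomplete
        (I := IsLocalRing.maximalIdeal A) (M := A)) (hcauchy g)
    choose T hT using hlim
    have hdiv : ∀ n, ∀ g : G, ∃ e : A, T g - t n g = ϖ ^ n * e := by
      intro n g
      have h := hT g n
      rw [SModEq.sub_mem, smul_eq_mul, Ideal.mul_top, hm, Ideal.span_singleton_pow,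
        Ideal.mem_span_singleton] at h
      obtain ⟨e, he⟩ := h
      exact ⟨-e, by rw [mul_neg, ← he]; ring⟩
    choose e he using hdiv
    refine ⟨s 0 + ϖ ^ (N0 + 1) • latMap A θ T, fun n => ⟨e n, ?_⟩⟩
    rw [hsn n]
    have hTt : T = t n + ϖ ^ n • e n := by
      funext g
      rw [Pi.add_apply, Pi.smul_apply, smul_eq_mul, ← he n g]; ring
    rw [hTt, map_add, smul_add, map_smul, smul_smul, ← pow_add]
    ring

omit [IsDiscreteValuationRing A] [IsAdicComplete (IsLocalRing.maximalIdeal A) A]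
  [IsLocalRing B] in
/-- graded condition (T): invariants are traces. -/
theorem latI_trace_surj {ϖ : A} (hϖ : Irreducible ϖ) (θ : B)
    (hlin : LinearIndependent A (fun g : G => g • θ)) {σ : G}
    (hσ : ∀ g : G, g ∈ Subgroup.zpowers σ) (k : ℕ) {x : B} (hx : x ∈ latI G ϖ θ k)
    (hfix : σ • x = x) : ∃ y ∈ latI G ϖ θ k, x - ∑ g : G, g • y ∈ latI G ϖ θ (k + 1) := by
  classical
  have hinj : Function.Injective (latMap A (G := G) θ) :=
    hlin.fintypeLinearCombination_injective
  obtain ⟨c, rfl⟩ := hx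
  rw [smul_comm, smul_latMap] at hfix
  have hc : lshift σ c = c := latMap_cancel hϖ.ne_zero hinj hfix
  have hconst : ∀ h, c h = c 1 :=
    eq_apply_one_of_lshift_eq hσ (fun h => congrFun hc h)
  refine ⟨ϖ ^ k • latMap A θ (Pi.single 1 (c 1)), ⟨_, rfl⟩, ?_⟩
  have e : ∑ g : G, g • (ϖ ^ k • latMap A θ (Pi.single 1 (c 1) : G → A)) =
      ϖ ^ k • latMap A θ c := by
    simp_rw [smul_comm (_ : G) (ϖ ^ k) (_ : B)]
    rw [← Finset.smul_sum, sum_smul_latMap]
    congr 2
    funext h
    rw [hconst h]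
    simp
  rw [e, sub_self]
  exact zero_mem _

omit [IsDiscreteValuationRing A] [IsAdicComplete (IsLocalRing.maximalIdeal A) A]
  [IsLocalRing B] in
/-- graded condition (K): trace zero elements are in the image of `σ - 1`. -/
theorem latI_ker_trace {ϖ : A} (hϖ : Irreducible ϖ) (θ : B)
    (hlin : LinearIndependent A (fun g : G => g • θ)) {σ : G}
    (hσ : ∀ g : G, g ∈ Subgroup.zpowers σ) (k : ℕ) {x : B} (hx : x ∈ latI G ϖ θ k)
    (htr : ∑ g : G, g • x ∈ latI G ϖ θ (k + 1)) :
    ∃ y ∈ latI G ϖ θ k, x - (σ • y - y) ∈ latI G ϖ θ (k + 1) := by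
  classical
  have hinj : Function.Injective (latMap A (G := G) θ) :=
    hlin.fintypeLinearCombination_injective
  obtain ⟨c, rfl⟩ := hx
  obtain ⟨e, he⟩ := htr
  simp_rw [smul_comm (_ : G) (ϖ ^ k) (_ : B)] at he
  rw [← Finset.smul_sum, sum_smul_latMap] at he
  have he' : ϖ ^ k • latMap A θ (fun _ : G => ∑ g, c g) = ϖ ^ k • latMap A θ (ϖ • e) := by
    rw [he, pow_succ, mul_smul, map_smul]
  have hS : (fun _ : G => ∑ g, c g) = ϖ • e := latMap_cancel hϖ.ne_zero hinj he'
  have hS1 : ∑ g, c g = ϖ * e 1 := by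
    have := congrFun hS 1
    simpa using this
  obtain ⟨d, hd⟩ := exists_sub_single_eq_lshift_sub hσ c
  refine ⟨ϖ ^ k • latMap A θ d, ⟨_, rfl⟩, ⟨Pi.single 1 (e 1), ?_⟩⟩
  have hcd : c = (lshift σ d - d) + ϖ • (Pi.single 1 (e 1) : G → A) := by
    funext h
    have := hd h
    rw [hS1] at this
    simp only [Pi.add_apply, Pi.sub_apply, lshift_apply, Pi.smul_apply, smul_eq_mul]
    by_cases h1 : h = 1
    · subst h1
      simp only [Pi.single_eq_same] at this ⊢
      linear_combination this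
    · simp only [Pi.single_eq_of_ne h1, sub_zero, mul_zero, add_zero] at this ⊢
      exact this
  have hΦ : latMap A θ c = latMap A θ (lshift σ d) - latMap A θ d +
      ϖ • latMap A θ (Pi.single 1 (e 1) : G → A) := by
    conv_lhs => rw [hcd]
    rw [map_add, map_sub, map_smul]
  rw [smul_comm σ (ϖ ^ k) (_ : B), smul_latMap, hΦ, pow_succ, mul_smul]
  simp only [smul_add, smul_sub]
  abel

end Lattice

section RingLevel

attribute [local instance] Units.mulDistribMulActionRight

variable {A : Type*} [CommRing A] {B : Type*} [CommRing B] [Algebra A B]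
  {G : Type*} [Group G] [Fintype G] [MulSemiringAction G B] [SMulCommClass G A B]
  [IsDomain A] [IsDiscreteValuationRing A] [IsAdicComplete (IsLocalRing.maximalIdeal A) A]
  [IsLocalRing B]

omit [SMulCommClass G A B] [IsDomain A] [IsDiscreteValuationRing A]
  [IsAdicComplete (IsLocalRing.maximalIdeal A) A] [IsLocalRing B] [Algebra A B] in
theorem galUnitsSubOne_galUnitsNorm (σ : G) (u : Bˣ) :
    galUnitsSubOne σ (galUnitsNorm G u) = 1 := by
  rw [galUnitsSubOne_apply, smul_galUnitsNorm, div_self']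

omit [SMulCommClass G A B] [IsDomain A] [IsDiscreteValuationRing A]
  [IsAdicComplete (IsLocalRing.maximalIdeal A) A] [IsLocalRing B] [Algebra A B] in
/-- The abstract Herbrand computation: a finite index subgroup `V`, stable under `σ` and the
norm, on which `Ĥ⁰ = Ĥ⁻¹ = 0`, forces `[ker (σ-1) : im N] = [ker N : im (σ-1)] ≠ 0` on `Bˣ`. -/
theorem relIndex_eq_of_subgroup (σ : G) (V : Subgroup Bˣ) [V.FiniteIndex]
    (hVσ : ∀ u ∈ V, σ • u ∈ V) (hVN : ∀ u ∈ V, galUnitsNorm G u ∈ V)
    (h0 : ∀ u ∈ V, σ • u = u → ∃ v ∈ V, galUnitsNorm G v = u)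
    (h1 : ∀ u ∈ V, galUnitsNorm G u = 1 → ∃ v ∈ V, galUnitsSubOne σ v = u) :
    (galUnitsNorm G).range.relIndex (galUnitsSubOne (B := B) σ).ker ≠ 0 ∧
    (galUnitsNorm G).range.relIndex (galUnitsSubOne (B := B) σ).ker =
      (galUnitsSubOne (B := B) σ).range.relIndex (galUnitsNorm G).ker := by
  let f : Additive Bˣ →+ Additive Bˣ := MonoidHom.toAdditive (galUnitsSubOne (B := B) σ)
  let g : Additive Bˣ →+ Additive Bˣ := MonoidHom.toAdditive (galUnitsNorm (B := B) G)
  have hfg : ∀ a, f (g a) = 0 := fun a => congrArg Additive.ofMul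
    (galUnitsSubOne_galUnitsNorm σ (Additive.toMul a))
  have hgf : ∀ a, g (f a) = 0 := fun a => congrArg Additive.ofMul
    (galUnitsNorm_galUnitsSubOne σ (Additive.toMul a))
  let A' : AddSubgroup (Additive Bˣ) := Subgroup.toAddSubgroup V
  haveI : A'.FiniteIndex := Subgroup.finiteIndex_toAddSubgroup_iff.mpr inferInstance
  have hf : ∀ a ∈ A', f a ∈ A' := fun a ha => by
    show galUnitsSubOne σ (Additive.toMul a) ∈ V
    rw [galUnitsSubOne_apply]
    exact V.div_mem (hVσ _ ha) ha
  have hg : ∀ a ∈ A', g a ∈ A' := fun a ha => hVN _ ha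
  have e1 : hIndex (subHom f A' hf) (subHom g A' hg) = 1 := by
    rw [hIndex_eq_one_iff]
    intro a ha
    rw [AddMonoidHom.mem_ker] at ha
    have ha' : galUnitsSubOne σ (Additive.toMul (a : Additive Bˣ)) = 1 :=
      congrArg Additive.toMul (congrArg Subtype.val ha)
    rw [galUnitsSubOne_apply, div_eq_one] at ha'
    obtain ⟨v, hv, hvu⟩ := h0 _ a.2 ha'
    exact ⟨⟨Additive.ofMul v, hv⟩, Subtype.ext (congrArg Additive.ofMul hvu)⟩
  have e2 : hIndex (subHom g A' hg) (subHom f A' hf) = 1 := by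
    rw [hIndex_eq_one_iff]
    intro a ha
    rw [AddMonoidHom.mem_ker] at ha
    have ha' : galUnitsNorm G (Additive.toMul (a : Additive Bˣ)) = 1 :=
      congrArg Additive.toMul (congrArg Subtype.val ha)
    obtain ⟨v, hv, hvu⟩ := h1 _ a.2 ha'
    exact ⟨⟨Additive.ofMul v, hv⟩, Subtype.ext (congrArg Additive.ofMul hvu)⟩
  have hsub : HerbrandDefined (subHom f A' hf) (subHom g A' hg) :=
    ⟨by rw [e1]; exact one_ne_zero, by rw [e2]; exact one_ne_zero⟩
  have hdef : HerbrandDefined f g := (herbrandDefined_iff_of_finiteIndex hfg hgf A' hf hg).mpr hsub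
  have hq := hIndexQ_eq_of_finiteIndex hfg hgf A' hf hg hdef
  have hq1 : hIndexQ f g = 1 := by
    rw [hq]; unfold hIndexQ; rw [e1, e2]; simp
  have heq : hIndex f g = hIndex g f := by
    unfold hIndexQ at hq1
    have h2 : (hIndex g f : ℚ) ≠ 0 := Nat.cast_ne_zero.mpr hdef.2
    have := (div_eq_one_iff_eq h2).mp hq1
    exact_mod_cast this
  exact ⟨hdef.1, heq⟩

/-- **`h(Bˣ) = 1` at ring level** from a normal lattice. -/
theorem relIndex_eq_of_lattice {ϖ : A} (hϖ : Irreducible ϖ)
    (hϖB : algebraMap A B ϖ ∈ IsLocalRing.maximalIdeal B) (θ : B)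
    (hlin : LinearIndependent A (fun g : G => g • θ)) (N0 : ℕ)
    (hN0 : ∀ b : B, ∃ c : G → A, ϖ ^ N0 • b = ∑ g, c g • g • θ)
    {σ : G} (hσ : ∀ g : G, g ∈ Subgroup.zpowers σ)
    (hfin : ∀ H : Subgroup Bˣ,
      (∀ u : Bˣ, (∃ b : B, (u : B) - 1 = ϖ ^ (N0 + 1 + N0) • b) → u ∈ H) → H.FiniteIndex) :
    (galUnitsNorm G).range.relIndex (galUnitsSubOne (B := B) σ).ker ≠ 0 ∧
    (galUnitsNorm G).range.relIndex (galUnitsSubOne (B := B) σ).ker =
      (galUnitsSubOne (B := B) σ).range.relIndex (galUnitsNorm G).ker := by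
  have hN0' : ∀ b : B, ∃ c : G → A, ϖ ^ N0 • b = latMap A θ c := fun b => by
    obtain ⟨c, hc⟩ := hN0 b
    exact ⟨c, by rw [hc, latMap_apply]⟩
  have hI := isUnitFiltration_latI hϖ hϖB θ hlin N0 hN0'
  haveI : (hI.W 0).FiniteIndex := hfin _ (fun u ⟨b, hb⟩ => by
    obtain ⟨c, hc⟩ := hN0' b
    exact ⟨c, by rw [hb, add_zero, pow_add, mul_smul, hc]⟩)
  exact relIndex_eq_of_subgroup σ (hI.W 0) (fun u hu => hI.smul_mem_W σ hu)
    (fun u hu => hI.galUnitsNorm_mem_W hu)
    (fun u hu hfix => hI.exists_galUnitsNorm_eq σ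
      (fun i x hx hσx => latI_trace_surj hϖ θ hlin hσ _ hx hσx) hu hfix)
    (fun u hu hN => hI.exists_galUnitsSubOne_eq σ
      (fun i x hx htr => latI_ker_trace hϖ θ hlin hσ _ hx htr) hu hN)

end RingLevel

section Contract

open IsLocalRing

attribute [local instance] Units.mulDistribMulActionRight

variable (A K L B : Type*) [CommRing A] [IsDomain A] [IsDiscreteValuationRing A]
  [IsAdicComplete (maximalIdeal A) A] [Finite (ResidueField A)]
  [Field K] [Algebra A K] [IsFractionRing A K]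
  [Field L] [Algebra K L] [Algebra A L] [IsScalarTower A K L] [FiniteDimensional K L] [IsGalois K L]
  [CommRing B] [IsDomain B] [IsDiscreteValuationRing B] [Algebra A B] [Algebra B L]
  [IsScalarTower A B L] [IsIntegralClosure B A L]

omit [Finite (ResidueField A)] in
/-- **[B-C5] `h(U_L) = 1`** for a cyclic extension, from the normal lattice data `(θ, N0)` and the
finite index statement (both provided by `Local/UnitsLattice.lean`). -/
theorem unitsHerbrandOne_of_lattice {ϖ : A} (hϖ : Irreducible ϖ) (θ : B) (N0 : ℕ)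
    (hlin : LinearIndependent A (fun τ : L ≃ₐ[K] L => galRestrict A K L B τ θ))
    (hN0 : ∀ b : B, ∃ c : (L ≃ₐ[K] L) → A,
      ϖ ^ N0 • b = ∑ τ, c τ • galRestrict A K L B τ θ)
    (hfin : ∀ H : Subgroup Bˣ,
      (∀ u : Bˣ, (∃ b : B, (u : B) - 1 = ϖ ^ (N0 + 1 + N0) • b) → u ∈ H) → H.FiniteIndex) :
    UnitsHerbrandOne A K L B := by
  classical
  intro σ hσ
  haveI : Module.Finite A B := aklb_finite A K L B
  haveI : FaithfulSMul A B := aklb_faithfulSMul A K L B
  haveI : IsFractionRing B L := IsIntegralClosure.isFractionRing_of_finite_extension A K L B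
  haveI : Algebra.IsIntegral A B := IsIntegralClosure.isIntegral_algebra A L
  haveI : Module.IsTorsionFree A B := inferInstance
  haveI : Module.Free A B := inferInstance
  haveI : IsLocalHom (algebraMap A B) := inferInstance
  letI act : MulSemiringAction (L ≃ₐ[K] L) B := IsIntegralClosure.MulSemiringAction A K L B
  have hact : ∀ (τ : L ≃ₐ[K] L) (b : B), τ • b = galRestrict A K L B τ b := fun _ _ => rfl
  haveI : SMulCommClass (L ≃ₐ[K] L) A B := ⟨fun τ a b => by
    rw [hact, hact, map_smul]⟩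
  have hinv : Algebra.IsInvariant A B (L ≃ₐ[K] L) := Algebra.isInvariant_of_isGalois A K L B
  have hϖB : algebraMap A B ϖ ∈ maximalIdeal B := by
    rw [mem_maximalIdeal, mem_nonunits_iff]
    exact fun h => hϖ.not_isUnit (isUnit_of_map_unit (algebraMap A B) ϖ h)
  obtain ⟨hne, heq⟩ := relIndex_eq_of_lattice (G := L ≃ₐ[K] L) hϖ hϖB θ hlin N0 hN0 hσ hfin
  -- the embedding of `Aˣ`
  let ι : Aˣ →* Bˣ := Units.map (algebraMap A B : A →* B)
  have hι : Function.Injective ι :=
    Units.map_injective (FaithfulSMul.algebraMap_injective A B)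
  have hF1 : ∀ u : Bˣ, ι (intUnitsNorm A B u) = galUnitsNorm (L ≃ₐ[K] L) u := fun u => by
    apply Units.ext
    rw [coe_galUnitsNorm]
    change algebraMap A B (Algebra.norm A (u : B)) = _
    rw [algebraMap_norm_eq_prod_galRestrict A K L B]
    rfl
  have hF2 : (intUnitsNorm A B).ker = (galUnitsNorm (B := B) (L ≃ₐ[K] L)).ker := by
    ext u
    rw [MonoidHom.mem_ker, MonoidHom.mem_ker, ← hF1, ← map_one ι]
    exact hι.eq_iff.symm
  have hF3 : ι.range = (galUnitsSubOne (B := B) σ).ker := by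
    ext u
    rw [MonoidHom.mem_ker, galUnitsSubOne_apply, div_eq_one]
    constructor
    · rintro ⟨a, rfl⟩
      apply Units.ext
      change σ • (algebraMap A B (a : A)) = algebraMap A B (a : A)
      rw [hact, AlgEquiv.commutes]
    · intro hu
      have hall : ∀ τ : L ≃ₐ[K] L, τ • (u : B) = (u : B) := by
        intro τ
        obtain ⟨z, rfl⟩ := Subgroup.mem_zpowers_iff.mp (hσ τ)
        have h1 : σ • (u : B) = (u : B) := congrArg Units.val hu
        have h2 : σ⁻¹ • (u : B) = (u : B) := by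
          rw [inv_smul_eq_iff, h1]
        induction z using Int.induction_on with
        | zero => simp
        | succ n ih => rw [zpow_add_one, mul_smul, h1, ih]
        | pred n ih => rw [zpow_sub_one, mul_smul, h2, ih]
      obtain ⟨a, ha⟩ := hinv.isInvariant (u : B) hall
      have hau : IsUnit a := isUnit_of_map_unit (algebraMap A B) a (ha ▸ u.isUnit)
      exact ⟨hau.unit, Units.ext ha⟩
  have hF4 : (intUnitsNorm A B).range = (galUnitsNorm (B := B) (L ≃ₐ[K] L)).range.comap ι := by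
    ext a
    rw [Subgroup.mem_comap]
    constructor
    · rintro ⟨u, rfl⟩
      exact ⟨u, (hF1 u).symm⟩
    · rintro ⟨u, hu⟩
      exact ⟨u, hι (by rw [hF1, hu])⟩
  have hidx : (intUnitsNorm A B).range.index =
      (galUnitsNorm (B := B) (L ≃ₐ[K] L)).range.relIndex (galUnitsSubOne (B := B) σ).ker := by
    rw [hF4, Subgroup.index_comap, hF3]
  have key : ∀ φ : Bˣ →* Bˣ, (∀ u, φ u = galUnitsSubOne σ u) →
      (intUnitsNorm A B).range.index ≠ 0 ∧
      (intUnitsNorm A B).range.index =
        Nat.card ((intUnitsNorm A B).ker ⧸ (MonoidHom.range φ).subgroupOf (intUnitsNorm A B).ker) := by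
    intro φ hφ
    have hφ' : φ = galUnitsSubOne σ := MonoidHom.ext hφ
    subst hφ'
    refine ⟨hidx ▸ hne, ?_⟩
    rw [hidx, heq, hF2]
    rfl
  exact key _ (fun u => by
    rw [galUnitsSubOne_apply]
    congr 1)

end Contract

end Fermat.Agent.CFT
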