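import Fermat.Agent.CFT.Local.UnitsHerbrand
import Fermat.Agent.CFT.Local.UnitsLattice

set_option autoImplicit false

/-!
# CFT stream [B] Local : contract [B-C5] holds

`unitsHerbrandOne_holds : UnitsHerbrandOne A K L B` (`h(U_L) = 1` for every finite cyclic
extension of a complete discretely valued field with finite residue field, any ramification):
`Local/UnitsHerbrand.lean` (filtration engine on the normal lattice) fed with the normal lattice
and the finite index statement of `Local/UnitsLattice.lean`.
-/

namespace Fermat.Agent.CFT

open IsLocalRing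

variable (A K L B : Type*) [CommRing A] [IsDomain A] [IsDiscreteValuationRing A]
  [IsAdicComplete (maximalIdeal A) A] [Finite (ResidueField A)]
  [Field K] [Algebra A K] [IsFractionRing A K]
  [Field L] [Algebra K L] [Algebra A L] [IsScalarTower A K L] [FiniteDimensional K L] [IsGalois K L]
  [CommRing B] [IsDomain B] [IsDiscreteValuationRing B] [Algebra A B] [Algebra B L]
  [IsScalarTower A B L] [IsIntegralClosure B A L]

/-- **[B-C5]** `h(U_L) = 1`: for every generator `σ` of the (cyclic) Galois group,
`[Aˣ : N Bˣ] = |ker N / (σ - 1) Bˣ| ≠ 0`. -/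
theorem unitsHerbrandOne_holds : UnitsHerbrandOne A K L B := by
  obtain ⟨ϖ, hϖ⟩ := IsDiscreteValuationRing.exists_irreducible A
  obtain ⟨θ, N0, hlin, hN0⟩ := exists_normal_lattice A K L B hϖ
  exact unitsHerbrandOne_of_lattice A K L B hϖ θ N0 hlin hN0
    (fun H h => finiteIndex_of_forall_smul_pow_mem_aklb A K L B hϖ H _ h)

end Fermat.Agent.CFT
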