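import Fermat.Agent.CFT.Local.UnramifiedExists

set_option autoImplicit false
set_option linter.style.haveILetI false

/-!
# CFT, local stream: the unramified extension attached to a polynomial

`A` a complete DVR with finite residue field, `K = Frac A`, `f ∈ A[X]` monic with irreducible
reduction.  `unramified_block` packages all the structure on `B = AdjoinRoot f` and
`L = FractionRing (AdjoinRoot f)` (the instance block of `Local/Interface.lean`), for the concrete
types, so that maps out of `B` and `L` can be constructed from roots of `f`.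
-/

namespace Fermat.Agent.CFT

open IsLocalRing Polynomial IntermediateField

universe u v

section Block

variable (A : Type u) (K : Type v) [CommRing A] [IsDomain A] [IsDiscreteValuationRing A]
  [IsAdicComplete (maximalIdeal A) A] [Finite (ResidueField A)]
  [Field K] [Algebra A K] [IsFractionRing A K]

/-- The unramified extension attached to a monic `f ∈ A[X]` with irreducible reduction:
`B = AdjoinRoot f`, `L = FractionRing B`. -/
theorem unramified_block {f : A[X]} (hf : f.Monic) (hirr : Irreducible (f.map (residue A))) :
    ∃ (_ : IsDomain (AdjoinRoot f)) (_ : IsDiscreteValuationRing (AdjoinRoot f))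
      (_ : Algebra K (FractionRing (AdjoinRoot f)))
      (_ : IsScalarTower A K (FractionRing (AdjoinRoot f)))
      (_ : FiniteDimensional K (FractionRing (AdjoinRoot f)))
      (_ : IsGalois K (FractionRing (AdjoinRoot f)))
      (_ : IsIntegralClosure (AdjoinRoot f) A (FractionRing (AdjoinRoot f))),
      Module.finrank K (FractionRing (AdjoinRoot f)) = f.natDegree ∧
        IsUnramifiedExt A (AdjoinRoot f) ∧
        IsAdicComplete (maximalIdeal (AdjoinRoot f)) (AdjoinRoot f) ∧
        IsLocalHom (algebraMap A (AdjoinRoot f)) := by
  classical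
  have hfirr : Irreducible f :=
    Polynomial.Monic.irreducible_of_irreducible_map (residue A) f hf hirr
  haveI hdom : IsDomain (AdjoinRoot f) := adjoinRoot_isDomain_of_residue A hf hirr
  haveI hloc : IsLocalRing (AdjoinRoot f) := adjoinRoot_isLocalRing_of_residue A hf hirr
  haveI hdvr : IsDiscreteValuationRing (AdjoinRoot f) := adjoinRoot_isDiscreteValuationRing A hf hirr
  haveI hlh : IsLocalHom (algebraMap A (AdjoinRoot f)) := adjoinRoot_isLocalHom A hf hirr
  haveI hcomp : IsAdicComplete (maximalIdeal (AdjoinRoot f)) (AdjoinRoot f) :=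
    adjoinRoot_isAdicComplete A hf hirr
  haveI hfinAB : Module.Finite A (AdjoinRoot f) := hf.finite_adjoinRoot
  have hinjAB := adjoinRoot_algebraMap_injective A hf hirr
  have hinjAL : Function.Injective (algebraMap A (FractionRing (AdjoinRoot f))) := by
    rw [IsScalarTower.algebraMap_eq A (AdjoinRoot f) (FractionRing (AdjoinRoot f))]
    exact (IsFractionRing.injective (AdjoinRoot f) (FractionRing (AdjoinRoot f))).comp hinjAB
  letI algKL : Algebra K (FractionRing (AdjoinRoot f)) := (IsFractionRing.lift hinjAL).toAlgebra
  haveI towerAKL : IsScalarTower A K (FractionRing (AdjoinRoot f)) :=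
    IsScalarTower.of_algebraMap_eq (fun x => (IsFractionRing.lift_algebraMap hinjAL x).symm)
  have hθ : (f.map (algebraMap A (AdjoinRoot f))).eval (AdjoinRoot.root f) = 0 := by
    rw [eval_map]; exact AdjoinRoot.eval₂_root f
  have hrank : Module.finrank A (AdjoinRoot f) = f.natDegree := by
    rw [(AdjoinRoot.powerBasis' hf).finrank, AdjoinRoot.powerBasis'_dim]
  obtain ⟨hsplit, hsep⟩ := residue_splits_separable_of_root A (AdjoinRoot f) hf hirr hθ
  have hroots := natDegree_le_card_roots_of_residue_splits (AdjoinRoot f) (hf.map _) hsplit hsep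
  rw [hf.natDegree_map] at hroots
  obtain ⟨hfinrank, hfd, hgal⟩ := isGalois_of_card_roots A K (AdjoinRoot f)
    (FractionRing (AdjoinRoot f)) hf hfirr hrank (natDegree_pos_of_residue A hf hirr) hθ hroots
  have hic : IsIntegralClosure (AdjoinRoot f) A (FractionRing (AdjoinRoot f)) :=
    IsIntegralClosure.of_isIntegrallyClosed (AdjoinRoot f) A (FractionRing (AdjoinRoot f))
  exact ⟨hdom, hdvr, algKL, towerAKL, hfd, hgal, hic, hfinrank,
    adjoinRoot_maximalIdeal_eq A hf hirr, hcomp, hlh⟩

end Block

end Fermat.Agent.CFT
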